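/-
S56 / brick EC.3 (a) (helper97): the action of the normaliser of `U` on `coind_U^G V` and on
its level cohomology; equivariance of Shapiro's isomorphism (truth review (TR1) of helper146).

`k` a field, `G` a group, `U ≤ G`, `V` a `k`-module with trivial `U`-action,
`M := coindTriv U V` (functions `f : G → V` with `f (u x) = f x`, `G` acting by right
translation; `V = k` gives `M0 U`, `V = Fin n → k` gives `M0 U ^ n`).

* `lt U V g : M ⟶ M` for `g` in the normaliser of `U`: left translation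
  `(g • f) x = f (g⁻¹ x)`, a morphism of representations of `G`; `lt_one_apply`,
  `lt_mul_apply`, `lt_of_mem` (elements of `U` act trivially);
* `ltRep`, `actH0`, `actH1`, `actH2`, `actLH0` : the induced representations of the normaliser
  on `M`, `H⁰(G, M)`, `H¹_𝒰(G, M)`, `H²_𝒰(G, M)` and `H⁰(H, Res_r M)`;
  `ltRepQ`, `actH0Q`, `actH1Q`, `actH2Q`, `actLH0Q` : their descents to `Γ = N_G(U) / U`;
* `sh₁_lt` (**(TR1)**): for a 1-cocycle `c` of `G` with values in `M`,
  `sh₁ (g • c) u = sh₁ c (g⁻¹ u g)`;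
* `shLH : H¹_𝒰(G, M) ≃ levelHoms (subLevel 𝒰 U) V` (Shapiro with trivial coefficients) and
  `shLH_actH1 : shLH (g • x) = conjRep g (shLH x)`, where `conjRep` is the conjugation action
  `(g • β) u = β (g⁻¹ u g)` on level additive maps `U → V`;
* `actH0_apply_eq` : the action on `H⁰(G, M)` is trivial; `actLH0_coe_apply` : on
  `H⁰(H, Res_r M)` (functions on `U \ G / r(H)`) it is left translation; `mkH0Triv_actLH0` :
  under the landed Mackey isomorphism `mkH0Triv D : H⁰(H, Res_r M) ≃ (J → V)` it is the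
  permutation action `j ↦ [g⁻¹ τ_j]` on the double cosets;
* `lt_coindTrivMap` : `lt` commutes with the maps induced by linear maps of `V`.
-/
import Fermat.Agent.S55.Shapiro.GlobalS
import Fermat.Agent.S55.Shapiro.MackeyH0
import Fermat.Agent.S55.Abs.Functor
import Fermat.Agent.S55.Abs.Reduce

set_option autoImplicit false

open CategoryTheory groupCohomology

namespace Fermat.Agent.S56.EC.CoindAction

open Fermat.Agent.S55.Abs Fermat.Agent.S55.Shapiro

variable {k : Type} [Field k] {G : Type} [Group G]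

/-! ### Generalities -/

/-- The normaliser `N_G(U)` of a subgroup (Mathlib's `Subgroup.normalizer` takes a set). -/
abbrev Nrm (U : Subgroup G) : Subgroup G := Subgroup.normalizer (U : Set G)

/-- The group `Γ = N_G(U) / U`. -/
abbrev Gam (U : Subgroup G) : Type := ↥(Nrm U) ⧸ U.subgroupOf (Nrm U)

/-- Conjugation by the inverse of a normalising element preserves the subgroup. -/
theorem inv_mul_mul_mem {U : Subgroup G} {g : G} (hg : g ∈ Nrm U) {u : G} (hu : u ∈ U) :
    g⁻¹ * u * g ∈ U := by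
  have h := (Subgroup.mem_normalizer_iff.1 ((Nrm U).inv_mem hg) u).1 hu
  rwa [inv_inv] at h

/-- A representation from a family of linear endomorphisms satisfying the laws pointwise. -/
def repOfFamily {Γ W : Type} [Group Γ] [AddCommGroup W] [Module k W] (T : Γ → W →ₗ[k] W)
    (h1 : ∀ w, T 1 w = w) (hmul : ∀ g h w, T (g * h) w = T g (T h w)) :
    Representation k Γ W where
  toFun := T
  map_one' := LinearMap.ext h1
  map_mul' g h := LinearMap.ext (hmul g h)

@[simp] theorem repOfFamily_apply {Γ W : Type} [Group Γ] [AddCommGroup W] [Module k W]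
    (T : Γ → W →ₗ[k] W) (h1 : ∀ w, T 1 w = w) (hmul : ∀ g h w, T (g * h) w = T g (T h w))
    (g : Γ) : repOfFamily T h1 hmul g = T g := rfl

/-- Descent of a representation of `N` to `N ⧸ K` when `K` acts trivially. -/
def repDescend {N W : Type} [Group N] [AddCommGroup W] [Module k W] (K : Subgroup N) [K.Normal]
    (ρ : Representation k N W) (hK : ∀ g ∈ K, ρ g = 1) : Representation k (N ⧸ K) W :=
  QuotientGroup.lift K ρ (fun g hg => hK g hg)

@[simp] theorem repDescend_mk {N W : Type} [Group N] [AddCommGroup W] [Module k W]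
    (K : Subgroup N) [K.Normal] (ρ : Representation k N W) (hK : ∀ g ∈ K, ρ g = 1) (g : N) :
    repDescend K ρ hK (QuotientGroup.mk g) = ρ g := rfl

section Functoriality

variable (𝒰 : LevelFamily G) {M : Rep.{0} k G}

theorem H0map_apply_coe {M N : Rep.{0} k G} (φ : M ⟶ N) (x : S55.Abs.H0 M) :
    ((H0map φ x : S55.Abs.H0 N) : N) = φ.hom (x : M) := rfl

theorem H1map_mk {M N : Rep.{0} k G} (φ : M ⟶ N) (z : ↥(Z1 𝒰 M)) :
    H1map 𝒰 φ (Submodule.Quotient.mk z) =
      Submodule.Quotient.mk ⟨cmap₁ φ z.1, cmap₁_mem_Z1 φ z.2⟩ := rfl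

theorem H2map_mk {M N : Rep.{0} k G} (φ : M ⟶ N) (z : ↥(Z2 𝒰 M)) :
    H2map 𝒰 φ (Submodule.Quotient.mk z) =
      Submodule.Quotient.mk ⟨cmap₂ φ z.1, cmap₂_mem_Z2 φ z.2⟩ := rfl

theorem H1map_eq_of_hom_eq {M N : Rep.{0} k G} {φ ψ : M ⟶ N} (h : ∀ m, φ.hom m = ψ.hom m)
    (x : H1 𝒰 M) : H1map 𝒰 φ x = H1map 𝒰 ψ x := by
  induction x using Submodule.Quotient.induction_on with
  | _ z =>
    rw [H1map_mk, H1map_mk]
    congr 1
    apply Subtype.ext
    funext g
    exact h _

theorem H2map_eq_of_hom_eq {M N : Rep.{0} k G} {φ ψ : M ⟶ N} (h : ∀ m, φ.hom m = ψ.hom m)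
    (x : H2 𝒰 M) : H2map 𝒰 φ x = H2map 𝒰 ψ x := by
  induction x using Submodule.Quotient.induction_on with
  | _ z =>
    rw [H2map_mk, H2map_mk]
    congr 1
    apply Subtype.ext
    funext g
    exact h _

theorem H1map_of_hom_id {φ : M ⟶ M} (h : ∀ m, φ.hom m = m) (x : H1 𝒰 M) :
    H1map 𝒰 φ x = x := by
  induction x using Submodule.Quotient.induction_on with
  | _ z =>
    rw [H1map_mk]
    congr 1
    apply Subtype.ext
    funext g
    exact h _

theorem H2map_of_hom_id {φ : M ⟶ M} (h : ∀ m, φ.hom m = m) (x : H2 𝒰 M) :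
    H2map 𝒰 φ x = x := by
  induction x using Submodule.Quotient.induction_on with
  | _ z =>
    rw [H2map_mk]
    congr 1
    apply Subtype.ext
    funext g
    exact h _

theorem H1map_of_hom_comp {φ ψ χ : M ⟶ M} (h : ∀ m, χ.hom m = φ.hom (ψ.hom m)) (x : H1 𝒰 M) :
    H1map 𝒰 χ x = H1map 𝒰 φ (H1map 𝒰 ψ x) := by
  induction x using Submodule.Quotient.induction_on with
  | _ z =>
    rw [H1map_mk, H1map_mk, H1map_mk]
    congr 1
    apply Subtype.ext
    funext g
    exact h _

theorem H2map_of_hom_comp {φ ψ χ : M ⟶ M} (h : ∀ m, χ.hom m = φ.hom (ψ.hom m)) (x : H2 𝒰 M) :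
    H2map 𝒰 χ x = H2map 𝒰 φ (H2map 𝒰 ψ x) := by
  induction x using Submodule.Quotient.induction_on with
  | _ z =>
    rw [H2map_mk, H2map_mk, H2map_mk]
    congr 1
    apply Subtype.ext
    funext g
    exact h _

end Functoriality

/-! ### Left translation by the normaliser -/

section Action

variable (U : Subgroup G) (V : Type) [AddCommGroup V] [Module k V]

/-- Left translation by a normalising element, linear part. -/
noncomputable def ltLin (g : ↥(Nrm U)) :
    coindTriv (k := k) U V →ₗ[k] coindTriv (k := k) U V where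
  toFun f := ⟨fun x => f.1 ((g : G)⁻¹ * x), fun u x => by
    show f.1 ((g : G)⁻¹ * ((u : G) * x)) = f.1 ((g : G)⁻¹ * x)
    have e : (g : G)⁻¹ * ((u : G) * x) = ((g : G)⁻¹ * (u : G) * (g : G)) * ((g : G)⁻¹ * x) := by
      group
    rw [e]
    exact coindTriv_apply_mul f (inv_mul_mul_mem g.2 u.2) _⟩
  map_add' _ _ := rfl
  map_smul' _ _ := rfl

theorem ltLin_apply (g : ↥(Nrm U)) (f : coindTriv (k := k) U V) (x : G) :
    (ltLin U V g f).1 x = f.1 ((g : G)⁻¹ * x) := rfl

/-- **Left translation** `(g • f) x = f (g⁻¹ x)` by an element of the normaliser of `U`, as an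
endomorphism of the representation `coind_U^G V` of `G`. -/
noncomputable def lt (g : ↥(Nrm U)) : coindTriv (k := k) U V ⟶ coindTriv (k := k) U V :=
  Rep.ofHom (LinearMap.intertwiningMap_of_isIntertwiningMap
    (coindTriv (k := k) U V).ρ (coindTriv (k := k) U V).ρ (ltLin U V g) (fun s f => by
      apply Subtype.ext
      funext x
      show f.1 ((g : G)⁻¹ * x * s) = f.1 ((g : G)⁻¹ * (x * s))
      rw [mul_assoc]))

theorem lt_apply (g : ↥(Nrm U)) (f : coindTriv (k := k) U V) (x : G) :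
    ((lt U V g).hom f).1 x = f.1 ((g : G)⁻¹ * x) := rfl

theorem lt_one_apply (f : coindTriv (k := k) U V) : (lt U V 1).hom f = f := by
  apply Subtype.ext
  funext x
  rw [lt_apply, Subgroup.coe_one, inv_one, one_mul]

theorem lt_mul_apply (g h : ↥(Nrm U)) (f : coindTriv (k := k) U V) :
    (lt U V (g * h)).hom f = (lt U V g).hom ((lt U V h).hom f) := by
  apply Subtype.ext
  funext x
  rw [lt_apply, lt_apply, lt_apply, Subgroup.coe_mul, mul_inv_rev, mul_assoc]

/-- Elements of `U` act trivially. -/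
theorem lt_of_mem (g : ↥(Nrm U)) (hg : (g : G) ∈ U) (f : coindTriv (k := k) U V) :
    (lt U V g).hom f = f := by
  apply Subtype.ext
  funext x
  rw [lt_apply]
  exact coindTriv_apply_mul f (U.inv_mem hg) x

/-- Left translation commutes with the action of `G`. -/
theorem lt_ρ (g : ↥(Nrm U)) (s : G) (f : coindTriv (k := k) U V) :
    (lt U V g).hom ((coindTriv (k := k) U V).ρ s f) =
      (coindTriv (k := k) U V).ρ s ((lt U V g).hom f) := by
  apply Subtype.ext
  funext x
  show f.1 ((g : G)⁻¹ * x * s) = f.1 ((g : G)⁻¹ * (x * s))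
  rw [mul_assoc]

/-- Left translation commutes with the maps induced by linear maps of the coefficients. -/
theorem lt_coindTrivMap {V' : Type} [AddCommGroup V'] [Module k V'] (φ : V →ₗ[k] V')
    (g : ↥(Nrm U)) (f : coindTriv (k := k) U V) :
    (lt U V' g).hom ((coindTrivMap U φ).hom f) = (coindTrivMap U φ).hom ((lt U V g).hom f) := by
  apply Subtype.ext
  funext x
  rfl

/-- The representation of the normaliser of `U` on `coind_U^G V` by left translation. -/
noncomputable def ltRep : Representation k ↥(Nrm U) (coindTriv (k := k) U V) :=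
  repOfFamily (fun g => (lt U V g).hom.toLinearMap) (lt_one_apply U V) (lt_mul_apply U V)

theorem ltRep_apply (g : ↥(Nrm U)) (f : coindTriv (k := k) U V) :
    ltRep U V g f = (lt U V g).hom f := rfl

theorem ltRep_eq_one_of_mem (g : ↥(Nrm U)) (hg : g ∈ U.subgroupOf (Nrm U)) :
    ltRep (k := k) U V g = 1 :=
  LinearMap.ext fun f => lt_of_mem U V g (Subgroup.mem_subgroupOf.1 hg) f

/-- The representation of `Γ = N_G(U) / U` on `coind_U^G V`. -/
noncomputable def ltRepQ :
    Representation k (Gam U) (coindTriv (k := k) U V) :=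
  repDescend _ (ltRep U V) (ltRep_eq_one_of_mem U V)

theorem ltRepQ_mk (g : ↥(Nrm U)) (f : coindTriv (k := k) U V) :
    ltRepQ U V (QuotientGroup.mk g) f = (lt U V g).hom f := rfl

/-! ### The induced actions on cohomology -/

/-- The action of the normaliser on `H⁰(G, coind_U^G V)`. -/
noncomputable def actH0 : Representation k ↥(Nrm U) (S55.Abs.H0 (coindTriv (k := k) U V)) :=
  repOfFamily (fun g => H0map (lt U V g))
    (fun w => Subtype.ext (lt_one_apply U V w.1))
    (fun g h w => Subtype.ext (lt_mul_apply U V g h w.1))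

theorem actH0_apply (g : ↥(Nrm U)) (x : S55.Abs.H0 (coindTriv (k := k) U V)) :
    actH0 U V g x = H0map (lt U V g) x := rfl

/-- The action on `H⁰(G, coind_U^G V)` (the constant functions) is trivial. -/
theorem actH0_apply_eq (g : ↥(Nrm U)) (x : S55.Abs.H0 (coindTriv (k := k) U V)) :
    actH0 U V g x = x := by
  apply Subtype.ext
  apply Subtype.ext
  funext y
  show x.1.1 ((g : G)⁻¹ * y) = x.1.1 y
  have hconst : ∀ z : G, x.1.1 z = x.1.1 1 := fun z => by
    have h := congrArg (fun f : coindTriv (k := k) U V => f.1 1) (x.2 z)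
    have h2 : x.1.1 (1 * z) = x.1.1 1 := h
    rwa [one_mul] at h2
  rw [hconst, hconst y]

variable (𝒰 : LevelFamily G)

/-- The action of the normaliser on `H¹_𝒰(G, coind_U^G V)`. -/
noncomputable def actH1 : Representation k ↥(Nrm U) (H1 𝒰 (coindTriv (k := k) U V)) :=
  repOfFamily (fun g => H1map 𝒰 (lt U V g))
    (fun w => H1map_of_hom_id 𝒰 (lt_one_apply U V) w)
    (fun g h w => H1map_of_hom_comp 𝒰 (lt_mul_apply U V g h) w)

theorem actH1_apply (g : ↥(Nrm U)) (x : H1 𝒰 (coindTriv (k := k) U V)) :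
    actH1 U V 𝒰 g x = H1map 𝒰 (lt U V g) x := rfl

/-- The action of the normaliser on `H²_𝒰(G, coind_U^G V)`. -/
noncomputable def actH2 : Representation k ↥(Nrm U) (H2 𝒰 (coindTriv (k := k) U V)) :=
  repOfFamily (fun g => H2map 𝒰 (lt U V g))
    (fun w => H2map_of_hom_id 𝒰 (lt_one_apply U V) w)
    (fun g h w => H2map_of_hom_comp 𝒰 (lt_mul_apply U V g h) w)

theorem actH2_apply (g : ↥(Nrm U)) (x : H2 𝒰 (coindTriv (k := k) U V)) :
    actH2 U V 𝒰 g x = H2map 𝒰 (lt U V g) x := rfl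

theorem actH0_eq_one_of_mem (g : ↥(Nrm U))
    (_hg : g ∈ U.subgroupOf (Nrm U)) :
    actH0 (k := k) U V g = 1 :=
  LinearMap.ext fun x => actH0_apply_eq U V g x

theorem actH1_eq_one_of_mem (g : ↥(Nrm U)) (hg : g ∈ U.subgroupOf (Nrm U)) :
    actH1 (k := k) U V 𝒰 g = 1 :=
  LinearMap.ext fun x =>
    H1map_of_hom_id 𝒰 (lt_of_mem U V g (Subgroup.mem_subgroupOf.1 hg)) x

theorem actH2_eq_one_of_mem (g : ↥(Nrm U)) (hg : g ∈ U.subgroupOf (Nrm U)) :
    actH2 (k := k) U V 𝒰 g = 1 :=
  LinearMap.ext fun x =>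
    H2map_of_hom_id 𝒰 (lt_of_mem U V g (Subgroup.mem_subgroupOf.1 hg)) x

/-- The action of `Γ = N_G(U) / U` on `H⁰(G, coind_U^G V)`. -/
noncomputable def actH0Q :
    Representation k (Gam U)
      (S55.Abs.H0 (coindTriv (k := k) U V)) :=
  repDescend _ (actH0 U V) (actH0_eq_one_of_mem U V)

/-- The action of `Γ = N_G(U) / U` on `H¹_𝒰(G, coind_U^G V)`. -/
noncomputable def actH1Q :
    Representation k (Gam U)
      (H1 𝒰 (coindTriv (k := k) U V)) :=
  repDescend _ (actH1 U V 𝒰) (actH1_eq_one_of_mem U V 𝒰)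

/-- The action of `Γ = N_G(U) / U` on `H²_𝒰(G, coind_U^G V)`. -/
noncomputable def actH2Q :
    Representation k (Gam U)
      (H2 𝒰 (coindTriv (k := k) U V)) :=
  repDescend _ (actH2 U V 𝒰) (actH2_eq_one_of_mem U V 𝒰)

theorem actH0Q_mk (g : ↥(Nrm U)) (x : S55.Abs.H0 (coindTriv (k := k) U V)) :
    actH0Q U V (QuotientGroup.mk g) x = H0map (lt U V g) x := rfl

theorem actH1Q_mk (g : ↥(Nrm U)) (x : H1 𝒰 (coindTriv (k := k) U V)) :
    actH1Q U V 𝒰 (QuotientGroup.mk g) x = H1map 𝒰 (lt U V g) x := rfl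

theorem actH2Q_mk (g : ↥(Nrm U)) (x : H2 𝒰 (coindTriv (k := k) U V)) :
    actH2Q U V 𝒰 (QuotientGroup.mk g) x = H2map 𝒰 (lt U V g) x := rfl

/-! ### The local `H⁰` -/

section Local

variable {H : Type} [Group H] (r : H →* G)

/-- The action of the normaliser on `H⁰(H, Res_r coind_U^G V)`. -/
noncomputable def actLH0 :
    Representation k ↥(Nrm U) (S55.Abs.H0 (Rep.res r (coindTriv (k := k) U V))) :=
  repOfFamily (fun g => H0map (Rep.resMap r (lt U V g)))
    (fun w => Subtype.ext (lt_one_apply U V w.1))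
    (fun g h w => Subtype.ext (lt_mul_apply U V g h w.1))

theorem actLH0_apply (g : ↥(Nrm U)) (x : S55.Abs.H0 (Rep.res r (coindTriv (k := k) U V))) :
    actLH0 U V r g x = H0map (Rep.resMap r (lt U V g)) x := rfl

/-- On the local invariants (functions on `U \ G / r(H)`) the action is left translation. -/
theorem actLH0_coe_apply (g : ↥(Nrm U)) (x : S55.Abs.H0 (Rep.res r (coindTriv (k := k) U V)))
    (y : G) :
    ((actLH0 U V r g x : S55.Abs.H0 (Rep.res r (coindTriv (k := k) U V))) :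
      coindTriv (k := k) U V).1 y = (x : coindTriv (k := k) U V).1 ((g : G)⁻¹ * y) := rfl

/-- The local invariants are the functions invariant under right translation by `r(H)`. -/
theorem coe_apply_mul_of_mem_H0 (x : S55.Abs.H0 (Rep.res r (coindTriv (k := k) U V))) (y : G) (h : H) :
    (x : coindTriv (k := k) U V).1 (y * r h) = (x : coindTriv (k := k) U V).1 y := by
  have h1 := congrArg (fun f : coindTriv (k := k) U V => f.1 y) (x.2 h)
  exact h1

theorem actLH0_eq_one_of_mem (g : ↥(Nrm U)) (hg : g ∈ U.subgroupOf (Nrm U)) :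
    actLH0 (k := k) U V r g = 1 :=
  LinearMap.ext fun x =>
    Subtype.ext (lt_of_mem U V g (Subgroup.mem_subgroupOf.1 hg) x.1)

/-- The action of `Γ = N_G(U) / U` on `H⁰(H, Res_r coind_U^G V)`. -/
noncomputable def actLH0Q :
    Representation k (Gam U)
      (S55.Abs.H0 (Rep.res r (coindTriv (k := k) U V))) :=
  repDescend _ (actLH0 U V r) (actLH0_eq_one_of_mem U V r)

theorem actLH0Q_mk (g : ↥(Nrm U)) (x : S55.Abs.H0 (Rep.res r (coindTriv (k := k) U V))) :
    actLH0Q U V r (QuotientGroup.mk g) x = H0map (Rep.resMap r (lt U V g)) x := rfl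

/-- A local invariant is constant on the double cosets `U \ G / r(H)`. -/
theorem coe_apply_eq_τ_idx {J : Type} (D : DRep U r J)
    (x : S55.Abs.H0 (Rep.res r (coindTriv (k := k) U V))) (y : G) :
    (x : coindTriv (k := k) U V).1 y = (x : coindTriv (k := k) U V).1 (D.τ (D.idx y)) := by
  conv_lhs => rw [D.spec y]
  rw [coe_apply_mul_of_mem_H0]
  exact coindTriv_apply_mul (x : coindTriv (k := k) U V) (D.uOf y).2 _

/-- **Mackey dictionary in degree 0**: under `mkH0Triv D : H⁰(H, Res_r coind_U^G V) ≃ (J → V)`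
(`J` = the double cosets `U \ G / r(H)`) the action of the normaliser is the permutation
action `j ↦ [g⁻¹ τ_j]` on the index set. -/
theorem mkH0Triv_actLH0 {J : Type} (D : DRep U r J) (g : ↥(Nrm U))
    (x : S55.Abs.H0 (Rep.res r (coindTriv (k := k) U V))) (j : J) :
    mkH0Triv D V (actLH0 U V r g x) j = mkH0Triv D V x (D.idx ((g : G)⁻¹ * D.τ j)) := by
  rw [mkH0Triv_apply, mkH0Triv_apply]
  show (x : coindTriv (k := k) U V).1 ((g : G)⁻¹ * D.τ j) = _
  exact coe_apply_eq_τ_idx U V r D x _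

end Local

end Action

/-! ### (TR1): Shapiro's map is equivariant on cocycles -/

section Shapiro

variable (U : Subgroup G) (V : Type) [AddCommGroup V] [Module k V]

/-- Conjugation `u ↦ g⁻¹ u g` on `U` by a normalising element. -/
def cj (g : ↥(Nrm U)) (u : ↥U) : ↥U :=
  ⟨(g : G)⁻¹ * (u : G) * (g : G), inv_mul_mul_mem g.2 u.2⟩

theorem cj_coe (g : ↥(Nrm U)) (u : ↥U) : (cj U g u : G) = (g : G)⁻¹ * (u : G) * (g : G) :=
  rfl

theorem cj_mul (g : ↥(Nrm U)) (u u' : ↥U) : cj U g (u * u') = cj U g u * cj U g u' := by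
  apply Subtype.ext
  rw [Subgroup.coe_mul, cj_coe, cj_coe, cj_coe, Subgroup.coe_mul]
  group

theorem cj_one_left (u : ↥U) : cj U 1 u = u := by
  apply Subtype.ext
  rw [cj_coe, Subgroup.coe_one, inv_one, one_mul, mul_one]

theorem cj_mul_left (g h : ↥(Nrm U)) (u : ↥U) : cj U (g * h) u = cj U h (cj U g u) := by
  apply Subtype.ext
  rw [cj_coe, cj_coe, cj_coe, Subgroup.coe_mul]
  group

/-- **(TR1).** For a 1-cocycle `c` of `G` with values in `coind_U^G V` and `g` in the
normaliser of `U`: `sh₁ (g • c) u = sh₁ c (g⁻¹ u g)`. -/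
theorem sh₁_lt (g : ↥(Nrm U)) {c : G → coindTriv (k := k) U V}
    (hc : c ∈ cocycles₁ (coindTriv (k := k) U V)) (u : ↥U) :
    sh₁ U (Rep.trivial k ↥U V) (fun x => (lt U V g).hom (c x)) u =
      sh₁ U (Rep.trivial k ↥U V) c (cj U g u) := by
  have hcoc : ∀ a b : G, c (a * b) = (coindTriv (k := k) U V).ρ a (c b) + c a :=
    (mem_cocycles₁_iff c).1 hc
  have hc1 : c 1 = 0 := by
    have h1 := hcoc 1 1
    rw [mul_one, map_one, Module.End.one_apply] at h1
    have h2 : c 1 + c 1 = c 1 + 0 := by rw [add_zero]; exact h1.symm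
    exact add_left_cancel h2
  show (c (u : G)).1 ((g : G)⁻¹ * 1) = (c ((g : G)⁻¹ * (u : G) * (g : G))).1 1
  -- expand `c (g⁻¹ * (u * g))`
  have e1 : (c ((g : G)⁻¹ * (u : G) * (g : G))).1 1 =
      (c ((u : G) * (g : G))).1 (g : G)⁻¹ + (c (g : G)⁻¹).1 1 := by
    rw [mul_assoc, hcoc]
    show (c ((u : G) * (g : G))).1 (1 * (g : G)⁻¹) + (c (g : G)⁻¹).1 1 = _
    rw [one_mul]
  have e2 : (c ((u : G) * (g : G))).1 (g : G)⁻¹ =
      (c (g : G)).1 ((g : G)⁻¹ * (u : G)) + (c (u : G)).1 (g : G)⁻¹ := by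
    rw [hcoc]
    rfl
  have e3 : (c (g : G)).1 ((g : G)⁻¹ * (u : G)) = (c (g : G)).1 (g : G)⁻¹ := by
    have e : (g : G)⁻¹ * (u : G) = ((g : G)⁻¹ * (u : G) * (g : G)) * (g : G)⁻¹ := by group
    rw [e]
    exact coindTriv_apply_mul (c (g : G)) (inv_mul_mul_mem g.2 u.2) _
  have e4 : (c (g : G)).1 (g : G)⁻¹ + (c (g : G)⁻¹).1 1 = 0 := by
    have h1 := hcoc (g : G)⁻¹ (g : G)
    rw [inv_mul_cancel, hc1] at h1
    have h2 := congrArg (fun f : coindTriv (k := k) U V => f.1 1) h1
    have h3 : (0 : V) = (c (g : G)).1 (1 * (g : G)⁻¹) + (c (g : G)⁻¹).1 1 := h2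
    rw [one_mul] at h3
    exact h3.symm
  rw [mul_one, e1, e2, e3]
  have e5 : (c (g : G)).1 (g : G)⁻¹ + (c (u : G)).1 (g : G)⁻¹ + (c (g : G)⁻¹).1 1 =
      (c (u : G)).1 (g : G)⁻¹ + ((c (g : G)).1 (g : G)⁻¹ + (c (g : G)⁻¹).1 1) := by abel
  rw [e5, e4, add_zero]

variable (𝒰 : LevelFamily G)

/-- Conjugation by a normalising element preserves level maps on `U`. -/
theorem isLev₁_comp_cj {X : Type*} (g : ↥(Nrm U)) {β : ↥U → X}
    (hβ : IsLev₁ (subLevel 𝒰 U) β) : IsLev₁ (subLevel 𝒰 U) (fun u => β (cj U g u)) := by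
  obtain ⟨_, ⟨W, hW, rfl⟩, h⟩ := hβ
  obtain ⟨W', hW', hle, hn⟩ := 𝒰.normal W hW
  refine ⟨_, ⟨W', hW', rfl⟩, fun u s hs => ?_⟩
  show β (cj U g (u * s)) = β (cj U g u)
  rw [cj_mul]
  refine h _ _ ?_
  rw [Subgroup.mem_subgroupOf] at hs ⊢
  have h2 := hn.conj_mem (s : G) hs (g : G)⁻¹
  rw [inv_inv] at h2
  exact hle h2

/-- The conjugation action of the normaliser on level additive maps `U → V`:
`(g • β) u = β (g⁻¹ u g)`. -/
noncomputable def conjRep :
    Representation k ↥(Nrm U) ↥(levelHoms (k := k) (subLevel 𝒰 U) V) :=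
  repOfFamily
    (fun g =>
      { toFun := fun β => ⟨fun u => β.1 (cj U g u),
          fun σ τ => by
            show β.1 (cj U g (σ * τ)) = β.1 (cj U g σ) + β.1 (cj U g τ)
            rw [cj_mul]
            exact β.2.1 _ _, isLev₁_comp_cj U 𝒰 g β.2.2⟩
        map_add' := fun _ _ => rfl
        map_smul' := fun _ _ => rfl })
    (fun β => Subtype.ext (funext fun u => by
      show β.1 (cj U 1 u) = β.1 u
      rw [cj_one_left]))
    (fun g h β => Subtype.ext (funext fun u => by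
      show β.1 (cj U (g * h) u) = β.1 (cj U h (cj U g u))
      rw [cj_mul_left]))

theorem conjRep_apply (g : ↥(Nrm U)) (β : ↥(levelHoms (k := k) (subLevel 𝒰 U) V))
    (u : ↥U) : (conjRep U V 𝒰 g β : ↥U → V) u = (β : ↥U → V) (cj U g u) := rfl

variable (hU : ∃ W ∈ 𝒰.sets, W ≤ U)

/-- **Shapiro with trivial coefficients**: `H¹_𝒰(G, coind_U^G V)` is the space of level
additive maps `U → V`. -/
noncomputable def shLH :
    H1 𝒰 (coindTriv (k := k) U V) ≃ₗ[k] ↥(levelHoms (k := k) (subLevel 𝒰 U) V) :=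
  (shEquivH1 𝒰 U (Rep.trivial k ↥U V) hU).trans (h1TrivEquiv (k := k) (subLevel 𝒰 U) V)

theorem shLH_mk (z : ↥(Z1 𝒰 (coindTriv (k := k) U V))) (u : ↥U) :
    (shLH U V 𝒰 hU (Submodule.Quotient.mk z) : ↥U → V) u = (z.1 (u : G)).1 1 := rfl

/-- **Equivariance of Shapiro's isomorphism**: the action of the normaliser on
`H¹_𝒰(G, coind_U^G V)` through the coefficients corresponds to conjugation on `Hom(U, V)`. -/
theorem shLH_actH1 (g : ↥(Nrm U)) (x : H1 𝒰 (coindTriv (k := k) U V)) :
    shLH U V 𝒰 hU (actH1 U V 𝒰 g x) = conjRep U V 𝒰 g (shLH U V 𝒰 hU x) := by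
  induction x using Submodule.Quotient.induction_on with
  | _ z =>
    apply Subtype.ext
    funext u
    rw [conjRep_apply, shLH_mk, actH1_apply, H1map_mk, shLH_mk]
    exact sh₁_lt U V g z.2.2 u

/-- The same for `Γ = N_G(U) / U`. -/
theorem shLH_actH1Q (g : ↥(Nrm U)) (x : H1 𝒰 (coindTriv (k := k) U V)) :
    shLH U V 𝒰 hU (actH1Q U V 𝒰 (QuotientGroup.mk g) x) =
      conjRep U V 𝒰 g (shLH U V 𝒰 hU x) :=
  shLH_actH1 U V 𝒰 hU g x

end Shapiro

end Fermat.Agent.S56.EC.CoindAction
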