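/-
S56 / brick EC.3 (b) (helper97): the self-duality of `M0 = coind_U^G k` and the action of the
normaliser of `U`.

`k` a field, `G` a group, `U ≤ G` of finite index, `χ : G →* kˣ` trivial on `U`,
`⟨f, f'⟩ = ∑_{gU} χ(g) f(g⁻¹) f'(g⁻¹)` the pairing of `S55/Glue/CoindDual`,
`θ = dualTwistIso χ hχ : M0 ≅ M0.dualTwist χ` the landed isomorphism, `lt g` the left
translation of `CoindAction` by `g` in the normaliser of `U`.

* `pair_lt` : `⟨g • f, g • f'⟩ = χ(g)⁻¹ ⟨f, f'⟩`;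
* `toDualLin_lt` : `θ (g • f') = χ(g)⁻¹ • (lt g⁻¹)^∨ (θ f')`;
* `dualTwistMap_lt_toDual` : `(lt g)^∨ (θ f') = χ(g)⁻¹ • θ (g⁻¹ • f')`, i.e. under the
  self-duality the contragredient action of `g` on `M0.dualTwist χ` is `χ(g)⁻¹ • lt g⁻¹`;
* `H0map_dualTwistMap_lt`, `LH0map_dualTwistMap_lt` : the same on `H⁰(G, M0')` and on
  `H⁰(H, Res_r M0')`, transported to `H⁰(G, M0)`, `H⁰(H, Res_r M0)` by `θ`.
-/
import Fermat.Agent.S56.EC.CoindAction
import Fermat.Agent.S55.Glue.CoindDual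

set_option autoImplicit false

open CategoryTheory groupCohomology

namespace Fermat.Agent.S56.EC.CoindTwist

open Fermat.Agent.S55.Abs Fermat.Agent.S55.Glue.CoindDual Fermat.Agent.S56.EC.CoindAction

variable {k : Type} [Field k] {G : Type} [Group G] (U : Subgroup G)

/-- Right multiplication by a normalising element on the left cosets `G ⧸ U`. -/
def rmulQ (g : ↥(Nrm U)) : G ⧸ U ≃ G ⧸ U where
  toFun := Quotient.map' (fun a => a * (g : G)) (fun a b hab => by
    rw [QuotientGroup.leftRel_apply] at hab ⊢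
    have e : (a * (g : G))⁻¹ * (b * (g : G)) = (g : G)⁻¹ * (a⁻¹ * b) * (g : G) := by group
    rw [e]
    exact inv_mul_mul_mem g.2 hab)
  invFun := Quotient.map' (fun a => a * (g : G)⁻¹) (fun a b hab => by
    rw [QuotientGroup.leftRel_apply] at hab ⊢
    have e : (a * (g : G)⁻¹)⁻¹ * (b * (g : G)⁻¹) = (g : G) * (a⁻¹ * b) * (g : G)⁻¹ := by group
    rw [e]
    exact (Subgroup.mem_normalizer_iff.1 g.2 _).1 hab)
  left_inv x := by
    induction x using QuotientGroup.induction_on with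
    | H a =>
      show (QuotientGroup.mk (a * (g : G) * (g : G)⁻¹) : G ⧸ U) = QuotientGroup.mk a
      rw [mul_inv_cancel_right]
  right_inv x := by
    induction x using QuotientGroup.induction_on with
    | H a =>
      show (QuotientGroup.mk (a * (g : G)⁻¹ * (g : G)) : G ⧸ U) = QuotientGroup.mk a
      rw [inv_mul_cancel_right]

theorem rmulQ_mk (g : ↥(Nrm U)) (a : G) :
    rmulQ U g (QuotientGroup.mk a) = QuotientGroup.mk (a * (g : G)) := rfl

variable {U} (χ : G →* kˣ) (hχ : ∀ u ∈ U, χ u = 1) [U.FiniteIndex]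

noncomputable local instance fintypeQuotTw : Fintype (G ⧸ U) :=
  Subgroup.fintypeQuotientOfFiniteIndex

/-- **Left translation scales the self-pairing**: `⟨g • f, g • f'⟩ = χ(g)⁻¹ ⟨f, f'⟩`. -/
theorem pair_lt (g : ↥(Nrm U)) (f f' : coindTriv (k := k) U k) :
    pair χ hχ ((lt U k g).hom f) ((lt U k g).hom f') =
      (((χ (g : G))⁻¹ : kˣ) : k) * pair χ hχ f f' := by
  rw [pair_apply, pair_apply, Finset.mul_sum]
  rw [← Equiv.sum_comp (rmulQ U g)
    (fun x => (((χ (g : G))⁻¹ : kˣ) : k) * pairTerm χ hχ f f' x)]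
  refine Finset.sum_congr rfl fun x _ => ?_
  induction x using QuotientGroup.induction_on with
  | H a =>
    rw [rmulQ_mk, pairTerm_mk, pairTerm_mk, lt_apply, lt_apply, mul_inv_rev, map_mul]
    simp only [Units.val_mul, Units.val_inv_eq_inv_val]
    have hne : (χ (g : G) : k) ≠ 0 := (χ (g : G)).ne_zero
    field_simp

/-- `θ (g • f') = χ(g)⁻¹ • (lt g⁻¹)^∨ (θ f')`. -/
theorem toDualLin_lt (g : ↥(Nrm U)) (f' : coindTriv (k := k) U k) :
    toDualLin χ hχ ((lt U k g).hom f') =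
      (((χ (g : G))⁻¹ : kˣ) : k) • (dualTwistMap χ (lt U k g⁻¹)).hom (toDualLin χ hχ f') := by
  apply LinearMap.ext
  intro f
  have h1 : f = (lt U k g).hom ((lt U k g⁻¹).hom f) := by
    rw [← lt_mul_apply, mul_inv_cancel, lt_one_apply]
  show pair χ hχ f ((lt U k g).hom f') =
    (((χ (g : G))⁻¹ : kˣ) : k) * pair χ hχ ((lt U k g⁻¹).hom f) f'
  conv_lhs => rw [h1]
  rw [pair_lt]

/-- **The contragredient action under the self-duality**:
`(lt g)^∨ (θ f') = χ(g)⁻¹ • θ (g⁻¹ • f')`. -/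
theorem dualTwistMap_lt_toDual (g : ↥(Nrm U)) (f' : coindTriv (k := k) U k) :
    (dualTwistMap χ (lt U k g)).hom ((dualTwistIso χ hχ).hom.hom f') =
      (((χ (g : G))⁻¹ : kˣ) : k) • (dualTwistIso χ hχ).hom.hom ((lt U k g⁻¹).hom f') := by
  have h := toDualLin_lt χ hχ g⁻¹ f'
  rw [inv_inv] at h
  show (dualTwistMap χ (lt U k g)).hom (toDualLin χ hχ f') =
    (((χ (g : G))⁻¹ : kˣ) : k) • toDualLin χ hχ ((lt U k g⁻¹).hom f')
  rw [h, smul_smul]
  have h2 : (((χ (g : G))⁻¹ : kˣ) : k) * (((χ ((g⁻¹ : ↥(Nrm U)) : G))⁻¹ : kˣ) : k) = 1 := by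
    rw [Subgroup.coe_inv, map_inv, inv_inv, ← Units.val_mul, inv_mul_cancel, Units.val_one]
  rw [h2, one_smul]

/-- On `H⁰(G, M0.dualTwist χ)`, transported by `θ`: the contragredient action of `g` is
`χ(g)⁻¹ •` the action of `g⁻¹`. -/
theorem H0map_dualTwistMap_lt (g : ↥(Nrm U)) (x : S55.Abs.H0 (coindTriv (k := k) U k)) :
    H0map (dualTwistMap χ (lt U k g)) (H0map (dualTwistIso χ hχ).hom x) =
      (((χ (g : G))⁻¹ : kˣ) : k) • H0map (dualTwistIso χ hχ).hom (H0map (lt U k g⁻¹) x) :=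
  Subtype.ext (dualTwistMap_lt_toDual χ hχ g x.1)

/-- On the local invariants `H⁰(H, Res_r M0.dualTwist χ)`, transported by `θ`: the
contragredient action of `g` is `χ(g)⁻¹ •` the action of `g⁻¹`. -/
theorem LH0map_dualTwistMap_lt {H : Type} [Group H] (r : H →* G) (g : ↥(Nrm U))
    (x : S55.Abs.H0 (Rep.res r (coindTriv (k := k) U k))) :
    H0map (Rep.resMap r (dualTwistMap χ (lt U k g)))
        (H0map (Rep.resMap r (dualTwistIso χ hχ).hom) x) =
      (((χ (g : G))⁻¹ : kˣ) : k) •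
        H0map (Rep.resMap r (dualTwistIso χ hχ).hom) (H0map (Rep.resMap r (lt U k g⁻¹)) x) :=
  Subtype.ext (dualTwistMap_lt_toDual χ hχ g x.1)

end Fermat.Agent.S56.EC.CoindTwist
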