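/-
S56 / brick EC.6a (glue), THE DUAL SIDE OF A RETRACT OF A SELF-DUAL MODULE (helper276, own risk).

`A` self-dual: `θ : A ≅ A.dualTwist χ`.  For an endomorphism `φ : A ⟶ A` its ADJOINT is
`adj χ θ φ = θ ≫ φ^∨ ≫ θ⁻¹ : A ⟶ A`.  If `X` is a retract of `Aⁿ` presented by `a i : A ⟶ X`,
`b i : X ⟶ A` (`∑ a i ∘ b i = 1`, idempotent matrix `E i j = a j ≫ b i`), then `X' = X.dualTwist χ`
is the retract of `Aⁿ` presented by `dualA i = θ ≫ (b i)^∨`, `dualB i = (a i)^∨ ≫ θ⁻¹`, with
idempotent matrix `adj (E j i)` (adjoint of the transpose).  Hence the dual terms of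
`RetractRank.chi2_retract_eq` are ranks of matrix operators on the cohomology OF `A` ITSELF:

* `finrank_H0_dualTwist_eq_adj`     : `h⁰(G, X') = rk (H⁰(adj (a i ≫ b j)))_{ij}`;
* `finrank_H0_res_dualTwist_eq_adj` : `h⁰(H, Res_r X') = rk (H⁰(Res_r adj (a i ≫ b j)))_{ij}`;
* `chi2_retract_eq_adj`             : `χ₂(X) = rk H⁰(E) - rk H¹(E) + Σ_v rk H⁰(G_v, adj Eᵗ) - rk H⁰(adj Eᵗ)`
  (`Ш²(A) = 0`, `D.Hyp`);
* `adj_lt_sum` : for `A = coind_U^G k` with the pairing of `S55/Glue/CoindDual` and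
  `φ = ∑ g, c g • lt g` (left translations by the normaliser of `U`, `EC/CoindAction`):
  `adj φ = ∑ g, (c g * χ(g)⁻¹) • lt g⁻¹`;
* `finrank_range_famOp_smul_id` : on a line, `rk (m i j • id)_{ij} = rank m`;
* `finrank_H0_famOp_lt`, `finrank_H0_famOp_adj_lt` : the two `H⁰(G, -)` terms for
  `A = coind_U^G k` and `E i j = ∑ g, c i j g • lt g` are the ranks of the scalar matrices
  `(∑ g, c i j g)_{ij}` and `(∑ g, c j i g * χ(g)⁻¹)_{ij}`.
-/
import Fermat.Agent.S56.EC.RetractRank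
import Fermat.Agent.S56.EC.CoindTwist
import Fermat.Agent.S55.Count.EP

set_option autoImplicit false

open CategoryTheory groupCohomology

namespace Fermat.Agent.S56.EC.DualSide

open Fermat.Agent.S55 Fermat.Agent.S55.Abs Fermat.Agent.S55.Count
open Fermat.Agent.S56.EC.RetractRank

/-! ### The adjoint and the dual presentation -/

section Generic

variable {k G : Type} [Field k] [Group G] (χ : G →* kˣ) {A : Rep.{0} k G}
  (θ : A ≅ A.dualTwist χ)

/-- The adjoint of an endomorphism of a self-dual module: `θ ≫ φ^∨ ≫ θ⁻¹`. -/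
noncomputable def adj (φ : A ⟶ A) : A ⟶ A := θ.hom ≫ dualTwistMap χ φ ≫ θ.inv

theorem adj_hom_apply (φ : A ⟶ A) (x : A) :
    (adj χ θ φ).hom x = θ.inv.hom ((dualTwistMap χ φ).hom (θ.hom.hom x)) := rfl

theorem hom_inv_apply (y : A.dualTwist χ) : θ.hom.hom (θ.inv.hom y) = y := by
  have h := congrArg (fun f : A.dualTwist χ ⟶ A.dualTwist χ => f.hom y) θ.inv_hom_id
  exact h

theorem inv_hom_apply (x : A) : θ.inv.hom (θ.hom.hom x) = x := by
  have h := congrArg (fun f : A ⟶ A => f.hom x) θ.hom_inv_id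
  exact h

variable {X : Rep.{0} k G} {n : ℕ} (a : Fin n → (A ⟶ X)) (b : Fin n → (X ⟶ A))

/-- The inclusions of the dual presentation: `θ ≫ (b i)^∨ : A ⟶ X'`. -/
noncomputable def dualA (i : Fin n) : A ⟶ X.dualTwist χ := θ.hom ≫ dualTwistMap χ (b i)

/-- The projections of the dual presentation: `(a i)^∨ ≫ θ⁻¹ : X' ⟶ A`. -/
noncomputable def dualB (i : Fin n) : X.dualTwist χ ⟶ A := dualTwistMap χ (a i) ≫ θ.inv

theorem dualB_dualA (i j : Fin n) (x : A) :
    (dualB χ θ a i).hom ((dualA χ θ b j).hom x) = (adj χ θ (a i ≫ b j)).hom x := rfl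

theorem dual_hsum (hsum : ∀ x, ∑ i, (a i).hom ((b i).hom x) = x) (f : X.dualTwist χ) :
    ∑ i, (dualA χ θ b i).hom ((dualB χ θ a i).hom f) = f := by
  have h1 : ∀ i, (dualA χ θ b i).hom ((dualB χ θ a i).hom f) =
      (dualTwistMap χ (b i)).hom ((dualTwistMap χ (a i)).hom f) := fun i => by
    show (dualTwistMap χ (b i)).hom (θ.hom.hom (θ.inv.hom ((dualTwistMap χ (a i)).hom f))) = _
    rw [hom_inv_apply]
  rw [Finset.sum_congr rfl fun i _ => h1 i]
  apply LinearMap.ext
  intro x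
  have h2 : (∑ i, (dualTwistMap χ (b i)).hom ((dualTwistMap χ (a i)).hom f) :
      Module.Dual k X) x = ∑ i, (show Module.Dual k X from f) ((a i).hom ((b i).hom x)) := by
    rw [LinearMap.sum_apply]
    rfl
  rw [h2, ← map_sum, hsum]

/-- `h⁰(G, X') = rk (H⁰(adj (a i ≫ b j)))_{ij}`. -/
theorem finrank_H0_dualTwist_eq_adj (hsum : ∀ x, ∑ i, (a i).hom ((b i).hom x) = x) :
    Module.finrank k (Abs.H0 (X.dualTwist χ)) =
      Module.finrank k ↥(LinearMap.range (famOp fun i j => H0map (adj χ θ (a i ≫ b j)))) := by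
  have h := finrank_H0_eq (dualA χ θ b) (dualB χ θ a) (dual_hsum χ θ a b hsum)
  have e : (fun i j => H0map (dualA χ θ b j ≫ dualB χ θ a i)) =
      fun i j => H0map (adj χ θ (a i ≫ b j)) := by
    funext i j
    apply LinearMap.ext
    intro x
    apply Subtype.ext
    exact dualB_dualA χ θ a b i j x.1
  rw [h, e]

/-- `h⁰(H, Res_r X') = rk (H⁰(Res_r adj (a i ≫ b j)))_{ij}` for every `r : H →* G`. -/
theorem finrank_H0_res_dualTwist_eq_adj {H : Type} [Group H] (r : H →* G)
    (hsum : ∀ x, ∑ i, (a i).hom ((b i).hom x) = x) :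
    Module.finrank k (Abs.H0 (Rep.res r (X.dualTwist χ))) =
      Module.finrank k ↥(LinearMap.range
        (famOp fun i j => H0map (Rep.resMap r (adj χ θ (a i ≫ b j))))) := by
  have h := finrank_H0_eq (fun i => Rep.resMap r (dualA χ θ b i))
    (fun i => Rep.resMap r (dualB χ θ a i)) (fun x => dual_hsum χ θ a b hsum x)
  have e : (fun i j => H0map (Rep.resMap r (dualA χ θ b j) ≫ Rep.resMap r (dualB χ θ a i))) =
      fun i j => H0map (Rep.resMap r (adj χ θ (a i ≫ b j))) := by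
    funext i j
    apply LinearMap.ext
    intro x
    apply Subtype.ext
    exact dualB_dualA χ θ a b i j x.1
  rw [h, e]

end Generic

/-! ### `χ₂` of a retract of a self-dual module -/

section Chi

variable {k G : Type} [Field k] [Group G] (D : CData k G) {A X : Rep.{0} k G}
  (θ : A ≅ A.dualTwist D.χ) {n : ℕ} (a : Fin n → (A ⟶ X)) (b : Fin n → (X ⟶ A))

/-- **`χ₂` of a retract of `Aⁿ`, `A` self-dual with `Ш²(A) = 0`**: all four terms are ranks of
matrix operators on the cohomology of `A`: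
`χ₂(X) = rk H⁰(E) - rk H¹(E) + Σ_v rk H⁰(G_v, adj Eᵗ) - rk H⁰(adj Eᵗ)`. -/
theorem chi2_retract_eq_adj (h : D.Hyp) [Module.Finite k X] (hX : IsDisc D.𝒰 X)
    (hsum : ∀ x, ∑ i, (a i).hom ((b i).hom x) = x) (hsA : D.sha2 A = ⊥) :
    chi2 D.𝒰 X =
      (Module.finrank k ↥(LinearMap.range (famOp fun i j => H0map (a j ≫ b i))) : ℤ) -
        Module.finrank k ↥(LinearMap.range (famOp fun i j => H1map D.𝒰 (a j ≫ b i))) +
        ((∑ v, Module.finrank k ↥(LinearMap.range
          (famOp fun i j => H0map (Rep.resMap (D.loc v) (adj D.χ θ (a i ≫ b j))))) : ℕ) : ℤ) -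
        Module.finrank k ↥(LinearMap.range (famOp fun i j => H0map (adj D.χ θ (a i ≫ b j)))) := by
  have hsX : D.sha2 X = ⊥ := ShaFormal.sha2_eq_bot_of_family D a b hsum hsA
  have h0 : Module.finrank k (Abs.H0 (D.dual X)) = Module.finrank k
      ↥(LinearMap.range (famOp fun i j => H0map (adj D.χ θ (a i ≫ b j)))) :=
    finrank_H0_dualTwist_eq_adj D.χ θ a b hsum
  have hv : ∀ v, Module.finrank k (D.LH0 (D.dual X) v) = Module.finrank k ↥(LinearMap.range
      (famOp fun i j => H0map (Rep.resMap (D.loc v) (adj D.χ θ (a i ≫ b j))))) := fun v =>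
    finrank_H0_res_dualTwist_eq_adj D.χ θ a b (D.loc v) hsum
  rw [ShaFormal.chi2_eq_of_sha2_eq_bot D h X hX hsX, finrank_H0_eq a b hsum,
    finrank_H1_eq a b D.𝒰 hsum, h0, Finset.sum_congr rfl fun v _ => hv v]

end Chi

/-! ### The adjoint of a combination of left translations on `coind_U^G k` -/

section Coind

open Fermat.Agent.S55.Glue.CoindDual Fermat.Agent.S56.EC.CoindAction
  Fermat.Agent.S56.EC.CoindTwist

variable {k : Type} [Field k] {G : Type} [Group G] {U : Subgroup G} [U.FiniteIndex]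
  (χ : G →* kˣ) (hχ : ∀ u ∈ U, χ u = 1)

/-- **The adjoint of `∑ g, c g • lt g` is `∑ g, (c g * χ(g)⁻¹) • lt g⁻¹`.** -/
theorem adj_lt_sum (φ : coindTriv (k := k) U k ⟶ coindTriv (k := k) U k)
    (s : Finset ↥(Nrm U)) (c : ↥(Nrm U) → k)
    (hφ : ∀ f, φ.hom f = ∑ g ∈ s, c g • (lt U k g).hom f) (f : coindTriv (k := k) U k) :
    (adj χ (dualTwistIso χ hχ) φ).hom f =
      ∑ g ∈ s, (c g * (((χ (g : G))⁻¹ : kˣ) : k)) • (lt U k g⁻¹).hom f := by
  rw [adj_hom_apply]
  have h1 : (dualTwistMap χ φ).hom ((dualTwistIso χ hχ).hom.hom f) =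
      ∑ g ∈ s, c g • (dualTwistMap χ (lt U k g)).hom ((dualTwistIso χ hχ).hom.hom f) := by
    apply LinearMap.ext
    intro m
    have h2 : (∑ g ∈ s, c g • (dualTwistMap χ (lt U k g)).hom ((dualTwistIso χ hχ).hom.hom f) :
        Module.Dual k (coindTriv (k := k) U k)) m =
        ∑ g ∈ s, c g • (show Module.Dual k (coindTriv (k := k) U k) from
          (dualTwistIso χ hχ).hom.hom f) ((lt U k g).hom m) := by
      rw [LinearMap.sum_apply]
      rfl
    rw [h2]
    show (show Module.Dual k (coindTriv (k := k) U k) from (dualTwistIso χ hχ).hom.hom f)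
      (φ.hom m) = _
    rw [hφ m, map_sum]
    exact Finset.sum_congr rfl fun g _ => map_smul _ _ _
  rw [h1, map_sum]
  refine Finset.sum_congr rfl fun g _ => ?_
  rw [map_smul, dualTwistMap_lt_toDual χ hχ g f, map_smul, inv_hom_apply, smul_smul]

end Coind

/-! ### Scalar matrices on a line -/

section Scalar

variable {k : Type*} [Field k] {V : Type*} [AddCommGroup V] [Module k V] {n : ℕ}

/-- On a one-dimensional space the matrix operator of `(m i j • id)` has rank `rank m`. -/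
theorem finrank_range_famOp_smul_id (hV : Module.finrank k V = 1) (m : Matrix (Fin n) (Fin n) k) :
    Module.finrank k ↥(LinearMap.range
      (famOp fun i j => m i j • (LinearMap.id : V →ₗ[k] V))) = m.rank := by
  have hfin : Module.Finite k V := Module.finite_of_finrank_pos (by rw [hV]; exact one_pos)
  have e : V ≃ₗ[k] k := LinearEquiv.ofFinrankEq V k (by rw [hV, Module.finrank_self])
  rw [finrank_range_famOp_eq_of_equiv e (fun i j => m i j • (LinearMap.id : V →ₗ[k] V))
    (fun i j => m i j • (LinearMap.id : k →ₗ[k] k)) (fun i j u => by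
      simp only [LinearMap.smul_apply, LinearMap.id_coe, id_eq, map_smul])]
  have hrange : LinearMap.range (famOp fun i j => m i j • (LinearMap.id : k →ₗ[k] k)) =
      LinearMap.range m.mulVecLin := by
    congr 1
    apply LinearMap.ext
    intro y
    funext i
    rw [famOp_apply, Matrix.mulVecLin_apply, Matrix.mulVec, dotProduct]
    rfl
  rw [hrange]
  rfl

end Scalar

/-! ### The two global `H⁰`-terms for `coind_U^G k` -/

section CoindH0

open Fermat.Agent.S55.Glue.CoindDual Fermat.Agent.S56.EC.CoindAction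
  Fermat.Agent.S56.EC.CoindTwist

variable {k : Type} [Field k] {G : Type} [Group G] {U : Subgroup G}
  {X : Rep.{0} k G} {n : ℕ} (a : Fin n → (coindTriv (k := k) U k ⟶ X))
  (b : Fin n → (X ⟶ coindTriv (k := k) U k))
  (s : Fin n → Fin n → Finset ↥(Nrm U)) (c : Fin n → Fin n → ↥(Nrm U) → k)

/-- `rk H⁰(E) = rank (∑ g, c i j g)_{ij}` for `E i j = b i ∘ a j = ∑ g, c i j g • lt g`. -/
theorem finrank_H0_famOp_lt
    (hc : ∀ i j f, (b i).hom ((a j).hom f) = ∑ g ∈ s i j, c i j g • (lt U k g).hom f) :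
    Module.finrank k ↥(LinearMap.range (famOp fun i j => H0map (a j ≫ b i))) =
      (Matrix.of fun i j => ∑ g ∈ s i j, c i j g).rank := by
  have e : (fun i j => H0map (a j ≫ b i)) = fun i j =>
      (Matrix.of fun i j => ∑ g ∈ s i j, c i j g) i j •
        (LinearMap.id : Abs.H0 (coindTriv (k := k) U k) →ₗ[k] Abs.H0 (coindTriv (k := k) U k)) := by
    funext i j
    apply LinearMap.ext
    intro x
    apply Subtype.ext
    show (b i).hom ((a j).hom x.1) = (∑ g ∈ s i j, c i j g) • x.1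
    rw [hc, Finset.sum_smul]
    refine Finset.sum_congr rfl fun g _ => ?_
    have h1 : (lt U k g).hom x.1 = x.1 := congrArg Subtype.val (actH0_apply_eq U k g x)
    rw [h1]
  rw [e]
  exact finrank_range_famOp_smul_id (EP.finrank_H0_M0 U) _

variable [U.FiniteIndex] (χ : G →* kˣ) (hχ : ∀ u ∈ U, χ u = 1)

/-- `rk H⁰(adj Eᵗ) = rank (∑ g, c j i g * χ(g)⁻¹)_{ij}` for `E i j = ∑ g, c i j g • lt g`. -/
theorem finrank_H0_famOp_adj_lt
    (hc : ∀ i j f, (b i).hom ((a j).hom f) = ∑ g ∈ s i j, c i j g • (lt U k g).hom f) :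
    Module.finrank k ↥(LinearMap.range
        (famOp fun i j => H0map (adj χ (dualTwistIso χ hχ) (a i ≫ b j)))) =
      (Matrix.of fun i j => ∑ g ∈ s j i, c j i g * (((χ (g : G))⁻¹ : kˣ) : k)).rank := by
  have e : (fun i j => H0map (adj χ (dualTwistIso χ hχ) (a i ≫ b j))) = fun i j =>
      (Matrix.of fun i j => ∑ g ∈ s j i, c j i g * (((χ (g : G))⁻¹ : kˣ) : k)) i j •
        (LinearMap.id : Abs.H0 (coindTriv (k := k) U k) →ₗ[k] Abs.H0 (coindTriv (k := k) U k)) := by
    funext i j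
    apply LinearMap.ext
    intro x
    apply Subtype.ext
    show (adj χ (dualTwistIso χ hχ) (a i ≫ b j)).hom x.1 =
      (∑ g ∈ s j i, c j i g * (((χ (g : G))⁻¹ : kˣ) : k)) • x.1
    rw [adj_lt_sum χ hχ (a i ≫ b j) (s j i) (c j i) (fun f => hc j i f), Finset.sum_smul]
    refine Finset.sum_congr rfl fun g _ => ?_
    have h1 : (lt U k g⁻¹).hom x.1 = x.1 := congrArg Subtype.val (actH0_apply_eq U k g⁻¹ x)
    rw [h1]
  rw [e]
  exact finrank_range_famOp_smul_id (EP.finrank_H0_M0 U) _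

end CoindH0

end Fermat.Agent.S56.EC.DualSide
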