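/-
S56 / brick EC.3 (d) (helper97): the finite places.  `K` a number field inside `ℚ̄`,
`U = Gal(ℚ̄/K)`, `q` a prime number, `G_q → G_ℚ` the Prelude's local group at `q`,
`M = coind_U^{G_ℚ} V` (`V = 𝔽_p` gives `M0(K)`).

* `placeOf K q x` : the prime of `𝓞 K` below the translate `x • (distinguished place over q)`;
  it is constant on the double cosets `U x D_q` (`placeOf_mul_left`, `placeOf_mul_right`),
  onto the primes of `K` over `q` (`placeOf_surjective`), and separates the double cosets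
  (`placeOf_eq_iff`);
* `galPlace τ w` : the action of `τ ∈ Aut(K/ℚ)` on the primes of `K` over `q` (the restriction
  of `GalPrime.galPrime`, the action used by `TUnitsHerbrand.primeAct`);
* `placeOf_mul` : if `g ∈ G_ℚ` restricts to `τ` on `K` then `placeOf (g x) = τ (placeOf x)`;
* `locH0Equiv : H⁰(G_q, Res coind_U V) ≃ (primes of K over q → V)`, `x ↦ (placeOf y ↦ x(y))`;
* `locH0Equiv_actLH0` : the action of the normaliser of `U` (through `CoindAction.lt`) becomes
  the permutation action: `(g • F) w = F (τ⁻¹ w)` for `τ = g|_K`.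
-/
import Fermat.Agent.S56.EC.CoindAction
import Fermat.Agent.S55.Glue.PlacesAbove
import Fermat.Agent.S55.Glue.LocalRange
import Fermat.Agent.S55.Base.Fact
import Fermat.Agent.CFT.Global.GalPrime

set_option autoImplicit false

open scoped NumberField Pointwise
open IsDedekindDomain ExtCitation

namespace Fermat.Agent.S56.EC.PlacesDict

open Fermat.Agent.S55.Abs Fermat.Agent.S55.Shapiro Fermat.Agent.S55.Glue
  Fermat.Agent.S55.Glue.PlacesAbove Fermat.Agent.S14.Wiring.ValRing
  Fermat.Agent.CFT.Global.GalPrime Fermat.Agent.S56.EC.CoindAction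

local notation "Qb" => AlgebraicClosure ℚ
local notation "GQ" => (AlgebraicClosure ℚ ≃ₐ[ℚ] AlgebraicClosure ℚ)

variable (K : IntermediateField ℚ Qb)

/-! ### The place of `K` below a translate of the distinguished place -/

section PlaceOf

variable (q : Nat.Primes)

/-- The prime of `𝓞 K` below `x • (primeLocalPlace q)`. -/
noncomputable def placeOf (x : GQ) : PlacesOver K (q : ℕ) :=
  placeOfSmul K q.2 (S55.Base.Fact.liesOverPrime_primeLocalPlace q) x

theorem mem_placeOf_iff (x : GQ) (a : 𝓞 K) :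
    a ∈ (placeOf K q x).1.asIdeal ↔ x⁻¹ ((a : K) : Qb) ∈ (primeLocalPlace q).nonunits := by
  rw [← PlacesAbove.mem_nonunits_smul_iff, mem_nonunits_iff_mem_primeUnder]
  rfl

theorem placeOf_eq_iff (x y : GQ) :
    placeOf K q x = placeOf K q y ↔
      ∃ u ∈ K.fixingSubgroup, ∃ h : primeLocalGaloisGroup q,
        y = u * x * primeLocalToGlobal q h := by
  rw [placeOf, placeOf, placeOfSmul_eq_iff]
  constructor
  · rintro ⟨u, hu, d, hd, rfl⟩
    rw [← LocalRange.range_primeLocalToGlobal] at hd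
    obtain ⟨h, rfl⟩ := hd
    exact ⟨u, hu, h, rfl⟩
  · rintro ⟨u, hu, h, rfl⟩
    refine ⟨u, hu, primeLocalToGlobal q h, ?_, rfl⟩
    rw [← LocalRange.range_primeLocalToGlobal]
    exact ⟨h, rfl⟩

theorem placeOf_mul_left {u : GQ} (hu : u ∈ K.fixingSubgroup) (x : GQ) :
    placeOf K q (u * x) = placeOf K q x :=
  ((placeOf_eq_iff K q x (u * x)).2 ⟨u, hu, 1, by rw [map_one, mul_one]⟩).symm

theorem placeOf_mul_right (x : GQ) (h : primeLocalGaloisGroup q) :
    placeOf K q (x * primeLocalToGlobal q h) = placeOf K q x :=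
  ((placeOf_eq_iff K q x (x * primeLocalToGlobal q h)).2
    ⟨1, K.fixingSubgroup.one_mem, h, by rw [one_mul]⟩).symm

theorem placeOf_surjective [NumberField K] : Function.Surjective (placeOf K q) :=
  placeOfSmul_surjective K q.2 (S55.Base.Fact.liesOverPrime_primeLocalPlace q)

end PlaceOf

/-! ### The action of `Aut(K/ℚ)` on the primes over `ℓ` -/

section GalPlace

variable {K}

theorem natCast_mem_galPrime_iff [NumberField K] (τ : ↥K ≃ₐ[ℚ] ↥K)
    (w : HeightOneSpectrum (𝓞 K)) (ℓ : ℕ) :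
    ((ℓ : ℕ) : 𝓞 K) ∈ (galPrime τ w).asIdeal ↔ ((ℓ : ℕ) : 𝓞 K) ∈ w.asIdeal := by
  rw [mem_galPrime, map_natCast]

/-- The action of `τ ∈ Aut(K/ℚ)` on the primes of `K` over `ℓ`. -/
noncomputable def galPlace [NumberField K] {ℓ : ℕ} (τ : ↥K ≃ₐ[ℚ] ↥K) (w : PlacesOver K ℓ) :
    PlacesOver K ℓ :=
  ⟨galPrime τ w.1, (natCast_mem_galPrime_iff τ w.1 ℓ).2 w.2⟩

theorem galPlace_coe [NumberField K] {ℓ : ℕ} (τ : ↥K ≃ₐ[ℚ] ↥K) (w : PlacesOver K ℓ) :
    (galPlace τ w).1 = galPrime τ w.1 := rfl

theorem galPlace_one [NumberField K] {ℓ : ℕ} (w : PlacesOver K ℓ) :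
    galPlace (1 : ↥K ≃ₐ[ℚ] ↥K) w = w :=
  Subtype.ext (galPrime_one w.1)

theorem galPlace_mul [NumberField K] {ℓ : ℕ} (τ ρ : ↥K ≃ₐ[ℚ] ↥K) (w : PlacesOver K ℓ) :
    galPlace (τ * ρ) w = galPlace τ (galPlace ρ w) :=
  Subtype.ext (galPrime_mul τ ρ w.1)

end GalPlace

/-! ### Equivariance of `placeOf` -/

section Equivariance

variable [NumberField K] (q : Nat.Primes)

/-- If `g ∈ G_ℚ` restricts to `τ` on `K`, then `placeOf (g x) = τ (placeOf x)`. -/
theorem placeOf_mul (g : GQ) (τ : ↥K ≃ₐ[ℚ] ↥K) (hg : ∀ a : ↥K, g (a : Qb) = ((τ a : ↥K) : Qb))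
    (x : GQ) : placeOf K q (g * x) = galPlace τ (placeOf K q x) := by
  apply Subtype.ext
  apply HeightOneSpectrum.ext
  ext a
  rw [galPlace_coe, mem_galPrime, mem_placeOf_iff, mem_placeOf_iff]
  have h1 : g⁻¹ ((a : K) : Qb) = (((galRing τ⁻¹ a : 𝓞 K) : K) : Qb) := by
    have h2 : g (((galRing τ⁻¹ a : 𝓞 K) : K) : Qb) = ((a : K) : Qb) := by
      rw [hg, coe_galRing, ← AlgEquiv.mul_apply, mul_inv_cancel, AlgEquiv.one_apply]
    rw [← h2, ← AlgEquiv.mul_apply, inv_mul_cancel, AlgEquiv.one_apply]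
  rw [mul_inv_rev, AlgEquiv.mul_apply, h1]

/-- The same with the inverse: `placeOf (g⁻¹ x) = τ⁻¹ (placeOf x)`. -/
theorem placeOf_inv_mul (g : GQ) (τ : ↥K ≃ₐ[ℚ] ↥K)
    (hg : ∀ a : ↥K, g (a : Qb) = ((τ a : ↥K) : Qb)) (x : GQ) :
    placeOf K q (g⁻¹ * x) = galPlace τ⁻¹ (placeOf K q x) := by
  have h := placeOf_mul K q g τ hg (g⁻¹ * x)
  rw [mul_inv_cancel_left] at h
  rw [h, ← galPlace_mul, inv_mul_cancel, galPlace_one]

end Equivariance

/-! ### The local `H⁰` -/

section LocalH0

variable [NumberField K] (q : Nat.Primes) {k : Type} [Field k] (V : Type) [AddCommGroup V]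
  [Module k V]

omit [NumberField K] in
/-- The value of a local invariant depends only on the place. -/
theorem coe_apply_eq_of_placeOf_eq
    (x : S55.Abs.H0 (Rep.res (primeLocalToGlobal q) (coindTriv (k := k) K.fixingSubgroup V)))
    {y y' : GQ} (h : placeOf K q y = placeOf K q y') :
    (x : coindTriv (k := k) K.fixingSubgroup V).1 y =
      (x : coindTriv (k := k) K.fixingSubgroup V).1 y' := by
  obtain ⟨u, hu, h', rfl⟩ := (placeOf_eq_iff K q y y').1 h
  rw [coe_apply_mul_of_mem_H0]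
  exact (coindTriv_apply_mul (x : coindTriv (k := k) K.fixingSubgroup V) hu y).symm

/-- **`H⁰(G_q, Res coind_{G_K}^{G_ℚ} V)` is the space of `V`-valued functions on the primes of
`K` over `q`.** -/
noncomputable def locH0Equiv :
    S55.Abs.H0 (Rep.res (primeLocalToGlobal q) (coindTriv (k := k) K.fixingSubgroup V)) ≃ₗ[k]
      (PlacesOver K (q : ℕ) → V) where
  toFun x w := (x : coindTriv (k := k) K.fixingSubgroup V).1
    (Classical.choose (placeOf_surjective K q w))
  map_add' _ _ := rfl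
  map_smul' _ _ := rfl
  invFun F :=
    ⟨⟨fun y => F (placeOf K q y), fun u y => by
        show F (placeOf K q ((u : GQ) * y)) = F (placeOf K q y)
        rw [placeOf_mul_left K q u.2]⟩, fun h => by
      apply Subtype.ext
      funext y
      show F (placeOf K q (y * primeLocalToGlobal q h)) = F (placeOf K q y)
      rw [placeOf_mul_right]⟩
  left_inv x := by
    apply Subtype.ext
    apply Subtype.ext
    funext y
    exact coe_apply_eq_of_placeOf_eq K q V x
      (Classical.choose_spec (placeOf_surjective K q (placeOf K q y)))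
  right_inv F := by
    funext w
    show F (placeOf K q (Classical.choose (placeOf_surjective K q w))) = F w
    rw [Classical.choose_spec (placeOf_surjective K q w)]

theorem locH0Equiv_apply
    (x : S55.Abs.H0 (Rep.res (primeLocalToGlobal q) (coindTriv (k := k) K.fixingSubgroup V)))
    (y : GQ) :
    locH0Equiv K q V x (placeOf K q y) = (x : coindTriv (k := k) K.fixingSubgroup V).1 y :=
  coe_apply_eq_of_placeOf_eq K q V x
    (Classical.choose_spec (placeOf_surjective K q (placeOf K q y)))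

theorem locH0Equiv_symm_apply (F : PlacesOver K (q : ℕ) → V) (y : GQ) :
    (((locH0Equiv (k := k) K q V).symm F :
        S55.Abs.H0 (Rep.res (primeLocalToGlobal q) (coindTriv (k := k) K.fixingSubgroup V))) :
      coindTriv (k := k) K.fixingSubgroup V).1 y = F (placeOf K q y) := rfl

/-- **Equivariance**: under `locH0Equiv` the action of a normalising element `g` restricting
to `τ` on `K` is the permutation action `(g • F) w = F (τ⁻¹ w)`. -/
theorem locH0Equiv_actLH0 (g : ↥(Nrm K.fixingSubgroup)) (τ : ↥K ≃ₐ[ℚ] ↥K)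
    (hg : ∀ a : ↥K, (g : GQ) (a : Qb) = ((τ a : ↥K) : Qb))
    (x : S55.Abs.H0 (Rep.res (primeLocalToGlobal q) (coindTriv (k := k) K.fixingSubgroup V)))
    (w : PlacesOver K (q : ℕ)) :
    locH0Equiv K q V (actLH0 K.fixingSubgroup V (primeLocalToGlobal q) g x) w =
      locH0Equiv K q V x (galPlace τ⁻¹ w) := by
  obtain ⟨y, rfl⟩ := placeOf_surjective K q w
  rw [locH0Equiv_apply, ← placeOf_inv_mul K q (g : GQ) τ hg y, locH0Equiv_apply]
  rfl

end LocalH0

end Fermat.Agent.S56.EC.PlacesDict
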