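/-
S56 / brick EC.3 (d), assembled over `S` (helper97).  `K` a number field inside `ℚ̄`, `S` a
finite set of prime numbers, `M = coind_{G_K}^{G_ℚ} V`.

* `TS K S` : the primes of `𝓞 K` above `S` (definitionally `CountV.SKset S K`);
  `galPrime_mem_TS` : it is stable under `Aut(K/ℚ)` (this is `GalStable ℚ K (TS K S)` of
  `TUnitsHerbrand`, unfolded);
* `eq_of_natCast_mem` : a prime of `𝓞 K` lies over at most one prime number; `qOf` : the prime
  of `S` below an element of `TS K S`;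
* `locH0SEquiv : ∏_{q ∈ S} H⁰(G_q, Res M) ≃ (TS K S → V)`, with
  `locH0SEquiv_apply : locH0SEquiv x w = locH0Equiv K q V (x q) w` for `w` over `q ∈ S`;
* `locH0SEquiv_actLH0` : the diagonal action of a normalising element `g` restricting to `τ` on
  `K` becomes the permutation action `(g • F) w = F (τ⁻¹ w)` on functions on `TS K S`.
-/
import Fermat.Agent.S56.EC.PlacesDict

set_option autoImplicit false

open scoped NumberField Pointwise
open IsDedekindDomain ExtCitation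

namespace Fermat.Agent.S56.EC.PlacesDictS

open Fermat.Agent.S55.Abs Fermat.Agent.S55.Shapiro Fermat.Agent.S55.Glue
  Fermat.Agent.S55.Glue.PlacesAbove Fermat.Agent.CFT.Global.GalPrime
  Fermat.Agent.S56.EC.CoindAction Fermat.Agent.S56.EC.PlacesDict

local notation "Qb" => AlgebraicClosure ℚ
local notation "GQ" => (AlgebraicClosure ℚ ≃ₐ[ℚ] AlgebraicClosure ℚ)

variable (K : IntermediateField ℚ Qb) [NumberField K] (S : Finset Nat.Primes)

/-- The primes of `𝓞 K` above the prime numbers of `S`. -/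
def TS : Set (HeightOneSpectrum (𝓞 K)) :=
  {v | ∃ q ∈ S, (((q : Nat.Primes) : ℕ) : 𝓞 K) ∈ v.asIdeal}

omit [NumberField K] in
theorem mem_TS_iff (v : HeightOneSpectrum (𝓞 K)) :
    v ∈ TS K S ↔ ∃ q ∈ S, (((q : Nat.Primes) : ℕ) : 𝓞 K) ∈ v.asIdeal := Iff.rfl

/-- `TS K S` is stable under `Aut(K/ℚ)`. -/
theorem galPrime_mem_TS (τ : ↥K ≃ₐ[ℚ] ↥K) (w : HeightOneSpectrum (𝓞 K)) (hw : w ∈ TS K S) :
    galPrime τ w ∈ TS K S := by
  obtain ⟨q, hq, h⟩ := hw
  exact ⟨q, hq, (natCast_mem_galPrime_iff τ w _).2 h⟩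

omit [NumberField K] in
/-- A prime of `𝓞 K` lies over at most one prime number. -/
theorem eq_of_natCast_mem {q q' : Nat.Primes} (w : HeightOneSpectrum (𝓞 K))
    (h : (((q : Nat.Primes) : ℕ) : 𝓞 K) ∈ w.asIdeal)
    (h' : (((q' : Nat.Primes) : ℕ) : 𝓞 K) ∈ w.asIdeal) : q = q' := by
  by_contra hne
  have hne' : (q : ℕ) ≠ (q' : ℕ) := fun e => hne (Subtype.ext e)
  have hcop : IsCoprime ((q : ℕ) : ℤ) ((q' : ℕ) : ℤ) :=
    Nat.isCoprime_iff_coprime.2 ((Nat.coprime_primes q.2 q'.2).2 hne')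
  obtain ⟨a, b, hab⟩ := hcop
  have h1 : ((a : 𝓞 K)) * (((q : ℕ) : 𝓞 K)) + ((b : 𝓞 K)) * (((q' : ℕ) : 𝓞 K)) = 1 := by
    have := congrArg (fun z : ℤ => (z : 𝓞 K)) hab
    simpa using this
  have h2 : (1 : 𝓞 K) ∈ w.asIdeal := by
    rw [← h1]
    exact w.asIdeal.add_mem (w.asIdeal.mul_mem_left _ h) (w.asIdeal.mul_mem_left _ h')
  exact w.isPrime.ne_top ((Ideal.eq_top_iff_one _).2 h2)

/-- The prime of `S` below an element of `TS K S`. -/
noncomputable def qOf (w : ↥(TS K S)) : ↥S :=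
  ⟨Classical.choose w.2, (Classical.choose_spec w.2).1⟩

omit [NumberField K] in
theorem qOf_spec (w : ↥(TS K S)) :
    ((((qOf K S w : ↥S) : Nat.Primes) : ℕ) : 𝓞 K) ∈ w.1.asIdeal :=
  (Classical.choose_spec w.2).2

omit [NumberField K] in
theorem qOf_eq (w : ↥(TS K S)) (q : ↥S)
    (h : (((q : Nat.Primes) : ℕ) : 𝓞 K) ∈ w.1.asIdeal) : qOf K S w = q :=
  Subtype.ext (eq_of_natCast_mem K w.1 (qOf_spec K S w) h)

variable {k : Type} [Field k] (V : Type) [AddCommGroup V] [Module k V]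

/-- The value of the assembled map at `w`, computed at any prime of `S` below `w`. -/
theorem locH0Equiv_qOf
    (x : (q : ↥S) → S55.Abs.H0 (Rep.res (primeLocalToGlobal q.1)
      (coindTriv (k := k) K.fixingSubgroup V)))
    (w : ↥(TS K S)) (q : ↥S) (h : (((q : Nat.Primes) : ℕ) : 𝓞 K) ∈ w.1.asIdeal) :
    locH0Equiv K (qOf K S w).1 V (x (qOf K S w)) ⟨w.1, qOf_spec K S w⟩ =
      locH0Equiv K q.1 V (x q) ⟨w.1, h⟩ := by
  have e := qOf_eq K S w q h
  subst e
  rfl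

/-- **`∏_{q ∈ S} H⁰(G_q, Res coind_{G_K}^{G_ℚ} V)` is the space of `V`-valued functions on the
primes of `K` above `S`.** -/
noncomputable def locH0SEquiv :
    ((q : ↥S) → S55.Abs.H0 (Rep.res (primeLocalToGlobal q.1)
      (coindTriv (k := k) K.fixingSubgroup V))) ≃ₗ[k] (↥(TS K S) → V) where
  toFun x w := locH0Equiv K (qOf K S w).1 V (x (qOf K S w)) ⟨w.1, qOf_spec K S w⟩
  map_add' x y := by
    funext w
    show locH0Equiv K (qOf K S w).1 V (x (qOf K S w) + y (qOf K S w)) _ = _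
    rw [map_add]
    rfl
  map_smul' c x := by
    funext w
    show locH0Equiv K (qOf K S w).1 V (c • x (qOf K S w)) _ = _
    rw [map_smul]
    rfl
  invFun F q := (locH0Equiv K q.1 V).symm (fun w => F ⟨w.1, q.1, q.2, w.2⟩)
  left_inv x := by
    funext q
    apply (locH0Equiv K q.1 V).injective
    rw [LinearEquiv.apply_symm_apply]
    funext w
    exact locH0Equiv_qOf K S V x ⟨w.1, q.1, q.2, w.2⟩ q w.2
  right_inv F := by
    funext w
    show locH0Equiv K (qOf K S w).1 V ((locH0Equiv K (qOf K S w).1 V).symm _) _ = _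
    rw [LinearEquiv.apply_symm_apply]

theorem locH0SEquiv_apply
    (x : (q : ↥S) → S55.Abs.H0 (Rep.res (primeLocalToGlobal q.1)
      (coindTriv (k := k) K.fixingSubgroup V)))
    (w : ↥(TS K S)) (q : ↥S) (h : (((q : Nat.Primes) : ℕ) : 𝓞 K) ∈ w.1.asIdeal) :
    locH0SEquiv K S V x w = locH0Equiv K q.1 V (x q) ⟨w.1, h⟩ :=
  locH0Equiv_qOf K S V x w q h

/-- **Equivariance**: the diagonal action of a normalising element `g` restricting to `τ` on
`K` is the permutation action `(g • F) w = F (τ⁻¹ w)` on functions on `TS K S`. -/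
theorem locH0SEquiv_actLH0 (g : ↥(Nrm K.fixingSubgroup)) (τ : ↥K ≃ₐ[ℚ] ↥K)
    (hg : ∀ a : ↥K, (g : GQ) (a : Qb) = ((τ a : ↥K) : Qb))
    (x : (q : ↥S) → S55.Abs.H0 (Rep.res (primeLocalToGlobal q.1)
      (coindTriv (k := k) K.fixingSubgroup V)))
    (w : ↥(TS K S)) :
    locH0SEquiv K S V
        (fun q => actLH0 K.fixingSubgroup V (primeLocalToGlobal q.1) g (x q)) w =
      locH0SEquiv K S V x ⟨galPrime τ⁻¹ w.1, galPrime_mem_TS K S τ⁻¹ w.1 w.2⟩ := by
  have h1 := qOf_spec K S w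
  have h2 : ((((qOf K S w : ↥S) : Nat.Primes) : ℕ) : 𝓞 K) ∈ (galPrime τ⁻¹ w.1).asIdeal :=
    (natCast_mem_galPrime_iff τ⁻¹ w.1 _).2 h1
  rw [locH0SEquiv_apply K S V _ w (qOf K S w) h1,
    locH0SEquiv_apply K S V x ⟨galPrime τ⁻¹ w.1, galPrime_mem_TS K S τ⁻¹ w.1 w.2⟩ (qOf K S w) h2,
    locH0Equiv_actLH0 K (qOf K S w).1 V g τ hg]
  rfl

end Fermat.Agent.S56.EC.PlacesDictS
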