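/-
S56 / brick EC (Euler characteristic), the formal ends EC.0 / EC.4 (helper276, own risk).

For an arbitrary counting datum `D : CData k G` of `S55/Count` (no arithmetic here):

* `chi2_eq_of_counts` : under the hypotheses of the landed `EP.T_le_zero_of_counts` and `D.Hyp`,
  `T ≥ 0` makes every inequality of that count TIGHT; in particular
  `χ₂(M) = Σ_v h²(G_v, M) + ρ - Bd`, `h¹(M) = Bd`, `dim Ш²(M) = ρ`, `Σ_v h¹(G_v, M) = A`;
* `chi2_family` : `χ₂(X) = n · χ₂(A)` for `X = Aⁿ` given by ANY family of `n` inclusions and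
  projections (`π i ∘ ι j = δ_ij`, `Σ ι i ∘ π i = 1`);
* `chi2_eq_of_compl` : the "complementary idempotent" closing step: if `X = A ⊕ B`,
  `χ₂(A) ≤ a`, `χ₂(B) ≤ b` and `χ₂(X) = a + b`, then `χ₂(A) = a` and `χ₂(B) = b`.
-/
import Fermat.Agent.S55.Count.Main
import Fermat.Agent.S55.Count.MainBiprod
import Fermat.Agent.S55.Count.MainEq

set_option autoImplicit false

open CategoryTheory groupCohomology

namespace Fermat.Agent.S56.EC.ChiFormal

open Fermat.Agent.S55 Fermat.Agent.S55.Abs Fermat.Agent.S55.Count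

variable {k G : Type} [Field k] [Group G]

/-! ### Linear algebra: `V ≃ VAⁿ` from a family of inclusions and projections -/

/-- A family of `n` inclusions `a i : VA → V` and projections `p i : V → VA` with
`p i ∘ a j = δ_ij` and `Σ a i ∘ p i = 1` gives `dim V = n · dim VA`. -/
theorem finrank_eq_mul_of_family {V VA : Type*} [AddCommGroup V] [Module k V]
    [AddCommGroup VA] [Module k VA] [Module.Finite k VA] {n : ℕ}
    (a : Fin n → VA →ₗ[k] V) (p : Fin n → V →ₗ[k] VA)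
    (hpa : ∀ i j x, p i (a j x) = if i = j then x else 0)
    (hsum : ∀ v, ∑ i, a i (p i v) = v) :
    Module.finrank k V = n * Module.finrank k VA := by
  classical
  let e : V ≃ₗ[k] (Fin n → VA) :=
    LinearEquiv.ofLinearMap (LinearMap.pi p) (∑ i, (a i) ∘ₗ (LinearMap.proj i))
      (by
        apply LinearMap.ext
        intro x
        funext i
        simp only [LinearMap.comp_apply, LinearMap.pi_apply, LinearMap.sum_apply,
          LinearMap.proj_apply, LinearMap.id_apply, map_sum, hpa]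
        simp)
      (by
        apply LinearMap.ext
        intro v
        simp only [LinearMap.comp_apply, LinearMap.sum_apply, LinearMap.pi_apply,
          LinearMap.proj_apply, LinearMap.id_apply]
        exact hsum v)
  rw [e.finrank_eq, Module.finrank_pi_fintype]
  simp

/-! ### Cohomology of an `n`-fold sum -/

section Family

variable {X A : Rep.{0} k G} {n : ℕ} (ι : Fin n → (A ⟶ X)) (π : Fin n → (X ⟶ A))

theorem H0map_family (hπι : ∀ i j a, (π i).hom ((ι j).hom a) = if i = j then a else 0)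
    (i j : Fin n) (x : Abs.H0 A) :
    H0map (π i) (H0map (ι j) x) = if i = j then x else 0 := by
  apply Subtype.ext
  show (π i).hom ((ι j).hom x.1) = _
  rw [hπι]
  split_ifs <;> rfl

theorem H0map_family_sum (hsum : ∀ x, ∑ i, (ι i).hom ((π i).hom x) = x) (x : Abs.H0 X) :
    ∑ i, H0map (ι i) (H0map (π i) x) = x := by
  apply Subtype.ext
  rw [Submodule.coe_sum]
  exact hsum x.1

theorem H1map_family (𝒰 : LevelFamily G)
    (hπι : ∀ i j a, (π i).hom ((ι j).hom a) = if i = j then a else 0)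
    (i j : Fin n) (x : Abs.H1 𝒰 A) :
    H1map 𝒰 (π i) (H1map 𝒰 (ι j) x) = if i = j then x else 0 := by
  obtain ⟨z, rfl⟩ := Submodule.mkQ_surjective _ x
  have hmk : H1map 𝒰 (π i) (H1map 𝒰 (ι j) (Submodule.mkQ _ z)) =
      Submodule.Quotient.mk (⟨cmap₁ (π i) (cmap₁ (ι j) z.1),
        cmap₁_mem_Z1 (π i) (cmap₁_mem_Z1 (ι j) z.2)⟩ : ↥(Z1 𝒰 A)) := rfl
  rw [hmk]
  by_cases hij : i = j
  · rw [if_pos hij]
    show Submodule.Quotient.mk _ = Submodule.Quotient.mk _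
    congr 1
    apply Subtype.ext
    funext g
    show (π i).hom ((ι j).hom (z.1 g)) = z.1 g
    rw [hπι, if_pos hij]
  · rw [if_neg hij, Submodule.Quotient.mk_eq_zero]
    show cmap₁ (π i) (cmap₁ (ι j) z.1) ∈ coboundaries₁ A
    have h0 : cmap₁ (π i) (cmap₁ (ι j) z.1) = 0 := by
      funext g
      show (π i).hom ((ι j).hom (z.1 g)) = 0
      rw [hπι, if_neg hij]
    rw [h0]
    exact Submodule.zero_mem _

theorem H1map_family_sum (𝒰 : LevelFamily G)
    (hsum : ∀ x, ∑ i, (ι i).hom ((π i).hom x) = x) (x : Abs.H1 𝒰 X) :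
    ∑ i, H1map 𝒰 (ι i) (H1map 𝒰 (π i) x) = x := by
  obtain ⟨z, rfl⟩ := Submodule.mkQ_surjective _ x
  have hmk : ∀ i, H1map 𝒰 (ι i) (H1map 𝒰 (π i) (Submodule.mkQ _ z)) =
      Submodule.mkQ _ (⟨cmap₁ (ι i) (cmap₁ (π i) z.1),
        cmap₁_mem_Z1 (ι i) (cmap₁_mem_Z1 (π i) z.2)⟩ : ↥(Z1 𝒰 X)) := fun i => rfl
  rw [Finset.sum_congr rfl fun i _ => hmk i, ← map_sum]
  congr 1
  apply Subtype.ext
  rw [Submodule.coe_sum]
  funext g
  rw [Finset.sum_apply]
  exact hsum (z.1 g)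

theorem H2map_family (𝒰 : LevelFamily G)
    (hπι : ∀ i j a, (π i).hom ((ι j).hom a) = if i = j then a else 0)
    (i j : Fin n) (x : Abs.H2 𝒰 A) :
    H2map 𝒰 (π i) (H2map 𝒰 (ι j) x) = if i = j then x else 0 := by
  obtain ⟨z, rfl⟩ := Submodule.mkQ_surjective _ x
  have hmk : H2map 𝒰 (π i) (H2map 𝒰 (ι j) (Submodule.mkQ _ z)) =
      Submodule.Quotient.mk (⟨cmap₂ (π i) (cmap₂ (ι j) z.1),
        cmap₂_mem_Z2 (π i) (cmap₂_mem_Z2 (ι j) z.2)⟩ : ↥(Z2 𝒰 A)) := rfl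
  rw [hmk]
  by_cases hij : i = j
  · rw [if_pos hij]
    show Submodule.Quotient.mk _ = Submodule.Quotient.mk _
    congr 1
    apply Subtype.ext
    funext g
    show (π i).hom ((ι j).hom (z.1 g)) = z.1 g
    rw [hπι, if_pos hij]
  · rw [if_neg hij, Submodule.Quotient.mk_eq_zero]
    show cmap₂ (π i) (cmap₂ (ι j) z.1) ∈ B2 𝒰 A
    have h0 : cmap₂ (π i) (cmap₂ (ι j) z.1) = 0 := by
      funext g
      show (π i).hom ((ι j).hom (z.1 g)) = 0
      rw [hπι, if_neg hij]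
    rw [h0]
    exact Submodule.zero_mem _

theorem H2map_family_sum (𝒰 : LevelFamily G)
    (hsum : ∀ x, ∑ i, (ι i).hom ((π i).hom x) = x) (x : Abs.H2 𝒰 X) :
    ∑ i, H2map 𝒰 (ι i) (H2map 𝒰 (π i) x) = x := by
  obtain ⟨z, rfl⟩ := Submodule.mkQ_surjective _ x
  have hmk : ∀ i, H2map 𝒰 (ι i) (H2map 𝒰 (π i) (Submodule.mkQ _ z)) =
      Submodule.mkQ _ (⟨cmap₂ (ι i) (cmap₂ (π i) z.1),
        cmap₂_mem_Z2 (ι i) (cmap₂_mem_Z2 (π i) z.2)⟩ : ↥(Z2 𝒰 X)) := fun i => rfl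
  rw [Finset.sum_congr rfl fun i _ => hmk i, ← map_sum]
  congr 1
  apply Subtype.ext
  rw [Submodule.coe_sum]
  funext g
  rw [Finset.sum_apply]
  exact hsum (z.1 g)

/-- **`χ₂(Aⁿ) = n · χ₂(A)`**, for `X = Aⁿ` presented by any family of `n` inclusions `ι i` and
projections `π i` with `π i ∘ ι j = δ_ij` and `Σ ι i ∘ π i = 1` (any leveled group). -/
theorem chi2_family (𝒰 : LevelFamily G)
    (hπι : ∀ i j a, (π i).hom ((ι j).hom a) = if i = j then a else 0)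
    (hsum : ∀ x, ∑ i, (ι i).hom ((π i).hom x) = x)
    [Module.Finite k (Abs.H0 A)] [Module.Finite k (Abs.H1 𝒰 A)] [Module.Finite k (Abs.H2 𝒰 A)] :
    chi2 𝒰 X = n * chi2 𝒰 A := by
  have e0 := finrank_eq_mul_of_family (fun i => H0map (ι i)) (fun i => H0map (π i))
    (H0map_family ι π hπι) (H0map_family_sum ι π hsum)
  have e1 := finrank_eq_mul_of_family (fun i => H1map 𝒰 (ι i)) (fun i => H1map 𝒰 (π i))
    (H1map_family ι π 𝒰 hπι) (H1map_family_sum ι π 𝒰 hsum)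
  have e2 := finrank_eq_mul_of_family (fun i => H2map 𝒰 (ι i)) (fun i => H2map 𝒰 (π i))
    (H2map_family ι π 𝒰 hπι) (H2map_family_sum ι π 𝒰 hsum)
  unfold chi2
  rw [e0, e1, e2]
  push_cast
  ring

end Family

/-! ### The complementary-idempotent closing step -/

/-- **Complementary idempotent.**  If `X = A ⊕ B`, `χ₂(A) ≤ a`, `χ₂(B) ≤ b` and
`χ₂(X) = a + b`, then both bounds are equalities. -/
theorem chi2_eq_of_compl (𝒰 : LevelFamily G) {X A B : Rep.{0} k G} (iA : A ⟶ X) (iB : B ⟶ X)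
    (pA : X ⟶ A) (pB : X ⟶ B) (hA : ∀ a, pA.hom (iA.hom a) = a) (hB : ∀ b, pB.hom (iB.hom b) = b)
    (hsum : ∀ x, iA.hom (pA.hom x) + iB.hom (pB.hom x) = x)
    [Module.Finite k (Abs.H0 A)] [Module.Finite k (Abs.H0 B)]
    [Module.Finite k (Abs.H1 𝒰 A)] [Module.Finite k (Abs.H1 𝒰 B)]
    [Module.Finite k (Abs.H2 𝒰 A)] [Module.Finite k (Abs.H2 𝒰 B)]
    {a b : ℤ} (ha : chi2 𝒰 A ≤ a) (hb : chi2 𝒰 B ≤ b) (hX : chi2 𝒰 X = a + b) :
    chi2 𝒰 A = a ∧ chi2 𝒰 B = b := by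
  have h := MainBiprod.chi2_biprod 𝒰 iA iB pA pB hA hB hsum
  constructor <;> omega

/-! ### The exact count -/

/-- **The (EP) count is exact.**  Under the hypotheses of `EP.T_le_zero_of_counts` (`M ≅ M'`,
`h⁰(M) = 1`, `Bd ≤ h¹(M), h¹(M')`, `Σ_v h¹(G_v, M) ≤ A`, `dim Ш²(M) ≤ ρ`, `A + 2ρ ≤ 2 Bd`) and
the formal hypotheses `D.Hyp` (so that `0 ≤ T(M)`), every inequality is an equality and
`χ₂(M) = Σ_v h²(G_v, M) + ρ - Bd`. -/
theorem chi2_eq_of_counts (D : CData k G) (h : D.Hyp) (M : Rep.{0} k G) [Module.Finite k M]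
    (hM : IsDisc D.𝒰 M) (i : M ⟶ D.dual M) (r : D.dual M ⟶ M)
    (hri : ∀ m, r.hom (i.hom m) = m) (hir : ∀ n, i.hom (r.hom n) = n)
    (h0 : Module.finrank k (Abs.H0 M) = 1) (Bd A ρ : ℕ)
    (h1 : Bd ≤ Module.finrank k (Abs.H1 D.𝒰 M))
    (h1' : Bd ≤ Module.finrank k (Abs.H1 D.𝒰 (D.dual M)))
    (hloc1 : ∑ v, Module.finrank k (D.LH1 M v) ≤ A)
    (hsha : Module.finrank k ↥(D.sha2 M) ≤ ρ)
    (hcount : A + 2 * ρ ≤ 2 * Bd) :
    chi2 D.𝒰 M = ((∑ v, Module.finrank k (D.LH2 M v) : ℕ) : ℤ) + ρ - Bd ∧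
      Module.finrank k (Abs.H1 D.𝒰 M) = Bd ∧
      Module.finrank k (Abs.H1 D.𝒰 (D.dual M)) = Bd ∧
      Module.finrank k ↥(D.sha2 M) = ρ ∧
      ∑ v, Module.finrank k (D.LH1 M v) = A ∧ A + 2 * ρ = 2 * Bd := by
  classical
  have hM' : IsDisc D.𝒰 (D.dual M) := D.disc_dual hM
  have := h.fin_H1 M hM
  have := h.fin_H2 M hM
  have := h.fin_H1 (D.dual M) hM'
  have := h.fin_H2 (D.dual M) hM'
  have hT0 : 0 ≤ D.T M := D.T_nonneg h M hM
  have hrk := MainEq.finrank_H2_eq D M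
  have hF1 := D.F1 h.toLocHyp M hM
  -- `h⁰(M') = h⁰(M) = 1`
  have h0' : Module.finrank k (Abs.H0 (D.dual M)) = 1 := by
    rw [← (LinearEquiv.ofLinearMap (H0map i) (H0map r)
      (LinearMap.ext fun x => H0map_retract r i hir x)
      (LinearMap.ext fun x => H0map_retract i r hri x)).finrank_eq, h0]
  -- `h²(M') = h²(M)`
  have h2' : Module.finrank k (Abs.H2 D.𝒰 (D.dual M)) = Module.finrank k (Abs.H2 D.𝒰 M) :=
    ((LinearEquiv.ofLinearMap (H2map D.𝒰 i) (H2map D.𝒰 r)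
      (LinearMap.ext fun x => H2map_retract D.𝒰 r i hir x)
      (LinearMap.ext fun x => H2map_retract D.𝒰 i r hri x)).finrank_eq).symm
  -- `h²(G_v, M) = h⁰(G_v, M') = h⁰(G_v, M)`
  have hloc2 : ∀ v, Module.finrank k (D.LH2 M v) = Module.finrank k (D.LH0 M v) := fun v => by
    rw [D.finrank_LH2 h.toLocHyp M hM v]
    exact ((LinearEquiv.ofLinearMap (H0map (Rep.resMap (D.loc v) i))
      (H0map (Rep.resMap (D.loc v) r))
      (LinearMap.ext fun x => H0map_retract (Rep.resMap (D.loc v) r) (Rep.resMap (D.loc v) i)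
        hir x)
      (LinearMap.ext fun x => H0map_retract (Rep.resMap (D.loc v) i) (Rep.resMap (D.loc v) r)
        hri x)).finrank_eq).symm
  have hl0 : ∑ v, Module.finrank k (D.LH0 M v) = ∑ v, Module.finrank k (D.LH2 M v) :=
    Finset.sum_congr rfl fun v _ => (hloc2 v).symm
  have hchi := MainEq.chiLoc_eq D M
  have hT : D.T M = ((Module.finrank k (Abs.H0 M) : ℤ) - (Module.finrank k (Abs.H1 D.𝒰 M) : ℤ) +
      (Module.finrank k (Abs.H2 D.𝒰 M) : ℤ)) + ((Module.finrank k (Abs.H0 (D.dual M)) : ℤ) -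
      (Module.finrank k (Abs.H1 D.𝒰 (D.dual M)) : ℤ) +
      (Module.finrank k (Abs.H2 D.𝒰 (D.dual M)) : ℤ)) - D.chiLoc M := rfl
  have hc : chi2 D.𝒰 M = (Module.finrank k (Abs.H0 M) : ℤ) -
      (Module.finrank k (Abs.H1 D.𝒰 M) : ℤ) + (Module.finrank k (Abs.H2 D.𝒰 M) : ℤ) := rfl
  rw [hchi, hl0, h0, h0', h2'] at hT
  rw [hc, h0]
  rw [h0'] at hF1
  generalize Module.finrank k (Abs.H1 D.𝒰 M) = a1 at *
  generalize Module.finrank k (Abs.H1 D.𝒰 (D.dual M)) = a1' at *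
  generalize Module.finrank k (Abs.H2 D.𝒰 M) = a2 at *
  generalize Module.finrank k ↥(LinearMap.range (D.loc2 M)) = rk at *
  generalize Module.finrank k ↥(D.sha2 M) = s2 at *
  generalize ∑ v, Module.finrank k (D.LH2 M v) = l2 at *
  generalize ∑ v, Module.finrank k (D.LH1 M v) = l1 at *
  push_cast at hT ⊢
  omega

end Fermat.Agent.S56.EC.ChiFormal
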