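/-
S56 / brick EC (Euler characteristic), formal part on `Ш²` (helper276, own risk).

For an arbitrary counting datum `D : CData k G` of `S55/Count`:

* `H2map_mem_sha2`         : `H²(φ)` maps `Ш²(M)` into `Ш²(N)`;
* `sha2_eq_bot_of_retract` : `Ш²(X) = 0` implies `Ш²(A) = 0` for a retract `A` of `X`;
* `sha2_eq_bot_of_family`  : `Ш²(A) = 0` implies `Ш²(Aⁿ) = 0` (`Aⁿ` presented by a family of
  inclusions and projections as in `ChiFormal.chi2_family`);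
* `chi2_eq_of_sha2_eq_bot` : if `Ш²(M) = 0` then (under `D.Hyp`)
  `χ₂(M) = h⁰(M) - h¹(M) + Σ_v h⁰(G_v, M') - h⁰(M')`
  (`(F1) + (C)`: `rank loc² = Σ_v h²(G_v, M) - h⁰(M')`, and local duality in dimensions).

So for a direct summand `X_e` of `M0(K)ⁿ` at a level where `Ш²(M0(K)) = 0`, the Euler
characteristic is computed by `H⁰`, `H¹` and local `H⁰`'s only.
-/
import Fermat.Agent.S56.EC.ChiFormal

set_option autoImplicit false

open CategoryTheory groupCohomology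

namespace Fermat.Agent.S56.EC.ShaFormal

open Fermat.Agent.S55 Fermat.Agent.S55.Abs Fermat.Agent.S55.Count

variable {k G : Type} [Field k] [Group G] (D : CData k G)

/-- `H²(φ)` maps `Ш²(M)` into `Ш²(N)`. -/
theorem H2map_mem_sha2 {M N : Rep.{0} k G} (φ : M ⟶ N) {x : Abs.H2 D.𝒰 M}
    (hx : x ∈ D.sha2 M) : H2map D.𝒰 φ x ∈ D.sha2 N := by
  have hx' : D.loc2 M x = 0 := hx
  show D.loc2 N (H2map D.𝒰 φ x) = 0
  rw [D.cc_loc2_H2map φ x, hx', map_zero]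

/-- `Ш²` of a retract of a module with trivial `Ш²` is trivial. -/
theorem sha2_eq_bot_of_retract {A X : Rep.{0} k G} (i : A ⟶ X) (r : X ⟶ A)
    (hri : ∀ a, r.hom (i.hom a) = a) (hX : D.sha2 X = ⊥) : D.sha2 A = ⊥ := by
  rw [eq_bot_iff]
  intro x hx
  have h1 : H2map D.𝒰 i x ∈ D.sha2 X := H2map_mem_sha2 D i hx
  rw [hX, Submodule.mem_bot] at h1
  have h2 := H2map_retract D.𝒰 i r hri x
  rw [h1, map_zero] at h2
  exact (Submodule.mem_bot k).2 h2.symm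

/-- `Ш²(Aⁿ) = 0` if `Ш²(A) = 0`. -/
theorem sha2_eq_bot_of_family {X A : Rep.{0} k G} {n : ℕ} (ι : Fin n → (A ⟶ X))
    (π : Fin n → (X ⟶ A)) (hsum : ∀ x, ∑ i, (ι i).hom ((π i).hom x) = x)
    (hA : D.sha2 A = ⊥) : D.sha2 X = ⊥ := by
  rw [eq_bot_iff]
  intro x hx
  have h1 : ∀ i, H2map D.𝒰 (π i) x = 0 := fun i => by
    have h := H2map_mem_sha2 D (π i) hx
    rwa [hA, Submodule.mem_bot] at h
  have h2 := ChiFormal.H2map_family_sum ι π D.𝒰 hsum x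
  simp only [h1, map_zero, Finset.sum_const_zero] at h2
  exact (Submodule.mem_bot k).2 h2.symm

/-- **`χ₂` when `Ш² = 0`**: `χ₂(M) = h⁰(M) - h¹(M) + Σ_v h⁰(G_v, M') - h⁰(M')`. -/
theorem chi2_eq_of_sha2_eq_bot (h : D.Hyp) (M : Rep.{0} k G) [Module.Finite k M]
    (hM : IsDisc D.𝒰 M) (hs : D.sha2 M = ⊥) :
    chi2 D.𝒰 M = (Module.finrank k (Abs.H0 M) : ℤ) - Module.finrank k (Abs.H1 D.𝒰 M) +
      ((∑ v, Module.finrank k (D.LH0 (D.dual M) v) : ℕ) : ℤ) -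
      Module.finrank k (Abs.H0 (D.dual M)) := by
  have := h.fin_H2 M hM
  have hrk := MainEq.finrank_H2_eq D M
  have hF1 := D.F1_eq h.toLocHyp M hM (h.cprop M hM)
  have hl : ∑ v, Module.finrank k (D.LH2 M v) = ∑ v, Module.finrank k (D.LH0 (D.dual M) v) :=
    Finset.sum_congr rfl fun v _ => D.finrank_LH2 h.toLocHyp M hM v
  have hs0 : Module.finrank k ↥(D.sha2 M) = 0 := by
    rw [hs]
    exact finrank_bot k _
  have hc : chi2 D.𝒰 M = (Module.finrank k (Abs.H0 M) : ℤ) -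
      (Module.finrank k (Abs.H1 D.𝒰 M) : ℤ) + (Module.finrank k (Abs.H2 D.𝒰 M) : ℤ) := rfl
  rw [hc, hrk, hs0, ← hl]
  rw [← hF1]
  push_cast
  ring

end Fermat.Agent.S56.EC.ShaFormal
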