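/-
S56 / brick EC (Euler characteristic), formal layer for retracts of `Aⁿ` (helper276, own risk).

`D : CData k G` a counting datum of `S55/Count`, `A X : Rep k G`, and a PRESENTATION of `X` as a
retract of `Aⁿ`:  `a i : A ⟶ X`, `b i : X ⟶ A` (`i : Fin n`) with `∑ i, a i (b i x) = x`
(so `e i j := a j ≫ b i : A ⟶ A` is an idempotent matrix of endomorphisms of `A` and `X = e·Aⁿ`).

* `famOp t`                 : the matrix operator `y ↦ (i ↦ ∑ j, t i j (y j))` on `Fin n → V`;
* `finrank_eq_finrank_range_famOp` : a module presented by `α i : V → W`, `β i : W → V`,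
  `∑ α i ∘ β i = 1` has dimension `rank (famOp (β i ∘ α j))`;
* `finrank_range_famOp_le_of_injective`, `finrank_range_famOp_eq_of_equiv` : comparison of the ranks
  of two matrix operators along an intertwining injection / isomorphism;
* `H0mapL, H1mapL, H2mapL, dualH0mapL, dualLH0mapL` : the maps on (local, dual) cohomology as
  `k`-LINEAR maps in the morphism (so sums / scalar multiples of morphisms go through);
* `finrank_H0_eq, finrank_H1_eq, finrank_H2_eq, finrank_dualH0_eq, finrank_dualLH0_eq` :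
  `hⁱ(X)`, `h⁰(X')`, `h⁰(G_v, X')` as ranks of matrix operators on the cohomology of `A`, `A'`;
* `chi2_retract_eq` : if `Ш²(A) = 0` (and `D.Hyp`), then
  `χ₂(X) = rk H⁰(e) - rk H¹(e) + Σ_v rk H⁰(G_v, e') - rk H⁰(e')`,
  `e' i j = (a i ≫ b j)'` the transposed dual matrix on `A'`.
* `chi2_retract_le` : the same as an upper bound from bounds on the four ranks.
-/
import Fermat.Agent.S56.EC.ShaFormal

set_option autoImplicit false

open CategoryTheory groupCohomology

namespace Fermat.Agent.S56.EC.RetractRank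

open Fermat.Agent.S55 Fermat.Agent.S55.Abs Fermat.Agent.S55.Count

/-! ### Linear algebra: matrix operators and retracts of `Vⁿ` -/

section LinearAlgebra

variable {k : Type*} [Field k] {V W U : Type*} [AddCommGroup V] [Module k V] [AddCommGroup W]
  [Module k W] [AddCommGroup U] [Module k U] {n : ℕ}

/-- The matrix operator `y ↦ (i ↦ ∑ j, t i j (y j))` on `Fin n → V`. -/
noncomputable def famOp (t : Fin n → Fin n → (V →ₗ[k] V)) : (Fin n → V) →ₗ[k] (Fin n → V) :=
  LinearMap.pi fun i => ∑ j, (t i j) ∘ₗ (LinearMap.proj j : (Fin n → V) →ₗ[k] V)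

theorem famOp_apply (t : Fin n → Fin n → (V →ₗ[k] V)) (y : Fin n → V) (i : Fin n) :
    famOp t y i = ∑ j, t i j (y j) := by
  simp [famOp]

/-- `range (famOp (β i ∘ α j)) = range (x ↦ (β i x)_i)` for a retract presentation. -/
theorem range_famOp_eq (α : Fin n → (V →ₗ[k] W)) (β : Fin n → (W →ₗ[k] V))
    (hsum : ∀ x, ∑ i, α i (β i x) = x) :
    LinearMap.range (famOp fun i j => (β i) ∘ₗ (α j)) = LinearMap.range (LinearMap.pi β) := by
  apply le_antisymm
  · rintro _ ⟨y, rfl⟩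
    refine ⟨∑ j, α j (y j), ?_⟩
    funext i
    rw [famOp_apply, LinearMap.pi_apply, map_sum]
    rfl
  · rintro _ ⟨x, rfl⟩
    refine ⟨LinearMap.pi β x, ?_⟩
    funext i
    rw [famOp_apply]
    show ∑ j, β i (α j (β j x)) = β i x
    rw [← map_sum, hsum]

theorem pi_injective_of_sum (α : Fin n → (V →ₗ[k] W)) (β : Fin n → (W →ₗ[k] V))
    (hsum : ∀ x, ∑ i, α i (β i x) = x) : Function.Injective (LinearMap.pi β) := by
  intro x y hxy
  rw [← hsum x, ← hsum y]
  refine Finset.sum_congr rfl fun i _ => ?_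
  have h : β i x = β i y := congrFun hxy i
  rw [h]

/-- **Dimension of a retract of `Vⁿ`**: `dim W = rank (famOp (β i ∘ α j))`. -/
theorem finrank_eq_finrank_range_famOp (α : Fin n → (V →ₗ[k] W)) (β : Fin n → (W →ₗ[k] V))
    (hsum : ∀ x, ∑ i, α i (β i x) = x) :
    Module.finrank k W =
      Module.finrank k ↥(LinearMap.range (famOp fun i j => (β i) ∘ₗ (α j))) := by
  rw [range_famOp_eq α β hsum]
  exact (LinearMap.finrank_range_of_inj (pi_injective_of_sum α β hsum)).symm

/-- The diagonal map `κⁿ : Uⁿ → Vⁿ`. -/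
noncomputable def diagMap (κ : U →ₗ[k] V) (n : ℕ) : (Fin n → U) →ₗ[k] (Fin n → V) :=
  LinearMap.pi fun i => κ ∘ₗ (LinearMap.proj i : (Fin n → U) →ₗ[k] U)

theorem diagMap_apply (κ : U →ₗ[k] V) (y : Fin n → U) (i : Fin n) :
    diagMap κ n y i = κ (y i) := rfl

theorem diagMap_famOp (κ : U →ₗ[k] V) (s : Fin n → Fin n → (U →ₗ[k] U))
    (t : Fin n → Fin n → (V →ₗ[k] V)) (h : ∀ i j u, κ (s i j u) = t i j (κ u))
    (y : Fin n → U) : diagMap κ n (famOp s y) = famOp t (diagMap κ n y) := by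
  funext i
  rw [diagMap_apply, famOp_apply, famOp_apply, map_sum]
  exact Finset.sum_congr rfl fun j _ => h i j (y j)

/-- An intertwining injection `κ : U → V` gives `rank (famOp s) ≤ rank (famOp t)`. -/
theorem finrank_range_famOp_le_of_injective [FiniteDimensional k V] (κ : U →ₗ[k] V)
    (hκ : Function.Injective κ) (s : Fin n → Fin n → (U →ₗ[k] U))
    (t : Fin n → Fin n → (V →ₗ[k] V)) (h : ∀ i j u, κ (s i j u) = t i j (κ u)) :
    Module.finrank k ↥(LinearMap.range (famOp s)) ≤ Module.finrank k ↥(LinearMap.range (famOp t)) := by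
  have hmem : ∀ z : ↥(LinearMap.range (famOp s)), diagMap κ n z.1 ∈ LinearMap.range (famOp t) := by
    rintro ⟨_, y, rfl⟩
    exact ⟨diagMap κ n y, (diagMap_famOp κ s t h y).symm⟩
  let F : ↥(LinearMap.range (famOp s)) →ₗ[k] ↥(LinearMap.range (famOp t)) :=
    ((diagMap κ n).domRestrict (LinearMap.range (famOp s))).codRestrict _ hmem
  have hF : Function.Injective F := by
    intro z z' hzz'
    have h1 : diagMap κ n z.1 = diagMap κ n z'.1 := congrArg Subtype.val hzz'
    apply Subtype.ext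
    funext i
    exact hκ (congrFun h1 i)
  exact LinearMap.finrank_le_finrank_of_injective hF

/-- An intertwining isomorphism `κ : U ≃ V` gives `rank (famOp s) = rank (famOp t)`. -/
theorem finrank_range_famOp_eq_of_equiv [FiniteDimensional k V] (κ : U ≃ₗ[k] V)
    (s : Fin n → Fin n → (U →ₗ[k] U)) (t : Fin n → Fin n → (V →ₗ[k] V))
    (h : ∀ i j u, κ (s i j u) = t i j (κ u)) :
    Module.finrank k ↥(LinearMap.range (famOp s)) = Module.finrank k ↥(LinearMap.range (famOp t)) := by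
  have : FiniteDimensional k U := Module.Finite.equiv κ.symm
  apply le_antisymm
  · exact finrank_range_famOp_le_of_injective κ.toLinearMap κ.injective s t h
  · refine finrank_range_famOp_le_of_injective κ.symm.toLinearMap κ.symm.injective t s ?_
    intro i j v
    show κ.symm (t i j v) = s i j (κ.symm v)
    apply κ.injective
    rw [κ.apply_symm_apply, h, κ.apply_symm_apply]

end LinearAlgebra

/-! ### The cohomology maps as linear maps in the morphism -/

section Functors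

variable {k G : Type} [Field k] [Group G]

theorem hom_comp_apply' {M N P : Rep.{0} k G} (f : M ⟶ N) (g : N ⟶ P) (m : M) :
    (f ≫ g).hom m = g.hom (f.hom m) := rfl

theorem hom_add_apply' {M N : Rep.{0} k G} (f g : M ⟶ N) (m : M) :
    (f + g).hom m = f.hom m + g.hom m := rfl

theorem hom_smul_apply' {M N : Rep.{0} k G} (c : k) (f : M ⟶ N) (m : M) :
    (c • f).hom m = c • f.hom m := rfl

/-- `H⁰(-)`, linear in the morphism. -/
noncomputable def H0mapL (M N : Rep.{0} k G) : (M ⟶ N) →ₗ[k] (Abs.H0 M →ₗ[k] Abs.H0 N) where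
  toFun f := H0map f
  map_add' f g := by
    apply LinearMap.ext
    intro x
    apply Subtype.ext
    exact hom_add_apply' f g x.1
  map_smul' c f := by
    apply LinearMap.ext
    intro x
    apply Subtype.ext
    exact hom_smul_apply' c f x.1

@[simp] theorem H0mapL_apply {M N : Rep.{0} k G} (f : M ⟶ N) : H0mapL M N f = H0map f := rfl

theorem H0map_comp {M N P : Rep.{0} k G} (f : M ⟶ N) (g : N ⟶ P) :
    H0map (f ≫ g) = H0map g ∘ₗ H0map f := by
  apply LinearMap.ext
  intro x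
  apply Subtype.ext
  exact hom_comp_apply' f g x.1

theorem H0map_id (M : Rep.{0} k G) : H0map (𝟙 M) = LinearMap.id := by
  apply LinearMap.ext
  intro x
  apply Subtype.ext
  rfl

/-- `H¹(-)`, linear in the morphism. -/
noncomputable def H1mapL (𝒰 : LevelFamily G) (M N : Rep.{0} k G) :
    (M ⟶ N) →ₗ[k] (Abs.H1 𝒰 M →ₗ[k] Abs.H1 𝒰 N) where
  toFun f := H1map 𝒰 f
  map_add' f g := by
    apply LinearMap.ext
    intro x
    obtain ⟨z, rfl⟩ := Submodule.mkQ_surjective _ x
    show Submodule.Quotient.mk (⟨cmap₁ (f + g) z.1, cmap₁_mem_Z1 (f + g) z.2⟩ : ↥(Z1 𝒰 N)) =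
      Submodule.Quotient.mk ((⟨cmap₁ f z.1, cmap₁_mem_Z1 f z.2⟩ : ↥(Z1 𝒰 N)) +
        ⟨cmap₁ g z.1, cmap₁_mem_Z1 g z.2⟩)
    congr 1
  map_smul' c f := by
    apply LinearMap.ext
    intro x
    obtain ⟨z, rfl⟩ := Submodule.mkQ_surjective _ x
    show Submodule.Quotient.mk (⟨cmap₁ (c • f) z.1, cmap₁_mem_Z1 (c • f) z.2⟩ : ↥(Z1 𝒰 N)) =
      Submodule.Quotient.mk (c • (⟨cmap₁ f z.1, cmap₁_mem_Z1 f z.2⟩ : ↥(Z1 𝒰 N)))
    congr 1

@[simp] theorem H1mapL_apply (𝒰 : LevelFamily G) {M N : Rep.{0} k G} (f : M ⟶ N) :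
    H1mapL 𝒰 M N f = H1map 𝒰 f := rfl

theorem H1map_comp (𝒰 : LevelFamily G) {M N P : Rep.{0} k G} (f : M ⟶ N) (g : N ⟶ P) :
    H1map 𝒰 (f ≫ g) = H1map 𝒰 g ∘ₗ H1map 𝒰 f := by
  apply LinearMap.ext
  intro x
  obtain ⟨z, rfl⟩ := Submodule.mkQ_surjective _ x
  rfl

theorem H1map_id (𝒰 : LevelFamily G) (M : Rep.{0} k G) : H1map 𝒰 (𝟙 M) = LinearMap.id := by
  apply LinearMap.ext
  intro x
  obtain ⟨z, rfl⟩ := Submodule.mkQ_surjective _ x
  rfl

/-- `H²(-)`, linear in the morphism. -/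
noncomputable def H2mapL (𝒰 : LevelFamily G) (M N : Rep.{0} k G) :
    (M ⟶ N) →ₗ[k] (Abs.H2 𝒰 M →ₗ[k] Abs.H2 𝒰 N) where
  toFun f := H2map 𝒰 f
  map_add' f g := by
    apply LinearMap.ext
    intro x
    obtain ⟨z, rfl⟩ := Submodule.mkQ_surjective _ x
    show Submodule.Quotient.mk (⟨cmap₂ (f + g) z.1, cmap₂_mem_Z2 (f + g) z.2⟩ : ↥(Z2 𝒰 N)) =
      Submodule.Quotient.mk ((⟨cmap₂ f z.1, cmap₂_mem_Z2 f z.2⟩ : ↥(Z2 𝒰 N)) +
        ⟨cmap₂ g z.1, cmap₂_mem_Z2 g z.2⟩)
    congr 1
  map_smul' c f := by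
    apply LinearMap.ext
    intro x
    obtain ⟨z, rfl⟩ := Submodule.mkQ_surjective _ x
    show Submodule.Quotient.mk (⟨cmap₂ (c • f) z.1, cmap₂_mem_Z2 (c • f) z.2⟩ : ↥(Z2 𝒰 N)) =
      Submodule.Quotient.mk (c • (⟨cmap₂ f z.1, cmap₂_mem_Z2 f z.2⟩ : ↥(Z2 𝒰 N)))
    congr 1

@[simp] theorem H2mapL_apply (𝒰 : LevelFamily G) {M N : Rep.{0} k G} (f : M ⟶ N) :
    H2mapL 𝒰 M N f = H2map 𝒰 f := rfl

theorem H2map_comp (𝒰 : LevelFamily G) {M N P : Rep.{0} k G} (f : M ⟶ N) (g : N ⟶ P) :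
    H2map 𝒰 (f ≫ g) = H2map 𝒰 g ∘ₗ H2map 𝒰 f := by
  apply LinearMap.ext
  intro x
  obtain ⟨z, rfl⟩ := Submodule.mkQ_surjective _ x
  rfl

theorem H2map_id (𝒰 : LevelFamily G) (M : Rep.{0} k G) : H2map 𝒰 (𝟙 M) = LinearMap.id := by
  apply LinearMap.ext
  intro x
  obtain ⟨z, rfl⟩ := Submodule.mkQ_surjective _ x
  rfl

variable (D : CData k G)

/-- `H⁰(G, (-)')` (contravariant), linear in the morphism. -/
noncomputable def dualH0mapL (M N : Rep.{0} k G) :
    (M ⟶ N) →ₗ[k] (Abs.H0 (D.dual N) →ₗ[k] Abs.H0 (D.dual M)) where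
  toFun f := H0map (dualTwistMap D.χ f)
  map_add' f g := by
    apply LinearMap.ext
    intro x
    apply Subtype.ext
    apply LinearMap.ext
    intro m
    show (show Module.Dual k N from x.1) ((f + g).hom m) =
      (show Module.Dual k N from x.1) (f.hom m) + (show Module.Dual k N from x.1) (g.hom m)
    rw [hom_add_apply', map_add]
  map_smul' c f := by
    apply LinearMap.ext
    intro x
    apply Subtype.ext
    apply LinearMap.ext
    intro m
    show (show Module.Dual k N from x.1) ((c • f).hom m) =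
      c • (show Module.Dual k N from x.1) (f.hom m)
    rw [hom_smul_apply', map_smul]

@[simp] theorem dualH0mapL_apply {M N : Rep.{0} k G} (f : M ⟶ N) :
    dualH0mapL D M N f = H0map (dualTwistMap D.χ f) := rfl

theorem dualH0mapL_comp {M N P : Rep.{0} k G} (f : M ⟶ N) (g : N ⟶ P) :
    dualH0mapL D M P (f ≫ g) = dualH0mapL D M N f ∘ₗ dualH0mapL D N P g := by
  apply LinearMap.ext
  intro x
  apply Subtype.ext
  apply LinearMap.ext
  intro m
  rfl

theorem dualH0mapL_id (M : Rep.{0} k G) : dualH0mapL D M M (𝟙 M) = LinearMap.id := by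
  apply LinearMap.ext
  intro x
  apply Subtype.ext
  apply LinearMap.ext
  intro m
  rfl

/-- `H⁰(G_v, (-)')` (contravariant), linear in the morphism. -/
noncomputable def dualLH0mapL (v : D.ι) (M N : Rep.{0} k G) :
    (M ⟶ N) →ₗ[k] (D.LH0 (D.dual N) v →ₗ[k] D.LH0 (D.dual M) v) where
  toFun f := H0map (Rep.resMap (D.loc v) (dualTwistMap D.χ f))
  map_add' f g := by
    apply LinearMap.ext
    intro x
    apply Subtype.ext
    apply LinearMap.ext
    intro m
    show (show Module.Dual k N from x.1) ((f + g).hom m) =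
      (show Module.Dual k N from x.1) (f.hom m) + (show Module.Dual k N from x.1) (g.hom m)
    rw [hom_add_apply', map_add]
  map_smul' c f := by
    apply LinearMap.ext
    intro x
    apply Subtype.ext
    apply LinearMap.ext
    intro m
    show (show Module.Dual k N from x.1) ((c • f).hom m) =
      c • (show Module.Dual k N from x.1) (f.hom m)
    rw [hom_smul_apply', map_smul]

@[simp] theorem dualLH0mapL_apply (v : D.ι) {M N : Rep.{0} k G} (f : M ⟶ N) :
    dualLH0mapL D v M N f = H0map (Rep.resMap (D.loc v) (dualTwistMap D.χ f)) := rfl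

theorem dualLH0mapL_comp (v : D.ι) {M N P : Rep.{0} k G} (f : M ⟶ N) (g : N ⟶ P) :
    dualLH0mapL D v M P (f ≫ g) = dualLH0mapL D v M N f ∘ₗ dualLH0mapL D v N P g := by
  apply LinearMap.ext
  intro x
  apply Subtype.ext
  apply LinearMap.ext
  intro m
  rfl

theorem dualLH0mapL_id (v : D.ι) (M : Rep.{0} k G) :
    dualLH0mapL D v M M (𝟙 M) = LinearMap.id := by
  apply LinearMap.ext
  intro x
  apply Subtype.ext
  apply LinearMap.ext
  intro m
  rfl

end Functors

/-! ### Cohomology of a retract of `Aⁿ` -/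

section Retract

variable {k G : Type} [Field k] [Group G] {X A : Rep.{0} k G} {n : ℕ}
  (a : Fin n → (A ⟶ X)) (b : Fin n → (X ⟶ A))

/-- `h⁰(X) = rank H⁰(e)`, `e i j = a j ≫ b i`. -/
theorem finrank_H0_eq (hsum : ∀ x, ∑ i, (a i).hom ((b i).hom x) = x) :
    Module.finrank k (Abs.H0 X) =
      Module.finrank k ↥(LinearMap.range (famOp fun i j => H0map (a j ≫ b i))) := by
  have e : (fun i j => H0map (a j ≫ b i)) = fun i j => H0map (b i) ∘ₗ H0map (a j) := by
    funext i j
    exact H0map_comp _ _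
  rw [e]
  exact finrank_eq_finrank_range_famOp (fun i => H0map (a i)) (fun i => H0map (b i))
    (ChiFormal.H0map_family_sum a b hsum)

/-- `h¹(X) = rank H¹(e)`, `e i j = a j ≫ b i`. -/
theorem finrank_H1_eq (𝒰 : LevelFamily G) (hsum : ∀ x, ∑ i, (a i).hom ((b i).hom x) = x) :
    Module.finrank k (Abs.H1 𝒰 X) =
      Module.finrank k ↥(LinearMap.range (famOp fun i j => H1map 𝒰 (a j ≫ b i))) := by
  have e : (fun i j => H1map 𝒰 (a j ≫ b i)) = fun i j => H1map 𝒰 (b i) ∘ₗ H1map 𝒰 (a j) := by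
    funext i j
    exact H1map_comp 𝒰 _ _
  rw [e]
  exact finrank_eq_finrank_range_famOp (fun i => H1map 𝒰 (a i)) (fun i => H1map 𝒰 (b i))
    (ChiFormal.H1map_family_sum a b 𝒰 hsum)

/-- `h²(X) = rank H²(e)`, `e i j = a j ≫ b i`. -/
theorem finrank_H2_eq (𝒰 : LevelFamily G) (hsum : ∀ x, ∑ i, (a i).hom ((b i).hom x) = x) :
    Module.finrank k (Abs.H2 𝒰 X) =
      Module.finrank k ↥(LinearMap.range (famOp fun i j => H2map 𝒰 (a j ≫ b i))) := by
  have e : (fun i j => H2map 𝒰 (a j ≫ b i)) = fun i j => H2map 𝒰 (b i) ∘ₗ H2map 𝒰 (a j) := by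
    funext i j
    exact H2map_comp 𝒰 _ _
  rw [e]
  exact finrank_eq_finrank_range_famOp (fun i => H2map 𝒰 (a i)) (fun i => H2map 𝒰 (b i))
    (ChiFormal.H2map_family_sum a b 𝒰 hsum)

variable (D : CData k G)

theorem dual_family_sum (hsum : ∀ x, ∑ i, (a i).hom ((b i).hom x) = x) (f : D.dual X) :
    ∑ i, (dualTwistMap D.χ (b i)).hom ((dualTwistMap D.χ (a i)).hom f) = f := by
  apply LinearMap.ext
  intro x
  have h1 : (∑ i, (dualTwistMap D.χ (b i)).hom ((dualTwistMap D.χ (a i)).hom f) :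
      Module.Dual k X) x = ∑ i, (show Module.Dual k X from f) ((a i).hom ((b i).hom x)) := by
    rw [LinearMap.sum_apply]
    rfl
  rw [h1, ← map_sum, hsum]

/-- `h⁰(G, X') = rank H⁰(e')`, `e' i j = (a i ≫ b j)'` on `A'`. -/
theorem finrank_dualH0_eq (hsum : ∀ x, ∑ i, (a i).hom ((b i).hom x) = x) :
    Module.finrank k (Abs.H0 (D.dual X)) =
      Module.finrank k ↥(LinearMap.range (famOp fun i j => dualH0mapL D A A (a i ≫ b j))) := by
  have e : (fun i j => dualH0mapL D A A (a i ≫ b j)) =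
      fun i j => dualH0mapL D A X (a i) ∘ₗ dualH0mapL D X A (b j) := by
    funext i j
    exact dualH0mapL_comp D _ _
  rw [e]
  exact finrank_eq_finrank_range_famOp (fun i => dualH0mapL D X A (b i))
    (fun i => dualH0mapL D A X (a i)) (fun x => by
      apply Subtype.ext
      rw [Submodule.coe_sum]
      exact dual_family_sum a b D hsum x.1)

/-- `h⁰(G_v, X') = rank H⁰(G_v, e')`, `e' i j = (a i ≫ b j)'` on `A'`. -/
theorem finrank_dualLH0_eq (hsum : ∀ x, ∑ i, (a i).hom ((b i).hom x) = x) (v : D.ι) :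
    Module.finrank k (D.LH0 (D.dual X) v) =
      Module.finrank k ↥(LinearMap.range (famOp fun i j => dualLH0mapL D v A A (a i ≫ b j))) := by
  have e : (fun i j => dualLH0mapL D v A A (a i ≫ b j)) =
      fun i j => dualLH0mapL D v A X (a i) ∘ₗ dualLH0mapL D v X A (b j) := by
    funext i j
    exact dualLH0mapL_comp D v _ _
  rw [e]
  exact finrank_eq_finrank_range_famOp (fun i => dualLH0mapL D v X A (b i))
    (fun i => dualLH0mapL D v A X (a i)) (fun x => by
      apply Subtype.ext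
      rw [Submodule.coe_sum]
      exact dual_family_sum a b D hsum x.1)

/-- **`χ₂` of a retract of `Aⁿ` with `Ш²(A) = 0`**:
`χ₂(X) = rk H⁰(e) - rk H¹(e) + Σ_v rk H⁰(G_v, e') - rk H⁰(e')`. -/
theorem chi2_retract_eq (h : D.Hyp) [Module.Finite k X] (hX : IsDisc D.𝒰 X)
    (hsum : ∀ x, ∑ i, (a i).hom ((b i).hom x) = x) (hsA : D.sha2 A = ⊥) :
    chi2 D.𝒰 X =
      (Module.finrank k ↥(LinearMap.range (famOp fun i j => H0map (a j ≫ b i))) : ℤ) -
        Module.finrank k ↥(LinearMap.range (famOp fun i j => H1map D.𝒰 (a j ≫ b i))) +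
        ((∑ v, Module.finrank k
          ↥(LinearMap.range (famOp fun i j => dualLH0mapL D v A A (a i ≫ b j))) : ℕ) : ℤ) -
        Module.finrank k ↥(LinearMap.range (famOp fun i j => dualH0mapL D A A (a i ≫ b j))) := by
  have hsX : D.sha2 X = ⊥ := ShaFormal.sha2_eq_bot_of_family D a b hsum hsA
  rw [ShaFormal.chi2_eq_of_sha2_eq_bot D h X hX hsX, finrank_H0_eq a b hsum,
    finrank_H1_eq a b D.𝒰 hsum, finrank_dualH0_eq a b D hsum,
    Finset.sum_congr rfl fun v _ => finrank_dualLH0_eq a b D hsum v]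

/-- `χ₂(X) ≤ r₀ - r₁ + r_S - r₀'` from bounds on the four ranks. -/
theorem chi2_retract_le (h : D.Hyp) [Module.Finite k X] (hX : IsDisc D.𝒰 X)
    (hsum : ∀ x, ∑ i, (a i).hom ((b i).hom x) = x) (hsA : D.sha2 A = ⊥) (r₀ r₁ rS r₀' : ℕ)
    (h0 : Module.finrank k ↥(LinearMap.range (famOp fun i j => H0map (a j ≫ b i))) ≤ r₀)
    (h1 : r₁ ≤ Module.finrank k ↥(LinearMap.range (famOp fun i j => H1map D.𝒰 (a j ≫ b i))))
    (hS : ∑ v, Module.finrank k
      ↥(LinearMap.range (famOp fun i j => dualLH0mapL D v A A (a i ≫ b j))) ≤ rS)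
    (h0' : r₀' ≤ Module.finrank k
      ↥(LinearMap.range (famOp fun i j => dualH0mapL D A A (a i ≫ b j)))) :
    chi2 D.𝒰 X ≤ (r₀ : ℤ) - r₁ + rS - r₀' := by
  rw [chi2_retract_eq a b D h hX hsum hsA]
  have e0 : (Module.finrank k ↥(LinearMap.range (famOp fun i j => H0map (a j ≫ b i))) : ℤ) ≤ r₀ := by
    exact_mod_cast h0
  have e1 : (r₁ : ℤ) ≤
      Module.finrank k ↥(LinearMap.range (famOp fun i j => H1map D.𝒰 (a j ≫ b i))) := by
    exact_mod_cast h1
  have eS : ((∑ v, Module.finrank k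
      ↥(LinearMap.range (famOp fun i j => dualLH0mapL D v A A (a i ≫ b j))) : ℕ) : ℤ) ≤ rS := by
    exact_mod_cast hS
  have e0' : (r₀' : ℤ) ≤ Module.finrank k
      ↥(LinearMap.range (famOp fun i j => dualH0mapL D A A (a i ≫ b j))) := by
    exact_mod_cast h0'
  linarith

end Retract

end Fermat.Agent.S56.EC.RetractRank
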