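/-
S56 / brick EC, row EC.6a (helper39): the generic rank calculus used by the base assembly
`EC/Base.lean`.  Vocabulary: `RetractRank.famOp` (helper276).

* `finrank_range_eq_of_adjoint`, `finrank_range_famOp_eq_of_adjoint` : two (matrix) operators
  which are adjoint for a perfect pairing have the same rank ("row rank = column rank");
* `finrank_range_famOp_prod`, `finrank_range_famOp_pi` : the rank of a matrix operator on a
  product is the sum of the ranks;
* `comb T x` : the operator `∑ γ, x γ • T γ` of a group-algebra element `x` through a family of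
  endomorphisms; `asAlgebraHom_eq_comb`, `comb_intertwine`, `comb_adjoint`, `map_combHom`;
* `rk ρ ε` : the rank of the matrix `ε ∈ M_n(k[Γ])` on `Wⁿ`, `W` a representation of `Γ`;
  `rk_le_of_injective`, `rk_eq_of_equiv`, `rk_prod`, `rk_add_rk_compl`.
-/
import Fermat.Agent.S56.EC.RetractRank

set_option autoImplicit false

namespace Fermat.Agent.S56.EC.RankAdapt

open Fermat.Agent.S56.EC.RetractRank

variable {k : Type*} [Field k]

/-! ### Adjoint operators have the same rank -/

section Adjoint

/-- Two operators adjoint for a pairing which is non-degenerate on both sides have the same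
rank. -/
theorem finrank_range_eq_of_adjoint {V W : Type*} [AddCommGroup V] [Module k V]
    [AddCommGroup W] [Module k W] [Module.Finite k V] [Module.Finite k W]
    (β : V →ₗ[k] W →ₗ[k] k) (hl : ∀ v, (∀ w, β v w = 0) → v = 0)
    (hr : ∀ w, (∀ v, β v w = 0) → w = 0) (S : V →ₗ[k] V) (T : W →ₗ[k] W)
    (hST : ∀ v w, β (S v) w = β v (T w)) :
    Module.finrank k ↥(LinearMap.range S) = Module.finrank k ↥(LinearMap.range T) := by
  have hinjV : Function.Injective β := by
    rw [← LinearMap.ker_eq_bot, LinearMap.ker_eq_bot']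
    intro v hv
    exact hl v fun w => by rw [hv]; rfl
  have hinjW : Function.Injective β.flip := by
    rw [← LinearMap.ker_eq_bot, LinearMap.ker_eq_bot']
    intro w hw
    exact hr w fun v => by
      have h := LinearMap.congr_fun hw v
      exact h
  have h1 : Module.finrank k V ≤ Module.finrank k W := by
    have h := LinearMap.finrank_le_finrank_of_injective hinjV
    rwa [Subspace.dual_finrank_eq] at h
  have h2 : Module.finrank k W ≤ Module.finrank k V := by
    have h := LinearMap.finrank_le_finrank_of_injective hinjW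
    rwa [Subspace.dual_finrank_eq] at h
  have hbij : Function.Bijective β.flip := by
    refine ⟨hinjW, ?_⟩
    rw [← LinearMap.range_eq_top]
    apply Submodule.eq_top_of_finrank_eq
    rw [LinearMap.finrank_range_of_inj hinjW, Subspace.dual_finrank_eq]
    omega
  let e : W ≃ₗ[k] Module.Dual k V := LinearEquiv.ofBijective β.flip hbij
  have hconj : ∀ w, e (T w) = S.dualMap (e w) := by
    intro w
    apply LinearMap.ext
    intro v
    show β v (T w) = β (S v) w
    rw [hST]
  have hrange : Module.finrank k ↥(LinearMap.range T) =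
      Module.finrank k ↥(LinearMap.range S.dualMap) := by
    have hmap : (LinearMap.range T).map e.toLinearMap = LinearMap.range S.dualMap := by
      ext φ
      constructor
      · rintro ⟨_, ⟨w, rfl⟩, rfl⟩
        exact ⟨e w, (hconj w).symm⟩
      · rintro ⟨ψ, rfl⟩
        refine ⟨T (e.symm ψ), ⟨_, rfl⟩, ?_⟩
        show e (T (e.symm ψ)) = _
        rw [hconj, e.apply_symm_apply]
    rw [← hmap]
    exact (LinearEquiv.finrank_map_eq e (LinearMap.range T)).symm
  rw [hrange, LinearMap.finrank_range_dualMap_eq_finrank_range]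

variable {V W : Type*} [AddCommGroup V] [Module k V] [AddCommGroup W] [Module k W] {n : ℕ}

/-- The pairing `∑ i, β (x i) (y i)` on `Vⁿ × Wⁿ`. -/
noncomputable def pairN (β : V →ₗ[k] W →ₗ[k] k) (n : ℕ) :
    (Fin n → V) →ₗ[k] (Fin n → W) →ₗ[k] k :=
  LinearMap.mk₂ k (fun x y => ∑ i, β (x i) (y i))
    (fun x x' y => by simp [Finset.sum_add_distrib])
    (fun c x y => by simp [Finset.mul_sum])
    (fun x y y' => by simp [Finset.sum_add_distrib])
    (fun c x y => by simp [Finset.mul_sum])

theorem pairN_apply (β : V →ₗ[k] W →ₗ[k] k) (x : Fin n → V) (y : Fin n → W) :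
    pairN β n x y = ∑ i, β (x i) (y i) := rfl

/-- **Row rank = column rank** for matrix operators: if `β (s i j v) w = β v (t j i w)` for a
perfect pairing `β`, then `famOp s` and `famOp t` have the same rank. -/
theorem finrank_range_famOp_eq_of_adjoint [Module.Finite k V] [Module.Finite k W]
    (β : V →ₗ[k] W →ₗ[k] k) (hl : ∀ v, (∀ w, β v w = 0) → v = 0)
    (hr : ∀ w, (∀ v, β v w = 0) → w = 0)
    (s : Fin n → Fin n → (V →ₗ[k] V)) (t : Fin n → Fin n → (W →ₗ[k] W))
    (h : ∀ i j v w, β (s i j v) w = β v (t j i w)) :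
    Module.finrank k ↥(LinearMap.range (famOp s)) =
      Module.finrank k ↥(LinearMap.range (famOp t)) := by
  classical
  refine finrank_range_eq_of_adjoint (pairN β n) ?_ ?_ (famOp s) (famOp t) ?_
  · intro x hx
    funext j
    apply hl
    intro w
    have h1 := hx (Pi.single j w)
    rw [pairN_apply, Finset.sum_eq_single j] at h1
    · simpa using h1
    · intro i _ hi
      rw [Pi.single_eq_of_ne hi, map_zero]
    · intro h'
      exact absurd (Finset.mem_univ j) h'
  · intro y hy
    funext j
    apply hr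
    intro v
    have h1 := hy (Pi.single j v)
    rw [pairN_apply, Finset.sum_eq_single j] at h1
    · simpa using h1
    · intro i _ hi
      rw [Pi.single_eq_of_ne hi, map_zero, LinearMap.zero_apply]
    · intro h'
      exact absurd (Finset.mem_univ j) h'
  · intro x y
    rw [pairN_apply, pairN_apply]
    have e1 : ∀ i, β (famOp s x i) (y i) = ∑ j, β (x j) (t j i (y i)) := by
      intro i
      rw [famOp_apply, map_sum, LinearMap.sum_apply]
      exact Finset.sum_congr rfl fun j _ => h i j (x j) (y i)
    have e2 : ∀ j, β (x j) (famOp t y j) = ∑ i, β (x j) (t j i (y i)) := by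
      intro j
      rw [famOp_apply, map_sum]
    rw [Finset.sum_congr rfl fun i _ => e1 i, Finset.sum_congr rfl fun j _ => e2 j]
    exact Finset.sum_comm

end Adjoint

/-! ### Ranks on products -/

section Products

variable {V W : Type*} [AddCommGroup V] [Module k V] [AddCommGroup W] [Module k W] {n : ℕ}

/-- The rank of a matrix operator on `V × W` with diagonal entries is the sum of the ranks. -/
theorem finrank_range_famOp_prod [Module.Finite k V] [Module.Finite k W]
    (s : Fin n → Fin n → (V →ₗ[k] V)) (t : Fin n → Fin n → (W →ₗ[k] W)) :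
    Module.finrank k ↥(LinearMap.range (famOp fun i j => (s i j).prodMap (t i j))) =
      Module.finrank k ↥(LinearMap.range (famOp s)) +
        Module.finrank k ↥(LinearMap.range (famOp t)) := by
  have hfst : ∀ (y : Fin n → V × W) (i : Fin n),
      (famOp (fun i j => (s i j).prodMap (t i j)) y i).1 = famOp s (fun j => (y j).1) i := by
    intro y i
    rw [famOp_apply, famOp_apply, Prod.fst_sum]
    rfl
  have hsnd : ∀ (y : Fin n → V × W) (i : Fin n),
      (famOp (fun i j => (s i j).prodMap (t i j)) y i).2 = famOp t (fun j => (y j).2) i := by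
    intro y i
    rw [famOp_apply, famOp_apply, Prod.snd_sum]
    rfl
  let F : ↥(LinearMap.range (famOp fun i j => (s i j).prodMap (t i j))) →ₗ[k]
      ↥(LinearMap.range (famOp s)) × ↥(LinearMap.range (famOp t)) :=
    { toFun := fun z =>
        (⟨fun i => (z.1 i).1, by
            obtain ⟨y, hy⟩ := z.2
            exact ⟨fun j => (y j).1, funext fun i => by rw [← hy, hfst]⟩⟩,
          ⟨fun i => (z.1 i).2, by
            obtain ⟨y, hy⟩ := z.2
            exact ⟨fun j => (y j).2, funext fun i => by rw [← hy, hsnd]⟩⟩)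
      map_add' := fun _ _ => rfl
      map_smul' := fun _ _ => rfl }
  have hF : Function.Bijective F := by
    constructor
    · intro z z' hzz'
      apply Subtype.ext
      funext i
      have h1 : (F z).1.1 i = (F z').1.1 i := by rw [hzz']
      have h2 : (F z).2.1 i = (F z').2.1 i := by rw [hzz']
      exact Prod.ext h1 h2
    · rintro ⟨⟨x, y, rfl⟩, ⟨x', y', rfl⟩⟩
      refine ⟨⟨fun i => (famOp s y i, famOp t y' i), fun j => (y j, y' j), ?_⟩, rfl⟩
      funext i
      exact Prod.ext (hfst _ i) (hsnd _ i)
  rw [LinearEquiv.finrank_eq (LinearEquiv.ofBijective F hF), Module.finrank_prod]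

/-- The rank of a matrix operator on a finite product with diagonal entries is the sum of the
ranks. -/
theorem finrank_range_famOp_pi {ι : Type*} [Fintype ι] {H : ι → Type*}
    [∀ v, AddCommGroup (H v)] [∀ v, Module k (H v)] [∀ v, Module.Finite k (H v)]
    (t : ∀ v, Fin n → Fin n → (H v →ₗ[k] H v)) :
    Module.finrank k ↥(LinearMap.range (famOp fun i j =>
        (LinearMap.pi fun v => (t v i j) ∘ₗ LinearMap.proj v : (∀ v, H v) →ₗ[k] (∀ v, H v)))) =
      ∑ v, Module.finrank k ↥(LinearMap.range (famOp (t v))) := by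
  classical
  have hv : ∀ (y : Fin n → ∀ v, H v) (i : Fin n) (v : ι),
      famOp (fun i j =>
        (LinearMap.pi fun v => (t v i j) ∘ₗ LinearMap.proj v : (∀ v, H v) →ₗ[k] (∀ v, H v)))
        y i v = famOp (t v) (fun j => y j v) i := by
    intro y i v
    rw [famOp_apply, famOp_apply, Finset.sum_apply]
    rfl
  let F : ↥(LinearMap.range (famOp fun i j =>
        (LinearMap.pi fun v => (t v i j) ∘ₗ LinearMap.proj v : (∀ v, H v) →ₗ[k] (∀ v, H v)))) →ₗ[k]
      (∀ v, ↥(LinearMap.range (famOp (t v)))) :=
    { toFun := fun z v => ⟨fun i => z.1 i v, by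
        obtain ⟨y, hy⟩ := z.2
        exact ⟨fun j => y j v, funext fun i => by rw [← hy, hv]⟩⟩
      map_add' := fun _ _ => rfl
      map_smul' := fun _ _ => rfl }
  have hF : Function.Bijective F := by
    constructor
    · intro z z' hzz'
      apply Subtype.ext
      funext i v
      have h1 : (F z v).1 i = (F z' v).1 i := by rw [hzz']
      exact h1
    · intro w
      have hw : ∀ v, ∃ y : Fin n → H v, famOp (t v) y = (w v).1 := fun v => (w v).2
      choose y hy using hw
      refine ⟨⟨fun i v => (w v).1 i, fun j v => y v j, ?_⟩, rfl⟩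
      funext i v
      rw [hv, hy]
  rw [LinearEquiv.finrank_eq (LinearEquiv.ofBijective F hF), Module.finrank_pi_fintype]

end Products

/-! ### Group-algebra elements acting through a family of endomorphisms -/

section Comb

variable {Γ : Type*} [Group Γ] {W H : Type*} [AddCommGroup W] [Module k W]
  [AddCommGroup H] [Module k H]

/-- The operator `∑ γ, x γ • T γ` of `x ∈ k[Γ]` through a family `T γ` of endomorphisms. -/
noncomputable def comb (T : Γ → (H →ₗ[k] H)) (x : MonoidAlgebra k Γ) : H →ₗ[k] H :=
  x.coeff.sum fun γ c => c • T γ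

theorem comb_apply (T : Γ → (H →ₗ[k] H)) (x : MonoidAlgebra k Γ) (h : H) :
    comb T x h = x.coeff.sum fun γ c => c • T γ h := by
  rw [comb, Finsupp.sum, Finsupp.sum, LinearMap.sum_apply]
  rfl

theorem asAlgebraHom_eq_comb (ρ : Representation k Γ W) (x : MonoidAlgebra k Γ) :
    ρ.asAlgebraHom x = comb (fun γ => ρ γ) x := by
  rw [Representation.asAlgebraHom_def, MonoidAlgebra.lift_apply]
  rfl

/-- A map intertwining the families intertwines the operators of every `x ∈ k[Γ]`. -/
theorem comb_intertwine (κ : W →ₗ[k] H) (T : Γ → (W →ₗ[k] W)) (T' : Γ → (H →ₗ[k] H))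
    (h : ∀ γ w, κ (T γ w) = T' γ (κ w)) (x : MonoidAlgebra k Γ) (w : W) :
    κ (comb T x w) = comb T' x (κ w) := by
  rw [comb_apply, comb_apply, Finsupp.sum, Finsupp.sum, map_sum]
  refine Finset.sum_congr rfl fun γ _ => ?_
  rw [map_smul, h]

/-- Adjoint families give adjoint operators. -/
theorem comb_adjoint (β : W →ₗ[k] H →ₗ[k] k) (T : Γ → (W →ₗ[k] W)) (T' : Γ → (H →ₗ[k] H))
    (h : ∀ γ w v, β (T γ w) v = β w (T' γ v)) (x : MonoidAlgebra k Γ) (w : W) (v : H) :
    β (comb T x w) v = β w (comb T' x v) := by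
  rw [comb_apply, comb_apply, Finsupp.sum, Finsupp.sum, map_sum, map_sum, LinearMap.sum_apply]
  refine Finset.sum_congr rfl fun γ _ => ?_
  rw [map_smul, map_smul, LinearMap.smul_apply, h]

/-- A linear "functor" `Φ` sends the combination `∑ γ, x γ • M γ` to `comb (Φ ∘ M) x`. -/
theorem map_combHom {Hom : Type*} [AddCommGroup Hom] [Module k Hom]
    (Φ : Hom →ₗ[k] (H →ₗ[k] H)) (M : Γ → Hom) (x : MonoidAlgebra k Γ) :
    Φ (x.coeff.sum fun γ c => c • M γ) = comb (fun γ => Φ (M γ)) x := by
  rw [comb, Finsupp.sum, Finsupp.sum, map_sum]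
  refine Finset.sum_congr rfl fun γ _ => ?_
  rw [map_smul]

variable {n : ℕ}

/-- The rank of `ε ∈ M_n(k[Γ])` on `Wⁿ`, for a representation `ρ` of `Γ` on `W`. -/
noncomputable def rk (ρ : Representation k Γ W) (ε : Matrix (Fin n) (Fin n) (MonoidAlgebra k Γ)) :
    ℕ :=
  Module.finrank k ↥(LinearMap.range (famOp fun i j => ρ.asAlgebraHom (ε i j)))

theorem rk_eq_comb (ρ : Representation k Γ W) (ε : Matrix (Fin n) (Fin n) (MonoidAlgebra k Γ)) :
    rk ρ ε = Module.finrank k ↥(LinearMap.range (famOp fun i j => comb (fun γ => ρ γ) (ε i j))) := by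
  unfold rk
  rw [show (fun i j => ρ.asAlgebraHom (ε i j)) = fun i j => comb (fun γ => ρ γ) (ε i j) from
    funext fun i => funext fun j => asAlgebraHom_eq_comb ρ (ε i j)]

/-- Comparison of `rk ρ ε` with the rank of a matrix of operators along an injection which
intertwines `ρ γ` with `T γ`. -/
theorem rk_le_of_injective [FiniteDimensional k H] (ρ : Representation k Γ W)
    (T : Γ → (H →ₗ[k] H)) (κ : W →ₗ[k] H) (hκ : Function.Injective κ)
    (h : ∀ γ w, κ (ρ γ w) = T γ (κ w)) (ε : Matrix (Fin n) (Fin n) (MonoidAlgebra k Γ)) :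
    rk ρ ε ≤ Module.finrank k ↥(LinearMap.range (famOp fun i j => comb T (ε i j))) := by
  rw [rk_eq_comb]
  exact finrank_range_famOp_le_of_injective κ hκ _ _
    (fun i j w => comb_intertwine κ (fun γ => ρ γ) T h (ε i j) w)

/-- Comparison of `rk ρ ε` with the rank of a matrix of operators along an isomorphism which
intertwines `ρ γ` with `T γ`. -/
theorem rk_eq_of_equiv [FiniteDimensional k H] (ρ : Representation k Γ W)
    (T : Γ → (H →ₗ[k] H)) (κ : W ≃ₗ[k] H)
    (h : ∀ γ w, κ (ρ γ w) = T γ (κ w)) (ε : Matrix (Fin n) (Fin n) (MonoidAlgebra k Γ)) :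
    rk ρ ε = Module.finrank k ↥(LinearMap.range (famOp fun i j => comb T (ε i j))) := by
  rw [rk_eq_comb]
  exact finrank_range_famOp_eq_of_equiv κ _ _
    (fun i j w => comb_intertwine κ.toLinearMap (fun γ => ρ γ) T h (ε i j) w)

/-- **Transposed comparison**: if `T' γ` is adjoint to `ρ γ` for a perfect pairing, the
transposed matrix of operators `(i, j) ↦ comb T' (ε j i)` has rank `rk ρ ε`. -/
theorem rk_eq_of_adjoint [Module.Finite k W] [Module.Finite k H] (ρ : Representation k Γ W)
    (T' : Γ → (H →ₗ[k] H)) (β : W →ₗ[k] H →ₗ[k] k) (hl : ∀ v, (∀ w, β v w = 0) → v = 0)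
    (hr : ∀ w, (∀ v, β v w = 0) → w = 0) (h : ∀ γ w v, β (ρ γ w) v = β w (T' γ v))
    (ε : Matrix (Fin n) (Fin n) (MonoidAlgebra k Γ)) :
    rk ρ ε = Module.finrank k ↥(LinearMap.range (famOp fun i j => comb T' (ε j i))) := by
  rw [rk_eq_comb]
  exact finrank_range_famOp_eq_of_adjoint β hl hr _ _
    (fun i j w v => comb_adjoint β (fun γ => ρ γ) T' h (ε i j) w v)

end Comb

end Fermat.Agent.S56.EC.RankAdapt
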