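/-
S56 / brick EC, row EC.6a (helper39): the `ω`-twisted action of `Γ = Aut(K/ℚ)` on `M0(K)` and the
idempotent matrix `ε ∈ M_n(𝔽_p[Γ])` of a retract of `M0(K)ⁿ`.

`K ≤ ℚ̄` an intermediate field containing `μ_p`, `U = G_K = K.fixingSubgroup`, `A = M0(K)`.

* `gLift K γ : GQ`, `gN K γ : Nrm U` : a lift of `γ ∈ Γ` (it normalises `U`);
* `resNrm K g : Γ` : the restriction to `K` of an element of the normaliser of `U`;
* `chiK K hcyc : Γ →* (ZMod p)ˣ` : the mod `p` cyclotomic character of `Γ`;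
* `Tmor K hcyc γ : A ⟶ A` : the twisted translation `ω(γ) • lt (gN γ)`;
  `Tmor_eq_of_restrict` : `Tmor γ = ω(g) • lt g` for EVERY `g ∈ Nrm U` restricting to `γ`;
* `twRep K hcyc : Representation (ZMod p) Γ A` : `γ ↦ Tmor γ`; it is faithful on the group
  algebra (`comb_twRep_injective`);
* `homL` : the underlying linear map of a morphism, linear in the morphism;
* `exists_eps` : for a family presentation `a i : A ⟶ X`, `b i : X ⟶ A`, `∑ a i ∘ b i = 1`, whose
  matrix entries `b i ∘ a j` are combinations of left translations (the hypothesis of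
  `EPSigma`), there is an IDEMPOTENT matrix `ε ∈ M_n(𝔽_p[Γ])` with
  `a j ≫ b i = ∑ γ, ε i j γ • Tmor γ`.
-/
import Fermat.Agent.S56.EC.RankAdapt
import Fermat.Agent.S56.EC.CoindAction
import Fermat.Agent.S55.Glue.DualTwist

set_option autoImplicit false

open CategoryTheory ExtCitation

namespace Fermat.Agent.S56.EC.Twist

open Fermat.Agent.S55 Fermat.Agent.S55.Abs Fermat.Agent.S55.Glue
  Fermat.Agent.S56.EC.CoindAction Fermat.Agent.S56.EC.RankAdapt

local notation "Qb" => AlgebraicClosure ℚ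

local instance isAlgebraicQbar_tw : Algebra.IsAlgebraic ℚ (AlgebraicClosure ℚ) :=
  AlgebraicClosure.isAlgebraic ℚ
local instance isAlgClosureQbar_tw : IsAlgClosure ℚ (AlgebraicClosure ℚ) :=
  ⟨inferInstance, inferInstance⟩
local instance normalQbar_tw : Normal ℚ (AlgebraicClosure ℚ) :=
  IsAlgClosure.normal ℚ (AlgebraicClosure ℚ)

variable {p : ℕ} [Fact p.Prime] (K : IntermediateField ℚ Qb)

/-! ### Lifts of automorphisms of `K` -/

/-- A lift to `Gal(ℚ̄/ℚ)` of an automorphism of `K`. -/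
noncomputable def gLift (γ : ↥K ≃ₐ[ℚ] ↥K) : GQ := γ.liftNormal Qb

theorem gLift_apply (γ : ↥K ≃ₐ[ℚ] ↥K) (x : ↥K) : gLift K γ (x : Qb) = ((γ x : ↥K) : Qb) :=
  AlgEquiv.liftNormal_commutes γ Qb x

/-- Two elements of `GQ` with the same restriction to `K` differ by an element of `G_K`. -/
theorem inv_mul_mem_of_restrict {g h : GQ} (γ : ↥K ≃ₐ[ℚ] ↥K)
    (hg : ∀ a : ↥K, g (a : Qb) = ((γ a : ↥K) : Qb))
    (hh : ∀ a : ↥K, h (a : Qb) = ((γ a : ↥K) : Qb)) : g⁻¹ * h ∈ K.fixingSubgroup := by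
  rw [IntermediateField.mem_fixingSubgroup_iff]
  intro x hx
  show g⁻¹ (h x) = x
  rw [hh ⟨x, hx⟩, ← hg ⟨x, hx⟩]
  show (g⁻¹ * g) x = x
  rw [inv_mul_cancel]
  rfl

/-- An element restricting to an automorphism of `K` maps `K` into `K`, as does its inverse. -/
theorem inv_apply_of_restrict {g : GQ} (γ : ↥K ≃ₐ[ℚ] ↥K)
    (hg : ∀ a : ↥K, g (a : Qb) = ((γ a : ↥K) : Qb)) (a : ↥K) :
    g⁻¹ (a : Qb) = ((γ.symm a : ↥K) : Qb) := by
  have h := hg (γ.symm a)
  rw [γ.apply_symm_apply] at h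
  rw [← h]
  show (g⁻¹ * g) _ = _
  rw [inv_mul_cancel]
  rfl

/-- An element of `GQ` restricting to an automorphism of `K` normalises `G_K`. -/
theorem mem_nrm_of_restrict {g : GQ} (γ : ↥K ≃ₐ[ℚ] ↥K)
    (hg : ∀ a : ↥K, g (a : Qb) = ((γ a : ↥K) : Qb)) : g ∈ Nrm K.fixingSubgroup := by
  have key : ∀ (g' : GQ) (γ' : ↥K ≃ₐ[ℚ] ↥K), (∀ a : ↥K, g' (a : Qb) = ((γ' a : ↥K) : Qb)) →
      (∀ a : ↥K, g'⁻¹ (a : Qb) = ((γ'.symm a : ↥K) : Qb)) →
      ∀ u ∈ K.fixingSubgroup, g' * u * g'⁻¹ ∈ K.fixingSubgroup := by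
    intro g' γ' h1 h2 u hu
    rw [IntermediateField.mem_fixingSubgroup_iff] at hu ⊢
    intro x hx
    show g' (u (g'⁻¹ x)) = x
    rw [h2 ⟨x, hx⟩, hu _ (γ'.symm ⟨x, hx⟩).2, h1, γ'.apply_symm_apply]
  rw [Subgroup.mem_normalizer_iff]
  intro u
  constructor
  · exact key g γ hg (inv_apply_of_restrict K γ hg) u
  · intro hu
    have h := key g⁻¹ γ.symm (inv_apply_of_restrict K γ hg)
      (fun a => by rw [inv_inv, hg]; rfl) _ hu
    have e : g⁻¹ * (g * u * g⁻¹) * g⁻¹⁻¹ = u := by group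
    rwa [e] at h

theorem gLift_mem_nrm (γ : ↥K ≃ₐ[ℚ] ↥K) : gLift K γ ∈ Nrm K.fixingSubgroup :=
  mem_nrm_of_restrict K γ (gLift_apply K γ)

/-- The lift of `γ`, as an element of the normaliser of `G_K`. -/
noncomputable def gN (γ : ↥K ≃ₐ[ℚ] ↥K) : ↥(Nrm K.fixingSubgroup) := ⟨gLift K γ, gLift_mem_nrm K γ⟩

theorem gN_coe (γ : ↥K ≃ₐ[ℚ] ↥K) : ((gN K γ : ↥(Nrm K.fixingSubgroup)) : GQ) = gLift K γ := rfl

/-! ### Restriction of the normaliser of `G_K` to `K` -/

/-- The normaliser of `G_K` maps `K` into `K`. -/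
theorem apply_mem_of_mem_nrm {g : GQ} (hg : g ∈ Nrm K.fixingSubgroup) {x : Qb} (hx : x ∈ K) :
    g x ∈ K := by
  rw [← InfiniteGalois.fixedField_fixingSubgroup K, IntermediateField.mem_fixedField_iff]
  intro u hu
  have h1 : g⁻¹ * u * g ∈ K.fixingSubgroup := inv_mul_mul_mem hg hu
  rw [IntermediateField.mem_fixingSubgroup_iff] at h1
  have h2 : (g⁻¹ * u * g) x = x := h1 x hx
  have h3 : u (g x) = g ((g⁻¹ * u * g) x) := by
    show u (g x) = g (g⁻¹ (u (g x)))
    show u (g x) = (g * g⁻¹) (u (g x))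
    rw [mul_inv_cancel]
    rfl
  rw [h3, h2]

/-- The algebra endomorphism of `K` induced by an element of the normaliser of `G_K`. -/
noncomputable def resHom (g : ↥(Nrm K.fixingSubgroup)) : ↥K →ₐ[ℚ] ↥K :=
  AlgHom.codRestrict (((g : GQ) : Qb →ₐ[ℚ] Qb).comp K.val) K.toSubalgebra
    (fun x => apply_mem_of_mem_nrm K g.2 x.2)

/-- The restriction to `K` of an element of the normaliser of `G_K`. -/
noncomputable def resNrm (g : ↥(Nrm K.fixingSubgroup)) : ↥K ≃ₐ[ℚ] ↥K :=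
  haveI : Algebra.IsAlgebraic ℚ ↥K := Algebra.IsAlgebraic.of_injective K.val K.val.injective
  AlgEquiv.ofBijective (resHom K g) (Algebra.IsAlgebraic.algHom_bijective (resHom K g))

theorem resNrm_apply (g : ↥(Nrm K.fixingSubgroup)) (a : ↥K) :
    (g : GQ) (a : Qb) = ((resNrm K g a : ↥K) : Qb) := rfl

/-! ### The cyclotomic character of `Γ` -/

/-- The mod `p` cyclotomic character of an element restricting to the identity of `K ⊇ μ_p`. -/
theorem cycloChar_eq_of_restrict (hcyc : cycloField p ≤ K) {g h : GQ} (γ : ↥K ≃ₐ[ℚ] ↥K)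
    (hg : ∀ a : ↥K, g (a : Qb) = ((γ a : ↥K) : Qb))
    (hh : ∀ a : ↥K, h (a : Qb) = ((γ a : ↥K) : Qb)) : cycloChar p g = cycloChar p h := by
  have h1 := cycloChar_eq_one_of_mem_fixingSubgroup p
    (IntermediateField.fixingSubgroup_antitone hcyc (inv_mul_mem_of_restrict K γ hg hh))
  rw [map_mul, map_inv] at h1
  rw [← mul_one (cycloChar p g), ← h1, mul_inv_cancel_left]

/-- The mod `p` cyclotomic character of `Γ = Aut(K/ℚ)`, for `μ_p ⊂ K`. -/
noncomputable def chiK (hcyc : cycloField p ≤ K) : (↥K ≃ₐ[ℚ] ↥K) →* (ZMod p)ˣ where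
  toFun γ := cycloChar p (gLift K γ)
  map_one' := by
    have h := cycloChar_eq_of_restrict K hcyc (g := gLift K 1) (h := 1) 1 (gLift_apply K 1)
      (fun a => rfl)
    rw [h, map_one]
  map_mul' γ δ := by
    have h := cycloChar_eq_of_restrict K hcyc (g := gLift K (γ * δ)) (h := gLift K γ * gLift K δ)
      (γ * δ) (gLift_apply K (γ * δ)) (fun a => by
        show gLift K γ (gLift K δ (a : Qb)) = _
        rw [gLift_apply, gLift_apply]
        rfl)
    rw [h, map_mul]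

theorem chiK_apply (hcyc : cycloField p ≤ K) (γ : ↥K ≃ₐ[ℚ] ↥K) :
    chiK K hcyc γ = cycloChar p (gLift K γ) := rfl

/-- `ω(g) = ω(γ)` for every `g` restricting to `γ`. -/
theorem cycloChar_eq_chiK (hcyc : cycloField p ≤ K) {g : GQ} (γ : ↥K ≃ₐ[ℚ] ↥K)
    (hg : ∀ a : ↥K, g (a : Qb) = ((γ a : ↥K) : Qb)) : cycloChar p g = chiK K hcyc γ :=
  cycloChar_eq_of_restrict K hcyc γ hg (gLift_apply K γ)

/-! ### The twisted translations -/

/-- Left translation depends only on the restriction to `K`. -/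
theorem lt_eq_of_restrict (g h : ↥(Nrm K.fixingSubgroup)) (γ : ↥K ≃ₐ[ℚ] ↥K)
    (hg : ∀ a : ↥K, (g : GQ) (a : Qb) = ((γ a : ↥K) : Qb))
    (hh : ∀ a : ↥K, (h : GQ) (a : Qb) = ((γ a : ↥K) : Qb))
    (f : M0 (ZMod p) K.fixingSubgroup) :
    (lt K.fixingSubgroup (ZMod p) g).hom f = (lt K.fixingSubgroup (ZMod p) h).hom f := by
  apply Subtype.ext
  funext x
  rw [lt_apply, lt_apply]
  have h1 : (g : GQ)⁻¹ * (h : GQ) ∈ K.fixingSubgroup := inv_mul_mem_of_restrict K γ hg hh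
  have e : (g : GQ)⁻¹ * x = ((g : GQ)⁻¹ * (h : GQ)) * ((h : GQ)⁻¹ * x) := by group
  rw [e]
  exact coindTriv_apply_mul f h1 _

/-- The twisted translation `T γ = ω(γ) • lt (lift of γ)` of `M0(K)`. -/
noncomputable def Tmor (hcyc : cycloField p ≤ K) (γ : ↥K ≃ₐ[ℚ] ↥K) :
    M0 (ZMod p) K.fixingSubgroup ⟶ M0 (ZMod p) K.fixingSubgroup :=
  ((chiK K hcyc γ : (ZMod p)ˣ) : ZMod p) • lt K.fixingSubgroup (ZMod p) (gN K γ)

theorem Tmor_hom_apply (hcyc : cycloField p ≤ K) (γ : ↥K ≃ₐ[ℚ] ↥K)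
    (f : M0 (ZMod p) K.fixingSubgroup) :
    (Tmor K hcyc γ).hom f =
      ((chiK K hcyc γ : (ZMod p)ˣ) : ZMod p) • (lt K.fixingSubgroup (ZMod p) (gN K γ)).hom f :=
  rfl

/-- `T γ = ω(g) • lt g` for every `g` in the normaliser restricting to `γ`. -/
theorem Tmor_hom_eq_of_restrict (hcyc : cycloField p ≤ K) (g : ↥(Nrm K.fixingSubgroup))
    (γ : ↥K ≃ₐ[ℚ] ↥K) (hg : ∀ a : ↥K, (g : GQ) (a : Qb) = ((γ a : ↥K) : Qb))
    (f : M0 (ZMod p) K.fixingSubgroup) :
    (Tmor K hcyc γ).hom f =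
      ((cycloChar p (g : GQ) : (ZMod p)ˣ) : ZMod p) • (lt K.fixingSubgroup (ZMod p) g).hom f := by
  rw [Tmor_hom_apply, cycloChar_eq_chiK K hcyc γ hg,
    lt_eq_of_restrict K (gN K γ) g γ (gLift_apply K γ) hg]

/-- The underlying linear map of a morphism of representations, linear in the morphism. -/
noncomputable def homL {k G : Type} [Field k] [Group G] (M N : Rep.{0} k G) :
    (M ⟶ N) →ₗ[k] (M →ₗ[k] N) where
  toFun f := f.hom.toLinearMap
  map_add' _ _ := rfl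
  map_smul' _ _ := rfl

theorem homL_apply {k G : Type} [Field k] [Group G] {M N : Rep.{0} k G} (f : M ⟶ N) (m : M) :
    homL M N f m = f.hom m := rfl

theorem homL_injective {k G : Type} [Field k] [Group G] (M N : Rep.{0} k G) :
    Function.Injective (homL M N) := by
  intro f g hfg
  apply Rep.hom_ext
  apply Representation.IntertwiningMap.ext
  exact hfg

/-- The twisted action of `Γ` on `M0(K)`. -/
noncomputable def twRep (hcyc : cycloField p ≤ K) :
    Representation (ZMod p) (↥K ≃ₐ[ℚ] ↥K) (M0 (ZMod p) K.fixingSubgroup) where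
  toFun γ := homL _ _ (Tmor K hcyc γ)
  map_one' := by
    apply LinearMap.ext
    intro f
    rw [homL_apply, Tmor_hom_apply, map_one, Units.val_one, one_smul]
    have h := lt_eq_of_restrict K (gN K 1) 1 1 (gLift_apply K 1) (fun a => rfl) f
    rw [h, lt_one_apply]
    rfl
  map_mul' γ δ := by
    apply LinearMap.ext
    intro f
    show (Tmor K hcyc (γ * δ)).hom f = (Tmor K hcyc γ).hom ((Tmor K hcyc δ).hom f)
    rw [Tmor_hom_apply, Tmor_hom_apply, Tmor_hom_apply, map_mul, Units.val_mul, map_smul,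
      smul_smul]
    congr 1
    have h := lt_eq_of_restrict K (gN K (γ * δ)) (gN K γ * gN K δ) (γ * δ)
      (gLift_apply K (γ * δ)) (fun a => by
        show gLift K γ (gLift K δ (a : Qb)) = _
        rw [gLift_apply, gLift_apply]
        rfl) f
    rw [h, lt_mul_apply]

theorem twRep_apply (hcyc : cycloField p ≤ K) (γ : ↥K ≃ₐ[ℚ] ↥K)
    (f : M0 (ZMod p) K.fixingSubgroup) : twRep K hcyc γ f = (Tmor K hcyc γ).hom f := rfl

theorem twRep_apply_apply (hcyc : cycloField p ≤ K) (γ : ↥K ≃ₐ[ℚ] ↥K)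
    (f : M0 (ZMod p) K.fixingSubgroup) (x : GQ) :
    (twRep K hcyc γ f).1 x = ((chiK K hcyc γ : (ZMod p)ˣ) : ZMod p) * f.1 ((gLift K γ)⁻¹ * x) :=
  rfl

/-! ### Faithfulness -/

/-- The indicator function of `G_K`, an element of `M0(K)`. -/
noncomputable def delta : M0 (ZMod p) K.fixingSubgroup :=
  ⟨fun x => @ite (ZMod p) (x ∈ K.fixingSubgroup) (Classical.propDecidable _) 1 0, fun u x => by
    show (@ite (ZMod p) ((u : GQ) * x ∈ K.fixingSubgroup) (Classical.propDecidable _) 1 0) =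
      @ite (ZMod p) (x ∈ K.fixingSubgroup) (Classical.propDecidable _) 1 0
    have h : (u : GQ) * x ∈ K.fixingSubgroup ↔ x ∈ K.fixingSubgroup :=
      Subgroup.mul_mem_cancel_left _ u.2
    by_cases hx : x ∈ K.fixingSubgroup
    · rw [if_pos hx, if_pos (h.2 hx)]
    · rw [if_neg hx, if_neg (fun h' => hx (h.1 h'))]⟩

theorem delta_apply_of_mem {x : GQ} (hx : x ∈ K.fixingSubgroup) :
    (delta (p := p) K).1 x = 1 := by
  show (@ite (ZMod p) (x ∈ K.fixingSubgroup) (Classical.propDecidable _) 1 0) = 1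
  rw [if_pos hx]

theorem delta_apply_of_not_mem {x : GQ} (hx : x ∉ K.fixingSubgroup) :
    (delta (p := p) K).1 x = 0 := by
  show (@ite (ZMod p) (x ∈ K.fixingSubgroup) (Classical.propDecidable _) 1 0) = 0
  rw [if_neg hx]

/-- `(gLift γ)⁻¹ * gLift γ₀ ∈ G_K` iff `γ = γ₀`. -/
theorem gLift_inv_mul_mem_iff (γ γ₀ : ↥K ≃ₐ[ℚ] ↥K) :
    (gLift K γ)⁻¹ * gLift K γ₀ ∈ K.fixingSubgroup ↔ γ = γ₀ := by
  constructor
  · intro h
    rw [IntermediateField.mem_fixingSubgroup_iff] at h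
    apply AlgEquiv.ext
    intro a
    apply Subtype.ext
    have h1 := h a a.2
    have h2 : gLift K γ₀ (a : Qb) = gLift K γ (a : Qb) := by
      have h3 : gLift K γ (((gLift K γ)⁻¹ * gLift K γ₀) (a : Qb)) = gLift K γ (a : Qb) := by
        rw [h1]
      rw [← h3]
      show gLift K γ₀ (a : Qb) = (gLift K γ * ((gLift K γ)⁻¹ * gLift K γ₀)) (a : Qb)
      rw [mul_inv_cancel_left]
    rw [gLift_apply, gLift_apply] at h2
    exact h2.symm
  · rintro rfl
    rw [inv_mul_cancel]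
    exact Subgroup.one_mem _

/-- The coefficient of `x` at `γ₀` is read off from the action of `x` on the indicator of `G_K`. -/
theorem comb_twRep_delta (hcyc : cycloField p ≤ K) (x : MonoidAlgebra (ZMod p) (↥K ≃ₐ[ℚ] ↥K))
    (γ₀ : ↥K ≃ₐ[ℚ] ↥K) :
    (comb (fun γ => twRep K hcyc γ) x (delta K)).1 (gLift K γ₀) =
      x.coeff γ₀ * ((chiK K hcyc γ₀ : (ZMod p)ˣ) : ZMod p) := by
  classical
  rw [comb_apply, Finsupp.sum]
  have h1 : ((∑ γ ∈ x.coeff.support, x.coeff γ • twRep K hcyc γ (delta K) :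
      M0 (ZMod p) K.fixingSubgroup)).1 (gLift K γ₀) =
      ∑ γ ∈ x.coeff.support, x.coeff γ * (twRep K hcyc γ (delta K)).1 (gLift K γ₀) := by
    have h2 : ((∑ γ ∈ x.coeff.support, x.coeff γ • twRep K hcyc γ (delta K) :
      M0 (ZMod p) K.fixingSubgroup)).1 =
      ∑ γ ∈ x.coeff.support, (x.coeff γ • twRep K hcyc γ (delta K)).1 := by
      exact map_sum (Submodule.subtype _) _ _
    rw [h2, Finset.sum_apply]
    rfl
  rw [h1]
  have h3 : ∀ γ ∈ x.coeff.support, x.coeff γ * (twRep K hcyc γ (delta K)).1 (gLift K γ₀) =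
      if γ = γ₀ then x.coeff γ₀ * ((chiK K hcyc γ₀ : (ZMod p)ˣ) : ZMod p) else 0 := by
    intro γ _
    rw [twRep_apply_apply]
    by_cases hγ : γ = γ₀
    · subst hγ
      rw [delta_apply_of_mem K ((gLift_inv_mul_mem_iff K γ γ).2 rfl), if_pos rfl, mul_one]
    · rw [delta_apply_of_not_mem K (fun h => hγ ((gLift_inv_mul_mem_iff K γ γ₀).1 h)), if_neg hγ,
        mul_zero, mul_zero]
  rw [Finset.sum_congr rfl h3, Finset.sum_ite_eq']
  split_ifs with hmem
  · rfl
  · rw [Finsupp.notMem_support_iff.1 hmem, zero_mul]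

/-- **Faithfulness**: the group algebra `𝔽_p[Γ]` acts faithfully on `M0(K)`. -/
theorem comb_twRep_injective (hcyc : cycloField p ≤ K)
    (x y : MonoidAlgebra (ZMod p) (↥K ≃ₐ[ℚ] ↥K))
    (h : comb (fun γ => twRep K hcyc γ) x = comb (fun γ => twRep K hcyc γ) y) : x = y := by
  have h1 : x.coeff = y.coeff := by
    apply Finsupp.ext
    intro γ₀
    have h2 := comb_twRep_delta K hcyc x γ₀
    have h3 := comb_twRep_delta K hcyc y γ₀
    rw [h] at h2
    rw [h2] at h3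
    exact (Units.mul_left_inj _).1 h3
  cases x
  cases y
  congr

/-! ### The idempotent matrix of a retract -/

section Eps

variable {n : ℕ} {X : Rep.{0} (ZMod p) GQ}

/-- The element of `𝔽_p[Γ]` attached to a combination `∑ g ∈ s, c g • lt g` of left
translations. -/
noncomputable def epsOf (hcyc : cycloField p ≤ K) (s : Finset ↥(Nrm K.fixingSubgroup))
    (c : ↥(Nrm K.fixingSubgroup) → ZMod p) : MonoidAlgebra (ZMod p) (↥K ≃ₐ[ℚ] ↥K) :=
  ∑ g ∈ s, MonoidAlgebra.single (resNrm K g)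
    (c g * (((chiK K hcyc (resNrm K g))⁻¹ : (ZMod p)ˣ) : ZMod p))

theorem asAlgebraHom_epsOf (hcyc : cycloField p ≤ K) (s : Finset ↥(Nrm K.fixingSubgroup))
    (c : ↥(Nrm K.fixingSubgroup) → ZMod p) (f : M0 (ZMod p) K.fixingSubgroup) :
    (twRep K hcyc).asAlgebraHom (epsOf K hcyc s c) f =
      ∑ g ∈ s, c g • (lt K.fixingSubgroup (ZMod p) g).hom f := by
  rw [epsOf, map_sum, LinearMap.sum_apply]
  refine Finset.sum_congr rfl fun g _ => ?_
  rw [Representation.asAlgebraHom_single, LinearMap.smul_apply, twRep_apply, Tmor_hom_apply,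
    smul_smul, mul_assoc, ← Units.val_mul, inv_mul_cancel, Units.val_one, mul_one,
    lt_eq_of_restrict K (gN K (resNrm K g)) g (resNrm K g) (gLift_apply K _) (resNrm_apply K g)]

/-- **The idempotent matrix of a retract of `M0(K)ⁿ`** whose matrix entries are combinations of
left translations. -/
theorem exists_eps (hcyc : cycloField p ≤ K)
    (a : Fin n → (M0 (ZMod p) K.fixingSubgroup ⟶ X))
    (b : Fin n → (X ⟶ M0 (ZMod p) K.fixingSubgroup))
    (hsum : ∀ x, ∑ i, (a i).hom ((b i).hom x) = x)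
    (hlt : ∀ i j, ∃ (s : Finset ↥(Nrm K.fixingSubgroup)) (c : ↥(Nrm K.fixingSubgroup) → ZMod p),
      ∀ f, (b i).hom ((a j).hom f) = ∑ g ∈ s, c g • (lt K.fixingSubgroup (ZMod p) g).hom f) :
    ∃ ε : Matrix (Fin n) (Fin n) (MonoidAlgebra (ZMod p) (↥K ≃ₐ[ℚ] ↥K)),
      ε * ε = ε ∧
      (∀ i j f, (b i).hom ((a j).hom f) = (twRep K hcyc).asAlgebraHom (ε i j) f) ∧
      ∀ i j, a j ≫ b i = (ε i j).coeff.sum fun γ c => c • Tmor K hcyc γ := by
  choose s c hsc using hlt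
  let ε : Matrix (Fin n) (Fin n) (MonoidAlgebra (ZMod p) (↥K ≃ₐ[ℚ] ↥K)) :=
    fun i j => epsOf K hcyc (s i j) (c i j)
  have hε : ∀ i j f, (b i).hom ((a j).hom f) = (twRep K hcyc).asAlgebraHom (ε i j) f := by
    intro i j f
    rw [hsc i j f]
    exact (asAlgebraHom_epsOf K hcyc (s i j) (c i j) f).symm
  refine ⟨ε, ?_, hε, ?_⟩
  · -- idempotency, by faithfulness
    apply Matrix.ext
    intro i l
    apply comb_twRep_injective K hcyc
    rw [← asAlgebraHom_eq_comb, ← asAlgebraHom_eq_comb, Matrix.mul_apply, map_sum]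
    apply LinearMap.ext
    intro f
    rw [LinearMap.sum_apply, ← hε i l f]
    have h1 : ∀ j, ((twRep K hcyc).asAlgebraHom (ε i j * ε j l)) f =
        (b i).hom ((a j).hom ((b j).hom ((a l).hom f))) := by
      intro j
      rw [map_mul, Module.End.mul_apply, ← hε j l f, ← hε i j]
    rw [Finset.sum_congr rfl fun j _ => h1 j]
    have h2 : ∑ j, (b i).hom ((a j).hom ((b j).hom ((a l).hom f))) =
        (b i).hom (∑ j, (a j).hom ((b j).hom ((a l).hom f))) := by
      rw [map_sum]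
    rw [h2, hsum]
  · intro i j
    apply homL_injective
    rw [map_combHom (homL _ _) (fun γ => Tmor K hcyc γ) (ε i j)]
    apply LinearMap.ext
    intro f
    have h1 : comb (fun γ => homL _ _ (Tmor K hcyc γ)) (ε i j) f =
        (twRep K hcyc).asAlgebraHom (ε i j) f := by
      rw [asAlgebraHom_eq_comb]
      rfl
    rw [h1, ← hε i j f]
    rfl

end Eps

end Fermat.Agent.S56.EC.Twist
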