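/-
S56 / brick EC, row EC.6a (helper39): THE SECOND-LEVEL CONTRACT of the base statement `EPSigma`.

`K ≤ ℚ̄` a number field, `μ_p ⊂ K`, `U = G_K`, `A = M0(K)`, `Γ = Aut(K/ℚ)`, `S` a finite set of
primes.  For `g` in the normaliser of `U`: `resNrm K g ∈ Γ` is its restriction (`EC/Twist`) and
`om g = ω(g) ∈ 𝔽_p` its mod `p` cyclotomic character.

Vocabulary (one spelling for every seam):
* `epsMat K hcyc s c` : the matrix `ε ∈ M_n(𝔽_p[Γ])` of the presentation data `(s, c)` of
  `EPSigma` (`b i ∘ a j = ∑ g ∈ s i j, c i j g • lt g`), for the `ω`-TWISTED action: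
  `ε i j = ∑ g ∈ s i j, (c i j g * ω(g)⁻¹) • [g|_K]`;
* `chiRep K hcyc` (`μ_p = 𝔽_p(ω)`), `infRep K` (functions on the infinite places), `finRep K S`
  (functions on the primes above `S`) : the `Γ`-modules of the count; `RankAdapt.rk ρ ε` their
  `ε`-ranks;
* `negEig X`, `negMap φ`, `negL` : the `(-1)`-eigenspace of complex conjugation, functorially.

The four seams (`SeamKum`, `SeamArch`, `SeamLoc`, `SeamUnits`) are stated for ONE normalising
element `g` wherever possible; `EC/Base.lean` derives `EPSigma` from them: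

  `χ₂(X) = rk_ε(μ_p) - rk H¹(E) + rk_ε(𝔽_p[S_K]) - rk_ε(𝔽_p)`          (DualSide + SeamLoc)
        `≤ rk_ε(μ_p) - rk_ε(U_S/p) + rk_ε(𝔽_p[S_K]) - rk_ε(𝔽_p)`          (SeamKum)
        `= - rk_ε(𝔽_p[∞_K])`                                              (SeamUnits)
        `= - dim X^{c = -1}`                                              (SeamArch),

and equality by the complementary idempotent.  THE REAL PLACE enters in `SeamUnits` (Dirichlet's
unit theorem, equivariantly: `EC/UnitRank.eRank_units`) and in `SeamArch` (`EC/Arch`).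
-/
import Fermat.Agent.S56.EC.Twist
import Fermat.Agent.S56.EC.DualSide
import Fermat.Agent.S56.EC.PlacesDictS
import Fermat.Agent.S56.EC.SteinbergInd.Defs
import Fermat.Agent.CFT.Global.TUnitsHerbrand
import Fermat.Agent.CFT.Global.CountAbs

set_option autoImplicit false

open scoped NumberField
open CategoryTheory ExtCitation IsDedekindDomain

namespace Fermat.Agent.S56.EC.Seams

open Fermat.Agent.S55 Fermat.Agent.S55.Abs Fermat.Agent.S55.Count Fermat.Agent.S55.Glue
  Fermat.Agent.S55.Glue.CoindDual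
  Fermat.Agent.CFT.Global.CountAbs Fermat.Agent.CFT.Global.TUnitsHerbrand
  Fermat.Agent.CFT.Global.GalPrime
  Fermat.Agent.S56.EC.CoindAction Fermat.Agent.S56.EC.RankAdapt Fermat.Agent.S56.EC.RetractRank
  Fermat.Agent.S56.EC.Twist Fermat.Agent.S56.EC.DualSide Fermat.Agent.S56.EC.PlacesDictS

local notation "Qb" => AlgebraicClosure ℚ

variable {p : ℕ} [Fact p.Prime] (K : IntermediateField ℚ Qb)

/-! ### The matrix `ε` -/

/-- The mod `p` cyclotomic character, with values in `𝔽_p`. -/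
noncomputable def om (g : GQ) : ZMod p := ((cycloChar p g : (ZMod p)ˣ) : ZMod p)

theorem om_eq_chiK (hcyc : cycloField p ≤ K) (g : ↥(Nrm K.fixingSubgroup)) :
    om (p := p) (g : GQ) = ((chiK K hcyc (resNrm K g) : (ZMod p)ˣ) : ZMod p) := by
  unfold om
  rw [cycloChar_eq_chiK K hcyc (resNrm K g) (resNrm_apply K g)]

/-- The matrix `ε ∈ M_n(𝔽_p[Γ])` of the presentation data `(s, c)`:
`ε i j = ∑ g ∈ s i j, (c i j g * ω(g)⁻¹) • [g|_K]`. -/
noncomputable def epsMat (hcyc : cycloField p ≤ K) {n : ℕ}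
    (s : Fin n → Fin n → Finset ↥(Nrm K.fixingSubgroup))
    (c : Fin n → Fin n → ↥(Nrm K.fixingSubgroup) → ZMod p) :
    Matrix (Fin n) (Fin n) (MonoidAlgebra (ZMod p) (↥K ≃ₐ[ℚ] ↥K)) :=
  fun i j => epsOf K hcyc (s i j) (c i j)

/-! ### The `Γ`-modules of the count -/

/-- `μ_p = 𝔽_p(ω)` as a `Γ`-module. -/
noncomputable def chiRep (hcyc : cycloField p ≤ K) :
    Representation (ZMod p) (↥K ≃ₐ[ℚ] ↥K) (ZMod p) where
  toFun γ := ((chiK K hcyc γ : (ZMod p)ˣ) : ZMod p) • LinearMap.id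
  map_one' := by
    rw [map_one, Units.val_one, one_smul]
    rfl
  map_mul' γ δ := by
    apply LinearMap.ext
    intro x
    rw [map_mul, Units.val_mul]
    show _ * _ * x = _ * (_ * x)
    rw [mul_assoc]

theorem chiRep_apply (hcyc : cycloField p ≤ K) (γ : ↥K ≃ₐ[ℚ] ↥K) (x : ZMod p) :
    chiRep K hcyc γ x = ((chiK K hcyc γ : (ZMod p)ˣ) : ZMod p) * x := rfl

variable [NumberField K]

/-- The permutation module on the infinite places of `K`: `(γ • F) w = F (γ⁻¹ • w)`. -/
noncomputable def infRep :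
    Representation (ZMod p) (↥K ≃ₐ[ℚ] ↥K) (NumberField.InfinitePlace ↥K → ZMod p) :=
  SteinbergInd.funRep (ZMod p) (↥K ≃ₐ[ℚ] ↥K) (NumberField.InfinitePlace ↥K)

omit [NumberField K] in
theorem infRep_apply (γ : ↥K ≃ₐ[ℚ] ↥K) (F : NumberField.InfinitePlace ↥K → ZMod p)
    (w : NumberField.InfinitePlace ↥K) : infRep (p := p) K γ F w = F (γ⁻¹ • w) := rfl

variable (S : Finset Nat.Primes)

/-- The primes of `K` above `S` are stable under `Γ`. -/
theorem galStable_TS : GalStable ℚ ↥K (TS K S) := fun τ w hw => galPrime_mem_TS K S τ w hw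

/-- The permutation module on the primes of `K` above `S`: `(γ • F) w = F (γ⁻¹ w)`. -/
noncomputable def finRep : Representation (ZMod p) (↥K ≃ₐ[ℚ] ↥K) (↥(TS K S) → ZMod p) :=
  letI := primeAct (galStable_TS K S)
  SteinbergInd.funRep (ZMod p) (↥K ≃ₐ[ℚ] ↥K) ↥(TS K S)

theorem finRep_apply (γ : ↥K ≃ₐ[ℚ] ↥K) (F : ↥(TS K S) → ZMod p) (w : ↥(TS K S)) :
    finRep (p := p) K S γ F w =
      F ⟨galPrime γ⁻¹ w.1, galStable_TS K S γ⁻¹ w.1 w.2⟩ := rfl

/-! ### The `(-1)`-eigenspace of complex conjugation -/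

section NegEig

omit [NumberField K]

/-- The `(-1)`-eigenspace of complex conjugation. -/
noncomputable def negEig (X : Rep.{0} (ZMod p) GQ) : Submodule (ZMod p) X :=
  LinearMap.ker (X.ρ complexConjugation + LinearMap.id)

theorem mem_negEig {X : Rep.{0} (ZMod p) GQ} (x : X) :
    x ∈ negEig X ↔ X.ρ complexConjugation x + x = 0 := Iff.rfl

/-- A morphism of representations maps the `(-1)`-eigenspace to the `(-1)`-eigenspace. -/
noncomputable def negMap {M N : Rep.{0} (ZMod p) GQ} (φ : M ⟶ N) :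
    ↥(negEig M) →ₗ[ZMod p] ↥(negEig N) :=
  LinearMap.codRestrict (negEig N) (φ.hom.toLinearMap ∘ₗ (negEig M).subtype) (fun x => by
    rw [mem_negEig]
    have h1 : N.ρ complexConjugation (φ.hom x.1) = φ.hom (M.ρ complexConjugation x.1) :=
      (Rep.hom_comm_apply φ complexConjugation x.1).symm
    have h2 : M.ρ complexConjugation x.1 + x.1 = 0 := (mem_negEig x.1).1 x.2
    show N.ρ complexConjugation (φ.hom x.1) + φ.hom x.1 = 0
    rw [h1, ← map_add, h2, map_zero])

theorem negMap_coe {M N : Rep.{0} (ZMod p) GQ} (φ : M ⟶ N) (x : ↥(negEig M)) :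
    (negMap φ x : N) = φ.hom x.1 := rfl

/-- `negMap`, linear in the morphism. -/
noncomputable def negL (M N : Rep.{0} (ZMod p) GQ) :
    (M ⟶ N) →ₗ[ZMod p] (↥(negEig M) →ₗ[ZMod p] ↥(negEig N)) where
  toFun φ := negMap φ
  map_add' _ _ := rfl
  map_smul' _ _ := rfl

end NegEig

/-! ### The seams -/

/-- **Seam (ii), Kummer** (helper46): the Kummer map `U_S → H¹(G_S, M0(K))` is injective modulo
`p`-th powers and `ω`-twisted equivariant for the normaliser of `G_K`. -/
def SeamKum : Prop :=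
  ∃ κ : Additive ((TS K S).unit ↥K) →+ H1 (globalLevel S) (M0 (ZMod p) K.fixingSubgroup),
    (∀ x, κ x = 0 ↔ ∃ y, p • y = x) ∧
    ∀ (g : ↥(Nrm K.fixingSubgroup)) (x : Additive ((TS K S).unit ↥K)),
      κ (Additive.ofMul (galTU (galStable_TS K S) (resNrm K g) x.toMul)) =
        om (p := p) (g : GQ) • H1map (globalLevel S) (lt K.fixingSubgroup (ZMod p) g) (κ x)

/-- **Seam (v), the real place** (helper66): the `(-1)`-eigenspace of complex conjugation on
`M0(K)` is the permutation module on the infinite places of `K`, for the `ω`-twisted action of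
the normaliser of `G_K`. -/
def SeamArch : Prop :=
  ∃ κ : (NumberField.InfinitePlace ↥K → ZMod p) ≃ₗ[ZMod p]
      ↥(negEig (M0 (ZMod p) K.fixingSubgroup)),
    ∀ (g : ↥(Nrm K.fixingSubgroup)) (F : NumberField.InfinitePlace ↥K → ZMod p),
      κ (infRep K (resNrm K g) F) =
        om (p := p) (g : GQ) • negMap (lt K.fixingSubgroup (ZMod p) g) (κ F)

/-- **Seam (iii), the local dual terms** (helper276): for presentation data `(a, b, s, c)`, the
sum over `v ∈ S` of the ranks of `H⁰(G_v, adj Eᵗ)` is the `ε`-rank of the permutation module on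
the primes of `K` above `S`. -/
def SeamLoc (hcyc : cycloField p ≤ K) : Prop :=
  ∀ (n : ℕ) (X : Rep.{0} (ZMod p) GQ)
    (a : Fin n → (M0 (ZMod p) K.fixingSubgroup ⟶ X))
    (b : Fin n → (X ⟶ M0 (ZMod p) K.fixingSubgroup))
    (s : Fin n → Fin n → Finset ↥(Nrm K.fixingSubgroup))
    (c : Fin n → Fin n → ↥(Nrm K.fixingSubgroup) → ZMod p),
    (∀ i j f, (b i).hom ((a j).hom f) =
      ∑ g ∈ s i j, c i j g • (lt K.fixingSubgroup (ZMod p) g).hom f) →
    ∑ v : ↥S, Module.finrank (ZMod p) ↥(LinearMap.range (famOp fun i j =>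
      H0map (Rep.resMap (primeLocalToGlobal v.1)
        (adj (cycloChar p) (dualTwistIso (U := K.fixingSubgroup) (cycloChar p)
          (cycloChar_eq_one_of_cycloField_le K hcyc)) (a i ≫ b j))))) =
      rk (finRep K S) (epsMat K hcyc s c)

/-- **Seam (EU), enough units** (helper287): an incarnation `(V_U, ρ_U, b_U)` of `U_S / p` as a
`Γ`-module with, for every idempotent `ε`,
`rk_ε(U_S/p) + rk_ε(𝔽_p) = rk_ε(μ_p) + rk_ε(𝔽_p[∞_K]) + rk_ε(𝔽_p[S_K])`. -/
def SeamUnits (hcyc : cycloField p ≤ K) : Prop :=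
  ∃ (V_U : Type) (_ : AddCommGroup V_U) (_ : Module (ZMod p) V_U) (_ : Module.Finite (ZMod p) V_U)
    (ρ_U : Representation (ZMod p) (↥K ≃ₐ[ℚ] ↥K) V_U)
    (b_U : Additive ((TS K S).unit ↥K) →+ V_U),
    Function.Surjective b_U ∧ (∀ x, b_U x = 0 ↔ ∃ y, p • y = x) ∧
    (∀ (τ : ↥K ≃ₐ[ℚ] ↥K) (x : Additive ((TS K S).unit ↥K)),
      b_U (Additive.ofMul (galTU (galStable_TS K S) τ x.toMul)) = ρ_U τ (b_U x)) ∧
    ∀ (n : ℕ) (ε : Matrix (Fin n) (Fin n) (MonoidAlgebra (ZMod p) (↥K ≃ₐ[ℚ] ↥K))), ε * ε = ε →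
      rk ρ_U ε + rk (Representation.trivial (ZMod p) (↥K ≃ₐ[ℚ] ↥K) (ZMod p)) ε =
        rk (chiRep K hcyc) ε + rk (infRep K) ε + rk (finRep K S) ε

/-- `rk` in the spelling of `SteinbergInd.opOf` (the spelling of `UnitRank.eRank_units`). -/
theorem rk_eq_opOf {Γ V : Type} [Group Γ] [AddCommGroup V] [Module (ZMod p) V]
    (ρ : Representation (ZMod p) Γ V) {n : ℕ}
    (ε : Matrix (Fin n) (Fin n) (MonoidAlgebra (ZMod p) Γ)) :
    rk ρ ε = Module.finrank (ZMod p) ↥(LinearMap.range (SteinbergInd.opOf ρ ε)) := rfl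

end Fermat.Agent.S56.EC.Seams
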