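/-
S56 / brick EC, seam (v) `SeamArch` (helper212; twin of EC/Arch.lean).

`K ≤ ℚ̄` with `μ_p ⊂ K`, `U = G_K`, `M0(K)` the functions `f : G_ℚ → 𝔽_p` with `f (u x) = f x`,
`G_ℚ` acting by right translation, `c` the Prelude's complex conjugation.

For `x ∈ G_ℚ` let `emb K x : K → ℂ`, `a ↦ ι (x⁻¹ a)` (`ι = complexEmbedding`) and
`plc K x` its infinite place.  Then `plc K (u x) = plc K x` (`u ∈ U`), `plc K (x c) = plc K x`,
`plc K` is surjective, and `plc K x = plc K y` forces `y ∈ U x ∪ U x c`.  Since `ω (u x) = ω x`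
and `ω (x c) = - ω x`, the map

  `κ F = (x ↦ ω(x) · F (plc K x))`

is an isomorphism of `𝔽_p[∞_K]` onto the `(-1)`-eigenspace of `c` on `M0(K)`, and
`κ (γ · F) = ω(g) • lt g (κ F)` for `g` in the normaliser of `U` restricting to `γ`.

* `seamArch_of_cyclo`, `seamArch : Seams.SeamArch K`.
-/
import Fermat.Agent.S56.EC.Seams

set_option autoImplicit false

open scoped NumberField
open CategoryTheory ExtCitation

namespace Fermat.Agent.S56.EC.ArchTwin

open Fermat.Agent.S55 Fermat.Agent.S55.Abs Fermat.Agent.S55.Glue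
  Fermat.Agent.S56.EC.CoindAction Fermat.Agent.S56.EC.Twist Fermat.Agent.S56.EC.Seams

local notation "Qb" => AlgebraicClosure ℚ

local instance isAlgebraicQbar_at : Algebra.IsAlgebraic ℚ (AlgebraicClosure ℚ) :=
  AlgebraicClosure.isAlgebraic ℚ
local instance isAlgClosureQbar_at : IsAlgClosure ℚ (AlgebraicClosure ℚ) :=
  ⟨inferInstance, inferInstance⟩
local instance normalQbar_at : Normal ℚ (AlgebraicClosure ℚ) :=
  IsAlgClosure.normal ℚ (AlgebraicClosure ℚ)

variable {p : ℕ} [Fact p.Prime] (K : IntermediateField ℚ Qb)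

/-! ### The cyclotomic character -/

/-- Complex conjugation inverts roots of unity. -/
theorem conj_root {m : ℕ} (hm : m ≠ 0) {μ : Qb} (hμ : μ ^ m = 1) :
    complexConjugation μ = μ⁻¹ := by
  have hinj : Function.Injective (complexEmbedding : Qb → ℂ) :=
    (complexEmbedding : Qb →+* ℂ).injective
  apply hinj
  rw [complexEmbedding_complexConjugation, map_inv₀]
  have hw : (complexEmbedding μ) ^ m = 1 := by rw [← map_pow, hμ, map_one]
  have hnorm : ‖complexEmbedding μ‖ = 1 := Complex.norm_eq_one_of_pow_eq_one hw hm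
  exact (Complex.inv_eq_conj hnorm).symm

/-- The mod `p` cyclotomic character of complex conjugation is `-1`. -/
theorem cycloChar_conj : cycloChar p complexConjugation = -1 := by
  have : NeZero p := ⟨(Fact.out : p.Prime).ne_zero⟩
  have h1 : (-1 : ZMod p) = modularCyclotomicCharacter Qb (card_rootsOfUnity_eq_self p)
      ((complexConjugation : GQ) : Qb ≃+* Qb) := by
    refine modularCyclotomicCharacter.unique Qb (card_rootsOfUnity_eq_self p) _ (fun t ht => ?_)
    have h2 : ((t : Qbˣ) : Qb) ^ p = 1 := by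
      have := (mem_rootsOfUnity p t).1 ht
      rw [← Units.val_pow_eq_pow_val, this, Units.val_one]
    have h3 : complexConjugation ((t : Qbˣ) : Qb) = ((t : Qbˣ) : Qb)⁻¹ :=
      conj_root (Fact.out : p.Prime).ne_zero h2
    have h4 : ((-1 : ZMod p)).val = p - 1 := by
      rw [ZMod.neg_val, if_neg one_ne_zero, ZMod.val_one]
    have h5 : complexConjugation ((t : Qbˣ) : Qb) = ((t : Qbˣ) : Qb) ^ (p - 1) := by
      rw [h3]
      symm
      apply eq_inv_of_mul_eq_one_left
      rw [← pow_succ, Nat.sub_add_cancel (Fact.out : p.Prime).one_lt.le, h2]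
    rw [h4]
    exact h5
  apply Units.ext
  rw [Units.val_neg, Units.val_one]
  exact h1.symm

theorem om_mul (x y : GQ) : om (p := p) (x * y) = om (p := p) x * om (p := p) y := by
  unfold om
  rw [map_mul, Units.val_mul]

theorem om_ne_zero (x : GQ) : om (p := p) x ≠ 0 := Units.ne_zero _

theorem om_conj : om (p := p) complexConjugation = -1 := by
  unfold om
  rw [cycloChar_conj, Units.val_neg, Units.val_one]

theorem om_of_mem (hcyc : cycloField p ≤ K) {u : GQ} (hu : u ∈ K.fixingSubgroup) :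
    om (p := p) u = 1 := by
  unfold om
  rw [cycloChar_eq_one_of_mem_fixingSubgroup p
    (IntermediateField.fixingSubgroup_antitone hcyc hu), Units.val_one]

/-! ### The complex embeddings and infinite places of `K` attached to elements of `G_ℚ` -/

/-- The complex embedding `a ↦ ι (x⁻¹ a)` of `K`. -/
noncomputable def emb (x : GQ) : ↥K →+* ℂ :=
  (complexEmbedding : Qb →+* ℂ).comp (((x⁻¹ : GQ) : Qb →+* Qb).comp (algebraMap ↥K Qb))

theorem emb_apply (x : GQ) (a : ↥K) : emb K x a = complexEmbedding ((x⁻¹ : GQ) (a : Qb)) := rfl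

/-- The infinite place of `K` attached to `x`. -/
noncomputable def plc (x : GQ) : NumberField.InfinitePlace ↥K :=
  NumberField.InfinitePlace.mk (emb K x)

theorem emb_mul_of_mem {u : GQ} (hu : u ∈ K.fixingSubgroup) (x : GQ) :
    emb K (u * x) = emb K x := by
  apply RingHom.ext
  intro a
  rw [emb_apply, emb_apply, mul_inv_rev]
  have h1 : (u⁻¹ : GQ) (a : Qb) = (a : Qb) := by
    have h2 := inv_mem hu
    rw [IntermediateField.mem_fixingSubgroup_iff] at h2
    exact h2 _ a.2
  show complexEmbedding ((x⁻¹ : GQ) ((u⁻¹ : GQ) (a : Qb))) = _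
  rw [h1]

theorem emb_mul_conj (x : GQ) :
    emb K (x * complexConjugation) = NumberField.ComplexEmbedding.conjugate (emb K x) := by
  apply RingHom.ext
  intro a
  rw [NumberField.ComplexEmbedding.conjugate_coe_eq, emb_apply, emb_apply, mul_inv_rev,
    complexConjugation_inv]
  show complexEmbedding (complexConjugation ((x⁻¹ : GQ) (a : Qb))) = _
  rw [complexEmbedding_complexConjugation]

theorem plc_mul_of_mem {u : GQ} (hu : u ∈ K.fixingSubgroup) (x : GQ) :
    plc K (u * x) = plc K x := by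
  unfold plc
  rw [emb_mul_of_mem K hu]

theorem plc_mul_conj (x : GQ) : plc K (x * complexConjugation) = plc K x := by
  unfold plc
  rw [emb_mul_conj, NumberField.InfinitePlace.mk_conjugate_eq]

/-- Algebraic numbers lie in the image of `ℚ̄`. -/
theorem mem_range_complexEmbedding {z : ℂ} (hz : IsAlgebraic ℚ z) :
    z ∈ (complexEmbedding : Qb →+* ℂ).range := by
  have hint : IsIntegral ℚ z := hz.isIntegral
  have hsplit : ((minpoly ℚ z).map (algebraMap ℚ Qb)).Splits := IsAlgClosed.splits _
  have h0 : (minpoly ℚ z).map (algebraMap ℚ Qb) ≠ 0 :=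
    Polynomial.map_ne_zero (minpoly.ne_zero hint)
  refine hsplit.mem_range_of_isRoot h0 (i := (complexEmbedding : Qb →+* ℂ)) ?_
  rw [Polynomial.map_map]
  have hcomp : (complexEmbedding : Qb →+* ℂ).comp (algebraMap ℚ Qb) = algebraMap ℚ ℂ :=
    Subsingleton.elim _ _
  rw [hcomp, Polynomial.IsRoot.def, Polynomial.eval_map_algebraMap]
  exact minpoly.aeval ℚ z

/-- Every complex embedding of `K` is `emb K x` for some `x`. -/
theorem exists_emb_eq (φ : ↥K →+* ℂ) : ∃ x : GQ, emb K x = φ := by
  have : Algebra.IsAlgebraic ℚ ↥K := Algebra.IsAlgebraic.of_injective K.val K.val.injective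
  have hinj : Function.Injective (complexEmbedding : Qb →ₐ[ℚ] ℂ) :=
    (complexEmbedding : Qb →+* ℂ).injective
  have hmem : ∀ a : ↥K, φ.toRatAlgHom a ∈ (complexEmbedding : Qb →ₐ[ℚ] ℂ).range := by
    intro a
    have ha : IsAlgebraic ℚ (φ.toRatAlgHom a) :=
      (Algebra.IsAlgebraic.isAlgebraic a).algHom φ.toRatAlgHom
    obtain ⟨y, hy⟩ := RingHom.mem_range.1 (mem_range_complexEmbedding ha)
    exact (AlgHom.mem_range _).2 ⟨y, hy⟩
  let e : Qb ≃ₐ[ℚ] (complexEmbedding : Qb →ₐ[ℚ] ℂ).range :=
    AlgEquiv.ofInjective (complexEmbedding : Qb →ₐ[ℚ] ℂ) hinj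
  let σ : ↥K →ₐ[ℚ] Qb :=
    (e.symm : (complexEmbedding : Qb →ₐ[ℚ] ℂ).range →ₐ[ℚ] Qb).comp
      (φ.toRatAlgHom.codRestrict _ hmem)
  have hσ : ∀ a : ↥K, complexEmbedding (σ a) = φ a := by
    intro a
    have h1 : ((e (σ a) : (complexEmbedding : Qb →ₐ[ℚ] ℂ).range) : ℂ) = complexEmbedding (σ a) :=
      AlgEquiv.ofInjective_apply _ hinj (σ a)
    have h2 : e (σ a) = φ.toRatAlgHom.codRestrict _ hmem a := e.apply_symm_apply _
    rw [← h1, h2]
    rfl
  let y₀ : Qb →ₐ[ℚ] Qb := σ.liftNormal Qb
  have hy₀ : ∀ a : ↥K, y₀ (a : Qb) = σ a := fun a => σ.liftNormal_commutes Qb a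
  let y : GQ := AlgEquiv.ofBijective y₀ (Algebra.IsAlgebraic.algHom_bijective y₀)
  refine ⟨y⁻¹, ?_⟩
  apply RingHom.ext
  intro a
  rw [emb_apply, inv_inv]
  show complexEmbedding (y₀ (a : Qb)) = φ a
  rw [hy₀, hσ]

theorem plc_surjective : Function.Surjective (plc K) := by
  intro w
  obtain ⟨x, hx⟩ := exists_emb_eq K w.embedding
  refine ⟨x, ?_⟩
  unfold plc
  rw [hx, NumberField.InfinitePlace.mk_embedding]

/-- The fibres of `plc K` are the double cosets `U x ⟨c⟩`. -/
theorem eq_mul_of_plc_eq {x y : GQ} (h : plc K x = plc K y) :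
    (∃ u ∈ K.fixingSubgroup, y = u * x) ∨
      (∃ u ∈ K.fixingSubgroup, y = u * x * complexConjugation) := by
  unfold plc at h
  rw [NumberField.InfinitePlace.mk_eq_iff] at h
  have hinj : Function.Injective (complexEmbedding : Qb → ℂ) :=
    (complexEmbedding : Qb →+* ℂ).injective
  rcases h with h | h
  · left
    refine ⟨y * x⁻¹, ?_, (inv_mul_cancel_right y x).symm⟩
    rw [IntermediateField.mem_fixingSubgroup_iff]
    intro a ha
    have h1 : emb K x ⟨a, ha⟩ = emb K y ⟨a, ha⟩ := by rw [h]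
    have h2 : (x⁻¹ : GQ) a = (y⁻¹ : GQ) a := hinj h1
    show y ((x⁻¹ : GQ) a) = a
    rw [h2]
    show (y * y⁻¹) a = a
    rw [mul_inv_cancel]
    rfl
  · right
    refine ⟨y * complexConjugation * x⁻¹, ?_, ?_⟩
    · rw [IntermediateField.mem_fixingSubgroup_iff]
      intro a ha
      have h1 : NumberField.ComplexEmbedding.conjugate (emb K x) ⟨a, ha⟩ = emb K y ⟨a, ha⟩ := by
        rw [h]
      have h2 : complexConjugation ((x⁻¹ : GQ) a) = (y⁻¹ : GQ) a := by
        apply hinj
        rw [complexEmbedding_complexConjugation]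
        exact h1
      show y (complexConjugation ((x⁻¹ : GQ) a)) = a
      rw [h2]
      show (y * y⁻¹) a = a
      rw [mul_inv_cancel]
      rfl
    · rw [inv_mul_cancel_right, mul_assoc, complexConjugation_mul_self, mul_one]

/-- The action of `Aut(K/ℚ)` on the places `plc K x`. -/
theorem smul_plc (g : ↥(Nrm K.fixingSubgroup)) (x : GQ) :
    (resNrm K g)⁻¹ • plc K x = plc K ((g : GQ)⁻¹ * x) := by
  have h : emb K ((g : GQ)⁻¹ * x) =
      (emb K x).comp ((resNrm K g : ↥K ≃ₐ[ℚ] ↥K) : ↥K →+* ↥K) := by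
    apply RingHom.ext
    intro a
    rw [emb_apply, mul_inv_rev, inv_inv]
    rfl
  unfold plc
  rw [h]
  rfl

/-! ### The isomorphism `κ` -/

/-- `κ F = (x ↦ ω(x) · F (plc K x))`, as an element of `M0(K)`. -/
noncomputable def kapFun (hcyc : cycloField p ≤ K) (F : NumberField.InfinitePlace ↥K → ZMod p) :
    M0 (ZMod p) K.fixingSubgroup :=
  ⟨fun x => om (p := p) x * F (plc K x), fun u x => by
    show om (p := p) ((u : GQ) * x) * F (plc K ((u : GQ) * x)) = om (p := p) x * F (plc K x)
    rw [om_mul, om_of_mem K hcyc u.2, one_mul, plc_mul_of_mem K u.2]⟩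

theorem kapFun_apply (hcyc : cycloField p ≤ K) (F : NumberField.InfinitePlace ↥K → ZMod p)
    (x : GQ) : (kapFun K hcyc F).1 x = om (p := p) x * F (plc K x) := rfl

theorem kapFun_mem (hcyc : cycloField p ≤ K) (F : NumberField.InfinitePlace ↥K → ZMod p) :
    kapFun K hcyc F ∈ negEig (M0 (ZMod p) K.fixingSubgroup) := by
  rw [mem_negEig]
  apply Subtype.ext
  funext x
  show om (p := p) (x * complexConjugation) * F (plc K (x * complexConjugation)) +
    om (p := p) x * F (plc K x) = 0
  rw [om_mul, om_conj, plc_mul_conj]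
  ring

/-- `κ` as a linear map into the `(-1)`-eigenspace. -/
noncomputable def kapLin (hcyc : cycloField p ≤ K) :
    (NumberField.InfinitePlace ↥K → ZMod p) →ₗ[ZMod p]
      ↥(negEig (M0 (ZMod p) K.fixingSubgroup)) where
  toFun F := ⟨kapFun K hcyc F, kapFun_mem K hcyc F⟩
  map_add' F F' := by
    apply Subtype.ext
    apply Subtype.ext
    funext x
    show om (p := p) x * (F (plc K x) + F' (plc K x)) =
      om (p := p) x * F (plc K x) + om (p := p) x * F' (plc K x)
    rw [mul_add]
  map_smul' a F := by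
    apply Subtype.ext
    apply Subtype.ext
    funext x
    show om (p := p) x * (a * F (plc K x)) = a * (om (p := p) x * F (plc K x))
    rw [mul_left_comm]

theorem kapLin_apply (hcyc : cycloField p ≤ K) (F : NumberField.InfinitePlace ↥K → ZMod p)
    (x : GQ) : ((kapLin K hcyc F : ↥(negEig (M0 (ZMod p) K.fixingSubgroup))) :
      M0 (ZMod p) K.fixingSubgroup).1 x = om (p := p) x * F (plc K x) := rfl

theorem kapLin_injective (hcyc : cycloField p ≤ K) : Function.Injective (kapLin K hcyc) := by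
  intro F F' h
  funext w
  obtain ⟨x, rfl⟩ := plc_surjective K w
  have h1 : om (p := p) x * F (plc K x) = om (p := p) x * F' (plc K x) := by
    rw [← kapLin_apply K hcyc F x, ← kapLin_apply K hcyc F' x, h]
  exact mul_left_cancel₀ (om_ne_zero x) h1

/-- Elements of the `(-1)`-eigenspace are odd under right translation by `c`. -/
theorem apply_mul_conj {f : M0 (ZMod p) K.fixingSubgroup}
    (hf : f ∈ negEig (M0 (ZMod p) K.fixingSubgroup)) (z : GQ) :
    f.1 (z * complexConjugation) = - f.1 z := by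
  have h := (mem_negEig f).1 hf
  have h1 : f.1 (z * complexConjugation) + f.1 z = 0 := congrFun (congrArg Subtype.val h) z
  exact eq_neg_of_add_eq_zero_left h1

/-- A `(-1)`-eigenfunction divided by `ω` is constant on the fibres of `plc K`. -/
theorem om_mul_apply_of_plc_eq (hcyc : cycloField p ≤ K) {f : M0 (ZMod p) K.fixingSubgroup}
    (hf : f ∈ negEig (M0 (ZMod p) K.fixingSubgroup)) {x y : GQ} (h : plc K y = plc K x) :
    om (p := p) x * (f.1 y * (om (p := p) y)⁻¹) = f.1 x := by
  rcases eq_mul_of_plc_eq K h with ⟨u, hu, rfl⟩ | ⟨u, hu, rfl⟩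
  · rw [om_mul, om_of_mem K hcyc hu, one_mul, coindTriv_apply_mul f hu y, mul_comm,
      inv_mul_cancel_right₀ (om_ne_zero y)]
  · rw [om_mul, om_mul, om_of_mem K hcyc hu, one_mul, om_conj, apply_mul_conj K hf (u * y),
      coindTriv_apply_mul f hu y, mul_neg_one, neg_mul, mul_comm,
      inv_mul_cancel_right₀ (om_ne_zero y)]

theorem kapLin_surjective (hcyc : cycloField p ≤ K) : Function.Surjective (kapLin K hcyc) := by
  intro f
  refine ⟨fun w => (f : M0 (ZMod p) K.fixingSubgroup).1 (Function.surjInv (plc_surjective K) w) *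
    (om (p := p) (Function.surjInv (plc_surjective K) w))⁻¹, ?_⟩
  apply Subtype.ext
  apply Subtype.ext
  funext x
  show om (p := p) x *
      ((f : M0 (ZMod p) K.fixingSubgroup).1 (Function.surjInv (plc_surjective K) (plc K x)) *
        (om (p := p) (Function.surjInv (plc_surjective K) (plc K x)))⁻¹) =
    (f : M0 (ZMod p) K.fixingSubgroup).1 x
  exact om_mul_apply_of_plc_eq K hcyc f.2 (Function.surjInv_eq (plc_surjective K) (plc K x))

/-! ### The seam -/

/-- **Seam (v), the real place**, from `μ_p ⊂ K` alone. -/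
theorem seamArch_of_cyclo (hcyc : cycloField p ≤ K) : Seams.SeamArch (p := p) K := by
  refine ⟨LinearEquiv.ofBijective (kapLin K hcyc)
    ⟨kapLin_injective K hcyc, kapLin_surjective K hcyc⟩, ?_⟩
  intro g F
  show kapLin K hcyc (infRep K (resNrm K g) F) =
    om (p := p) (g : GQ) • negMap (lt K.fixingSubgroup (ZMod p) g) (kapLin K hcyc F)
  apply Subtype.ext
  apply Subtype.ext
  funext x
  show om (p := p) x * F ((resNrm K g)⁻¹ • plc K x) =
    om (p := p) (g : GQ) *
      (om (p := p) ((g : GQ)⁻¹ * x) * F (plc K ((g : GQ)⁻¹ * x)))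
  rw [smul_plc, ← mul_assoc, ← om_mul, mul_inv_cancel_left]

/-- **Seam (v), the real place**, with the binders of the EC architect's ruling (`hp2` is not
used). -/
theorem seamArch (_hp2 : p ≠ 2) (hcyc : cycloField p ≤ K) : Seams.SeamArch (p := p) K :=
  seamArch_of_cyclo K hcyc

end Fermat.Agent.S56.EC.ArchTwin
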