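/-
S56 / brick EC (Euler characteristic): THE CONTRACT (helper39, EC architect; own risk).

Statements only.  `p` odd, `S` a finite set of primes containing `p`, `G_S`-cohomology at the
`globalLevel S` of `S55`, `χ₂ = h⁰ - h¹ + h²` (`S55/Count/LESExtra.chi2`).

* `cMinus X`   : `dim X^{c = -1}` for the Prelude's complex conjugation `c`;
* `EPSigma`    : **(EP-Σ)**, the base statement.  `K ≤ ℚ̄` a number field unramified outside `S`
  with `μ_p ⊂ K` and `Cl_K = Cl_K^p ⟨S_K⟩`; `X` a retract of `M0(K)ⁿ` presented by a family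
  `a i : M0(K) ⟶ X`, `b i : X ⟶ M0(K)`, `∑ a i ∘ b i = 1` (the vocabulary of
  `EC/RetractRank`), such that every entry `b i ∘ a j` of the idempotent matrix is a linear
  combination of the left translations `CoindAction.lt g`, `g` in the normaliser of `G_K`
  (i.e. the matrix lies in `M_n(𝔽_p[Aut K])`).  Then `χ₂(G_S, X) = - dim X^{c = -1}`.
* `ECExit`     : the exit consumed by the Selmer junction.  `F/ℚ` finite Galois, unramified
  outside `S`, `μ_p ⊂ F`, `Cl_K = Cl_K^p ⟨S_K⟩` for the fields `μ_p ⊂ K ⊂ F`, and the Sylow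
  `p`-subgroups of `Gal(F/ℚ)` are TI.  Then every finite `𝔽_p[G_ℚ]`-module `N` which is trivial
  on `G_F` has `χ₂(G_S, N) ≤ - dim N^{c = -1}`.
  (The class-group hypotheses become true after enlarging `S`: `EC/SBig.exists_Sbig`, landed.)

Closing proofs: `EC/Base.lean` (`EPSigma`), `EC/Exit.lean` (`EPSigma → ECExit` through the
Steinberg reduction `EC/Steinberg*.lean`).
-/
import Fermat.Agent.S56.EC.CoindAction
import Fermat.Agent.S55.Count.EP

set_option autoImplicit false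

open scoped NumberField
open CategoryTheory ExtCitation

namespace Fermat.Agent.S56.EC

open Fermat.Agent.S55 Fermat.Agent.S55.Abs Fermat.Agent.S55.Count
open Fermat.Agent.CFT.Global.CountV Fermat.Agent.CFT.Global.SelmerCount Fermat.Agent.S55.Glue
open Fermat.Agent.S56.EC.CoindAction

local notation "Qb" => AlgebraicClosure ℚ

/-- `dim X^{c = -1}`: the dimension of the `(-1)`-eigenspace of complex conjugation. -/
noncomputable def cMinus {p : ℕ} [Fact p.Prime] (X : Rep.{0} (ZMod p) GQ) : ℕ :=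
  Module.finrank (ZMod p) ↥(LinearMap.ker (X.ρ complexConjugation + LinearMap.id))

/-- **(EP-Σ)**: `χ₂(G_S, X) = - dim X^{c = -1}` for the direct summands `X = e · M0(K)ⁿ` cut out
by idempotent matrices `e ∈ M_n(𝔽_p[Aut K])` acting through left translation, when
`Cl_K = Cl_K^p ⟨S_K⟩`. -/
def EPSigma : Prop :=
  ∀ (p : ℕ) [Fact p.Prime], p ≠ 2 → ∀ (S : Finset Nat.Primes), pPrime p ∈ S →
  ∀ (K : IntermediateField ℚ Qb) [NumberField K], K.IsUnramifiedOutside S → cycloField p ≤ K →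
    (clS (𝓞 K) p (SK S K)).index = 1 →
  ∀ (n : ℕ) (X : Rep.{0} (ZMod p) GQ)
    (a : Fin n → (M0 (ZMod p) K.fixingSubgroup ⟶ X))
    (b : Fin n → (X ⟶ M0 (ZMod p) K.fixingSubgroup)),
    (∀ x, ∑ i, (a i).hom ((b i).hom x) = x) →
    (∀ i j, ∃ (s : Finset ↥(Nrm K.fixingSubgroup)) (c : ↥(Nrm K.fixingSubgroup) → ZMod p),
      ∀ f, (b i).hom ((a j).hom f) = ∑ g ∈ s, c g • (lt K.fixingSubgroup (ZMod p) g).hom f) →
    chi2 (globalLevel S) X = -(cMinus X : ℤ)

/-- **The exit of brick EC**: `χ₂(G_S, N) ≤ - dim N^{c = -1}` for every finite `𝔽_p[Gal(F/ℚ)]`-module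
`N`, when the Sylow `p`-subgroups of `Gal(F/ℚ)` are TI and `S` is large enough for the class
groups of the intermediate fields containing `μ_p`. -/
def ECExit : Prop :=
  ∀ (p : ℕ) [Fact p.Prime], p ≠ 2 → ∀ (S : Finset Nat.Primes), pPrime p ∈ S →
  ∀ (F : IntermediateField ℚ Qb) [F.fixingSubgroup.Normal], F.IsUnramifiedOutside S →
    cycloField p ≤ F →
    (∀ (K : IntermediateField ℚ Qb) [NumberField K], cycloField p ≤ K → K ≤ F →
      (clS (𝓞 K) p (SK S K)).index = 1) →
  ∀ (P : Sylow p (GQ ⧸ F.fixingSubgroup)),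
    (∀ g : GQ ⧸ F.fixingSubgroup,
      g ∉ Subgroup.normalizer ((P : Subgroup (GQ ⧸ F.fixingSubgroup)) : Set (GQ ⧸ F.fixingSubgroup)) →
      (P : Subgroup (GQ ⧸ F.fixingSubgroup)) ⊓
        (P : Subgroup (GQ ⧸ F.fixingSubgroup)).map (MulAut.conj g).toMonoidHom = ⊥) →
  ∀ (N : Rep.{0} (ZMod p) GQ) [Module.Finite (ZMod p) N],
    (∀ g ∈ F.fixingSubgroup, ∀ x : N, N.ρ g x = x) →
    chi2 (globalLevel S) N ≤ -(cMinus N : ℤ)

end Fermat.Agent.S56.EC
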