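/-
S56, brick EC.1 (helper185): THE ALGEBRA OF "APPLY AN IDEMPOTENT".

`e`-ranks of modules over a group ring `F_p[Γ]` (`rk_e N := |e · Nⁿ|`, `e` an idempotent matrix)
are used in the Euler characteristic brick (EC) of S56.  Their formal properties do not use the
group `Γ` at all: "apply `e`" to a module `A` is an additive endomorphism `T` of `Aⁿ`, natural in
equivariant maps, with `T ∘ T - T ∈ p · End`.  This file proves, for additive groups with such
operators, measured by cardinals (`Nat.card` of the range):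

* `card_range_of_exact` (A) : multiplicativity on short exact sequences (natural projectors);
  `finrank_range_of_exact` : the same with `Module.finrank` over a field;
* `exists_lift_idempotent` : an element `x` of a ring with `x * x - x = c • d` can be corrected
  to `y = x + c • E` with `y * y - y = c ^ 2 ^ k • e` (Newton step `3x² - 2x³`);
* `card_map_torsion_eq_card_map_quot` (PA) : for a FINITE additive group `H` and `T` with
  `T ∘ T - T = p • D`, the image of `T` on `H[p]` and on `H / pH` have the same cardinal;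
  `card_range_eq_of_torsion_quot` : the same for arbitrary incarnations `N₁ ≅ H[p]`, `N₂ ≅ H/pH`;
* `card_range_eq_of_finite_index` (LAT) : `L₁ → L₂` injective with finite cokernel, `L₂` without
  `p`-torsion: the images on `L₁/p` and `L₂/p` have the same cardinal;
* `card_range_mod_of_exact` (SES-p) : a short exact sequence with `p`-torsion-free cokernel stays
  exact modulo `p`, and (A) applies.

Mathlib only.
-/
import Mathlib

set_option autoImplicit false

namespace Fermat.Agent.S56.EC.ProjRank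

/-! ### Generalities -/

/-- `|ker φ| · |range φ| = |G|` (conventions of `Nat.card`; no finiteness needed). -/
theorem card_ker_mul_card_range {G G' : Type*} [AddGroup G] [AddGroup G'] (φ : G →+ G') :
    Nat.card φ.ker * Nat.card φ.range = Nat.card G := by
  rw [← AddSubgroup.index_ker φ]
  exact AddSubgroup.card_mul_index φ.ker

/-! ### (A) Natural projectors are exact -/

section Exact

variable {A₁ A₂ A₃ : Type*} [AddCommGroup A₁] [AddCommGroup A₂] [AddCommGroup A₃]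

/-- **(A)** For a short exact sequence `0 → A₁ → A₂ → A₃ → 0` of additive groups with compatible
additive endomorphisms `Tᵢ`, `T₂` idempotent: `|T₂ A₂| = |T₁ A₁| · |T₃ A₃|`. -/
theorem card_range_of_exact (f : A₁ →+ A₂) (g : A₂ →+ A₃)
    (hf : Function.Injective f) (hg : Function.Surjective g) (hfg : f.range = g.ker)
    (T₁ : A₁ →+ A₁) (T₂ : A₂ →+ A₂) (T₃ : A₃ →+ A₃) (h₂ : ∀ x, T₂ (T₂ x) = T₂ x)
    (hfT : ∀ x, f (T₁ x) = T₂ (f x)) (hgT : ∀ x, g (T₂ x) = T₃ (g x)) :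
    Nat.card T₂.range = Nat.card T₁.range * Nat.card T₃.range := by
  set g' : T₂.range →+ A₃ := g.comp T₂.range.subtype with hg'
  have hrange : g'.range = T₃.range := by
    ext z
    constructor
    · rintro ⟨⟨x, y, rfl⟩, rfl⟩
      exact ⟨g y, (hgT y).symm⟩
    · rintro ⟨w, rfl⟩
      obtain ⟨y, rfl⟩ := hg w
      exact ⟨⟨T₂ y, y, rfl⟩, hgT y⟩
  have hfr : ∀ a : T₁.range, f a.1 ∈ T₂.range := by
    rintro ⟨_, b, rfl⟩
    exact ⟨f b, (hfT b).symm⟩
  have hfk : ∀ a : T₁.range, (⟨f a.1, hfr a⟩ : T₂.range) ∈ g'.ker := by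
    intro a
    have h1 : f a.1 ∈ g.ker := hfg ▸ ⟨a.1, rfl⟩
    exact h1
  let φ : T₁.range → g'.ker := fun a => ⟨⟨f a.1, hfr a⟩, hfk a⟩
  have hφi : Function.Injective φ := by
    intro a b hab
    have h1 : f a.1 = f b.1 := congrArg (fun z : g'.ker => (z.1.1 : A₂)) hab
    exact Subtype.ext (hf h1)
  have hφs : Function.Surjective φ := by
    rintro ⟨⟨x, hx⟩, hxk⟩
    have hgx : g x = 0 := hxk
    have hxr : x ∈ f.range := by rw [hfg]; exact hgx
    obtain ⟨a, rfl⟩ := hxr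
    have hTx : T₂ (f a) = f a := by
      obtain ⟨y, hy⟩ := hx
      rw [← hy, h₂]
    have ha : T₁ a = a := hf (by rw [hfT, hTx])
    exact ⟨⟨a, a, ha⟩, rfl⟩
  have h := card_ker_mul_card_range g'
  rw [hrange, ← Nat.card_congr (Equiv.ofBijective φ ⟨hφi, hφs⟩)] at h
  exact h.symm

/-- (A), injective half: `|T₁ A₁| ≤ |T₂ A₂|` for an injective compatible map into a finite
group. -/
theorem card_range_le_of_injective [Finite A₂] (f : A₁ →+ A₂) (hf : Function.Injective f)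
    (T₁ : A₁ →+ A₁) (T₂ : A₂ →+ A₂) (hfT : ∀ x, f (T₁ x) = T₂ (f x)) :
    Nat.card T₁.range ≤ Nat.card T₂.range := by
  have hfr : ∀ a : T₁.range, f a.1 ∈ T₂.range := by
    rintro ⟨_, b, rfl⟩
    exact ⟨f b, (hfT b).symm⟩
  refine Nat.card_le_card_of_injective (fun a : T₁.range => (⟨f a.1, hfr a⟩ : T₂.range)) ?_
  intro a b hab
  exact Subtype.ext (hf (congrArg Subtype.val hab))

/-- (A), surjective half: `|T₃ A₃| ≤ |T₂ A₂|` for a surjective compatible map from a finite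
group. -/
theorem card_range_le_of_surjective [Finite A₂] (g : A₂ →+ A₃) (hg : Function.Surjective g)
    (T₂ : A₂ →+ A₂) (T₃ : A₃ →+ A₃) (hgT : ∀ x, g (T₂ x) = T₃ (g x)) :
    Nat.card T₃.range ≤ Nat.card T₂.range := by
  have hgr : ∀ a : T₂.range, g a.1 ∈ T₃.range := by
    rintro ⟨_, b, rfl⟩
    exact ⟨g b, (hgT b).symm⟩
  refine Nat.card_le_card_of_surjective (fun a : T₂.range => (⟨g a.1, hgr a⟩ : T₃.range)) ?_
  rintro ⟨_, w, rfl⟩
  obtain ⟨y, rfl⟩ := hg w
  exact ⟨⟨T₂ y, y, rfl⟩, Subtype.ext (hgT y)⟩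

end Exact

section ExactLinear

variable {F : Type*} [Field F] {V₁ V₂ V₃ : Type*} [AddCommGroup V₁] [Module F V₁]
  [AddCommGroup V₂] [Module F V₂] [AddCommGroup V₃] [Module F V₃]

/-- **(A), linear form**: `rank T₂ = rank T₁ + rank T₃`. -/
theorem finrank_range_of_exact [FiniteDimensional F V₂] (f : V₁ →ₗ[F] V₂) (g : V₂ →ₗ[F] V₃)
    (hf : Function.Injective f) (hg : Function.Surjective g)
    (hfg : LinearMap.range f = LinearMap.ker g)
    (T₁ : V₁ →ₗ[F] V₁) (T₂ : V₂ →ₗ[F] V₂) (T₃ : V₃ →ₗ[F] V₃) (h₂ : ∀ x, T₂ (T₂ x) = T₂ x)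
    (hfT : ∀ x, f (T₁ x) = T₂ (f x)) (hgT : ∀ x, g (T₂ x) = T₃ (g x)) :
    Module.finrank F (LinearMap.range T₂)
      = Module.finrank F (LinearMap.range T₁) + Module.finrank F (LinearMap.range T₃) := by
  set g' : LinearMap.range T₂ →ₗ[F] V₃ := g.comp (LinearMap.range T₂).subtype with hg'
  have hrange : LinearMap.range g' = LinearMap.range T₃ := by
    ext z
    constructor
    · rintro ⟨⟨x, y, rfl⟩, rfl⟩
      exact ⟨g y, (hgT y).symm⟩
    · rintro ⟨w, rfl⟩
      obtain ⟨y, rfl⟩ := hg w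
      exact ⟨⟨T₂ y, y, rfl⟩, hgT y⟩
  have hfr : ∀ a : LinearMap.range T₁, f a.1 ∈ LinearMap.range T₂ := by
    rintro ⟨_, b, rfl⟩
    exact ⟨f b, (hfT b).symm⟩
  have hfk : ∀ a : LinearMap.range T₁,
      (⟨f a.1, hfr a⟩ : LinearMap.range T₂) ∈ LinearMap.ker g' := by
    intro a
    have h1 : f a.1 ∈ LinearMap.ker g := hfg ▸ ⟨a.1, rfl⟩
    exact h1
  let φ : LinearMap.range T₁ →ₗ[F] LinearMap.ker g' :=
    { toFun := fun a => ⟨⟨f a.1, hfr a⟩, hfk a⟩
      map_add' := fun a b => Subtype.ext (Subtype.ext (map_add f a.1 b.1))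
      map_smul' := fun c a => Subtype.ext (Subtype.ext (map_smul f c a.1)) }
  have hφi : Function.Injective φ := by
    intro a b hab
    have h1 : f a.1 = f b.1 := congrArg (fun z : LinearMap.ker g' => (z.1.1 : V₂)) hab
    exact Subtype.ext (hf h1)
  have hφs : Function.Surjective φ := by
    rintro ⟨⟨x, hx⟩, hxk⟩
    have hgx : g x = 0 := hxk
    have hxr : x ∈ LinearMap.range f := by rw [hfg]; exact hgx
    obtain ⟨a, rfl⟩ := hxr
    have hTx : T₂ (f a) = f a := by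
      obtain ⟨y, hy⟩ := hx
      rw [← hy, h₂]
    have ha : T₁ a = a := hf (by rw [hfT, hTx])
    exact ⟨⟨a, a, ha⟩, rfl⟩
  have h := LinearMap.finrank_range_add_finrank_ker g'
  rw [hrange, ← (LinearEquiv.ofBijective φ ⟨hφi, hφs⟩).finrank_eq] at h
  omega

end ExactLinear

/-! ### Correcting an almost-idempotent (Newton step `3x² - 2x³`) -/

section Lift

variable {R : Type*} [Ring R]

open Polynomial in
/-- The two polynomial identities behind the Newton step, in any ring. -/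
theorem newton_identities (x : R) :
    (3 * x * x - 2 * x * x * x) * (3 * x * x - 2 * x * x * x) - (3 * x * x - 2 * x * x * x)
        = (x * x - x) * (x * x - x) * (4 * x * x - 4 * x - 3) ∧
      3 * x * x - 2 * x * x * x = x + (x * x - x) * (1 - 2 * x) := by
  have h1 : ((3 * X * X - 2 * X * X * X) * (3 * X * X - 2 * X * X * X)
      - (3 * X * X - 2 * X * X * X) : ℤ[X])
      = (X * X - X) * (X * X - X) * (4 * X * X - 4 * X - 3) := by ring
  have h2 : (3 * X * X - 2 * X * X * X : ℤ[X]) = X + (X * X - X) * (1 - 2 * X) := by ring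
  have e1 := congrArg (aeval x) h1
  have e2 := congrArg (aeval x) h2
  simp only [map_sub, map_mul, map_add, aeval_X, map_ofNat, map_one] at e1 e2
  exact ⟨e1, e2⟩

/-- **Correcting an almost-idempotent.**  If `x * x - x = c • d` then for every `k` there is
`y = x + c • E` with `y * y - y = c ^ 2 ^ k • e`. -/
theorem exists_lift_idempotent (c : ℕ) (x d : R) (h : x * x - x = c • d) (k : ℕ) :
    ∃ y e E : R, y * y - y = (c ^ 2 ^ k) • e ∧ y = x + c • E := by
  induction k with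
  | zero => exact ⟨x, d, 0, by simpa using h, by simp⟩
  | succ k ih =>
    obtain ⟨y, e, E, hy, hyx⟩ := ih
    obtain ⟨n1, n2⟩ := newton_identities y
    refine ⟨3 * y * y - 2 * y * y * y, e * e * (4 * y * y - 4 * y - 3),
      E + (c ^ (2 ^ k - 1)) • (e * (1 - 2 * y)), ?_, ?_⟩
    · rw [n1, hy, smul_mul_smul_comm, smul_mul_assoc, ← pow_add]
      congr 2
      rw [pow_succ]
      ring
    · have hk : c ^ 2 ^ k = c * c ^ (2 ^ k - 1) := by
        rw [← pow_succ']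
        congr 1
        have : 0 < 2 ^ k := Nat.two_pow_pos k
        omega
      rw [n2, hy, hyx, smul_mul_assoc, hk, mul_smul, smul_add, add_assoc]

end Lift

/-! ### (PA) `p`-torsion and `p`-cotorsion of a finite group -/

section PA

/-- The `p`-torsion subgroup `H[p]`. -/
abbrev tor (p : ℕ) (H : Type*) [AddCommGroup H] : AddSubgroup H :=
  (nsmulAddMonoidHom p : H →+ H).ker

/-- The subgroup `pH`. -/
abbrev mulp (p : ℕ) (H : Type*) [AddCommGroup H] : AddSubgroup H :=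
  (nsmulAddMonoidHom p : H →+ H).range

theorem mem_tor {p : ℕ} {H : Type*} [AddCommGroup H] {x : H} : x ∈ tor p H ↔ p • x = 0 :=
  Iff.rfl

theorem mem_mulp {p : ℕ} {H : Type*} [AddCommGroup H] {x : H} : x ∈ mulp p H ↔ ∃ y, p • y = x :=
  Iff.rfl

variable {H : Type*} [AddCommGroup H] [Finite H] (p : ℕ) [hp : Fact p.Prime]

/-- In a finite group of order `m`, `p`-power torsion is killed by `p ^ m`. -/
theorem pow_card_nsmul_eq_zero {x : H} {k : ℕ} (h : p ^ k • x = 0) : p ^ Nat.card H • x = 0 := by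
  have h1 : addOrderOf x ∣ p ^ k := addOrderOf_dvd_of_nsmul_eq_zero h
  obtain ⟨j, -, hj⟩ := (Nat.dvd_prime_pow hp.out).1 h1
  have h2 : addOrderOf x ∣ Nat.card H := addOrderOf_dvd_natCard x
  have hpos : 0 < Nat.card H := Nat.card_pos
  have h3 : p ^ j ≤ Nat.card H := hj ▸ Nat.le_of_dvd hpos h2
  have h4 : j < p ^ j := Nat.lt_pow_self hp.out.one_lt
  have h5 : j ≤ Nat.card H := by omega
  apply addOrderOf_dvd_iff_nsmul_eq_zero.1
  rw [hj]
  exact pow_dvd_pow p h5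

/-- `H = ker (p ^ m) + pH` for `m = |H|`. -/
theorem exists_add_of_finite (h : H) :
    ∃ x z : H, p ^ Nat.card H • x = 0 ∧ h = x + p • z := by
  set m := Nat.card H with hm
  have hmpos : 0 < m := Nat.card_pos
  -- multiplication by `p ^ m` is injective, hence surjective, on `p ^ m H`
  let Q : AddSubgroup H := (nsmulAddMonoidHom (p ^ m) : H →+ H).range
  let μ : Q →+ Q := nsmulAddMonoidHom (p ^ m)
  have hμi : Function.Injective μ := by
    rw [injective_iff_map_eq_zero]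
    rintro ⟨x, y, rfl⟩ hx
    have hx' : p ^ m • (p ^ m • y) = 0 := congrArg Subtype.val hx
    rw [← mul_smul, ← pow_add] at hx'
    exact Subtype.ext (pow_card_nsmul_eq_zero p hx')
  have hμs : Function.Surjective μ := Finite.injective_iff_surjective.1 hμi
  obtain ⟨⟨w, w', rfl⟩, hw⟩ := hμs ⟨p ^ m • h, h, rfl⟩
  have hw' : p ^ m • (p ^ m • w') = p ^ m • h := congrArg Subtype.val hw
  refine ⟨h - p ^ m • w', p ^ (m - 1) • w', ?_, ?_⟩
  · rw [smul_sub, hw', sub_self]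
  · rw [← mul_smul, ← pow_succ', Nat.sub_add_cancel hmpos, sub_add_cancel]

omit [Finite H] hp in
/-- The corrected operator, for additive endomorphisms: `Y = T + p • E` with
`Y ∘ Y - Y = p ^ 2 ^ k • e`. -/
theorem exists_corrected (T D : H →+ H) (hT : ∀ x, T (T x) - T x = p • D x) (k : ℕ) :
    ∃ Y e E : H →+ H, (∀ x, Y (Y x) - Y x = p ^ 2 ^ k • e x) ∧ ∀ x, Y x = T x + p • E x := by
  let Te : AddMonoid.End H := T
  let De : AddMonoid.End H := D
  have hT' : Te * Te - Te = p • De := by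
    ext x
    exact hT x
  obtain ⟨Y, e, E, hY, hYT⟩ := exists_lift_idempotent p Te De hT' k
  exact ⟨Y, e, E, fun x => congrArg (fun f : AddMonoid.End H => f x) hY,
    fun x => congrArg (fun f : AddMonoid.End H => f x) hYT⟩

/-- **(PA)** For a finite additive group `H` and an additive endomorphism `T` with
`T ∘ T - T = p • D`: the image of `T` on the `p`-torsion `H[p]` and the image of `T` in `H / pH`
have the same cardinal. -/
theorem card_map_torsion_eq_card_map_quot (T D : H →+ H) (hT : ∀ x, T (T x) - T x = p • D x) :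
    Nat.card ((tor p H).map T)
      = Nat.card (T.range.map (QuotientAddGroup.mk' (mulp p H))) := by
  set m := Nat.card H with hm
  have hmpos : 0 < m := Nat.card_pos
  -- the corrected operator
  obtain ⟨Y, e, E, hY, hYx⟩ := exists_corrected p T D hT m
  have hYid : ∀ x : H, p ^ m • x = 0 → Y (Y x) = Y x := by
    intro x hx
    have h1 := hY x
    have h3 : p ^ 2 ^ m • x = 0 := by
      have hle : m ≤ 2 ^ m := Nat.lt_two_pow_self.le
      rw [← Nat.sub_add_cancel hle, pow_add, mul_smul, hx, smul_zero]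
    rw [← map_nsmul, h3, map_zero] at h1
    exact sub_eq_zero.1 h1
  have hYp : ∀ x : H, p • x = 0 → Y x = T x := by
    intro x hx
    rw [hYx, ← map_nsmul, hx, map_zero, add_zero]
  have htorP : ∀ x : H, p • x = 0 → p ^ m • x = 0 := by
    intro x hx
    rw [← Nat.sub_add_cancel hmpos, pow_succ, mul_smul, hx, smul_zero]
  -- the group `B = Y (ker p ^ m)`
  let P : AddSubgroup H := (nsmulAddMonoidHom (p ^ m) : H →+ H).ker
  let B : AddSubgroup H := P.map Y
  have hBP : ∀ b ∈ B, p ^ m • b = 0 := by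
    rintro _ ⟨x, hx, rfl⟩
    have hx' : p ^ m • x = 0 := hx
    rw [← map_nsmul, hx', map_zero]
  have hBY : ∀ b ∈ B, Y b = b := by
    rintro _ ⟨x, hx, rfl⟩
    exact hYid x hx
  -- (α) `T (H[p]) = B ∩ H[p]`
  have hα : (tor p H).map T = B ⊓ tor p H := by
    ext b
    constructor
    · rintro ⟨x, hx, rfl⟩
      have hx' : p • x = 0 := hx
      refine ⟨⟨x, htorP x hx', hYp x hx'⟩, ?_⟩
      change p • T x = 0
      rw [← map_nsmul, hx', map_zero]
    · rintro ⟨hb, hb'⟩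
      have hb'' : p • b = 0 := hb'
      exact ⟨b, hb', by rw [← hYp b hb'', hBY b hb]⟩
  -- (β) `T H + pH = B + pH`
  have hβ : T.range.map (QuotientAddGroup.mk' (mulp p H))
      = B.map (QuotientAddGroup.mk' (mulp p H)) := by
    ext c
    constructor
    · rintro ⟨_, ⟨h, rfl⟩, rfl⟩
      obtain ⟨x, z, hx, rfl⟩ := exists_add_of_finite p h
      refine ⟨Y x, ⟨x, hx, rfl⟩, ?_⟩
      rw [QuotientAddGroup.mk'_eq_mk', hYx x]
      exact ⟨p • (T z - E x), ⟨T z - E x, rfl⟩, by rw [map_add, map_nsmul, smul_sub]; abel⟩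
    · rintro ⟨_, ⟨x, -, rfl⟩, rfl⟩
      refine ⟨T x, ⟨x, rfl⟩, ?_⟩
      rw [QuotientAddGroup.mk'_eq_mk', hYx x]
      exact ⟨p • E x, ⟨E x, rfl⟩, rfl⟩
  -- (γ) counting in `B`
  let ψ : B →+ H ⧸ mulp p H := (QuotientAddGroup.mk' (mulp p H)).comp B.subtype
  let χ : B →+ B := nsmulAddMonoidHom p
  have hψr : ψ.range = B.map (QuotientAddGroup.mk' (mulp p H)) := by
    ext c
    constructor
    · rintro ⟨⟨b, hb⟩, rfl⟩
      exact ⟨b, hb, rfl⟩
    · rintro ⟨b, hb, rfl⟩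
      exact ⟨⟨b, hb⟩, rfl⟩
  have hψk : ψ.ker = χ.range := by
    ext ⟨b, hb⟩
    constructor
    · intro hk
      have h1 : (QuotientAddGroup.mk' (mulp p H)) b = 0 := hk
      rw [QuotientAddGroup.mk'_apply, QuotientAddGroup.eq_zero_iff] at h1
      obtain ⟨h, rfl⟩ := h1
      have h2 : p ^ (m + 1) • h = 0 := by
        have := hBP _ hb
        rwa [nsmulAddMonoidHom_apply, ← mul_smul, ← pow_succ] at this
      have h3 : p ^ m • h = 0 := pow_card_nsmul_eq_zero p h2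
      have h4 : Y (p • h) = p • h := hBY _ hb
      refine ⟨⟨Y h, h, h3, rfl⟩, Subtype.ext ?_⟩
      change p • Y h = (nsmulAddMonoidHom p) h
      rw [← map_nsmul]
      exact h4
    · rintro ⟨⟨b', hb'⟩, hbb⟩
      have h1 : p • b' = b := congrArg Subtype.val hbb
      change (QuotientAddGroup.mk' (mulp p H)) b = 0
      rw [QuotientAddGroup.mk'_apply, QuotientAddGroup.eq_zero_iff]
      exact ⟨b', h1⟩
  have hχk : Nat.card χ.ker = Nat.card (B ⊓ tor p H : AddSubgroup H) := by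
    refine Nat.card_congr ⟨fun x => ⟨x.1.1, x.1.2, ?_⟩, fun x => ⟨⟨x.1, x.2.1⟩, ?_⟩, ?_, ?_⟩
    · have h1 : χ x.1 = 0 := x.2
      exact congrArg Subtype.val h1
    · have h1 : p • x.1 = 0 := x.2.2
      exact Subtype.ext h1
    · intro x
      rfl
    · intro x
      rfl
  have c1 := card_ker_mul_card_range ψ
  have c2 := card_ker_mul_card_range χ
  rw [hψk] at c1
  have hpos : 0 < Nat.card χ.range := Nat.card_pos
  rw [hα, hβ, ← hψr, ← hχk]
  have : Nat.card χ.range * Nat.card ψ.range = Nat.card χ.range * Nat.card χ.ker := by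
    rw [c1, mul_comm, c2]
  exact (Nat.eq_of_mul_eq_mul_left hpos this).symm

end PA

/-! ### The cardinal of an image depends only on the kernel; descent along a surjection -/

section Ker

variable {G G₁ G₂ : Type*} [AddCommGroup G] [AddCommGroup G₁] [AddCommGroup G₂]

/-- `|φ K| = |K / (K ∩ ker φ)|`, in the form "the image in `G / ker φ`". -/
theorem card_map_eq_card_map_mk (φ : G →+ G₁) (K : AddSubgroup G) :
    Nat.card (K.map φ) = Nat.card (K.map (QuotientAddGroup.mk' φ.ker)) := by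
  have h : K.map φ = (K.map (QuotientAddGroup.mk' φ.ker)).map (QuotientAddGroup.kerLift φ) := by
    rw [AddSubgroup.map_map]
    congr 1
  rw [h]
  exact AddSubgroup.card_map_of_injective (QuotientAddGroup.kerLift_injective φ)

/-- The cardinal of the image of a subgroup depends only on the kernel of the map. -/
theorem card_map_eq_of_ker_eq (φ : G →+ G₁) (ψ : G →+ G₂) (h : φ.ker = ψ.ker)
    (K : AddSubgroup G) : Nat.card (K.map φ) = Nat.card (K.map ψ) := by
  rw [card_map_eq_card_map_mk φ K, card_map_eq_card_map_mk ψ K]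
  have key : ∀ M M' : AddSubgroup G, M = M' →
      Nat.card (K.map (QuotientAddGroup.mk' M)) = Nat.card (K.map (QuotientAddGroup.mk' M')) := by
    intro M M' hM
    subst hM
    rfl
  exact key _ _ h

/-- Descent of a homomorphism along a surjection `b : L → N` killing what `b` kills. -/
noncomputable def descHom {L N X : Type*} [AddCommGroup L] [AddCommGroup N] [AddCommGroup X]
    (b : L →+ N) (hb : Function.Surjective b) (φ : L →+ X) (h : ∀ x, b x = 0 → φ x = 0) :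
    N →+ X :=
  (QuotientAddGroup.lift b.ker φ (fun x hx => h x hx)).comp
    (QuotientAddGroup.quotientKerEquivOfSurjective b hb).symm.toAddMonoidHom

theorem descHom_apply {L N X : Type*} [AddCommGroup L] [AddCommGroup N] [AddCommGroup X]
    (b : L →+ N) (hb : Function.Surjective b) (φ : L →+ X) (h : ∀ x, b x = 0 → φ x = 0)
    (x : L) : descHom b hb φ h (b x) = φ x := by
  have h1 : (QuotientAddGroup.quotientKerEquivOfSurjective b hb).symm (b x)
      = (x : L ⧸ b.ker) := by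
    rw [AddEquiv.symm_apply_eq]
    rfl
  change (QuotientAddGroup.lift b.ker φ (fun x hx => h x hx))
    ((QuotientAddGroup.quotientKerEquivOfSurjective b hb).symm (b x)) = φ x
  rw [h1]
  rfl

end Ker

/-! ### (PA'), (LAT), (SES-p): incarnation forms -/

section Incarnations

/-- **(PA')** `H` a finite additive group with `T ∘ T - T = p • D`; `N₁ ≅ H[p]` through an
injection `ι`, `N₂ ≅ H / pH` through a surjection `π`, with compatible operators `S₁`, `S₂`:
then `|S₁ N₁| = |S₂ N₂|`. -/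
theorem card_range_eq_of_torsion_quot {H N₁ N₂ : Type*} [AddCommGroup H] [Finite H]
    [AddCommGroup N₁] [AddCommGroup N₂] (p : ℕ) [Fact p.Prime]
    (T D : H →+ H) (hT : ∀ x, T (T x) - T x = p • D x)
    (ι : N₁ →+ H) (hι : Function.Injective ι) (hιr : ∀ x : H, p • x = 0 ↔ ∃ n, ι n = x)
    (π : H →+ N₂) (hπ : Function.Surjective π) (hπk : ∀ x : H, π x = 0 ↔ ∃ y, p • y = x)
    (S₁ : N₁ →+ N₁) (S₂ : N₂ →+ N₂) (h₁ : ∀ n, ι (S₁ n) = T (ι n))
    (h₂ : ∀ x, π (T x) = S₂ (π x)) :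
    Nat.card S₁.range = Nat.card S₂.range := by
  have e1 : S₁.range.map ι = (tor p H).map T := by
    ext y
    constructor
    · rintro ⟨_, ⟨n, rfl⟩, rfl⟩
      exact ⟨ι n, mem_tor.2 ((hιr (ι n)).2 ⟨n, rfl⟩), (h₁ n).symm⟩
    · rintro ⟨x, hx, rfl⟩
      obtain ⟨n, rfl⟩ := (hιr x).1 (mem_tor.1 hx)
      exact ⟨S₁ n, ⟨n, rfl⟩, h₁ n⟩
  have e2 : S₂.range = T.range.map π := by
    ext y
    constructor
    · rintro ⟨w, rfl⟩
      obtain ⟨x, rfl⟩ := hπ w
      exact ⟨T x, ⟨x, rfl⟩, h₂ x⟩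
    · rintro ⟨_, ⟨x, rfl⟩, rfl⟩
      exact ⟨π x, (h₂ x).symm⟩
  have e3 : π.ker = (QuotientAddGroup.mk' (mulp p H)).ker := by
    rw [QuotientAddGroup.ker_mk']
    ext x
    exact hπk x
  rw [← AddSubgroup.card_map_of_injective hι, e1, e2, card_map_eq_of_ker_eq π _ e3,
    card_map_torsion_eq_card_map_quot p T D hT]

/-- **(LAT)** `f : L₁ → L₂` injective with finite cokernel, `L₂` without `p`-torsion, compatible
operators `Tᵢ` with `Tᵢ ∘ Tᵢ - Tᵢ = p • Dᵢ`; `Nᵢ ≅ Lᵢ / p Lᵢ` through surjections `bᵢ`, with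
compatible operators `Sᵢ`, `N₁` finite: then `|S₁ N₁| = |S₂ N₂|`. -/
theorem card_range_eq_of_finite_index {L₁ L₂ N₁ N₂ : Type*} [AddCommGroup L₁] [AddCommGroup L₂]
    [AddCommGroup N₁] [AddCommGroup N₂] [Finite N₁] (p : ℕ) [Fact p.Prime]
    (f : L₁ →+ L₂) (hf : Function.Injective f) (hfin : f.range.index ≠ 0)
    (htf : ∀ x : L₂, p • x = 0 → x = 0)
    (T₁ D₁ : L₁ →+ L₁) (hT₁ : ∀ x, T₁ (T₁ x) - T₁ x = p • D₁ x)
    (T₂ D₂ : L₂ →+ L₂) (hT₂ : ∀ x, T₂ (T₂ x) - T₂ x = p • D₂ x)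
    (hfT : ∀ x, f (T₁ x) = T₂ (f x))
    (b₁ : L₁ →+ N₁) (hb₁ : Function.Surjective b₁) (hk₁ : ∀ x : L₁, b₁ x = 0 ↔ ∃ y, p • y = x)
    (b₂ : L₂ →+ N₂) (hb₂ : Function.Surjective b₂) (hk₂ : ∀ x : L₂, b₂ x = 0 ↔ ∃ y, p • y = x)
    (S₁ : N₁ →+ N₁) (S₂ : N₂ →+ N₂) (h₁ : ∀ x, b₁ (T₁ x) = S₁ (b₁ x))
    (h₂ : ∀ x, b₂ (T₂ x) = S₂ (b₂ x)) :
    Nat.card S₁.range = Nat.card S₂.range := by
  -- `D₂ ∘ f = f ∘ D₁`
  have hD : ∀ x, D₂ (f x) = f (D₁ x) := by
    intro x
    have h := hT₂ (f x)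
    rw [← hfT, ← hfT, ← map_sub, hT₁, map_nsmul] at h
    have h' : p • (D₂ (f x) - f (D₁ x)) = 0 := by rw [smul_sub, h, sub_self]
    exact sub_eq_zero.1 (htf _ h')
  -- the group `H = L₂ / p f(L₁)`
  let M : AddSubgroup L₂ := (f.comp (nsmulAddMonoidHom p)).range
  have hM : ∀ y : L₂, y ∈ M ↔ ∃ x, p • f x = y := by
    intro y
    constructor
    · rintro ⟨x, rfl⟩
      exact ⟨x, (map_nsmul f p x).symm⟩
    · rintro ⟨x, rfl⟩
      exact ⟨x, map_nsmul f p x⟩
  let q : L₂ →+ L₂ ⧸ M := QuotientAddGroup.mk' M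
  have hq0 : ∀ y : L₂, q y = 0 ↔ ∃ x, p • f x = y := by
    intro y
    rw [← hM]
    exact QuotientAddGroup.eq_zero_iff y
  have hTM : M ≤ M.comap T₂ := by
    intro y hy
    obtain ⟨x, rfl⟩ := (hM y).1 hy
    exact (hM _).2 ⟨T₁ x, by rw [map_nsmul, hfT]⟩
  have hDM : M ≤ M.comap D₂ := by
    intro y hy
    obtain ⟨x, rfl⟩ := (hM y).1 hy
    exact (hM _).2 ⟨D₁ x, by rw [map_nsmul, hD]⟩
  let TH : L₂ ⧸ M →+ L₂ ⧸ M := QuotientAddGroup.map M M T₂ hTM
  let DH : L₂ ⧸ M →+ L₂ ⧸ M := QuotientAddGroup.map M M D₂ hDM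
  have hTHq : ∀ y, TH (q y) = q (T₂ y) := fun y => rfl
  have hDHq : ∀ y, DH (q y) = q (D₂ y) := fun y => rfl
  have hqs : Function.Surjective q := QuotientAddGroup.mk'_surjective M
  have hTH : ∀ x, TH (TH x) - TH x = p • DH x := by
    intro x
    obtain ⟨y, rfl⟩ := hqs x
    rw [hTHq, hTHq, hDHq, ← map_sub, hT₂, map_nsmul]
  -- `j = q ∘ f` has the kernel of `b₁`
  let j : L₁ →+ L₂ ⧸ M := q.comp f
  have hjk : j.ker = b₁.ker := by
    ext x
    change q (f x) = 0 ↔ b₁ x = 0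
    rw [hq0, hk₁]
    constructor
    · rintro ⟨x', hx'⟩
      exact ⟨x', hf (by rw [map_nsmul, hx'])⟩
    · rintro ⟨x', rfl⟩
      exact ⟨x', (map_nsmul f p x').symm⟩
  -- finiteness of `H`
  have hfinH : Finite (L₂ ⧸ M) := by
    have c1 : Nat.card j.range = Nat.card N₁ := by
      have e := card_map_eq_of_ker_eq j b₁ hjk ⊤
      rw [← AddMonoidHom.range_eq_map, ← AddMonoidHom.range_eq_map,
        AddMonoidHom.range_eq_top.2 hb₁] at e
      rw [e]
      exact AddSubgroup.card_top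
    have c2 : j.range.index = f.range.index := by
      have hjr : j.range = f.range.map q := (AddMonoidHom.map_range q f).symm
      rw [hjr, AddSubgroup.index_map, AddMonoidHom.range_eq_top.2 hqs, AddSubgroup.index_top,
        mul_one]
      congr 1
      rw [QuotientAddGroup.ker_mk']
      refine sup_eq_left.2 ?_
      rintro y ⟨x, rfl⟩
      exact ⟨p • x, rfl⟩
    have c3 := AddSubgroup.card_mul_index j.range
    rw [c1, c2] at c3
    have hN : Nat.card N₁ ≠ 0 := Nat.card_pos.ne'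
    exact Nat.finite_of_card_ne_zero (by rw [← c3]; exact Nat.mul_ne_zero hN hfin)
  have key := card_map_torsion_eq_card_map_quot p TH DH hTH
  -- left side
  have eL : (tor p (L₂ ⧸ M)).map TH = T₁.range.map j := by
    ext h
    constructor
    · rintro ⟨h', hh', rfl⟩
      obtain ⟨y, rfl⟩ := hqs h'
      have h0 : q (p • y) = 0 := by rw [map_nsmul]; exact hh'
      obtain ⟨x, hx⟩ := (hq0 _).1 h0
      have hy : y = f x := by
        have : p • (y - f x) = 0 := by rw [smul_sub, hx, sub_self]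
        exact sub_eq_zero.1 (htf _ this)
      subst hy
      refine ⟨T₁ x, ⟨x, rfl⟩, ?_⟩
      change q (f (T₁ x)) = TH (q (f x))
      rw [hTHq, hfT]
    · rintro ⟨_, ⟨x, rfl⟩, rfl⟩
      refine ⟨q (f x), ?_, ?_⟩
      · change p • q (f x) = 0
        rw [← map_nsmul, hq0]
        exact ⟨x, rfl⟩
      · change TH (q (f x)) = q (f (T₁ x))
        rw [hTHq, hfT]
  have eL' : T₁.range.map b₁ = S₁.range := by
    ext y
    constructor
    · rintro ⟨_, ⟨x, rfl⟩, rfl⟩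
      exact ⟨b₁ x, (h₁ x).symm⟩
    · rintro ⟨w, rfl⟩
      obtain ⟨x, rfl⟩ := hb₁ w
      exact ⟨T₁ x, ⟨x, rfl⟩, h₁ x⟩
  -- right side
  let r : L₂ →+ (L₂ ⧸ M) ⧸ mulp p (L₂ ⧸ M) := (QuotientAddGroup.mk' (mulp p (L₂ ⧸ M))).comp q
  have eR : TH.range.map (QuotientAddGroup.mk' (mulp p (L₂ ⧸ M))) = T₂.range.map r := by
    ext c
    constructor
    · rintro ⟨_, ⟨h, rfl⟩, rfl⟩
      obtain ⟨y, rfl⟩ := hqs h
      exact ⟨T₂ y, ⟨y, rfl⟩, rfl⟩
    · rintro ⟨_, ⟨y, rfl⟩, rfl⟩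
      exact ⟨TH (q y), ⟨q y, rfl⟩, rfl⟩
  have hrk : r.ker = b₂.ker := by
    ext y
    change (QuotientAddGroup.mk' (mulp p (L₂ ⧸ M))) (q y) = 0 ↔ b₂ y = 0
    rw [QuotientAddGroup.mk'_apply, QuotientAddGroup.eq_zero_iff, hk₂]
    constructor
    · rintro ⟨h, hh⟩
      obtain ⟨z, rfl⟩ := hqs h
      have hh' : q (p • z - y) = 0 := by
        rw [map_sub, map_nsmul]
        exact sub_eq_zero.2 hh
      obtain ⟨x, hx⟩ := (hq0 _).1 hh'
      exact ⟨z - f x, by rw [smul_sub, hx]; abel⟩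
    · rintro ⟨w, rfl⟩
      exact ⟨q w, (map_nsmul q p w).symm⟩
  have eR' : T₂.range.map b₂ = S₂.range := by
    ext y
    constructor
    · rintro ⟨_, ⟨x, rfl⟩, rfl⟩
      exact ⟨b₂ x, (h₂ x).symm⟩
    · rintro ⟨w, rfl⟩
      obtain ⟨x, rfl⟩ := hb₂ w
      exact ⟨T₂ x, ⟨x, rfl⟩, h₂ x⟩
  rw [← eL', ← eR', ← card_map_eq_of_ker_eq j b₁ hjk, ← card_map_eq_of_ker_eq r b₂ hrk, ← eL,
    ← eR]
  exact key

/-- **(SES-p)** A short exact sequence `0 → L₁ → L₂ → L₃ → 0` with `L₃` without `p`-torsion and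
compatible operators stays exact modulo `p` (`Nᵢ ≅ Lᵢ / p Lᵢ` through `bᵢ`), so
`|S₂ N₂| = |S₁ N₁| · |S₃ N₃|`. -/
theorem card_range_mod_of_exact {L₁ L₂ L₃ N₁ N₂ N₃ : Type*} [AddCommGroup L₁] [AddCommGroup L₂]
    [AddCommGroup L₃] [AddCommGroup N₁] [AddCommGroup N₂] [AddCommGroup N₃] (p : ℕ)
    (f : L₁ →+ L₂) (g : L₂ →+ L₃) (hf : Function.Injective f) (hg : Function.Surjective g)
    (hfg : ∀ y : L₂, g y = 0 ↔ ∃ x, f x = y) (htf : ∀ x : L₃, p • x = 0 → x = 0)
    (T₁ : L₁ →+ L₁) (T₂ D₂ : L₂ →+ L₂) (T₃ : L₃ →+ L₃)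
    (hT₂ : ∀ x, T₂ (T₂ x) - T₂ x = p • D₂ x)
    (hfT : ∀ x, f (T₁ x) = T₂ (f x)) (hgT : ∀ x, g (T₂ x) = T₃ (g x))
    (b₁ : L₁ →+ N₁) (hb₁ : Function.Surjective b₁) (hk₁ : ∀ x : L₁, b₁ x = 0 ↔ ∃ y, p • y = x)
    (b₂ : L₂ →+ N₂) (hb₂ : Function.Surjective b₂) (hk₂ : ∀ x : L₂, b₂ x = 0 ↔ ∃ y, p • y = x)
    (b₃ : L₃ →+ N₃) (hb₃ : Function.Surjective b₃) (hk₃ : ∀ x : L₃, b₃ x = 0 ↔ ∃ y, p • y = x)
    (S₁ : N₁ →+ N₁) (S₂ : N₂ →+ N₂) (S₃ : N₃ →+ N₃)
    (h₁ : ∀ x, b₁ (T₁ x) = S₁ (b₁ x)) (h₂ : ∀ x, b₂ (T₂ x) = S₂ (b₂ x))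
    (h₃ : ∀ x, b₃ (T₃ x) = S₃ (b₃ x)) :
    Nat.card S₂.range = Nat.card S₁.range * Nat.card S₃.range := by
  have hfk : ∀ x, b₁ x = 0 → (b₂.comp f) x = 0 := by
    intro x hx
    obtain ⟨y, rfl⟩ := (hk₁ x).1 hx
    exact (hk₂ _).2 ⟨f y, (map_nsmul f p y).symm⟩
  have hgk : ∀ y, b₂ y = 0 → (b₃.comp g) y = 0 := by
    intro y hy
    obtain ⟨z, rfl⟩ := (hk₂ y).1 hy
    exact (hk₃ _).2 ⟨g z, (map_nsmul g p z).symm⟩
  let fb : N₁ →+ N₂ := descHom b₁ hb₁ (b₂.comp f) hfk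
  let gb : N₂ →+ N₃ := descHom b₂ hb₂ (b₃.comp g) hgk
  have hfb : ∀ x, fb (b₁ x) = b₂ (f x) := fun x => descHom_apply b₁ hb₁ (b₂.comp f) hfk x
  have hgb : ∀ y, gb (b₂ y) = b₃ (g y) := fun y => descHom_apply b₂ hb₂ (b₃.comp g) hgk y
  have hfbi : Function.Injective fb := by
    rw [injective_iff_map_eq_zero]
    intro n hn
    obtain ⟨x, rfl⟩ := hb₁ n
    rw [hfb] at hn
    obtain ⟨y, hy⟩ := (hk₂ _).1 hn
    have hgy : g y = 0 := htf _ (by rw [← map_nsmul, hy]; exact (hfg _).2 ⟨x, rfl⟩)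
    obtain ⟨x', rfl⟩ := (hfg y).1 hgy
    exact (hk₁ x).2 ⟨x', hf (by rw [map_nsmul, hy])⟩
  have hgbs : Function.Surjective gb := by
    intro n
    obtain ⟨z, rfl⟩ := hb₃ n
    obtain ⟨y, rfl⟩ := hg z
    exact ⟨b₂ y, hgb y⟩
  have hex : fb.range = gb.ker := by
    ext n
    constructor
    · rintro ⟨m, rfl⟩
      obtain ⟨x, rfl⟩ := hb₁ m
      change gb (fb (b₁ x)) = 0
      rw [hfb, hgb, (hfg (f x)).2 ⟨x, rfl⟩, map_zero]
    · intro hn
      obtain ⟨y, rfl⟩ := hb₂ n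
      have h0 : b₃ (g y) = 0 := by rw [← hgb]; exact hn
      obtain ⟨z, hz⟩ := (hk₃ _).1 h0
      obtain ⟨y', rfl⟩ := hg z
      have h1 : g (y - p • y') = 0 := by rw [map_sub, map_nsmul, hz, sub_self]
      obtain ⟨x, hx⟩ := (hfg _).1 h1
      refine ⟨b₁ x, ?_⟩
      rw [hfb, hx, map_sub, (hk₂ (p • y')).2 ⟨y', rfl⟩, sub_zero]
  have hS₂ : ∀ n, S₂ (S₂ n) = S₂ n := by
    intro n
    obtain ⟨y, rfl⟩ := hb₂ n
    rw [← h₂, ← h₂]
    have h0 : b₂ (T₂ (T₂ y) - T₂ y) = 0 := by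
      rw [hT₂ y]
      exact (hk₂ _).2 ⟨D₂ y, rfl⟩
    rw [map_sub] at h0
    exact sub_eq_zero.1 h0
  refine card_range_of_exact fb gb hfbi hgbs hex S₁ S₂ S₃ hS₂ ?_ ?_
  · intro n
    obtain ⟨x, rfl⟩ := hb₁ n
    rw [← h₁, hfb, hfb, hfT, h₂]
  · intro n
    obtain ⟨y, rfl⟩ := hb₂ n
    rw [← h₂, hgb, hgb, hgT, h₃]

end Incarnations

end Fermat.Agent.S56.EC.ProjRank
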