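/-
S56 / brick EC, row EC.6a (helper39): the INEQUALITY half of `EPSigma` from the four seams of
`EC/Seams.lean`, for an arbitrary family of local invariants with `Hyp` and `Ш²(M0(K)) = 0`
(light imports: no `S55/Count/Uncond`).

* `epsMat_idem`            : `ε = epsMat K hcyc s c` is idempotent (faithfulness, `EC/Twist`);
* `famOp_intertwine`, `rk_epsMat_le`, `rk_epsMat_eq` : the generic adapter from a ONE-element
  equivariance `κ (ρ (g|_K) w) = ω(g) • Φ (lt g) (κ w)` to ranks of matrix operators;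
* `rk_chiRep_epsMat`, `rk_trivial_epsMat` : the two scalar terms;
* `cMinus_eq_rk` (SeamArch), `rk_le_H1` (SeamKum);
* `chi2_le_of_seams` : `χ₂(G_S, X) ≤ - dim X^{c = -1}`.
-/
import Fermat.Agent.S56.EC.Contract
import Fermat.Agent.S56.EC.Seams
import Fermat.Agent.S55.Count.EPLoc
import Fermat.Agent.S56.EC.ProjRank

set_option autoImplicit false

open scoped NumberField
open CategoryTheory ExtCitation IsDedekindDomain

namespace Fermat.Agent.S56.EC.BaseLe

open Fermat.Agent.S55 Fermat.Agent.S55.Abs Fermat.Agent.S55.Count Fermat.Agent.S55.Glue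
  Fermat.Agent.S55.Glue.CoindDual
  Fermat.Agent.CFT.Global.CountAbs Fermat.Agent.CFT.Global.TUnitsHerbrand
  Fermat.Agent.S56.EC.CoindAction Fermat.Agent.S56.EC.RankAdapt Fermat.Agent.S56.EC.RetractRank
  Fermat.Agent.S56.EC.Twist Fermat.Agent.S56.EC.DualSide Fermat.Agent.S56.EC.PlacesDictS
  Fermat.Agent.S56.EC.Seams

local notation "Qb" => AlgebraicClosure ℚ

variable {p : ℕ} [Fact p.Prime] (K : IntermediateField ℚ Qb)

section Eps

variable (hcyc : cycloField p ≤ K) {n : ℕ} {X : Rep.{0} (ZMod p) GQ}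
  (a : Fin n → (M0 (ZMod p) K.fixingSubgroup ⟶ X))
  (b : Fin n → (X ⟶ M0 (ZMod p) K.fixingSubgroup))
  (s : Fin n → Fin n → Finset ↥(Nrm K.fixingSubgroup))
  (c : Fin n → Fin n → ↥(Nrm K.fixingSubgroup) → ZMod p)

/-- The operator of `ε i j` through any representation of `Γ`. -/
theorem asAlgebraHom_epsMat {W : Type*} [AddCommGroup W] [Module (ZMod p) W]
    (ρ : Representation (ZMod p) (↥K ≃ₐ[ℚ] ↥K) W) (i j : Fin n) (w : W) :
    ρ.asAlgebraHom (epsMat K hcyc s c i j) w =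
      ∑ g ∈ s i j, (c i j g * (((chiK K hcyc (resNrm K g))⁻¹ : (ZMod p)ˣ) : ZMod p)) •
        ρ (resNrm K g) w := by
  unfold epsMat epsOf
  rw [map_sum, LinearMap.sum_apply]
  refine Finset.sum_congr rfl fun g _ => ?_
  rw [Representation.asAlgebraHom_single, LinearMap.smul_apply]

/-- The entries of the matrix of the presentation, as morphisms. -/
theorem comp_eq_sum
    (hc : ∀ i j f, (b i).hom ((a j).hom f) =
      ∑ g ∈ s i j, c i j g • (lt K.fixingSubgroup (ZMod p) g).hom f) (i j : Fin n) :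
    a j ≫ b i = ∑ g ∈ s i j, c i j g • lt K.fixingSubgroup (ZMod p) g := by
  apply homL_injective
  apply LinearMap.ext
  intro f
  rw [map_sum, LinearMap.sum_apply]
  have h1 : ∀ g ∈ s i j, (homL _ _ (c i j g • lt K.fixingSubgroup (ZMod p) g)) f =
      c i j g • (lt K.fixingSubgroup (ZMod p) g).hom f := fun g _ => rfl
  rw [Finset.sum_congr rfl h1]
  exact hc i j f

/-- **`ε` is idempotent.** -/
theorem epsMat_idem (hsum : ∀ x, ∑ i, (a i).hom ((b i).hom x) = x)
    (hc : ∀ i j f, (b i).hom ((a j).hom f) =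
      ∑ g ∈ s i j, c i j g • (lt K.fixingSubgroup (ZMod p) g).hom f) :
    epsMat K hcyc s c * epsMat K hcyc s c = epsMat K hcyc s c := by
  have hε : ∀ i j f, (b i).hom ((a j).hom f) =
      (twRep K hcyc).asAlgebraHom (epsMat K hcyc s c i j) f := by
    intro i j f
    rw [hc i j f]
    exact (asAlgebraHom_epsOf K hcyc (s i j) (c i j) f).symm
  apply Matrix.ext
  intro i l
  apply comb_twRep_injective K hcyc
  rw [← asAlgebraHom_eq_comb, ← asAlgebraHom_eq_comb, Matrix.mul_apply, map_sum]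
  apply LinearMap.ext
  intro f
  rw [LinearMap.sum_apply, ← hε i l f]
  have h1 : ∀ j, ((twRep K hcyc).asAlgebraHom (epsMat K hcyc s c i j * epsMat K hcyc s c j l)) f =
      (b i).hom ((a j).hom ((b j).hom ((a l).hom f))) := by
    intro j
    rw [map_mul, Module.End.mul_apply, ← hε j l f, ← hε i j]
  rw [Finset.sum_congr rfl fun j _ => h1 j]
  have h2 : ∑ j, (b i).hom ((a j).hom ((b j).hom ((a l).hom f))) =
      (b i).hom (∑ j, (a j).hom ((b j).hom ((a l).hom f))) := by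
    rw [map_sum]
  rw [h2, hsum]

variable {W H : Type*} [AddCommGroup W] [Module (ZMod p) W] [AddCommGroup H] [Module (ZMod p) H]
  (ρ : Representation (ZMod p) (↥K ≃ₐ[ℚ] ↥K) W)
  (Φ : (M0 (ZMod p) K.fixingSubgroup ⟶ M0 (ZMod p) K.fixingSubgroup) →ₗ[ZMod p]
    (H →ₗ[ZMod p] H))

/-- **The generic adapter**: a map `κ` which intertwines `ρ (g|_K)` with `ω(g) • Φ (lt g)` for
every normalising `g` intertwines the operator of `ε i j` with `Φ (a j ≫ b i)`. -/
theorem famOp_intertwine (κ : W →ₗ[ZMod p] H)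
    (hκ : ∀ (g : ↥(Nrm K.fixingSubgroup)) (w : W),
      κ (ρ (resNrm K g) w) = om (p := p) (g : GQ) • Φ (lt K.fixingSubgroup (ZMod p) g) (κ w))
    (hc : ∀ i j f, (b i).hom ((a j).hom f) =
      ∑ g ∈ s i j, c i j g • (lt K.fixingSubgroup (ZMod p) g).hom f) (i j : Fin n) (w : W) :
    κ (ρ.asAlgebraHom (epsMat K hcyc s c i j) w) = Φ (a j ≫ b i) (κ w) := by
  rw [asAlgebraHom_epsMat, comp_eq_sum K a b s c hc i j, map_sum, map_sum, LinearMap.sum_apply]
  refine Finset.sum_congr rfl fun g _ => ?_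
  rw [map_smul, hκ g w, om_eq_chiK K hcyc g, smul_smul, mul_assoc, ← Units.val_mul,
    inv_mul_cancel, Units.val_one, mul_one, map_smul, LinearMap.smul_apply]

theorem rk_epsMat_le [FiniteDimensional (ZMod p) H] (κ : W →ₗ[ZMod p] H)
    (hκi : Function.Injective κ)
    (hκ : ∀ (g : ↥(Nrm K.fixingSubgroup)) (w : W),
      κ (ρ (resNrm K g) w) = om (p := p) (g : GQ) • Φ (lt K.fixingSubgroup (ZMod p) g) (κ w))
    (hc : ∀ i j f, (b i).hom ((a j).hom f) =
      ∑ g ∈ s i j, c i j g • (lt K.fixingSubgroup (ZMod p) g).hom f) :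
    rk ρ (epsMat K hcyc s c) ≤
      Module.finrank (ZMod p) ↥(LinearMap.range (famOp fun i j => Φ (a j ≫ b i))) :=
  finrank_range_famOp_le_of_injective κ hκi _ _
    (fun i j w => famOp_intertwine K hcyc a b s c ρ Φ κ hκ hc i j w)

theorem rk_epsMat_eq [FiniteDimensional (ZMod p) H] (κ : W ≃ₗ[ZMod p] H)
    (hκ : ∀ (g : ↥(Nrm K.fixingSubgroup)) (w : W),
      κ (ρ (resNrm K g) w) = om (p := p) (g : GQ) • Φ (lt K.fixingSubgroup (ZMod p) g) (κ w))
    (hc : ∀ i j f, (b i).hom ((a j).hom f) =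
      ∑ g ∈ s i j, c i j g • (lt K.fixingSubgroup (ZMod p) g).hom f) :
    rk ρ (epsMat K hcyc s c) =
      Module.finrank (ZMod p) ↥(LinearMap.range (famOp fun i j => Φ (a j ≫ b i))) :=
  finrank_range_famOp_eq_of_equiv κ _ _
    (fun i j w => famOp_intertwine K hcyc a b s c ρ Φ κ.toLinearMap hκ hc i j w)

/-- `rk_ε(μ_p)` is the rank of the augmentation matrix `(∑ g, c i j g)`. -/
theorem rk_chiRep_epsMat :
    rk (chiRep K hcyc) (epsMat K hcyc s c) = (Matrix.of fun i j => ∑ g ∈ s i j, c i j g).rank := by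
  have e : (fun i j => (chiRep K hcyc).asAlgebraHom (epsMat K hcyc s c i j)) = fun i j =>
      (Matrix.of fun i j => ∑ g ∈ s i j, c i j g) i j •
        (LinearMap.id : ZMod p →ₗ[ZMod p] ZMod p) := by
    funext i j
    apply LinearMap.ext
    intro x
    rw [asAlgebraHom_epsMat]
    show _ = (∑ g ∈ s i j, c i j g) * x
    rw [Finset.sum_mul]
    refine Finset.sum_congr rfl fun g _ => ?_
    rw [chiRep_apply, smul_eq_mul, mul_assoc, ← mul_assoc (((chiK K hcyc (resNrm K g))⁻¹ :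
      (ZMod p)ˣ) : ZMod p), ← Units.val_mul, inv_mul_cancel, Units.val_one, one_mul]
  unfold rk
  rw [e]
  exact finrank_range_famOp_smul_id (Module.finrank_self (ZMod p)) _

/-- `rk_ε(𝔽_p)` is the rank of the `ω⁻¹`-twisted augmentation matrix (or of its transpose). -/
theorem rk_trivial_epsMat :
    rk (Representation.trivial (ZMod p) (↥K ≃ₐ[ℚ] ↥K) (ZMod p)) (epsMat K hcyc s c) =
      (Matrix.of fun i j => ∑ g ∈ s j i, c j i g *
        (((cycloChar p (g : GQ))⁻¹ : (ZMod p)ˣ) : ZMod p)).rank := by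
  have e : (fun i j => (Representation.trivial (ZMod p) (↥K ≃ₐ[ℚ] ↥K) (ZMod p)).asAlgebraHom
      (epsMat K hcyc s c i j)) = fun i j =>
      (Matrix.of fun i j => ∑ g ∈ s i j, c i j g *
        (((cycloChar p (g : GQ))⁻¹ : (ZMod p)ˣ) : ZMod p)) i j •
        (LinearMap.id : ZMod p →ₗ[ZMod p] ZMod p) := by
    funext i j
    apply LinearMap.ext
    intro x
    rw [asAlgebraHom_epsMat]
    show _ = (∑ g ∈ s i j, c i j g * (((cycloChar p (g : GQ))⁻¹ : (ZMod p)ˣ) : ZMod p)) * x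
    rw [Finset.sum_mul]
    refine Finset.sum_congr rfl fun g _ => ?_
    rw [cycloChar_eq_chiK K hcyc (resNrm K g) (resNrm_apply K g)]
    rfl
  unfold rk
  rw [e, finrank_range_famOp_smul_id (Module.finrank_self (ZMod p)) _, ← Matrix.rank_transpose]
  rfl

end Eps

/-! ### The archimedean term -/

section Arch

variable [NumberField K] (hcyc : cycloField p ≤ K) {n : ℕ} {X : Rep.{0} (ZMod p) GQ}
  (a : Fin n → (M0 (ZMod p) K.fixingSubgroup ⟶ X))
  (b : Fin n → (X ⟶ M0 (ZMod p) K.fixingSubgroup))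
  (s : Fin n → Fin n → Finset ↥(Nrm K.fixingSubgroup))
  (c : Fin n → Fin n → ↥(Nrm K.fixingSubgroup) → ZMod p)

/-- **`dim X^{c = -1} = rk_ε(𝔽_p[∞_K])`** (SeamArch). -/
theorem cMinus_eq_rk (hArch : SeamArch (p := p) K)
    (hsum : ∀ x, ∑ i, (a i).hom ((b i).hom x) = x)
    (hc : ∀ i j f, (b i).hom ((a j).hom f) =
      ∑ g ∈ s i j, c i j g • (lt K.fixingSubgroup (ZMod p) g).hom f) :
    cMinus X = rk (infRep K) (epsMat K hcyc s c) := by
  obtain ⟨κ, hκ⟩ := hArch
  haveI hfinA : Module.Finite (ZMod p) (M0 (ZMod p) K.fixingSubgroup) := EPLoc.finite_M0 p K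
  have h1 : cMinus X = Module.finrank (ZMod p) ↥(negEig X) := rfl
  have h2 : Module.finrank (ZMod p) ↥(negEig X) = Module.finrank (ZMod p)
      ↥(LinearMap.range (famOp fun i j => (negMap (b i)) ∘ₗ (negMap (a j)))) :=
    finrank_eq_finrank_range_famOp (fun i => negMap (a i)) (fun i => negMap (b i)) (fun x => by
      apply Subtype.ext
      rw [Submodule.coe_sum]
      exact hsum x.1)
  have h3 : (fun i j => (negMap (b i)) ∘ₗ (negMap (a j))) =
      fun i j => negL (M0 (ZMod p) K.fixingSubgroup) (M0 (ZMod p) K.fixingSubgroup)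
        (a j ≫ b i) := by
    funext i j
    apply LinearMap.ext
    intro x
    apply Subtype.ext
    rfl
  rw [h1, h2, h3]
  exact (rk_epsMat_eq K hcyc a b s c (infRep K)
    (negL (M0 (ZMod p) K.fixingSubgroup) (M0 (ZMod p) K.fixingSubgroup)) κ hκ hc).symm

end Arch

/-! ### The Kummer term -/

section Kum

variable [NumberField K] (S : Finset Nat.Primes) (hcyc : cycloField p ≤ K) {n : ℕ}
  {X : Rep.{0} (ZMod p) GQ}
  (a : Fin n → (M0 (ZMod p) K.fixingSubgroup ⟶ X))
  (b : Fin n → (X ⟶ M0 (ZMod p) K.fixingSubgroup))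
  (s : Fin n → Fin n → Finset ↥(Nrm K.fixingSubgroup))
  (c : Fin n → Fin n → ↥(Nrm K.fixingSubgroup) → ZMod p)

/-- **`rk H¹(E) ≥ rk_ε(U_S / p)`** (SeamKum), for any incarnation of `U_S / p`. -/
theorem rk_le_H1 (hKum : SeamKum (p := p) K S)
    {V_U : Type} [AddCommGroup V_U] [Module (ZMod p) V_U]
    (ρ_U : Representation (ZMod p) (↥K ≃ₐ[ℚ] ↥K) V_U)
    (b_U : Additive ((TS K S).unit ↥K) →+ V_U) (hb : Function.Surjective b_U)
    (hk : ∀ x, b_U x = 0 ↔ ∃ y, p • y = x)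
    (he : ∀ (τ : ↥K ≃ₐ[ℚ] ↥K) (x : Additive ((TS K S).unit ↥K)),
      b_U (Additive.ofMul (galTU (galStable_TS K S) τ x.toMul)) = ρ_U τ (b_U x))
    [Module.Finite (ZMod p) (H1 (globalLevel S) (M0 (ZMod p) K.fixingSubgroup))]
    (hc : ∀ i j f, (b i).hom ((a j).hom f) =
      ∑ g ∈ s i j, c i j g • (lt K.fixingSubgroup (ZMod p) g).hom f) :
    rk ρ_U (epsMat K hcyc s c) ≤ Module.finrank (ZMod p)
      ↥(LinearMap.range (famOp fun i j => H1map (globalLevel S) (a j ≫ b i))) := by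
  obtain ⟨κ₀, hκ0, hκe⟩ := hKum
  let κa : V_U →+ H1 (globalLevel S) (M0 (ZMod p) K.fixingSubgroup) :=
    ProjRank.descHom b_U hb κ₀ (fun x hx => (hκ0 x).2 ((hk x).1 hx))
  have hκa : ∀ x, κa (b_U x) = κ₀ x := fun x => ProjRank.descHom_apply b_U hb κ₀ _ x
  let κ : V_U →ₗ[ZMod p] H1 (globalLevel S) (M0 (ZMod p) K.fixingSubgroup) :=
    κa.toZModLinearMap p
  have hκ : ∀ x, κ (b_U x) = κ₀ x := hκa
  have hκi : Function.Injective κ := by
    rw [injective_iff_map_eq_zero]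
    intro v hv
    obtain ⟨x, rfl⟩ := hb v
    rw [hκ] at hv
    exact (hk x).2 ((hκ0 x).1 hv)
  have hκg : ∀ (g : ↥(Nrm K.fixingSubgroup)) (w : V_U), κ (ρ_U (resNrm K g) w) =
      om (p := p) (g : GQ) • H1mapL (globalLevel S) (M0 (ZMod p) K.fixingSubgroup)
        (M0 (ZMod p) K.fixingSubgroup) (lt K.fixingSubgroup (ZMod p) g) (κ w) := by
    intro g w
    obtain ⟨x, rfl⟩ := hb w
    rw [← he, hκ, hκ, hκe g x]
    rfl
  exact rk_epsMat_le K hcyc a b s c ρ_U
    (H1mapL (globalLevel S) (M0 (ZMod p) K.fixingSubgroup) (M0 (ZMod p) K.fixingSubgroup))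
    κ hκi hκg hc

end Kum

/-! ### The inequality -/

section Main

variable [NumberField K] (S : Finset Nat.Primes) {n : ℕ} {X : Rep.{0} (ZMod p) GQ}
  (a : Fin n → (M0 (ZMod p) K.fixingSubgroup ⟶ X))
  (b : Fin n → (X ⟶ M0 (ZMod p) K.fixingSubgroup))
  (s : Fin n → Fin n → Finset ↥(Nrm K.fixingSubgroup))
  (c : Fin n → Fin n → ↥(Nrm K.fixingSubgroup) → ZMod p)

/-- A retract of `M0(K)ⁿ` is finite. -/
theorem finite_of_family (hsum : ∀ x, ∑ i, (a i).hom ((b i).hom x) = x) :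
    Module.Finite (ZMod p) X := by
  haveI hfinA : Module.Finite (ZMod p) (M0 (ZMod p) K.fixingSubgroup) := EPLoc.finite_M0 p K
  exact Module.Finite.of_injective (LinearMap.pi fun i => (b i).hom.toLinearMap)
    (pi_injective_of_sum (fun i => (a i).hom.toLinearMap) (fun i => (b i).hom.toLinearMap) hsum)

omit [NumberField K] in
/-- A retract of `M0(K)ⁿ` is discrete. -/
theorem isDisc_of_family (hK : K.IsUnramifiedOutside S)
    (hsum : ∀ x, ∑ i, (a i).hom ((b i).hom x) = x) : IsDisc (globalLevel S) X := by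
  obtain ⟨U, hU, h⟩ := isDisc_coindTriv (k := ZMod p) (globalLevel S) K.fixingSubgroup
    ⟨_, ⟨K, hK, rfl⟩, le_rfl⟩ (ZMod p)
  refine ⟨U, hU, fun g hg x => ?_⟩
  have h1 : X.ρ g x = ∑ i, X.ρ g ((a i).hom ((b i).hom x)) := by
    conv_lhs => rw [← hsum x]
    rw [map_sum]
  rw [h1]
  conv_rhs => rw [← hsum x]
  refine Finset.sum_congr rfl fun i _ => ?_
  rw [← Rep.hom_comm_apply (a i) g ((b i).hom x), h g hg]

/-- **The inequality half of `EPSigma`**: `χ₂(G_S, X) ≤ - dim X^{c = -1}` from the four seams. -/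
theorem chi2_le_of_seams (hpS : pPrime p ∈ S) (hK : K.IsUnramifiedOutside S)
    (hcyc : cycloField p ≤ K) (inv : InvS p S) (hyp : (dataS p S hpS inv).Hyp)
    (hsA : (dataS p S hpS inv).sha2 (M0 (ZMod p) K.fixingSubgroup) = ⊥)
    (hKum : SeamKum (p := p) K S) (hArch : SeamArch (p := p) K) (hLoc : SeamLoc (p := p) K S hcyc)
    (hUnits : SeamUnits (p := p) K S hcyc)
    (hsum : ∀ x, ∑ i, (a i).hom ((b i).hom x) = x)
    (hc : ∀ i j f, (b i).hom ((a j).hom f) =
      ∑ g ∈ s i j, c i j g • (lt K.fixingSubgroup (ZMod p) g).hom f) :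
    chi2 (globalLevel S) X ≤ -(cMinus X : ℤ) := by
  haveI hfinA : Module.Finite (ZMod p) (M0 (ZMod p) K.fixingSubgroup) := EPLoc.finite_M0 p K
  haveI hfinX : Module.Finite (ZMod p) X := finite_of_family K a b hsum
  have hMA : IsDisc (globalLevel S) (M0 (ZMod p) K.fixingSubgroup) :=
    isDisc_coindTriv (globalLevel S) K.fixingSubgroup ⟨_, ⟨K, hK, rfl⟩, le_rfl⟩ (ZMod p)
  have hX : IsDisc (globalLevel S) X := isDisc_of_family K S a b hK hsum
  haveI hfinH1 : Module.Finite (ZMod p) (H1 (globalLevel S) (M0 (ZMod p) K.fixingSubgroup)) :=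
    hyp.fin_H1 _ hMA
  have hχ := cycloChar_eq_one_of_cycloField_le K hcyc
  have hchi := chi2_retract_eq_adj (dataS p S hpS inv)
    (dualTwistIso (U := K.fixingSubgroup) (cycloChar p) hχ) a b hyp hX hsum hsA
  have h0 := finrank_H0_famOp_lt a b s c hc
  have h0' := finrank_H0_famOp_adj_lt a b s c (cycloChar p) hχ hc
  have hS := hLoc n X a b s c hc
  obtain ⟨V_U, iA, iM, iF, ρ_U, b_U, hb, hk, he, hrk⟩ := hUnits
  have hu := hrk n (epsMat K hcyc s c) (epsMat_idem K hcyc a b s c hsum hc)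
  have h1 := rk_le_H1 K S hcyc a b s c hKum ρ_U b_U hb hk he hc
  have harch := cMinus_eq_rk K hcyc a b s c hArch hsum hc
  have hr0 := rk_chiRep_epsMat K hcyc s c
  have hr0' := rk_trivial_epsMat K hcyc s c
  rw [hchi, harch]
  have e0 : Module.finrank (ZMod p) ↥(LinearMap.range (famOp fun i j => H0map (a j ≫ b i))) =
      rk (chiRep K hcyc) (epsMat K hcyc s c) := by rw [h0, hr0]
  have e0' : Module.finrank (ZMod p) ↥(LinearMap.range (famOp fun i j =>
      H0map (adj (cycloChar p) (dualTwistIso (U := K.fixingSubgroup) (cycloChar p) hχ)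
        (a i ≫ b j)))) =
      rk (Representation.trivial (ZMod p) (↥K ≃ₐ[ℚ] ↥K) (ZMod p)) (epsMat K hcyc s c) := by
    rw [h0', hr0']
  have eS : (∑ v : ↥S, Module.finrank (ZMod p) ↥(LinearMap.range (famOp fun i j =>
      H0map (Rep.resMap ((dataS p S hpS inv).loc v)
        (adj (dataS p S hpS inv).χ (dualTwistIso (U := K.fixingSubgroup) (cycloChar p) hχ)
          (a i ≫ b j)))))) = rk (finRep K S) (epsMat K hcyc s c) := hS
  rw [e0]
  erw [e0', eS]
  have h1' : (rk ρ_U (epsMat K hcyc s c) : ℤ) ≤ Module.finrank (ZMod p)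
      ↥(LinearMap.range (famOp fun i j => H1map (globalLevel S) (a j ≫ b i))) := by
    exact_mod_cast h1
  have hu' : (rk ρ_U (epsMat K hcyc s c) : ℤ) +
      rk (Representation.trivial (ZMod p) (↥K ≃ₐ[ℚ] ↥K) (ZMod p)) (epsMat K hcyc s c) =
      rk (chiRep K hcyc) (epsMat K hcyc s c) + rk (infRep K) (epsMat K hcyc s c) +
        rk (finRep K S) (epsMat K hcyc s c) := by
    exact_mod_cast hu
  have h1'' : (rk ρ_U (epsMat K hcyc s c) : ℤ) ≤ Module.finrank (ZMod p)
      ↥(LinearMap.range (famOp fun i j => H1map (dataS p S hpS inv).𝒰 (a j ≫ b i))) := h1'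
  linarith

end Main

end Fermat.Agent.S56.EC.BaseLe
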