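/-
S56 / brick EC (Euler characteristic), EC.0: the EXACT Euler characteristic of the base
modules (helper276, own risk).

`p` odd, `p ∈ S`, `K ≤ ℚ̄` a number field unramified outside `S` containing `μ_p`,
`M0(K) = coind_{G_K}^{G_ℚ} 𝔽_p`.  With the unconditional counting package
`S55/Count/Uncond` (`T ≥ 0`) every inequality of the (EP) count `S55/Count/EP.ep_of_sha2` is
tight (`ChiFormal.chi2_eq_of_counts`):

* `finrank_sha2_M0_le` : `dim Ш²_S(M0(K)) ≤ ρ` when `[Cl_K : Cl_K^p ⟨S_K⟩] = p ^ ρ`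
  (the landed (c4), for any family of local invariants);
* `sha2_M0_eq_bot`     : `Ш²_S(M0(K)) = 0` when `[Cl_K : Cl_K^p ⟨S_K⟩] = 1`;
* `chi2_M0_of_hyp`     : for any family `inv` with `Hyp`:
  `χ₂(G_S, M0(K)) = -r₂(K)`, `dim Ш²_S(M0(K)) = ρ`, `Σ_{q ∈ S} h¹(G_q, M0(K)) = 2|S_K| + [K:ℚ]`;
* `chi2_M0`            : `χ₂(G_S, M0(K)) = -r₂(K)`, unconditionally;
* `chi2_M0_family`     : `χ₂(G_S, X) = -n · r₂(K)` for `X = M0(K)ⁿ` (any presentation).
-/
import Fermat.Agent.S55.Count.Uncond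
import Fermat.Agent.S56.EC.ShaFormal

set_option autoImplicit false

open scoped NumberField
open CategoryTheory groupCohomology ExtCitation

namespace Fermat.Agent.S56.EC.ChiM0

open Fermat.Agent.S55 Fermat.Agent.S55.Abs Fermat.Agent.S55.Count
open Fermat.Agent.CFT.Global.CountAbs Fermat.Agent.CFT.Global.CountV
  Fermat.Agent.CFT.Global.CountQ Fermat.Agent.CFT.Global.SelmerCount Fermat.Agent.S55.Glue

local notation "Qb" => AlgebraicClosure ℚ

variable {p : ℕ} [Fact p.Prime] {S : Finset Nat.Primes}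

/-- **(c4) for the counting data**: `dim Ш²_S(M0(K)) ≤ ρ` when
`[Cl_K : Cl_K^p ⟨S_K⟩] = p ^ ρ` (any family of local invariants; no reciprocity). -/
theorem finrank_sha2_M0_le (hp2 : p ≠ 2) (hpS : pPrime p ∈ S) (inv : InvS p S)
    (K : IntermediateField ℚ Qb) [NumberField K] (hK : K.IsUnramifiedOutside S)
    (hcyc : cycloField p ≤ K) (ρ : ℕ) (hρ : (clS (𝓞 K) p (SK S K)).index = p ^ ρ) :
    Module.Finite (ZMod p) ↥((dataS p S hpS inv).sha2 (M0 (ZMod p) K.fixingSubgroup)) ∧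
      Module.finrank (ZMod p) ↥((dataS p S hpS inv).sha2 (M0 (ZMod p) K.fixingSubgroup)) ≤ ρ := by
  have hc4 : EPBridge.HC4 hpS (EPBridge.arithInputZero p S).lamS :=
    EPFinal.hc4_of_c4Input hp2 hpS (EPBridge.arithInputZero p S)
      (fun K _ hK hc => Final.c4Input_all hpS (EPBridge.arithInputZero p S) K hK hc)
  rw [EPBridge.sha2_eq_ker_loc2 hpS inv (EPBridge.arithInputZero p S).lamS]
  exact hc4 K hK hcyc ρ hρ

/-- `Ш²_S(M0(K)) = 0` when the `S`-class group of `K` has no `p`-quotient. -/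
theorem sha2_M0_eq_bot (hp2 : p ≠ 2) (hpS : pPrime p ∈ S) (inv : InvS p S)
    (K : IntermediateField ℚ Qb) [NumberField K] (hK : K.IsUnramifiedOutside S)
    (hcyc : cycloField p ≤ K) (h1 : (clS (𝓞 K) p (SK S K)).index = 1) :
    (dataS p S hpS inv).sha2 (M0 (ZMod p) K.fixingSubgroup) = ⊥ := by
  obtain ⟨hfin, hle⟩ := finrank_sha2_M0_le hp2 hpS inv K hK hcyc 0 (by rw [h1, pow_zero])
  exact Submodule.finrank_eq_zero.mp (Nat.le_zero.mp hle)

/-- **The (EP) count of `M0(K)` is exact** (for any family of local invariants with `Hyp`). -/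
theorem chi2_M0_of_hyp (hp2 : p ≠ 2) (hpS : pPrime p ∈ S) (inv : InvS p S)
    (h : (dataS p S hpS inv).Hyp) (K : IntermediateField ℚ Qb) [NumberField K]
    (hK : K.IsUnramifiedOutside S) (hcyc : cycloField p ≤ K) :
    ∃ ρ : ℕ, (clS (𝓞 K) p (SK S K)).index = p ^ ρ ∧
      chi2 (globalLevel S) (M0 (ZMod p) K.fixingSubgroup) =
        -(NumberField.InfinitePlace.nrComplexPlaces K : ℤ) ∧
      Module.finrank (ZMod p) ↥((dataS p S hpS inv).sha2 (M0 (ZMod p) K.fixingSubgroup)) = ρ ∧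
      ∑ v, Module.finrank (ZMod p) ((dataS p S hpS inv).LH1 (M0 (ZMod p) K.fixingSubgroup) v) =
        2 * (SK S K).card + Module.finrank ℚ K := by
  classical
  have : FiniteDimensional ℚ K := hK.1
  have hχ := cycloChar_eq_one_of_cycloField_le K hcyc
  obtain ⟨ρ, hρ, ⟨hfin1, hrank1⟩, ⟨hfin1', hrank1'⟩, ⟨-, hloc⟩, -, hcount⟩ :=
    cnt S K hp2 hpS hK hcyc
  obtain ⟨hfinS, hshaS⟩ := finrank_sha2_M0_le hp2 hpS inv K hK hcyc ρ hρ
  have hM : IsDisc (dataS p S hpS inv).𝒰 (M0 (ZMod p) K.fixingSubgroup) :=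
    isDisc_coindTriv (globalLevel S) K.fixingSubgroup ⟨_, ⟨K, hK, rfl⟩, le_rfl⟩ (ZMod p)
  have hfinM0 : Module.Finite (ZMod p) (M0 (ZMod p) K.fixingSubgroup) := EPLoc.finite_M0 p K
  have hri : ∀ m, (CoindDual.dualTwistIso (U := K.fixingSubgroup) (cycloChar p) hχ).inv.hom
      ((CoindDual.dualTwistIso (U := K.fixingSubgroup) (cycloChar p) hχ).hom.hom m) = m := by
    intro m
    simp
  have hir : ∀ n, (CoindDual.dualTwistIso (U := K.fixingSubgroup) (cycloChar p) hχ).hom.hom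
      ((CoindDual.dualTwistIso (U := K.fixingSubgroup) (cycloChar p) hχ).inv.hom n) = n := by
    intro n
    simp
  obtain ⟨hchi, -, -, hs, hl1, -⟩ := ChiFormal.chi2_eq_of_counts (dataS p S hpS inv) h
    (M0 (ZMod p) K.fixingSubgroup) hM
    (CoindDual.dualTwistIso (U := K.fixingSubgroup) (cycloChar p) hχ).hom
    (CoindDual.dualTwistIso (U := K.fixingSubgroup) (cycloChar p) hχ).inv hri hir
    (EP.finrank_H0_M0 K.fixingSubgroup)
    (NumberField.InfinitePlace.nrComplexPlaces K + (SK S K).card + ρ)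
    (2 * (SK S K).card + Module.finrank ℚ K) ρ (le_of_eq hrank1.symm) (le_of_eq hrank1'.symm)
    hloc hshaS hcount
  have hl2 : ∑ v, Module.finrank (ZMod p)
      ((dataS p S hpS inv).LH2 (M0 (ZMod p) K.fixingSubgroup) v) = (SK S K).card :=
    EPLoc.sum_finrank_LH2_M0 p K S hpS hcyc hK inv h.toLocHyp
  have hchi' : chi2 (globalLevel S) (M0 (ZMod p) K.fixingSubgroup) =
      ((∑ v, Module.finrank (ZMod p)
        ((dataS p S hpS inv).LH2 (M0 (ZMod p) K.fixingSubgroup) v) : ℕ) : ℤ) + ρ -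
        ((NumberField.InfinitePlace.nrComplexPlaces K + (SK S K).card + ρ : ℕ) : ℤ) := hchi
  refine ⟨ρ, hρ, ?_, hs, hl1⟩
  rw [hchi', hl2]
  push_cast
  ring

/-- **`χ₂(G_{ℚ,S}, M0(K)) = -r₂(K)`**, unconditionally (`p` odd, `p ∈ S`, `K ⊇ μ_p` unramified
outside `S`). -/
theorem chi2_M0 (hp2 : p ≠ 2) (hpS : pPrime p ∈ S) (K : IntermediateField ℚ Qb) [NumberField K]
    (hK : K.IsUnramifiedOutside S) (hcyc : cycloField p ≤ K) :
    chi2 (globalLevel S) (M0 (ZMod p) K.fixingSubgroup) =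
      -(NumberField.InfinitePlace.nrComplexPlaces K : ℤ) := by
  obtain ⟨inv, hyp, -⟩ := Uncond.exists_inv_hyp hp2 S hpS
  obtain ⟨ρ, -, h, -⟩ := chi2_M0_of_hyp hp2 hpS inv hyp K hK hcyc
  exact h

/-- **`χ₂(G_{ℚ,S}, M0(K)ⁿ) = -n · r₂(K)`**, for `X = M0(K)ⁿ` presented by any family of `n`
inclusions and projections. -/
theorem chi2_M0_family (hp2 : p ≠ 2) (hpS : pPrime p ∈ S) (K : IntermediateField ℚ Qb)
    [NumberField K] (hK : K.IsUnramifiedOutside S) (hcyc : cycloField p ≤ K)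
    {X : Rep.{0} (ZMod p) GQ} {n : ℕ}
    (ι : Fin n → (M0 (ZMod p) K.fixingSubgroup ⟶ X))
    (π : Fin n → (X ⟶ M0 (ZMod p) K.fixingSubgroup))
    (hπι : ∀ i j a, (π i).hom ((ι j).hom a) = if i = j then a else 0)
    (hsum : ∀ x, ∑ i, (ι i).hom ((π i).hom x) = x) :
    chi2 (globalLevel S) X = -((n : ℤ) * NumberField.InfinitePlace.nrComplexPlaces K) := by
  obtain ⟨inv, hyp, -⟩ := Uncond.exists_inv_hyp hp2 S hpS
  have hM : IsDisc (globalLevel S) (M0 (ZMod p) K.fixingSubgroup) :=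
    isDisc_coindTriv (globalLevel S) K.fixingSubgroup ⟨_, ⟨K, hK, rfl⟩, le_rfl⟩ (ZMod p)
  have hfinM0 : Module.Finite (ZMod p) (M0 (ZMod p) K.fixingSubgroup) := EPLoc.finite_M0 p K
  have h0 : Module.Finite (ZMod p) (Abs.H0 (M0 (ZMod p) K.fixingSubgroup)) :=
    CData.finite_H0 (M0 (ZMod p) K.fixingSubgroup)
  have h1 : Module.Finite (ZMod p) (Abs.H1 (globalLevel S) (M0 (ZMod p) K.fixingSubgroup)) :=
    hyp.fin_H1 _ hM
  have h2 : Module.Finite (ZMod p) (Abs.H2 (globalLevel S) (M0 (ZMod p) K.fixingSubgroup)) :=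
    hyp.fin_H2 _ hM
  rw [ChiFormal.chi2_family ι π (globalLevel S) hπι hsum, chi2_M0 hp2 hpS K hK hcyc]
  ring

end Fermat.Agent.S56.EC.ChiM0
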