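/-
S56 / brick EC (Euler characteristic), formal layer (helper185; dealt by the EC architect,
report #7453 (D)): THE COMPLEMENTARY RETRACT.

`A X : Rep k G` and a presentation of `X` as a retract of `Aⁿ`: `a i : A ⟶ X`, `b i : X ⟶ A`
(`i : Fin n`) with `∑ i, a i (b i x) = x`, i.e. `X = e · Aⁿ` for the idempotent matrix
`e i j = a j ≫ b i`.  `exists_compl` produces the complement `X' = (1 - e) · Aⁿ` with ITS
presentation `a' i`, `b' i` (matrix `1 - e`), together with the biproduct data `ι i`, `π i` of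
`An = Aⁿ` and the splitting `An = X ⊕ X'` (`iX`, `pX`, `iX'`, `pX'`).

Construction: `An` is the diagonal representation on `Fin n → A`, `iX x = (b i x)_i`,
`pX y = ∑ i, a i (y i)`, `X' = ker pX` as a subrepresentation, `pX' y = y - iX (pX y)`,
`a' j = ι j ≫ pX'`, `b' i = iX' ≫ π i`.

Mathlib only.
-/
import Mathlib

set_option autoImplicit false

open CategoryTheory

namespace Fermat.Agent.S56.EC.Compl

variable {k G : Type} [Field k] [Group G]

/-! ### Two constructions of representations -/

/-- The diagonal representation on `Fin n → V`. -/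
def piRep {V : Type} [AddCommGroup V] [Module k V] (ρ : Representation k G V) (n : ℕ) :
    Representation k G (Fin n → V) where
  toFun g := LinearMap.pi fun i => ρ g ∘ₗ LinearMap.proj i
  map_one' := by
    apply LinearMap.ext
    intro y
    funext i
    simp
  map_mul' g h := by
    apply LinearMap.ext
    intro y
    funext i
    simp

theorem piRep_apply {V : Type} [AddCommGroup V] [Module k V] (ρ : Representation k G V) (n : ℕ)
    (g : G) (y : Fin n → V) (i : Fin n) : piRep ρ n g y i = ρ g (y i) := rfl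

/-- The restriction of a representation to a stable submodule. -/
def subRep {W : Type} [AddCommGroup W] [Module k W] (ρ : Representation k G W)
    (K : Submodule k W) (hK : ∀ (g : G), ∀ y ∈ K, ρ g y ∈ K) : Representation k G K where
  toFun g := (ρ g).restrict (hK g)
  map_one' := by
    apply LinearMap.ext
    intro y
    apply Subtype.ext
    simp
  map_mul' g h := by
    apply LinearMap.ext
    intro y
    apply Subtype.ext
    simp

theorem subRep_apply_coe {W : Type} [AddCommGroup W] [Module k W] (ρ : Representation k G W)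
    (K : Submodule k W) (hK : ∀ (g : G), ∀ y ∈ K, ρ g y ∈ K) (g : G) (y : K) :
    ((subRep ρ K hK g y : K) : W) = ρ g (y : W) := rfl

/-! ### The linear maps -/

section Linear

variable {A X : Rep.{0} k G} {n : ℕ}

/-- `pX y = ∑ i, a i (y i)`. -/
noncomputable def pLin (a : Fin n → (A ⟶ X)) : (Fin n → A) →ₗ[k] X :=
  ∑ i, (a i).hom.toLinearMap ∘ₗ LinearMap.proj i

theorem pLin_apply (a : Fin n → (A ⟶ X)) (y : Fin n → A) : pLin a y = ∑ i, (a i).hom (y i) := by
  simp [pLin]

/-- `iX x = (b i x)_i`. -/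
noncomputable def iLin (b : Fin n → (X ⟶ A)) : X →ₗ[k] (Fin n → A) :=
  LinearMap.pi fun i => (b i).hom.toLinearMap

theorem iLin_apply (b : Fin n → (X ⟶ A)) (x : X) (i : Fin n) : iLin b x i = (b i).hom x := rfl

theorem pLin_piRep (a : Fin n → (A ⟶ X)) (g : G) (y : Fin n → A) :
    pLin a (piRep A.ρ n g y) = X.ρ g (pLin a y) := by
  rw [pLin_apply, pLin_apply, map_sum]
  exact Finset.sum_congr rfl fun i _ => Rep.hom_comm_apply (a i) g (y i)

theorem iLin_ρ (b : Fin n → (X ⟶ A)) (g : G) (x : X) :
    iLin b (X.ρ g x) = piRep A.ρ n g (iLin b x) := by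
  funext i
  exact Rep.hom_comm_apply (b i) g x

theorem ker_pLin_stable (a : Fin n → (A ⟶ X)) (g : G) (y : Fin n → A)
    (hy : y ∈ LinearMap.ker (pLin a)) : piRep A.ρ n g y ∈ LinearMap.ker (pLin a) := by
  rw [LinearMap.mem_ker] at hy ⊢
  rw [pLin_piRep, hy, map_zero]

/-- `pX' y = y - iX (pX y)`, with values in `ker pX`. -/
noncomputable def qLin (a : Fin n → (A ⟶ X)) (b : Fin n → (X ⟶ A))
    (hsum : ∀ x, ∑ i, (a i).hom ((b i).hom x) = x) :
    (Fin n → A) →ₗ[k] LinearMap.ker (pLin a) :=
  (LinearMap.id - iLin b ∘ₗ pLin a).codRestrict (LinearMap.ker (pLin a)) (fun y => by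
    rw [LinearMap.mem_ker, LinearMap.sub_apply, map_sub, LinearMap.id_apply,
      LinearMap.comp_apply, pLin_apply a (iLin b (pLin a y))]
    have h := hsum (pLin a y)
    simp only [iLin_apply]
    rw [h, sub_self])

theorem qLin_apply_coe (a : Fin n → (A ⟶ X)) (b : Fin n → (X ⟶ A))
    (hsum : ∀ x, ∑ i, (a i).hom ((b i).hom x) = x) (y : Fin n → A) :
    ((qLin a b hsum y : LinearMap.ker (pLin a)) : Fin n → A) = y - iLin b (pLin a y) := rfl

end Linear

/-! ### The complementary retract -/

/-- **The complementary retract.**  For a retract `X` of `Aⁿ` presented by `a i : A ⟶ X`,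
`b i : X ⟶ A`, `∑ i, a i ∘ b i = 1`, there are `X'` and `An` with: a presentation `a'`, `b'` of
`X'` whose matrix is `1 - (b i ∘ a j)`; biproduct data `ι`, `π` for `An = Aⁿ`; and a splitting
`An = X ⊕ X'`. -/
theorem exists_compl {k G : Type} [Field k] [Group G] {A X : Rep.{0} k G} {n : ℕ}
    (a : Fin n → (A ⟶ X)) (b : Fin n → (X ⟶ A))
    (hsum : ∀ x, ∑ i, (a i).hom ((b i).hom x) = x) :
    ∃ (X' An : Rep.{0} k G) (a' : Fin n → (A ⟶ X')) (b' : Fin n → (X' ⟶ A))
      (ι : Fin n → (A ⟶ An)) (π : Fin n → (An ⟶ A)) (iX : X ⟶ An) (pX : An ⟶ X)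
      (iX' : X' ⟶ An) (pX' : An ⟶ X'),
      (∀ x, ∑ i, (a' i).hom ((b' i).hom x) = x) ∧
      (∀ i j f, (b' i).hom ((a' j).hom f) = (if i = j then f else 0) - (b i).hom ((a j).hom f)) ∧
      (∀ i j f, (π i).hom ((ι j).hom f) = if i = j then f else 0) ∧
      (∀ y, ∑ i, (ι i).hom ((π i).hom y) = y) ∧
      (∀ x, pX.hom (iX.hom x) = x) ∧
      (∀ x, pX'.hom (iX'.hom x) = x) ∧
      (∀ y, iX.hom (pX.hom y) + iX'.hom (pX'.hom y) = y) := by
  classical
  -- the representations
  let ρn : Representation k G (Fin n → A) := piRep A.ρ n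
  let K : Submodule k (Fin n → A) := LinearMap.ker (pLin a)
  let ρK : Representation k G K := subRep ρn K (ker_pLin_stable a)
  -- the morphisms
  let ι : Fin n → (A ⟶ Rep.of ρn) := fun j =>
    Rep.ofHom (LinearMap.intertwiningMap_of_isIntertwiningMap A.ρ ρn
      (LinearMap.single k (fun _ : Fin n => (A : Type)) j) (fun g f => by
        funext i
        rw [piRep_apply]
        by_cases h : i = j
        · subst h
          simp
        · simp [Pi.single_eq_of_ne h]))
  let π : Fin n → (Rep.of ρn ⟶ A) := fun i =>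
    Rep.ofHom (LinearMap.intertwiningMap_of_isIntertwiningMap ρn A.ρ
      (LinearMap.proj i) (fun g y => rfl))
  let iX : X ⟶ Rep.of ρn :=
    Rep.ofHom (LinearMap.intertwiningMap_of_isIntertwiningMap X.ρ ρn (iLin b)
      (fun g x => iLin_ρ b g x))
  let pX : Rep.of ρn ⟶ X :=
    Rep.ofHom (LinearMap.intertwiningMap_of_isIntertwiningMap ρn X.ρ (pLin a)
      (fun g y => pLin_piRep a g y))
  let iX' : Rep.of ρK ⟶ Rep.of ρn :=
    Rep.ofHom (LinearMap.intertwiningMap_of_isIntertwiningMap ρK ρn K.subtype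
      (fun g y => rfl))
  let pX' : Rep.of ρn ⟶ Rep.of ρK :=
    Rep.ofHom (LinearMap.intertwiningMap_of_isIntertwiningMap ρn ρK (qLin a b hsum)
      (fun g y => by
        apply Subtype.ext
        rw [subRep_apply_coe, qLin_apply_coe, qLin_apply_coe, map_sub, pLin_piRep, iLin_ρ]))
  have hιπ : ∀ i j (f : A), (π i).hom ((ι j).hom f) = if i = j then f else 0 := by
    intro i j f
    change (Pi.single j f : Fin n → A) i = _
    rw [Pi.single_apply]
  have hpi : ∀ x : X, pX.hom (iX.hom x) = x := by
    intro x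
    change pLin a (iLin b x) = x
    rw [pLin_apply]
    exact hsum x
  have hp'i' : ∀ x : K, pX'.hom (iX'.hom x) = x := by
    intro x
    apply Subtype.ext
    change (x : Fin n → A) - iLin b (pLin a (x : Fin n → A)) = x
    have hx : pLin a (x : Fin n → A) = 0 := x.2
    rw [hx, map_zero, sub_zero]
  have hsplit : ∀ y : Fin n → A, iX.hom (pX.hom y) + iX'.hom (pX'.hom y) = y := by
    intro y
    change iLin b (pLin a y) + (y - iLin b (pLin a y)) = y
    abel
  have hsumι : ∀ y : Fin n → A, ∑ i, (ι i).hom ((π i).hom y) = y := by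
    intro y
    change ∑ i, (Pi.single i (y i) : Fin n → A) = y
    exact Finset.univ_sum_single y
  refine ⟨Rep.of ρK, Rep.of ρn, fun j => ι j ≫ pX', fun i => iX' ≫ π i, ι, π, iX, pX, iX', pX',
    ?_, ?_, hιπ, hsumι, hpi, hp'i', hsplit⟩
  · intro x
    change ∑ i, pX'.hom ((ι i).hom ((π i).hom (iX'.hom x))) = x
    rw [← map_sum, hsumι]
    exact hp'i' x
  · intro i j f
    change ((qLin a b hsum (Pi.single j f) : K) : Fin n → A) i = _
    rw [qLin_apply_coe, Pi.sub_apply, Pi.single_apply, iLin_apply, pLin_apply]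
    congr 2
    rw [Finset.sum_eq_single j]
    · rw [Pi.single_eq_same]
    · intro l _ hl
      rw [Pi.single_eq_of_ne hl, map_zero]
    · intro h
      exact absurd (Finset.mem_univ j) h

end Fermat.Agent.S56.EC.Compl
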