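/-
S56 / brick EC, row EC.6a (helper39): `EPSigma` FROM THE FOUR SEAMS of `EC/Seams.lean`.

* `chi2_le_of_seams` (`EC/BaseLe`)  : `χ₂(G_S, X) ≤ - dim X^{c = -1}`;
* `cMinus_M0`        : `dim M0(K)^{c = -1} = r₂(K)` (SeamArch: it is the number of infinite places,
  and the inequality at `X = M0(K)` with `χ₂(M0(K)) = -r₂(K)` bounds it by `r₂`);
* `chi2_eq_of_seams` : `χ₂(G_S, X) = - dim X^{c = -1}`, by the complementary retract
  (`EC/Compl.exists_compl`), `χ₂(M0(K)ⁿ) = -n r₂(K)` (`ChiM0.chi2_M0_family`) and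
  `ChiFormal.chi2_eq_of_compl`;
* `epSigma_of_seams` : `Contract.EPSigma` from the four seams.
-/
import Fermat.Agent.S56.EC.BaseLe
import Fermat.Agent.S56.EC.ChiM0
import Fermat.Agent.S56.EC.Compl

set_option autoImplicit false

open scoped NumberField
open CategoryTheory ExtCitation IsDedekindDomain

namespace Fermat.Agent.S56.EC.Base

open Fermat.Agent.S55 Fermat.Agent.S55.Abs Fermat.Agent.S55.Count Fermat.Agent.S55.Glue
  Fermat.Agent.S55.Glue.CoindDual
  Fermat.Agent.CFT.Global.CountAbs Fermat.Agent.CFT.Global.TUnitsHerbrand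
  Fermat.Agent.CFT.Global.CountV Fermat.Agent.CFT.Global.SelmerCount
  Fermat.Agent.S56.EC.CoindAction Fermat.Agent.S56.EC.RankAdapt Fermat.Agent.S56.EC.RetractRank
  Fermat.Agent.S56.EC.Twist Fermat.Agent.S56.EC.DualSide Fermat.Agent.S56.EC.PlacesDictS
  Fermat.Agent.S56.EC.Seams Fermat.Agent.S56.EC.BaseLe

local notation "Qb" => AlgebraicClosure ℚ

variable {p : ℕ} [Fact p.Prime]

/-! ### Linear algebra on the `(-1)`-eigenspace -/

/-- The presentation data of the complementary idempotent: `δ • φ 1 - ∑ g ∈ s, c g • φ g` is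
again a finite linear combination of the `φ g`. -/
theorem exists_compl_data {ι : Type*} (one : ι) (s : Finset ι) (c : ι → ZMod p) (δ : ZMod p) :
    ∃ (s' : Finset ι) (c' : ι → ZMod p), ∀ (M : Type) [AddCommGroup M] [Module (ZMod p) M]
      (φ : ι → M), ∑ g ∈ s', c' g • φ g = δ • φ one - ∑ g ∈ s, c g • φ g := by
  classical
  refine ⟨insert one s, fun g => (if g = one then δ else 0) - (if g ∈ s then c g else 0),
    fun M _ _ φ => ?_⟩
  simp_rw [sub_smul]
  rw [Finset.sum_sub_distrib]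
  congr 1
  · rw [Finset.sum_eq_single one]
    · rw [if_pos rfl]
    · intro g _ hg
      rw [if_neg hg, zero_smul]
    · intro h
      exact absurd (Finset.mem_insert_self one s) h
  · rw [← Finset.sum_subset (Finset.subset_insert one s)]
    · exact Finset.sum_congr rfl fun g hg => by rw [if_pos hg]
    · intro g _ hg
      rw [if_neg hg, zero_smul]

/-- `dim (Aⁿ)^{c = -1} = n · dim A^{c = -1}`. -/
theorem cMinus_family {A An : Rep.{0} (ZMod p) GQ} [Module.Finite (ZMod p) A] {n : ℕ}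
    (ι : Fin n → (A ⟶ An)) (π : Fin n → (An ⟶ A))
    (hπι : ∀ i j f, (π i).hom ((ι j).hom f) = if i = j then f else 0)
    (hsum : ∀ y, ∑ i, (ι i).hom ((π i).hom y) = y) :
    cMinus An = n * cMinus A := by
  have h := ChiFormal.finrank_eq_mul_of_family (k := ZMod p)
    (fun i => negMap (ι i)) (fun i => negMap (π i))
    (fun i j x => by
      apply Subtype.ext
      rw [negMap_coe, negMap_coe, hπι]
      split_ifs <;> rfl)
    (fun x => by
      apply Subtype.ext
      rw [Submodule.coe_sum]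
      exact hsum x.1)
  exact h

/-- `dim (A ⊕ B)^{c = -1} = dim A^{c = -1} + dim B^{c = -1}`. -/
theorem cMinus_biprod {X A B : Rep.{0} (ZMod p) GQ} [Module.Finite (ZMod p) A]
    [Module.Finite (ZMod p) B] (iA : A ⟶ X) (iB : B ⟶ X) (pA : X ⟶ A) (pB : X ⟶ B)
    (hA : ∀ a, pA.hom (iA.hom a) = a) (hB : ∀ b, pB.hom (iB.hom b) = b)
    (hsum : ∀ x, iA.hom (pA.hom x) + iB.hom (pB.hom x) = x) :
    cMinus X = cMinus A + cMinus B := by
  have h := MainBiprod.finrank_eq_add_of_biprod (k := ZMod p)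
    (negMap iA) (negMap iB) (negMap pA) (negMap pB)
    (fun a => Subtype.ext (hA a.1)) (fun b => Subtype.ext (hB b.1))
    (fun x => Subtype.ext (hsum x.1))
  exact h

/-! ### The base module -/

section Main

variable (S : Finset Nat.Primes) (K : IntermediateField ℚ Qb) [NumberField K]

/-- **`dim M0(K)^{c = -1} = r₂(K)`**. -/
theorem cMinus_M0 (hp2 : p ≠ 2) (hpS : pPrime p ∈ S) (hK : K.IsUnramifiedOutside S)
    (hcyc : cycloField p ≤ K) (h1 : (clS (𝓞 K) p (SK S K)).index = 1)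
    (hKum : SeamKum (p := p) K S) (hArch : SeamArch (p := p) K) (hLoc : SeamLoc (p := p) K S hcyc)
    (hUnits : SeamUnits (p := p) K S hcyc) :
    cMinus (M0 (ZMod p) K.fixingSubgroup) = NumberField.InfinitePlace.nrComplexPlaces K := by
  classical
  obtain ⟨inv, hyp, -⟩ := Uncond.exists_inv_hyp hp2 S hpS
  have hsA := ChiM0.sha2_M0_eq_bot hp2 hpS inv K hK hcyc h1
  have hle := chi2_le_of_seams K S (n := 1) (X := M0 (ZMod p) K.fixingSubgroup)
    (fun _ => 𝟙 _) (fun _ => 𝟙 _) (fun _ _ => {1}) (fun _ _ _ => 1) hpS hK hcyc inv hyp hsA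
    hKum hArch hLoc hUnits
    (fun x => by simp)
    (fun i j f => by
      rw [Finset.sum_singleton, one_smul, lt_one_apply]
      rfl)
  rw [ChiM0.chi2_M0 hp2 hpS K hK hcyc] at hle
  obtain ⟨κ, -⟩ := hArch
  have hcard : cMinus (M0 (ZMod p) K.fixingSubgroup) =
      Fintype.card (NumberField.InfinitePlace ↥K) := by
    have h0 : cMinus (M0 (ZMod p) K.fixingSubgroup) =
        Module.finrank (ZMod p) ↥(negEig (M0 (ZMod p) K.fixingSubgroup)) := rfl
    rw [h0, ← κ.finrank_eq, Module.finrank_pi]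
  have h2 := NumberField.InfinitePlace.card_eq_nrRealPlaces_add_nrComplexPlaces (K := ↥K)
  omega

variable {n : ℕ} (X : Rep.{0} (ZMod p) GQ)
  (a : Fin n → (M0 (ZMod p) K.fixingSubgroup ⟶ X))
  (b : Fin n → (X ⟶ M0 (ZMod p) K.fixingSubgroup))
  (s : Fin n → Fin n → Finset ↥(Nrm K.fixingSubgroup))
  (c : Fin n → Fin n → ↥(Nrm K.fixingSubgroup) → ZMod p)

/-- **(EP-Σ) from the four seams**: `χ₂(G_S, X) = - dim X^{c = -1}`. -/
theorem chi2_eq_of_seams (hp2 : p ≠ 2) (hpS : pPrime p ∈ S) (hK : K.IsUnramifiedOutside S)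
    (hcyc : cycloField p ≤ K) (h1 : (clS (𝓞 K) p (SK S K)).index = 1)
    (hKum : SeamKum (p := p) K S) (hArch : SeamArch (p := p) K) (hLoc : SeamLoc (p := p) K S hcyc)
    (hUnits : SeamUnits (p := p) K S hcyc)
    (hsum : ∀ x, ∑ i, (a i).hom ((b i).hom x) = x)
    (hc : ∀ i j f, (b i).hom ((a j).hom f) =
      ∑ g ∈ s i j, c i j g • (lt K.fixingSubgroup (ZMod p) g).hom f) :
    chi2 (globalLevel S) X = -(cMinus X : ℤ) := by
  classical
  obtain ⟨inv, hyp, -⟩ := Uncond.exists_inv_hyp hp2 S hpS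
  have hsA := ChiM0.sha2_M0_eq_bot hp2 hpS inv K hK hcyc h1
  obtain ⟨X', An, a', b', ι, π, iX, pX, iX', pX', hsum', hba', hπι, hιπ, hpiX, hpiX', hsplit⟩ :=
    Compl.exists_compl a b hsum
  have hleX := chi2_le_of_seams K S a b s c hpS hK hcyc inv hyp hsA hKum hArch hLoc hUnits hsum hc
  choose s' c' hs' using fun i j => exists_compl_data (p := p)
    (1 : ↥(Nrm K.fixingSubgroup)) (s i j) (c i j) (if i = j then (1 : ZMod p) else 0)
  have hc' : ∀ i j f, (b' i).hom ((a' j).hom f) =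
      ∑ g ∈ s' i j, c' i j g • (lt K.fixingSubgroup (ZMod p) g).hom f := by
    intro i j f
    rw [hs' i j _ (fun g => (lt K.fixingSubgroup (ZMod p) g).hom f), hba', hc i j f,
      lt_one_apply]
    congr 1
    split_ifs
    · rw [one_smul]
    · rw [zero_smul]
  have hleX' := chi2_le_of_seams K S a' b' s' c' hpS hK hcyc inv hyp hsA hKum hArch hLoc hUnits
    hsum' hc'
  have hAn := ChiM0.chi2_M0_family hp2 hpS K hK hcyc ι π hπι hιπ
  have hfinA : Module.Finite (ZMod p) (M0 (ZMod p) K.fixingSubgroup) := EPLoc.finite_M0 p K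
  have hfinX : Module.Finite (ZMod p) X := finite_of_family K a b hsum
  have hfinX' : Module.Finite (ZMod p) X' := finite_of_family K a' b' hsum'
  have hX : IsDisc (globalLevel S) X := isDisc_of_family K S a b hK hsum
  have hX' : IsDisc (globalLevel S) X' := isDisc_of_family K S a' b' hK hsum'
  have : Module.Finite (ZMod p) (Abs.H0 X) := CData.finite_H0 X
  have : Module.Finite (ZMod p) (Abs.H0 X') := CData.finite_H0 X'
  have : Module.Finite (ZMod p) (Abs.H1 (globalLevel S) X) := hyp.fin_H1 _ hX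
  have : Module.Finite (ZMod p) (Abs.H1 (globalLevel S) X') := hyp.fin_H1 _ hX'
  have : Module.Finite (ZMod p) (Abs.H2 (globalLevel S) X) := hyp.fin_H2 _ hX
  have : Module.Finite (ZMod p) (Abs.H2 (globalLevel S) X') := hyp.fin_H2 _ hX'
  have hcA := cMinus_M0 S K hp2 hpS hK hcyc h1 hKum hArch hLoc hUnits
  have hcAn := cMinus_family ι π hπι hιπ
  have hcsplit := cMinus_biprod iX iX' pX pX' hpiX hpiX' hsplit
  have hXn : chi2 (globalLevel S) An = -(cMinus X : ℤ) + -(cMinus X' : ℤ) := by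
    rw [hAn, ← hcA]
    have e1 : (cMinus An : ℤ) = cMinus X + cMinus X' := by exact_mod_cast hcsplit
    have e2 : (cMinus An : ℤ) = n * cMinus (M0 (ZMod p) K.fixingSubgroup) := by
      exact_mod_cast hcAn
    linarith
  exact (ChiFormal.chi2_eq_of_compl (globalLevel S) iX iX' pX pX' hpiX hpiX' hsplit
    hleX hleX' hXn).1

end Main

/-- **`EPSigma` from the four seams.** -/
theorem epSigma_of_seams
    (h : ∀ (p : ℕ) [Fact p.Prime], p ≠ 2 → ∀ (S : Finset Nat.Primes), pPrime p ∈ S →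
      ∀ (K : IntermediateField ℚ Qb) [NumberField K], K.IsUnramifiedOutside S →
      ∀ (hcyc : cycloField p ≤ K), (clS (𝓞 K) p (SK S K)).index = 1 →
        SeamKum (p := p) K S ∧ SeamArch (p := p) K ∧ SeamLoc (p := p) K S hcyc ∧
          SeamUnits (p := p) K S hcyc) :
    EPSigma := by
  intro p _ hp2 S hpS K _ hK hcyc h1 n X a b hsum hlt
  choose s c hc using hlt
  obtain ⟨hKum, hArch, hLoc, hUnits⟩ := h p hp2 S hpS K hK hcyc h1
  exact chi2_eq_of_seams S K X a b s c hp2 hpS hK hcyc h1 hKum hArch hLoc hUnits hsum hc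

end Fermat.Agent.S56.EC.Base
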