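/-
S56 / brick EC.6b (helper212, own risk): the inflation dictionary.

`π : 𝔊 →* G` a homomorphism of groups (in the application `𝔊 = G_ℚ`, `G = Gal(F/ℚ)` a finite
quotient), `𝒰` a level family on `𝔊`.  The file relates representations of the (finite) group
`G` in the sense of Mathlib (`Representation k G V`, the vocabulary of the Steinberg brick EC.5)
with the discrete modules `Rep.{0} k 𝔊` of the counting library S55:

* `infl π ρ`, `inflHom`, `isDisc_infl` : inflation, its functoriality and discreteness;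
* `chi2_infl_congr`, `chi2_infl_prod`, `chi2_infl_mid_le` : `χ₂ ∘ infl` is invariant under
  equivariant isomorphisms, additive on products and subadditive on short exact sequences;
* `negEig ρ c` (dimension of the `(-1)`-eigenspace of `ρ c`), `negEig_congr`,
  `negEig_eq_add_of_exact` : it is invariant under isomorphisms and additive on short exact
  sequences when `2 ≠ 0` and `c * c = 1`;
* `leftTransl H V` : the representation of `G` on functions `G ⧸ H → V` by left translation;
  `cosetEquiv` : for surjective `π`, `(G ⧸ H → V) ≃ₗ coindTriv (H.comap π) V`, equivariant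
  (`cosetEquiv_leftTransl`), and intertwining right translation by `n ∈ N_G(H)` with the left
  translation `CoindAction.lt` by any lift of `n` (`cosetEquiv_lt`);
* `exists_descent` : a representation of `𝔊` which is trivial on `ker π` (`π` surjective) is the
  inflation of a representation of `G`.
-/
import Fermat.Agent.S55.Count.LESExtra
import Fermat.Agent.S55.Count.EPLoc
import Fermat.Agent.S55.Count.MainBiprod
import Fermat.Agent.S56.EC.CoindAction

set_option autoImplicit false

open CategoryTheory groupCohomology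

namespace Fermat.Agent.S56.EC.Infl

open Fermat.Agent.S55 Fermat.Agent.S55.Abs Fermat.Agent.S55.Count
  Fermat.Agent.S56.EC.CoindAction

variable {k : Type} [Field k] {𝔊 : Type} [Group 𝔊] {G : Type} [Group G] (π : 𝔊 →* G)

/-! ### Inflation -/

section Basic

variable {V V' V'' : Type} [AddCommGroup V] [Module k V] [AddCommGroup V'] [Module k V']
  [AddCommGroup V''] [Module k V'']

/-- Inflation of a representation of `G` along `π : 𝔊 →* G`. -/
noncomputable abbrev infl (ρ : Representation k G V) : Rep.{0} k 𝔊 := Rep.of (ρ.comp π)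

theorem infl_ρ_apply (ρ : Representation k G V) (x : 𝔊) (v : V) :
    (infl π ρ).ρ x v = ρ (π x) v := rfl

/-- An equivariant linear map induces a morphism of the inflations. -/
noncomputable def inflHom {ρ : Representation k G V} {ρ' : Representation k G V'}
    (T : V →ₗ[k] V') (hT : ∀ g v, T (ρ g v) = ρ' g (T v)) : infl π ρ ⟶ infl π ρ' :=
  Rep.ofHom (LinearMap.intertwiningMap_of_isIntertwiningMap (ρ.comp π) (ρ'.comp π) T
    (fun x v => hT (π x) v))

theorem inflHom_apply {ρ : Representation k G V} {ρ' : Representation k G V'}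
    (T : V →ₗ[k] V') (hT : ∀ g v, T (ρ g v) = ρ' g (T v)) (v : V) :
    (inflHom π T hT).hom v = T v := rfl

/-- The inflation is discrete as soon as some member of the level family lies in `ker π`. -/
theorem isDisc_infl (𝒰 : LevelFamily 𝔊) (hπ : ∃ W ∈ 𝒰.sets, W ≤ π.ker)
    (ρ : Representation k G V) : IsDisc 𝒰 (infl π ρ) := by
  obtain ⟨W, hW, hle⟩ := hπ
  refine ⟨W, hW, fun s hs m => ?_⟩
  show ρ (π s) m = m
  rw [MonoidHom.mem_ker.mp (hle hs), map_one]
  rfl

/-! ### `χ₂` of inflations -/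

/-- `χ₂ ∘ infl` is invariant under equivariant linear equivalences. -/
theorem chi2_infl_congr (𝒰 : LevelFamily 𝔊) {ρ : Representation k G V}
    {ρ' : Representation k G V'} (T : V ≃ₗ[k] V') (hT : ∀ g v, T (ρ g v) = ρ' g (T v)) :
    chi2 𝒰 (infl π ρ') = chi2 𝒰 (infl π ρ) :=
  EPLoc.chi2_congr 𝒰 (M := infl π ρ) (N := infl π ρ') T (fun x v => hT (π x) v)

theorem finite_H0_infl (ρ : Representation k G V) [Module.Finite k V] :
    Module.Finite k (Abs.H0 (infl π ρ)) :=
  Module.Finite.of_injective (Submodule.subtype _) (Submodule.injective_subtype _)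

/-- `χ₂ ∘ infl` is additive on products. -/
theorem chi2_infl_prod (𝒰 : LevelFamily 𝔊)
    (h1 : ∀ (M : Rep.{0} k 𝔊) [Module.Finite k M], IsDisc 𝒰 M → Module.Finite k (Abs.H1 𝒰 M))
    (h2 : ∀ (M : Rep.{0} k 𝔊) [Module.Finite k M], IsDisc 𝒰 M → Module.Finite k (Abs.H2 𝒰 M))
    (hπ : ∃ W ∈ 𝒰.sets, W ≤ π.ker)
    (ρ : Representation k G V) (ρ' : Representation k G V')
    [Module.Finite k V] [Module.Finite k V'] :
    chi2 𝒰 (infl π (ρ.prod ρ')) = chi2 𝒰 (infl π ρ) + chi2 𝒰 (infl π ρ') := by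
  haveI := finite_H0_infl π ρ
  haveI := finite_H0_infl π ρ'
  haveI := h1 (infl π ρ) (isDisc_infl π 𝒰 hπ ρ)
  haveI := h1 (infl π ρ') (isDisc_infl π 𝒰 hπ ρ')
  haveI := h2 (infl π ρ) (isDisc_infl π 𝒰 hπ ρ)
  haveI := h2 (infl π ρ') (isDisc_infl π 𝒰 hπ ρ')
  exact MainBiprod.chi2_biprod 𝒰
    (inflHom π (ρ := ρ) (ρ' := ρ.prod ρ') (LinearMap.inl k V V') (fun g v => by simp))
    (inflHom π (ρ := ρ') (ρ' := ρ.prod ρ') (LinearMap.inr k V V') (fun g v => by simp))
    (inflHom π (ρ := ρ.prod ρ') (ρ' := ρ) (LinearMap.fst k V V') (fun g v => by simp))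
    (inflHom π (ρ := ρ.prod ρ') (ρ' := ρ') (LinearMap.snd k V V') (fun g v => by simp))
    (fun a => rfl) (fun b => rfl)
    (fun x => by
      show ((x : V × V').1, (0 : V')) + ((0 : V), (x : V × V').2) = x
      simp)

/-- `χ₂ ∘ infl` is subadditive on short exact sequences. -/
theorem chi2_infl_mid_le (𝒰 : LevelFamily 𝔊)
    (h1 : ∀ (M : Rep.{0} k 𝔊) [Module.Finite k M], IsDisc 𝒰 M → Module.Finite k (Abs.H1 𝒰 M))
    (h2 : ∀ (M : Rep.{0} k 𝔊) [Module.Finite k M], IsDisc 𝒰 M → Module.Finite k (Abs.H2 𝒰 M))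
    (hπ : ∃ W ∈ 𝒰.sets, W ≤ π.ker)
    {ρ : Representation k G V} {ρ' : Representation k G V'} {ρ'' : Representation k G V''}
    [Module.Finite k V] [Module.Finite k V'] [Module.Finite k V'']
    (i : V →ₗ[k] V') (q : V' →ₗ[k] V'')
    (hi : ∀ g v, i (ρ g v) = ρ' g (i v)) (hq : ∀ g v, q (ρ' g v) = ρ'' g (q v))
    (hinj : Function.Injective i) (hsurj : Function.Surjective q)
    (hex : ∀ m, q m = 0 ↔ ∃ a, i a = m) :
    chi2 𝒰 (infl π ρ') ≤ chi2 𝒰 (infl π ρ) + chi2 𝒰 (infl π ρ'') := by
  obtain ⟨E, -, -⟩ := SplitSES.exists_of_exact (inflHom π i hi) (inflHom π q hq) hinj hsurj hex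
  haveI := finite_H0_infl π ρ
  haveI := finite_H0_infl π ρ'
  haveI := finite_H0_infl π ρ''
  haveI := h1 (infl π ρ) (isDisc_infl π 𝒰 hπ ρ)
  haveI := h1 (infl π ρ') (isDisc_infl π 𝒰 hπ ρ')
  haveI := h1 (infl π ρ'') (isDisc_infl π 𝒰 hπ ρ'')
  haveI := h2 (infl π ρ) (isDisc_infl π 𝒰 hπ ρ)
  haveI := h2 (infl π ρ') (isDisc_infl π 𝒰 hπ ρ')
  haveI := h2 (infl π ρ'') (isDisc_infl π 𝒰 hπ ρ'')
  exact chi2_mid_le 𝒰 E (isDisc_infl π 𝒰 hπ ρ')

end Basic

/-! ### The `(-1)`-eigenspace -/

section NegEig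

variable {V V' V'' : Type} [AddCommGroup V] [Module k V] [AddCommGroup V'] [Module k V']
  [AddCommGroup V''] [Module k V'']

/-- The dimension of the `(-1)`-eigenspace of `ρ c`. -/
noncomputable def negEig (ρ : Representation k G V) (c : G) : ℕ :=
  Module.finrank k ↥(LinearMap.ker (ρ c + 1))

theorem mem_ker_add_one_iff (ρ : Representation k G V) (c : G) (v : V) :
    v ∈ LinearMap.ker (ρ c + 1) ↔ ρ c v = -v := by
  rw [LinearMap.mem_ker, LinearMap.add_apply, Module.End.one_apply, add_eq_zero_iff_eq_neg]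

/-- `negEig` of the inflation, read on `𝔊`. -/
theorem negEig_infl (ρ : Representation k G V) (c : 𝔊) :
    Module.finrank k ↥(LinearMap.ker ((infl π ρ).ρ c + 1)) = negEig ρ (π c) := rfl

/-- `negEig` is invariant under equivariant linear equivalences. -/
theorem negEig_congr {ρ : Representation k G V} {ρ' : Representation k G V'} (T : V ≃ₗ[k] V')
    (hT : ∀ g v, T (ρ g v) = ρ' g (T v)) (c : G) : negEig ρ' c = negEig ρ c := by
  have hker : LinearMap.ker (ρ c + 1) =
      (LinearMap.ker (ρ' c + 1)).comap (T : V →ₗ[k] V') := by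
    ext v
    rw [Submodule.mem_comap, mem_ker_add_one_iff, mem_ker_add_one_iff, LinearEquiv.coe_coe,
      ← hT, ← map_neg, T.injective.eq_iff]
  unfold negEig
  rw [hker]
  exact (T.ofSubmodule' (LinearMap.ker (ρ' c + 1))).finrank_eq.symm

/-- `negEig` is additive on short exact sequences, when `2 ≠ 0` and `c * c = 1`. -/
theorem negEig_eq_add_of_exact (h2 : (2 : k) ≠ 0) {ρ : Representation k G V}
    {ρ' : Representation k G V'} {ρ'' : Representation k G V''} [Module.Finite k V']
    (i : V →ₗ[k] V') (q : V' →ₗ[k] V'')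
    (hi : ∀ g v, i (ρ g v) = ρ' g (i v)) (hq : ∀ g v, q (ρ' g v) = ρ'' g (q v))
    (hinj : Function.Injective i) (hsurj : Function.Surjective q)
    (hex : ∀ m, q m = 0 ↔ ∃ a, i a = m) (c : G) (hc : c * c = 1) :
    negEig ρ' c = negEig ρ c + negEig ρ'' c := by
  -- the restriction of `q` to the eigenspaces
  let qr : ↥(LinearMap.ker (ρ' c + 1)) →ₗ[k] ↥(LinearMap.ker (ρ'' c + 1)) :=
    q.restrict (fun v hv => by
      rw [mem_ker_add_one_iff] at hv ⊢
      rw [← hq, hv, map_neg])
  have hqr : ∀ v, ((qr v : ↥(LinearMap.ker (ρ'' c + 1))) : V'') = q (v : V') := fun v => rfl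
  have hcc : ∀ v : V', ρ' c (ρ' c v) = v := fun v => by
    rw [← Module.End.mul_apply, ← map_mul, hc, map_one, Module.End.one_apply]
  -- `qr` is surjective
  have hsurj' : LinearMap.range qr = ⊤ := by
    rw [LinearMap.range_eq_top]
    rintro ⟨w, hw⟩
    rw [mem_ker_add_one_iff] at hw
    obtain ⟨b, rfl⟩ := hsurj w
    have hb' : (2 : k)⁻¹ • (b - ρ' c b) ∈ LinearMap.ker (ρ' c + 1) := by
      rw [mem_ker_add_one_iff, map_smul, map_sub, hcc, ← smul_neg, neg_sub]
    refine ⟨⟨(2 : k)⁻¹ • (b - ρ' c b), hb'⟩, Subtype.ext ?_⟩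
    rw [hqr]
    show q ((2 : k)⁻¹ • (b - ρ' c b)) = q b
    rw [map_smul, map_sub, hq, hw, sub_neg_eq_add, ← two_smul k (q b), smul_smul,
      inv_mul_cancel₀ h2, one_smul]
  -- the kernel of `qr` is the eigenspace of `ρ`
  let ir : ↥(LinearMap.ker (ρ c + 1)) →ₗ[k] ↥(LinearMap.ker qr) :=
    { toFun := fun a => ⟨⟨i (a : V), by
          have ha := (mem_ker_add_one_iff ρ c _).1 a.2
          rw [mem_ker_add_one_iff, ← hi, ha, map_neg]⟩, by
          rw [LinearMap.mem_ker]
          apply Subtype.ext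
          rw [hqr]
          exact (hex _).2 ⟨_, rfl⟩⟩
      map_add' := fun a b => by
        apply Subtype.ext; apply Subtype.ext
        exact map_add i _ _
      map_smul' := fun r a => by
        apply Subtype.ext; apply Subtype.ext
        exact map_smul i _ _ }
  have hir : Function.Bijective ir := by
    constructor
    · intro a b hab
      apply Subtype.ext
      apply hinj
      exact congrArg (fun z : ↥(LinearMap.ker qr) => ((z : ↥(LinearMap.ker (ρ' c + 1))) : V')) hab
    · rintro ⟨⟨b, hb⟩, hb0⟩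
      have hq0 : q b = 0 := by
        have := congrArg (Subtype.val) (LinearMap.mem_ker.1 hb0)
        simpa [hqr] using this
      obtain ⟨a, rfl⟩ := (hex b).1 hq0
      have ha : a ∈ LinearMap.ker (ρ c + 1) := by
        rw [mem_ker_add_one_iff] at hb ⊢
        apply hinj
        rw [hi, hb, map_neg]
      exact ⟨⟨a, ha⟩, rfl⟩
  have e := (LinearEquiv.ofBijective ir hir).finrank_eq
  have key := LinearMap.finrank_range_add_finrank_ker qr
  rw [hsurj', finrank_top] at key
  unfold negEig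
  omega

end NegEig

/-! ### The coset dictionary -/

section Coset

variable (H : Subgroup G) (V : Type) [AddCommGroup V] [Module k V]

/-- Left translation on the functions `G ⧸ H → V`: `(g • φ) y = φ (g⁻¹ • y)`. -/
noncomputable def leftTransl : Representation k G (G ⧸ H → V) where
  toFun g := LinearMap.funLeft k V (fun y : G ⧸ H => g⁻¹ • y)
  map_one' := by
    apply LinearMap.ext
    intro φ
    funext y
    show φ ((1 : G)⁻¹ • y) = φ y
    rw [inv_one, one_smul]
  map_mul' g h := by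
    apply LinearMap.ext
    intro φ
    funext y
    show φ ((g * h)⁻¹ • y) = φ (h⁻¹ • g⁻¹ • y)
    rw [mul_inv_rev, mul_smul]

theorem leftTransl_apply (g : G) (φ : G ⧸ H → V) (y : G ⧸ H) :
    leftTransl (k := k) H V g φ y = φ (g⁻¹ • y) := rfl

variable {H}

/-- A lift of an element of the normaliser of `H` normalises the preimage of `H`. -/
theorem mem_nrm_comap {n : G} (hn : n ∈ Nrm H) {x : 𝔊} (hx : π x = n) :
    x ∈ Nrm (H.comap π) := by
  rw [Subgroup.mem_normalizer_iff]
  intro u
  rw [Subgroup.mem_comap, Subgroup.mem_comap, map_mul, map_mul, map_inv, hx]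
  exact (Subgroup.mem_normalizer_iff.1 hn) (π u)

variable (H)

/-- Left-`π⁻¹(H)`-invariant functions only depend on the class of `π x⁻¹` in `G ⧸ H`. -/
theorem coind_apply_eq (f : coindTriv (k := k) (H.comap π) V) {x y : 𝔊}
    (h : π (x * y⁻¹) ∈ H) : f.1 x = f.1 y := by
  have h1 := coindTriv_apply_mul f (U := H.comap π) (u := x * y⁻¹) h y
  rwa [inv_mul_cancel_right] at h1

/-- The map `φ ↦ (x ↦ φ (π x⁻¹ H))`. -/
noncomputable def cosetLin : (G ⧸ H → V) →ₗ[k] coindTriv (k := k) (H.comap π) V where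
  toFun φ := ⟨fun x => φ (((π x)⁻¹ : G) : G ⧸ H), fun u x => by
    show φ (((π ((u : 𝔊) * x))⁻¹ : G) : G ⧸ H) = φ (((π x)⁻¹ : G) : G ⧸ H)
    congr 1
    rw [QuotientGroup.eq, map_mul, inv_inv, mul_assoc, mul_inv_cancel, mul_one]
    exact u.2⟩
  map_add' _ _ := rfl
  map_smul' _ _ := rfl

theorem cosetLin_apply (φ : G ⧸ H → V) (x : 𝔊) :
    (cosetLin (k := k) π H V φ).1 x = φ (((π x)⁻¹ : G) : G ⧸ H) := rfl

/-- **The coset dictionary**: for surjective `π`, the functions on `G ⧸ H` are the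
left-`π⁻¹(H)`-invariant functions on `𝔊`. -/
noncomputable def cosetEquiv (hπ : Function.Surjective π) :
    (G ⧸ H → V) ≃ₗ[k] coindTriv (k := k) (H.comap π) V :=
  { cosetLin (k := k) π H V with
    invFun := fun f q => f.1 (Function.surjInv hπ q.out)⁻¹
    left_inv := fun φ => by
      funext q
      show φ (((π (Function.surjInv hπ q.out)⁻¹)⁻¹ : G) : G ⧸ H) = φ q
      rw [map_inv, inv_inv, Function.surjInv_eq hπ, QuotientGroup.out_eq']
    right_inv := fun f => by
      apply Subtype.ext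
      funext x
      show f.1 (Function.surjInv hπ (((π x)⁻¹ : G) : G ⧸ H).out)⁻¹ = f.1 x
      apply coind_apply_eq
      rw [map_mul, map_inv, map_inv, Function.surjInv_eq hπ, ← mul_inv_rev]
      apply H.inv_mem
      have h := QuotientGroup.out_eq' (((π x)⁻¹ : G) : G ⧸ H)
      have h' := QuotientGroup.eq.1 h.symm
      rwa [inv_inv] at h' }

theorem cosetEquiv_apply (hπ : Function.Surjective π) (φ : G ⧸ H → V) (x : 𝔊) :
    (cosetEquiv (k := k) π H V hπ φ).1 x = φ (((π x)⁻¹ : G) : G ⧸ H) := rfl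

/-- The coset dictionary is equivariant: left translation by `π s` on `G ⧸ H → V` is the
action of `s` on `coindTriv (H.comap π) V`. -/
theorem cosetLin_leftTransl (s : 𝔊) (φ : G ⧸ H → V) :
    cosetLin (k := k) π H V (leftTransl (k := k) H V (π s) φ) =
      (coindTriv (k := k) (H.comap π) V).ρ s (cosetLin (k := k) π H V φ) := by
  apply Subtype.ext
  funext x
  rw [coindTriv_ρ_apply, cosetLin_apply, cosetLin_apply, leftTransl_apply, map_mul, mul_inv_rev]
  rfl

theorem cosetEquiv_leftTransl (hπ : Function.Surjective π) (s : 𝔊) (φ : G ⧸ H → V) :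
    cosetEquiv (k := k) π H V hπ (leftTransl (k := k) H V (π s) φ) =
      (coindTriv (k := k) (H.comap π) V).ρ s (cosetEquiv (k := k) π H V hπ φ) :=
  cosetLin_leftTransl π H V s φ

/-- Right translation by `n` on `G ⧸ H → V` (in pointwise form: `ψ (g H) = φ (g n H)`)
corresponds to the left translation `lt` by any lift `ñ` of `n` in the normaliser. -/
theorem cosetLin_lt (ñ : ↥(Nrm (H.comap π))) (φ ψ : G ⧸ H → V)
    (hψ : ∀ g : G, ψ (g : G ⧸ H) = φ ((g * π (ñ : 𝔊) : G) : G ⧸ H)) :
    cosetLin (k := k) π H V ψ = (lt (H.comap π) V ñ).hom (cosetLin (k := k) π H V φ) := by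
  apply Subtype.ext
  funext x
  rw [lt_apply, cosetLin_apply, cosetLin_apply, hψ, map_mul, map_inv, mul_inv_rev, inv_inv]

theorem cosetEquiv_lt (hπ : Function.Surjective π) (ñ : ↥(Nrm (H.comap π)))
    (φ ψ : G ⧸ H → V)
    (hψ : ∀ g : G, ψ (g : G ⧸ H) = φ ((g * π (ñ : 𝔊) : G) : G ⧸ H)) :
    cosetEquiv (k := k) π H V hπ ψ =
      (lt (H.comap π) V ñ).hom (cosetEquiv (k := k) π H V hπ φ) :=
  cosetLin_lt π H V ñ φ ψ hψ

/-- `χ₂` of the inflation of the coset module is `χ₂` of the coinduced module. -/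
theorem chi2_infl_leftTransl (𝒰 : LevelFamily 𝔊) (hπ : Function.Surjective π) :
    chi2 𝒰 (coindTriv (k := k) (H.comap π) V) = chi2 𝒰 (infl π (leftTransl (k := k) H V)) :=
  EPLoc.chi2_congr 𝒰 (M := infl π (leftTransl (k := k) H V))
    (N := coindTriv (k := k) (H.comap π) V) (cosetEquiv (k := k) π H V hπ)
    (fun s φ => cosetLin_leftTransl π H V s φ)

end Coset

/-! ### Descent -/

section Descent

/-- A representation of `𝔊` that is trivial on `ker π` (`π` surjective) is the inflation of a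
representation of `G` on the same space. -/
theorem exists_descent (hπ : Function.Surjective π) (N : Rep.{0} k 𝔊)
    (hN : ∀ x ∈ π.ker, ∀ n : N, N.ρ x n = n) :
    ∃ ρ : Representation k G N, ∀ (x : 𝔊) (n : N), ρ (π x) n = N.ρ x n := by
  have hker : π.ker ≤ N.ρ.ker := fun x hx => by
    rw [MonoidHom.mem_ker]
    apply LinearMap.ext
    intro n
    exact hN x hx n
  refine ⟨(QuotientGroup.lift π.ker N.ρ hker).comp
    (QuotientGroup.quotientKerEquivOfSurjective π hπ).symm.toMonoidHom, fun x n => ?_⟩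
  have hx : (QuotientGroup.quotientKerEquivOfSurjective π hπ).symm (π x) =
      (QuotientGroup.mk x : 𝔊 ⧸ π.ker) := by
    rw [MulEquiv.symm_apply_eq]
    rfl
  show (QuotientGroup.lift π.ker N.ρ hker)
    ((QuotientGroup.quotientKerEquivOfSurjective π hπ).symm (π x)) n = N.ρ x n
  rw [hx]
  rfl

/-- `χ₂` of a representation trivial on `ker π` is `χ₂` of the inflation of its descent. -/
theorem chi2_eq_infl (𝒰 : LevelFamily 𝔊) (N : Rep.{0} k 𝔊) (ρ : Representation k G N)
    (hρ : ∀ (x : 𝔊) (n : N), ρ (π x) n = N.ρ x n) : chi2 𝒰 N = chi2 𝒰 (infl π ρ) :=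
  EPLoc.chi2_congr 𝒰 (M := infl π ρ) (N := N) (LinearEquiv.refl k N) (fun x n => hρ x n)

end Descent

end Fermat.Agent.S56.EC.Infl
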