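import Fermat.Agent.S56.EC.SteinbergInd.Defs

/-!
# S56, brick EC.5: the Steinberg reduction — contract (definitions + statements)

(helper164, row owner; vocabulary `Inv`, `SubAdd`, `ExAdd`, `IsEPAt`, `funRep`, `coind`, `ltrans`
of helper187's `EC/SteinbergInd/Defs.lean`.)  Mathlib only.

`G` a finite group, `p` a prime, `P` a Sylow `p`-subgroup of `G` which is **TI**
(`g ∉ N_G(P) ⟹ P ∩ g⁻¹ P g = 1`), `B = N_G(P)`.  `χ`, `f : Inv p G` two integer-valued
invariants of finite `𝔽_p[G]`-modules.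

For `H ≤ G` let `M₀(H) = leftInv (ZMod p) H` be the functions `t : G → 𝔽_p` with `t (h g) = t g`
for `h ∈ H`; `G` acts by right translation (`leftInvRep`), `N_G(H)` by left translation
`t ↦ t (b⁻¹ ·)`.  (This is the descent to `G = Gal(F/ℚ)` of `M0(K) = coind_{G_K}^{G_ℚ} 𝔽_p`,
`H = Gal(F/K)`, with the `lt`-action of `EC/CoindAction`.)

* `EPAt χ f H` : `χ X = f X` for every finite `G`-module `X` which is a retract of `M₀(H)ⁿ`
  (families `a i : M₀(H) → X`, `b i : X → M₀(H)`, `∑ a i ∘ b i = 1`) such that every entry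
  `b i ∘ a j` is a linear combination of left translations by elements of `N_G(H)`
  (the shape of `EC/Contract.EPSigma`).
* `SteinbergStatement` (**the exit**): `χ` iso-invariant, additive on products, subadditive on
  short exact sequences; `f` additive on short exact sequences; `EPAt χ f ⊥` and `EPAt χ f P`
  ⟹ `χ N ≤ f N` for EVERY finite `𝔽_p[G]`-module `N`.
* `TIStatement` : Sylow `p`-subgroups of a finite group acting faithfully on a `2`-dimensional
  vector space in characteristic `p` are TI.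

The proof is cut along two seams about `W = Fun(G ⧸ B, N)` with the diagonal action
`coind B ρ` (`= Ind_B^G Res_B N`):

* `ProjSeam` (projective half, helper9): `W = N ⊕ W₀` equivariantly (`q`, `s`), and `W₀` is an
  equivariant retract of `Fun(G, 𝔽_p)ⁿ` (left translation; maps `I`, `R` with
  `R ∘ I = 1 - s ∘ q`) whose projector `I ∘ R` has right-convolution entries.
* `IndSeam` (induced half, helper187: the literal of `chi_le_f_coind`, #7019): `χ W ≤ f W`.

`SteinbergAsm.lean` : `ProjSeam → IndSeam → SteinbergStatement`;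
`SteinbergGL2.lean` : `TIStatement`.
-/

set_option autoImplicit false

namespace Fermat.Agent.S56.EC.Steinberg

open Fermat.Agent.S56.EC.SteinbergInd

/-! ### The models `M₀(H)` -/

section Models

variable (F : Type) [CommRing F] (G : Type) [Group G]

/-- Right translation on functions `G → Y`: `(s • t) g = t (g * s)`. -/
def rightTrans (Y : Type) [AddCommGroup Y] [Module F Y] : Representation F G (G → Y) where
  toFun s := LinearMap.funLeft F Y fun g => g * s
  map_one' := by
    ext t g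
    simp [LinearMap.funLeft]
  map_mul' s u := by
    ext t g
    simp [LinearMap.funLeft, mul_assoc]

@[simp]
theorem rightTrans_apply (Y : Type) [AddCommGroup Y] [Module F Y] (s : G) (t : G → Y) (g : G) :
    rightTrans F G Y s t g = t (g * s) := rfl

variable {G}

/-- `M₀(H) = Fun(H \ G, F)`: the left-`H`-invariant functions on `G`. -/
def leftInv (H : Subgroup G) : Submodule F (G → F) where
  carrier := {t | ∀ h ∈ H, ∀ g : G, t (h * g) = t g}
  add_mem' := by
    intro a b ha hb h hh g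
    simp [ha h hh g, hb h hh g]
  zero_mem' := by
    intro h _ g
    rfl
  smul_mem' := by
    intro c a ha h hh g
    simp [ha h hh g]

theorem mem_leftInv {H : Subgroup G} {t : G → F} :
    t ∈ leftInv F H ↔ ∀ h ∈ H, ∀ g : G, t (h * g) = t g := Iff.rfl

/-- `G` acts on `M₀(H)` by right translation. -/
def leftInvRep (H : Subgroup G) : Representation F G (leftInv F H) :=
  (rightTrans F G F).subrepresentation (leftInv F H) (by
    intro s t ht h hh g
    simp only [rightTrans_apply]
    rw [mul_assoc]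
    exact ht h hh (g * s))

@[simp]
theorem leftInvRep_apply (H : Subgroup G) (s : G) (t : leftInv F H) (g : G) :
    (leftInvRep F H s t : G → F) g = (t : G → F) (g * s) := rfl

end Models

/-! ### The hypotheses on the invariants -/

/-- The normaliser `N_G(H)` (Mathlib's `Subgroup.normalizer` takes a set). -/
abbrev Nm {G : Type} [Group G] (H : Subgroup G) : Subgroup G := Subgroup.normalizer (H : Set G)

section Hyp

variable {p : ℕ} {G : Type} [Group G]

/-- Invariance under `G`-equivariant linear isomorphisms (finite modules). -/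
def IsoInv (χ : Inv p G) : Prop :=
  ∀ (V W : Type) [AddCommGroup V] [Module (ZMod p) V] [Finite V]
    [AddCommGroup W] [Module (ZMod p) W] [Finite W]
    (ρ : Representation (ZMod p) G V) (ρ' : Representation (ZMod p) G W) (e : V ≃ₗ[ZMod p] W),
    (∀ g v, e (ρ g v) = ρ' g (e v)) → χ V ρ = χ W ρ'

/-- Additivity on products of finite modules. -/
def ProdAdd (χ : Inv p G) : Prop :=
  ∀ (A C : Type) [AddCommGroup A] [Module (ZMod p) A] [Finite A]
    [AddCommGroup C] [Module (ZMod p) C] [Finite C]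
    (ρA : Representation (ZMod p) G A) (ρC : Representation (ZMod p) G C),
    χ (A × C) (ρA.prod ρC) = χ A ρA + χ C ρC

/-- **(EP) at the subgroup `H`**: `χ X = f X` for every finite `G`-module `X` which is a retract
of `M₀(H)ⁿ` — equivariant `a i : M₀(H) → X`, `b i : X → M₀(H)` with `∑ i, a i ∘ b i = 1` — such
that every entry `b i ∘ a j` of the projector is a linear combination of left translations
`t ↦ t (g⁻¹ ·)` by elements `g` of the normaliser of `H`. -/
def EPAt (χ f : Inv p G) (H : Subgroup G) : Prop :=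
  ∀ (n : ℕ) (X : Type) [AddCommGroup X] [Module (ZMod p) X] [Finite X]
    (ρX : Representation (ZMod p) G X)
    (a : Fin n → (leftInv (ZMod p) H →ₗ[ZMod p] X))
    (b : Fin n → (X →ₗ[ZMod p] leftInv (ZMod p) H)),
    (∀ i g t, a i (leftInvRep (ZMod p) H g t) = ρX g (a i t)) →
    (∀ i g x, b i (ρX g x) = leftInvRep (ZMod p) H g (b i x)) →
    (∀ x, ∑ i, a i (b i x) = x) →
    (∀ i j, ∃ (s : Finset G) (c : G → ZMod p), (∀ g ∈ s, g ∈ Nm H) ∧
      ∀ (t : leftInv (ZMod p) H) (x : G),
        (b i (a j t) : G → ZMod p) x = ∑ g ∈ s, c g * (t : G → ZMod p) (g⁻¹ * x)) →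
    χ X ρX = f X ρX

/-- `P` is a trivial-intersection subgroup: `P ∩ g⁻¹ P g = 1` for `g ∉ N_G(P)`. -/
def IsTI (P : Subgroup G) : Prop :=
  ∀ g : G, g ∉ Nm P → ∀ x ∈ P, g * x * g⁻¹ ∈ P → x = 1

end Hyp

/-! ### The statements -/

/-- **(EC.5) The Steinberg reduction** (the exit). -/
def SteinbergStatement : Prop :=
  ∀ (p : ℕ) [Fact p.Prime] (G : Type) [Group G] [Finite G] (P : Sylow p G),
    IsTI (P : Subgroup G) →
  ∀ χ f : Inv p G, IsoInv χ → ProdAdd χ → SubAdd χ → ExAdd f →
    EPAt χ f ⊥ → EPAt χ f (P : Subgroup G) →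
  ∀ (N : Type) [AddCommGroup N] [Module (ZMod p) N] [Finite N]
    (ρ : Representation (ZMod p) G N), χ N ρ ≤ f N ρ

/-- **Seam 1 (projective half).**  `P` a TI Sylow `p`-subgroup, `B = N_G(P)`, `N` a finite
`𝔽_p[G]`-module, `W = Fun(G ⧸ B, N)` with the diagonal action `coind B ρ`.  There are equivariant
`q : W → N`, `s : N → W` with `q ∘ s = 1`, and equivariant `I : W → Fun(G, 𝔽_p)ⁿ`,
`R : Fun(G, 𝔽_p)ⁿ → W` (`G` acting on `Fun(G, 𝔽_p)` by left translation `ltrans`) with
`R ∘ I = 1 - s ∘ q`, `q ∘ R = 0`, such that every entry of `I ∘ R` is a right convolution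
`t ↦ (x ↦ ∑ y, c y * t (x * y))`. -/
def ProjSeam : Prop :=
  ∀ (p : ℕ) [Fact p.Prime] (G : Type) [Group G] [Finite G] (P : Sylow p G),
    IsTI (P : Subgroup G) →
  ∀ (N : Type) [AddCommGroup N] [Module (ZMod p) N] [Finite N]
    (ρ : Representation (ZMod p) G N),
  ∃ (q : (G ⧸ Nm (P : Subgroup G) → N) →ₗ[ZMod p] N)
    (s : N →ₗ[ZMod p] (G ⧸ Nm (P : Subgroup G) → N)),
    (∀ g w, q (coind (Nm (P : Subgroup G)) ρ g w) = ρ g (q w)) ∧
    (∀ g m, s (ρ g m) = coind (Nm (P : Subgroup G)) ρ g (s m)) ∧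
    (∀ m, q (s m) = m) ∧
    ∃ (n : ℕ) (I : (G ⧸ Nm (P : Subgroup G) → N) →ₗ[ZMod p] (Fin n → (G → ZMod p)))
      (R : (Fin n → (G → ZMod p)) →ₗ[ZMod p] (G ⧸ Nm (P : Subgroup G) → N)),
      (∀ g w k, I (coind (Nm (P : Subgroup G)) ρ g w) k = ltrans (ZMod p) G (ZMod p) g (I w k)) ∧
      (∀ g v, R (fun k => ltrans (ZMod p) G (ZMod p) g (v k))
        = coind (Nm (P : Subgroup G)) ρ g (R v)) ∧
      (∀ w, R (I w) = w - s (q w)) ∧ (∀ v, q (R v) = 0) ∧
      ∀ i j, ∃ (S : Finset G) (c : G → ZMod p), ∀ (t : G → ZMod p) (x : G),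
        I (R (Pi.single j t)) i x = ∑ y ∈ S, c y * t (x * y)

/-- **Seam 2 (induced half)**: the literal of helper187's `chi_le_f_coind`. -/
def IndSeam : Prop :=
  ∀ (p : ℕ) [Fact p.Prime] (G : Type) [Group G] [Finite G] (P B : Subgroup G), P ≤ B →
    (∀ b ∈ B, ∀ x ∈ P, b * x * b⁻¹ ∈ P) → IsPGroup p ↥P →
  ∀ (S Γ : Type) [MulAction G S] [Group Γ] [Finite Γ] [MulAction Γ S] [SMulCommClass G Γ S],
    ¬ p ∣ Nat.card Γ → ∀ (s₀ : S) (π : ↥B →* Γ), Function.Surjective π →
    (∀ s : S, ∃ g : G, g • s₀ = s) → (∀ g : G, g • s₀ = s₀ ↔ g ∈ P) →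
    (∀ b : ↥B, (b : G) • s₀ = (π b)⁻¹ • s₀) →
  ∀ χ f : Inv p G, SubAdd χ → ExAdd f →
    IsEPAt χ f (funRep (ZMod p) G S) (funRep (ZMod p) Γ S) →
  ∀ (N : Type) [AddCommGroup N] [Module (ZMod p) N] [Finite N]
    (ρ : Representation (ZMod p) G N),
    χ (G ⧸ B → N) (coind B ρ) ≤ f (G ⧸ B → N) (coind B ρ)

/-- **(EC.5, instance)** Sylow `p`-subgroups of finite subgroups of `GL₂` in characteristic `p`
are TI. -/
def TIStatement : Prop :=
  ∀ (p : ℕ) [Fact p.Prime] (k : Type) [Field k] [CharP k p] (V : Type) [AddCommGroup V]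
    [Module k V], Module.finrank k V = 2 →
    ∀ (G : Type) [Group G] [Finite G] (ι : G →* Module.End k V), Function.Injective ι →
    ∀ P : Sylow p G, IsTI (P : Subgroup G)

end Fermat.Agent.S56.EC.Steinberg
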