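/-
S56 / brick EC.6b (helper212): the pullback twin of the coset dictionary of `EC/Infl.lean`, for
the model `leftInv k H` of the Steinberg contract (`EC/Steinberg.lean`).

`π : 𝔊 →* G` surjective, `H ≤ G`.  `leftInv k H` are the left-`H`-invariant functions on `G`
(`G` acting by right translation `leftInvRep`), `coindTriv (H.comap π) k` the
left-`π⁻¹(H)`-invariant functions on `𝔊`.

* `pullEquiv π hπ H : leftInv k H ≃ₗ coindTriv (H.comap π) k`, `t ↦ t ∘ π`;
* `pullEquiv_rep` : it intertwines `leftInvRep k H (π s)` with the action of `s`;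
* `pullEquiv_lt` : it intertwines the left translation `t ↦ t ((π ñ)⁻¹ ·)` with
  `CoindAction.lt ñ`, for `ñ` in the normaliser of `π⁻¹(H)`;
* `exists_lift_nrm` : every element of `N_G(H)` has a lift in the normaliser of `π⁻¹(H)`.
-/
import Fermat.Agent.S56.EC.Infl
import Fermat.Agent.S56.EC.Steinberg

set_option autoImplicit false

open CategoryTheory groupCohomology

namespace Fermat.Agent.S56.EC.InflModel

open Fermat.Agent.S55 Fermat.Agent.S55.Abs Fermat.Agent.S55.Count
  Fermat.Agent.S56.EC.CoindAction Fermat.Agent.S56.EC.Steinberg Fermat.Agent.S56.EC.Infl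

variable {k : Type} [Field k] {𝔊 : Type} [Group 𝔊] {G : Type} [Group G] (π : 𝔊 →* G)

/-- Pullback of left-`H`-invariant functions along `π`. -/
noncomputable def pullLin (H : Subgroup G) :
    ↥(leftInv k H) →ₗ[k] coindTriv (k := k) (H.comap π) k where
  toFun t := ⟨fun x => (t : G → k) (π x), fun u x => by
    show (t : G → k) (π ((u : 𝔊) * x)) = (t : G → k) (π x)
    rw [map_mul]
    exact t.2 (π (u : 𝔊)) u.2 (π x)⟩
  map_add' _ _ := rfl
  map_smul' _ _ := rfl

theorem pullLin_apply (H : Subgroup G) (t : ↥(leftInv k H)) (x : 𝔊) :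
    (pullLin π H t).1 x = (t : G → k) (π x) := rfl

/-- **The pullback dictionary**: for surjective `π`, `M₀(H)` on `G` is `M0(π⁻¹ H)` on `𝔊`. -/
noncomputable def pullEquiv (hπ : Function.Surjective π) (H : Subgroup G) :
    ↥(leftInv k H) ≃ₗ[k] coindTriv (k := k) (H.comap π) k :=
  { pullLin π H with
    invFun := fun f => ⟨fun g => f.1 (Function.surjInv hπ g), fun h hh g => by
      show f.1 (Function.surjInv hπ (h * g)) = f.1 (Function.surjInv hπ g)
      apply coind_apply_eq π H k f
      rw [map_mul, map_inv, Function.surjInv_eq hπ, Function.surjInv_eq hπ, mul_inv_cancel_right]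
      exact hh⟩
    left_inv := fun t => by
      apply Subtype.ext
      funext g
      show (t : G → k) (π (Function.surjInv hπ g)) = (t : G → k) g
      rw [Function.surjInv_eq hπ]
    right_inv := fun f => by
      apply Subtype.ext
      funext x
      show f.1 (Function.surjInv hπ (π x)) = f.1 x
      apply coind_apply_eq π H k f
      rw [map_mul, map_inv, Function.surjInv_eq hπ, mul_inv_cancel]
      exact H.one_mem }

theorem pullEquiv_apply (hπ : Function.Surjective π) (H : Subgroup G) (t : ↥(leftInv k H))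
    (x : 𝔊) : (pullEquiv π hπ H t).1 x = (t : G → k) (π x) := rfl

theorem pullEquiv_symm_apply (hπ : Function.Surjective π) (H : Subgroup G)
    (f : coindTriv (k := k) (H.comap π) k) (x : 𝔊) :
    (((pullEquiv π hπ H).symm f : ↥(leftInv k H)) : G → k) (π x) = f.1 x := by
  have h := congrArg (fun z : coindTriv (k := k) (H.comap π) k => z.1 x)
    ((pullEquiv π hπ H).apply_symm_apply f)
  exact h

/-- The pullback is equivariant: right translation by `π s` on `M₀(H)` is the action of `s`. -/
theorem pullLin_rep (H : Subgroup G) (s : 𝔊) (t : ↥(leftInv k H)) :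
    pullLin π H (leftInvRep k H (π s) t) =
      (coindTriv (k := k) (H.comap π) k).ρ s (pullLin π H t) := by
  apply Subtype.ext
  funext x
  rw [coindTriv_ρ_apply, pullLin_apply, pullLin_apply, leftInvRep_apply, map_mul]

theorem pullEquiv_rep (hπ : Function.Surjective π) (H : Subgroup G) (s : 𝔊)
    (t : ↥(leftInv k H)) :
    pullEquiv π hπ H (leftInvRep k H (π s) t) =
      (coindTriv (k := k) (H.comap π) k).ρ s (pullEquiv π hπ H t) :=
  pullLin_rep π H s t

/-- Left translation by `π ñ` on `M₀(H)` (pointwise form) is `lt ñ` on the pullback. -/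
theorem pullLin_lt (H : Subgroup G) (ñ : ↥(Nrm (H.comap π))) (t t' : ↥(leftInv k H))
    (ht' : ∀ x : G, (t' : G → k) x = (t : G → k) ((π (ñ : 𝔊))⁻¹ * x)) :
    pullLin π H t' = (lt (H.comap π) k ñ).hom (pullLin π H t) := by
  apply Subtype.ext
  funext x
  rw [lt_apply, pullLin_apply, pullLin_apply, ht', map_mul, map_inv]

theorem pullEquiv_lt (hπ : Function.Surjective π) (H : Subgroup G) (ñ : ↥(Nrm (H.comap π)))
    (t t' : ↥(leftInv k H))
    (ht' : ∀ x : G, (t' : G → k) x = (t : G → k) ((π (ñ : 𝔊))⁻¹ * x)) :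
    pullEquiv π hπ H t' = (lt (H.comap π) k ñ).hom (pullEquiv π hπ H t) :=
  pullLin_lt π H ñ t t' ht'

/-- Pointwise form of `lt` transported back to `G`. -/
theorem pullEquiv_symm_lt (hπ : Function.Surjective π) (H : Subgroup G)
    (ñ : ↥(Nrm (H.comap π))) (f : coindTriv (k := k) (H.comap π) k) (x : G) :
    (((pullEquiv π hπ H).symm ((lt (H.comap π) k ñ).hom f) : ↥(leftInv k H)) : G → k) x =
      (((pullEquiv π hπ H).symm f : ↥(leftInv k H)) : G → k) ((π (ñ : 𝔊))⁻¹ * x) := by
  obtain ⟨y, rfl⟩ := hπ x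
  rw [pullEquiv_symm_apply, lt_apply, ← map_inv, ← map_mul, pullEquiv_symm_apply]

/-- Every element of `N_G(H)` has a lift in the normaliser of `π⁻¹(H)`. -/
theorem exists_lift_nrm (hπ : Function.Surjective π) {H : Subgroup G} {n : G}
    (hn : n ∈ Nm H) :
    ∃ ñ : ↥(Nrm (H.comap π)), π (ñ : 𝔊) = n := by
  obtain ⟨x, hx⟩ := hπ n
  exact ⟨⟨x, mem_nrm_comap π hn hx⟩, hx⟩

end Fermat.Agent.S56.EC.InflModel
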