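/-
S56 / brick EC.6b (helper205): `EPSigma → ECExit` through the Steinberg reduction.

`ecExit_of_epSigma : EPSigma → Steinberg.SteinbergStatement → ECExit`.

`F/ℚ` finite Galois, unramified outside `S ∋ p`, `G := GQ ⧸ Gal(Qb/F)`, `π : GQ → G`.  The two
invariants of `EC/Inflate` are `χ := chiInv π (globalLevel S)` (`χ₂` of the inflation) and
`f := fInv π c` (`- dim` of the `(-1)`-eigenspace of complex conjugation).

* `family_core` : a retract family over `M₀(H) = Steinberg.leftInv 𝔽_p H` whose matrix entries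
  are combinations of left translations by `N_G(H)` pulls back along `π` to a retract family
  over `M0(U)`, `U = π⁻¹ H`, whose matrix entries are combinations of `CoindAction.lt`
  (the shape of `EPSigma`);
* `epAt_of_epSigma` : `EPSigma ⟹ Steinberg.EPAt χ f H` for EVERY `p`-subgroup `H ≤ G`
  (`K := Qb^{π⁻¹ H}`: `ExitB/Field`);
* `isTI_of_inf_map` : the TI hypothesis of `ECExit` is `Steinberg.IsTI`;
* `ecExit_of_epSigma`.
-/
import Fermat.Agent.S56.EC.Contract
import Fermat.Agent.S56.EC.Inflate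
import Fermat.Agent.S56.EC.Infl
import Fermat.Agent.S56.EC.Steinberg
import Fermat.Agent.S56.EC.ExitB.Field
import Fermat.Agent.S56.EC.InflModel

set_option autoImplicit false

open scoped NumberField
open CategoryTheory ExtCitation

namespace Fermat.Agent.S56.EC.ExitB

open Fermat.Agent.S55 Fermat.Agent.S55.Abs Fermat.Agent.S55.Count
open Fermat.Agent.CFT.Global.CountV Fermat.Agent.CFT.Global.SelmerCount Fermat.Agent.S55.Glue
open Fermat.Agent.S56.EC.CoindAction Fermat.Agent.S56.EC.SteinbergInd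
open Fermat.Agent.S56.EC.Steinberg Fermat.Agent.S56.EC.Inflate
open Fermat.Agent.S56.EC.InflModel

local notation "Qb" => AlgebraicClosure ℚ

/-! ### The pulled-back retract family -/

section Family

variable {p : ℕ} [Fact p.Prime] {𝔊 G : Type} [Group 𝔊] [Group G] (π : 𝔊 →* G)
  (hπ : Function.Surjective π) (H : Subgroup G)

/-- Evaluation at a point on `M0 U`. -/
noncomputable def evalAt (U : Subgroup 𝔊) (x : 𝔊) : M0 (ZMod p) U →ₗ[ZMod p] ZMod p where
  toFun f := f.1 x
  map_add' _ _ := rfl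
  map_smul' _ _ := rfl

theorem evalAt_apply (U : Subgroup 𝔊) (x : 𝔊) (f : M0 (ZMod p) U) : evalAt U x f = f.1 x := rfl

include hπ in
/-- **The pulled-back family.**  A retract family `a`, `b` over `M₀(H)` (left-`H`-invariant
functions on `G`) whose entries `b i ∘ a j` are combinations of left translations by elements
of `N_G(H)` gives a retract family over `M0(U)`, `U = π⁻¹ H`, for the inflated module, whose
entries are combinations of the left translations `lt g`, `g` in the normaliser of `U`. -/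
theorem family_core (U : Subgroup 𝔊) (hU : U = H.comap π) {n : ℕ} {X : Type} [AddCommGroup X]
    [Module (ZMod p) X] (ρX : Representation (ZMod p) G X)
    (a : Fin n → (leftInv (ZMod p) H →ₗ[ZMod p] X))
    (b : Fin n → (X →ₗ[ZMod p] leftInv (ZMod p) H))
    (ha : ∀ i g t, a i (leftInvRep (ZMod p) H g t) = ρX g (a i t))
    (hb : ∀ i g x, b i (ρX g x) = leftInvRep (ZMod p) H g (b i x))
    (hsum : ∀ x, ∑ i, a i (b i x) = x)
    (hlt : ∀ i j, ∃ (s : Finset G) (c : G → ZMod p), (∀ g ∈ s, g ∈ Nm H) ∧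
      ∀ (t : leftInv (ZMod p) H) (x : G),
        (b i (a j t) : G → ZMod p) x = ∑ g ∈ s, c g * (t : G → ZMod p) (g⁻¹ * x)) :
    ∃ (a' : Fin n → (M0 (ZMod p) U ⟶ (Rep.of (ρX.comp π) : Rep.{0} (ZMod p) 𝔊)))
      (b' : Fin n → ((Rep.of (ρX.comp π) : Rep.{0} (ZMod p) 𝔊) ⟶ M0 (ZMod p) U)),
      (∀ x, ∑ j, (a' j).hom ((b' j).hom x) = x) ∧
      ∀ i j, ∃ (s : Finset ↥(Nrm U)) (c : ↥(Nrm U) → ZMod p),
        ∀ f, (b' i).hom ((a' j).hom f) = ∑ g ∈ s, c g • (lt U (ZMod p) g).hom f := by
  subst hU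
  classical
  have hE : ∀ (s : 𝔊) (t : ↥(leftInv (ZMod p) H)),
      pullEquiv π hπ H (leftInvRep (ZMod p) H (π s) t) =
        (M0 (ZMod p) (H.comap π)).ρ s (pullEquiv π hπ H t) := pullEquiv_rep π hπ H
  have hEs : ∀ (s : 𝔊) (f : M0 (ZMod p) (H.comap π)),
      (pullEquiv π hπ H).symm ((M0 (ZMod p) (H.comap π)).ρ s f) =
        leftInvRep (ZMod p) H (π s) ((pullEquiv π hπ H).symm f) := by
    intro s f
    apply (pullEquiv π hπ H).injective
    rw [LinearEquiv.apply_symm_apply, hE, LinearEquiv.apply_symm_apply]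
  let a' : Fin n → (M0 (ZMod p) (H.comap π) ⟶ (Rep.of (ρX.comp π) : Rep.{0} (ZMod p) 𝔊)) :=
    fun j => Rep.ofHom (LinearMap.intertwiningMap_of_isIntertwiningMap
      (M0 (ZMod p) (H.comap π)).ρ (ρX.comp π) (a j ∘ₗ (pullEquiv π hπ H).symm.toLinearMap)
      (fun s f => by
        show a j ((pullEquiv π hπ H).symm ((M0 (ZMod p) (H.comap π)).ρ s f)) =
          ρX (π s) (a j ((pullEquiv π hπ H).symm f))
        rw [hEs, ha]))
  let b' : Fin n → ((Rep.of (ρX.comp π) : Rep.{0} (ZMod p) 𝔊) ⟶ M0 (ZMod p) (H.comap π)) :=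
    fun j => Rep.ofHom (LinearMap.intertwiningMap_of_isIntertwiningMap
      (ρX.comp π) (M0 (ZMod p) (H.comap π)).ρ ((pullEquiv π hπ H).toLinearMap ∘ₗ b j)
      (fun s x => by
        show pullEquiv π hπ H (b j (ρX (π s) x)) =
          (M0 (ZMod p) (H.comap π)).ρ s (pullEquiv π hπ H (b j x))
        rw [hb, hE]))
  have ha' : ∀ (j : Fin n) (f : M0 (ZMod p) (H.comap π)),
      (a' j).hom f = a j ((pullEquiv π hπ H).symm f) := fun _ _ => rfl
  have hb' : ∀ (j : Fin n) (x : X), (b' j).hom x = pullEquiv π hπ H (b j x) := fun _ _ => rfl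
  refine ⟨a', b', ?_, ?_⟩
  · intro x
    have h1 : ∀ j : Fin n, (a' j).hom ((b' j).hom x) = a j (b j x) := by
      intro j
      rw [ha', hb', LinearEquiv.symm_apply_apply]
    simp only [h1]
    exact hsum x
  · intro i j
    obtain ⟨s, c, hs, hformula⟩ := hlt i j
    obtain ⟨σ, hσ⟩ : ∃ σ : G → 𝔊, ∀ g, π (σ g) = g :=
      ⟨fun g => (hπ g).choose, fun g => (hπ g).choose_spec⟩
    let σ' : G → ↥(Nrm (H.comap π)) := fun g =>
      if h : g ∈ Nm H then ⟨σ g, Infl.mem_nrm_comap π h (hσ g)⟩ else 1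
    have hσ' : ∀ g ∈ s, π ((σ' g : ↥(Nrm (H.comap π))) : 𝔊) = g := by
      intro g hg
      simp only [σ', dif_pos (hs g hg)]
      exact hσ g
    let cc : ↥(Nrm (H.comap π)) → ZMod p := fun g' => c (π (g' : 𝔊))
    refine ⟨s.image σ', cc, fun f => ?_⟩
    apply Subtype.ext
    funext x
    have hL : ((b' i).hom ((a' j).hom f)).1 x =
        (b i (a j ((pullEquiv π hπ H).symm f)) : G → ZMod p) (π x) := rfl
    have hR : ((∑ g' ∈ s.image σ', cc g' • (lt (H.comap π) (ZMod p) g').hom f :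
        M0 (ZMod p) (H.comap π))).1 x =
        ∑ g' ∈ s.image σ', cc g' * ((lt (H.comap π) (ZMod p) g').hom f).1 x := by
      have h := map_sum (evalAt (p := p) (H.comap π) x)
        (fun g' => cc g' • (lt (H.comap π) (ZMod p) g').hom f) (s.image σ')
      simp only [map_smul, smul_eq_mul] at h
      exact h
    rw [hL, hformula, hR, Finset.sum_image (fun g₁ hg₁ g₂ hg₂ h12 => by
      rw [← hσ' g₁ hg₁, ← hσ' g₂ hg₂, h12])]
    refine Finset.sum_congr rfl fun g hg => ?_
    show c g * _ = c (π ((σ' g : ↥(Nrm (H.comap π))) : 𝔊)) * _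
    rw [hσ' g hg, lt_apply]
    congr 1
    have h1 := pullEquiv_apply π (fun g => ⟨σ g, hσ g⟩) H
      ((pullEquiv π hπ H).symm f) (((σ' g : ↥(Nrm (H.comap π))) : 𝔊)⁻¹ * x)
    rw [LinearEquiv.apply_symm_apply, map_mul, map_inv, hσ' g hg] at h1
    exact h1.symm

end Family

/-! ### (EP) at every `p`-subgroup of `Gal(F/ℚ)` -/

section EP

variable {p : ℕ} [Fact p.Prime]

/-- **`EPSigma ⟹ EPAt`.**  For `F/ℚ` finite Galois unramified outside `S ∋ p` with `μ_p ⊂ F`
and `Cl_K = Cl_K^p ⟨S_K⟩` for the fields `μ_p ⊂ K ⊂ F`: the invariants `χ₂` and `- dim (c = -1)`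
agree on the `(EP)`-retracts of `M₀(H)ⁿ` for every `p`-subgroup `H` of `GQ ⧸ Gal(Qb/F)`. -/
theorem epAt_of_epSigma (hEP : EPSigma) (hp2 : p ≠ 2) (S : Finset Nat.Primes)
    (hpS : pPrime p ∈ S) (F : IntermediateField ℚ Qb) [F.fixingSubgroup.Normal]
    (hF : F.IsUnramifiedOutside S) (hC : cycloField p ≤ F)
    (hcl : ∀ (K : IntermediateField ℚ Qb) [NumberField K], cycloField p ≤ K → K ≤ F →
      (clS (𝓞 K) p (SK S K)).index = 1)
    (H : Subgroup (GQ ⧸ F.fixingSubgroup)) (hH : IsPGroup p ↥H) :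
    EPAt (p := p) (chiInv (QuotientGroup.mk' F.fixingSubgroup) (globalLevel S))
      (fInv (QuotientGroup.mk' F.fixingSubgroup) complexConjugation) H := by
  intro n X _ _ _ ρX a b ha hb hsum hlt
  have hπs : Function.Surjective (QuotientGroup.mk' F.fixingSubgroup) :=
    QuotientGroup.mk'_surjective _
  have hFU : F.fixingSubgroup ≤ H.comap (QuotientGroup.mk' F.fixingSubgroup) := fun x hx => by
    show QuotientGroup.mk' F.fixingSubgroup x ∈ H
    have h1 : QuotientGroup.mk' F.fixingSubgroup x = 1 := (QuotientGroup.eq_one_iff x).2 hx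
    rw [h1]
    exact H.one_mem
  have hfd : FiniteDimensional ℚ F := hF.1
  have hKU := Field.fixingSubgroup_fixedField_of_le F _ hFU
  have hnf : NumberField ↥(IntermediateField.fixedField
      (H.comap (QuotientGroup.mk' F.fixingSubgroup))) := Field.numberField_fixedField F _ hFU
  have hKF := Field.fixedField_le F _ hFU
  have hKur := Field.isUnramifiedOutside_fixedField F _ hF hFU
  have hCK : cycloField p ≤
      IntermediateField.fixedField (H.comap (QuotientGroup.mk' F.fixingSubgroup)) :=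
    Field.cycloField_le_fixedField F _ p hC (fun u hu => by
      obtain ⟨k, hk⟩ := hH ⟨QuotientGroup.mk' F.fixingSubgroup u, hu⟩
      refine ⟨k, ?_⟩
      have h1 : QuotientGroup.mk' F.fixingSubgroup (u ^ (p ^ k)) = 1 := by
        rw [map_pow]
        have h2 := congrArg Subtype.val hk
        simpa using h2
      exact (QuotientGroup.eq_one_iff _).1 h1)
  have hclK := hcl _ hCK hKF
  obtain ⟨a', b', hsum', hlt'⟩ := family_core (QuotientGroup.mk' F.fixingSubgroup) hπs H
    (IntermediateField.fixedField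
      (H.comap (QuotientGroup.mk' F.fixingSubgroup))).fixingSubgroup hKU ρX a b ha hb hsum hlt
  have key := hEP p hp2 S hpS _ hKur hCK hclK n _ a' b' hsum' hlt'
  exact key

end EP

/-! ### The exit -/

/-- The TI hypothesis of `ECExit` in the spelling of `Steinberg.IsTI`. -/
theorem isTI_of_inf_map {G : Type} [Group G] (P : Subgroup G)
    (h : ∀ g : G, g ∉ Subgroup.normalizer (P : Set G) →
      P ⊓ P.map (MulAut.conj g).toMonoidHom = ⊥) : IsTI P := by
  intro g hg x hx hgx
  have hmem : g * x * g⁻¹ ∈ P ⊓ P.map (MulAut.conj g).toMonoidHom :=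
    ⟨hgx, ⟨x, hx, by simp [MulAut.conj_apply]⟩⟩
  rw [h g hg] at hmem
  have h1 : g * x * g⁻¹ = 1 := Subgroup.mem_bot.1 hmem
  have h2 : x = g⁻¹ * (g * x * g⁻¹) * g := by group
  rw [h2, h1]
  group

/-- **`EPSigma → ECExit`** (given the Steinberg reduction). -/
theorem ecExit_of_epSigma (hEP : EPSigma) (hSt : SteinbergStatement) : ECExit := by
  intro p _ hp2 S hpS F _ hF hC hcl P hTI N _ hN
  have hπs : Function.Surjective (QuotientGroup.mk' F.fixingSubgroup) :=
    QuotientGroup.mk'_surjective _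
  have hπ : ∃ U ∈ (globalLevel S).sets, ∀ s ∈ U, QuotientGroup.mk' F.fixingSubgroup s = 1 :=
    ⟨F.fixingSubgroup, ⟨F, hF, rfl⟩, fun s hs => (QuotientGroup.eq_one_iff s).2 hs⟩
  have hfi : F.fixingSubgroup.FiniteIndex := (globalLevel S).finiteIndex _ ⟨F, hF, rfl⟩
  have hfin : Finite (GQ ⧸ F.fixingSubgroup) := Subgroup.finite_quotient_of_finiteIndex
  have hNfin : Finite N := Module.finite_of_finite (ZMod p)
  obtain ⟨ρ, hρ⟩ := Infl.exists_descent (QuotientGroup.mk' F.fixingSubgroup) hπs N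
    (fun x hx n => hN x (by rwa [QuotientGroup.ker_mk'] at hx) n)
  have hiso : IsoInv (chiInv (QuotientGroup.mk' F.fixingSubgroup) (globalLevel S) :
      Inv p (GQ ⧸ F.fixingSubgroup)) := fun V W _ _ _ _ _ _ ρ₁ ρ₂ e he =>
    (chiInv_congr (QuotientGroup.mk' F.fixingSubgroup) (globalLevel S) ρ₁ ρ₂ e he).symm
  have hprod : ProdAdd (chiInv (QuotientGroup.mk' F.fixingSubgroup) (globalLevel S) :
      Inv p (GQ ⧸ F.fixingSubgroup)) := fun A C _ _ _ _ _ _ ρA ρC =>
    chiInv_biprod_global hp2 S hpS (QuotientGroup.mk' F.fixingSubgroup) hπ (ρA.prod ρC) ρA ρC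
      (LinearMap.inl (ZMod p) A C) (LinearMap.inr (ZMod p) A C)
      (LinearMap.fst (ZMod p) A C) (LinearMap.snd (ZMod p) A C)
      (fun g a => by
        show ((ρA g a, 0) : A × C) = (ρA g a, ρC g 0)
        rw [map_zero])
      (fun g c => by
        show ((0, ρC g c) : A × C) = (ρA g 0, ρC g c)
        rw [map_zero])
      (fun _ _ => rfl) (fun _ _ => rfl) (fun _ => rfl) (fun _ => rfl)
      (fun x => by
        show ((x.1, 0) : A × C) + (0, x.2) = x
        simp)
  have hsub := subAdd_chiInv_global hp2 S hpS (QuotientGroup.mk' F.fixingSubgroup) hπ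
  have hfex := exAdd_fInv (QuotientGroup.mk' F.fixingSubgroup) hp2 complexConjugation
    (by rw [← map_mul, complexConjugation_mul_self, map_one])
  have hEP1 := epAt_of_epSigma hEP hp2 S hpS F hF hC hcl ⊥ IsPGroup.of_bot
  have hEP2 := epAt_of_epSigma hEP hp2 S hpS F hF hC hcl (P : Subgroup _) P.isPGroup'
  have hti : IsTI (P : Subgroup (GQ ⧸ F.fixingSubgroup)) := isTI_of_inf_map _ hTI
  have key := hSt p (GQ ⧸ F.fixingSubgroup) P hti _ _ hiso hprod hsub hfex hEP1 hEP2 N ρ
  have h1 : chi2 (globalLevel S) N =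
      chi2 (globalLevel S) (infl (QuotientGroup.mk' F.fixingSubgroup) ρ) :=
    Infl.chi2_eq_infl (QuotientGroup.mk' F.fixingSubgroup) (globalLevel S) N ρ hρ
  have h2 : ρ (QuotientGroup.mk' F.fixingSubgroup complexConjugation) =
      N.ρ complexConjugation := LinearMap.ext (hρ complexConjugation)
  have h3 : fInv (QuotientGroup.mk' F.fixingSubgroup) complexConjugation N ρ =
      -(cMinus N : ℤ) := by
    rw [fInv_apply, h2]
    rfl
  rw [h1, ← h3]
  exact key

end Fermat.Agent.S56.EC.ExitB
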