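/-
S56 / brick EC (helper39, EC architect): THE EXIT OF BRICK EC FROM THE FOUR SEAMS.

`ECExit ⇐ EPSigma` (`EC/ExitB`, helper205) `⇐` the four seams of `EC/Seams.lean` (`EC/Base`),
with the Steinberg reduction `Steinberg.steinbergStatement` (`EC/SteinbergFinal`, helper164,
helper9, helper187).  The seams are asked exactly where `EPSigma` is used: `p` odd, `p ∈ S`,
`K` a number field unramified outside `S` containing `μ_p`, `Cl_K = Cl_K^p ⟨S_K⟩`.
-/
import Fermat.Agent.S56.EC.Base
import Fermat.Agent.S56.EC.ExitB
import Fermat.Agent.S56.EC.SteinbergFinal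

set_option autoImplicit false

open scoped NumberField
open CategoryTheory ExtCitation IsDedekindDomain

namespace Fermat.Agent.S56.EC.ExitOfSeams

open Fermat.Agent.S55 Fermat.Agent.S55.Abs Fermat.Agent.S55.Count Fermat.Agent.S55.Glue
  Fermat.Agent.CFT.Global.CountV Fermat.Agent.CFT.Global.SelmerCount
  Fermat.Agent.S56.EC.Seams

local notation "Qb" => AlgebraicClosure ℚ

/-- The four seams, at every place where `EPSigma` consumes them. -/
def AllSeams : Prop :=
  ∀ (p : ℕ) [Fact p.Prime], p ≠ 2 → ∀ (S : Finset Nat.Primes), pPrime p ∈ S →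
    ∀ (K : IntermediateField ℚ Qb) [NumberField K], K.IsUnramifiedOutside S →
    ∀ (hcyc : cycloField p ≤ K), (clS (𝓞 K) p (SK S K)).index = 1 →
      SeamKum (p := p) K S ∧ SeamArch (p := p) K ∧ SeamLoc (p := p) K S hcyc ∧
        SeamUnits (p := p) K S hcyc

/-- **`EPSigma` from the four seams.** -/
theorem epSigma_of_allSeams (h : AllSeams) : EPSigma := Base.epSigma_of_seams h

/-- **The exit of brick EC from the four seams.** -/
theorem ecExit_of_allSeams (h : AllSeams) : ECExit :=
  ExitB.ecExit_of_epSigma (Base.epSigma_of_seams h) Steinberg.steinbergStatement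

end Fermat.Agent.S56.EC.ExitOfSeams
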