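import Mathlib

/-!
# S56 / EC.1 (helper26): the `e`-rank of a representation — DEFINITIONS ONLY

`Γ` a monoid (in the applications a group), `k` a commutative semiring (in the applications
`ZMod p`), `ρ : Representation k Γ V`, and `e` an `n × n` matrix over the monoid algebra `k[Γ]`.

* `eMap ρ e : (Fin n → V) →ₗ[k] (Fin n → V)` : the action of `e` on `V ^ n`,
  `(eMap ρ e v) i = ∑ j, ρ.asAlgebraHom (e i j) (v j)`  (`eMap_apply`);
* `eRank ρ e : ℕ` : the `k`-rank of the image of `eMap ρ e`
  (for an idempotent `e`: the multiplicity `⟨e k[Γ]ⁿ, V⟩`).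

This file is kept to the two definitions and `eMap_apply` ON PURPOSE (EC ruling (R-b)): it is
imported by the EC contract and its consumers and will not change.  The calculus (R1)–(R8)
(ring-hom property, complement, monotonicity, exact sequences, duals, `(PA)`, the lattice lemma,
twists) lives in the files `EC/IdemRank*.lean` next to this one.
-/

set_option autoImplicit false

namespace Fermat.Agent.S56.EC.IdemRank

variable {k Γ V : Type*} [CommSemiring k] [Monoid Γ] [AddCommMonoid V] [Module k V]

/-- The action of an `n × n` matrix `e` over the monoid algebra `k[Γ]` on `V ^ n`, for a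
representation `ρ` of `Γ` on `V`. -/
noncomputable def eMap (ρ : Representation k Γ V) {n : ℕ}
    (e : Matrix (Fin n) (Fin n) (MonoidAlgebra k Γ)) : (Fin n → V) →ₗ[k] (Fin n → V) :=
  LinearMap.pi fun i => ∑ j, (ρ.asAlgebraHom (e i j)).comp (LinearMap.proj j)

theorem eMap_apply (ρ : Representation k Γ V) {n : ℕ}
    (e : Matrix (Fin n) (Fin n) (MonoidAlgebra k Γ)) (v : Fin n → V) (i : Fin n) :
    eMap ρ e v i = ∑ j, ρ.asAlgebraHom (e i j) (v j) := by
  simp [eMap, LinearMap.pi_apply, LinearMap.sum_apply]

/-- The `e`-rank of a representation: the `k`-rank of the image of `e` acting on `V ^ n`. -/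
noncomputable def eRank (ρ : Representation k Γ V) {n : ℕ}
    (e : Matrix (Fin n) (Fin n) (MonoidAlgebra k Γ)) : ℕ :=
  Module.finrank k (LinearMap.range (eMap ρ e))

end Fermat.Agent.S56.EC.IdemRank
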