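/-
S56, brick EC.2 (helper287), consumer forms of "enough units" in the `eRank` spelling of
`S56/EC/IdemRank.lean` (helper26):

* `eMap_eq_opE`, `eRank_eq` : `IdemRank.eMap = UnitBridge.opE` (by `rfl`);
* `eMap_natural`, `eRank_congr`, `eRank_prod` : naturality in equivariant linear maps, invariance
  under equivariant isomorphisms, additivity in products;
* `eRank_units` : `rk_e (U/p) + rk_e (F_p) = rk_e (U[p]) + rk_e (F_p[∞_L ⊔ TL])` (generic
  incarnations, = `UnitRank.finrank_units`);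
* `eRank_units_split` : the same with `F_p[∞_L]` and `F_p[TL]` separately;
* `castFun`, `muHom` : the concrete incarnations `ℤ[P] → (P → F_p)` and `F_p → U[p]`, `c ↦ ζ ^ c`;
* `eRank_units_fun` : **the concrete exit**: `U[p]` is `F_p` with `τ` acting through the exponent
  `χ τ` (`τ ζ = ζ ^ χ τ`), `F_p[∞_L]`, `F_p[TL]` are the function spaces with
  `(τ f)(w) = f (τ⁻¹ w)`; only `U/p` stays an abstract incarnation.
-/
import Mathlib
import Fermat.Agent.S56.EC.UnitRank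
import Fermat.Agent.S56.EC.IdemRank

set_option autoImplicit false

namespace Fermat.Agent.S56.EC.UnitRankE

open NumberField IsDedekindDomain
  Fermat.Agent.CFT.Global.GalPrime
  Fermat.Agent.CFT.Global.TUnitsHerbrand
  Fermat.Agent.S56.EC.UnitBridge Fermat.Agent.S56.EC.UnitRank Fermat.Agent.S56.EC.IdemRank

set_option linter.unusedSectionVars false
set_option linter.style.haveILetI false

/-! ### Generic `eRank` calculus -/

section Generic

variable {k Γ : Type*} [CommRing k] [Group Γ] {V W : Type*} [AddCommGroup V] [Module k V]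
  [AddCommGroup W] [Module k W] {n : ℕ}

theorem eMap_eq_opE (ρ : Representation k Γ V) (e : Matrix (Fin n) (Fin n) (MonoidAlgebra k Γ)) :
    eMap ρ e = opE ρ e := rfl

theorem eRank_eq (ρ : Representation k Γ V) (e : Matrix (Fin n) (Fin n) (MonoidAlgebra k Γ)) :
    eRank ρ e = Module.finrank k (LinearMap.range (opE ρ e)) := rfl

/-- Naturality of the group-algebra action in equivariant linear maps. -/
theorem asAlgebraHom_lin (ρV : Representation k Γ V) (ρW : Representation k Γ W) (f : V →ₗ[k] W)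
    (hf : ∀ (g : Γ) (v : V), f (ρV g v) = ρW g (f v)) (X : MonoidAlgebra k Γ) (v : V) :
    f (ρV.asAlgebraHom X v) = ρW.asAlgebraHom X (f v) := by
  induction X using MonoidAlgebra.induction_linear with
  | zero => simp
  | add x y hx hy =>
    rw [map_add, map_add, LinearMap.add_apply, LinearMap.add_apply, map_add, hx, hy]
  | single g c =>
    rw [Representation.asAlgebraHom_single, Representation.asAlgebraHom_single,
      LinearMap.smul_apply, LinearMap.smul_apply, map_smul, hf]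

/-- Naturality of `eMap` in equivariant linear maps. -/
theorem eMap_natural (ρV : Representation k Γ V) (ρW : Representation k Γ W) (f : V →ₗ[k] W)
    (hf : ∀ (g : Γ) (v : V), f (ρV g v) = ρW g (f v))
    (e : Matrix (Fin n) (Fin n) (MonoidAlgebra k Γ)) (v : Fin n → V) :
    (fun i => f (eMap ρV e v i)) = eMap ρW e (fun i => f (v i)) := by
  funext i
  rw [eMap_apply, eMap_apply, map_sum]
  exact Finset.sum_congr rfl (fun j _ => asAlgebraHom_lin ρV ρW f hf _ _)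

/-- The `e`-rank is invariant under equivariant linear isomorphisms. -/
theorem eRank_congr (ρV : Representation k Γ V) (ρW : Representation k Γ W) (f : V ≃ₗ[k] W)
    (hf : ∀ (g : Γ) (v : V), f (ρV g v) = ρW g (f v))
    (e : Matrix (Fin n) (Fin n) (MonoidAlgebra k Γ)) : eRank ρV e = eRank ρW e := by
  let F : (Fin n → V) ≃ₗ[k] (Fin n → W) := LinearEquiv.piCongrRight (fun _ => f)
  have hcomm : ∀ v, F (eMap ρV e v) = eMap ρW e (F v) :=
    fun v => eMap_natural ρV ρW f.toLinearMap hf e v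
  have hrange : (LinearMap.range (eMap ρV e)).map F.toLinearMap = LinearMap.range (eMap ρW e) := by
    ext y
    constructor
    · rintro ⟨_, ⟨v, rfl⟩, rfl⟩
      exact ⟨F v, (hcomm v).symm⟩
    · rintro ⟨x, rfl⟩
      refine ⟨eMap ρV e (F.symm x), ⟨_, rfl⟩, ?_⟩
      show F (eMap ρV e (F.symm x)) = _
      rw [hcomm, F.apply_symm_apply]
  show Module.finrank k (LinearMap.range (eMap ρV e)) = Module.finrank k (LinearMap.range (eMap ρW e))
  rw [← hrange, LinearEquiv.finrank_map_eq]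

/-- `(V × W)ⁿ ≃ Vⁿ × Wⁿ`. -/
def splitEquiv (k : Type*) [CommRing k] (V W : Type*) [AddCommGroup V] [Module k V]
    [AddCommGroup W] [Module k W] (n : ℕ) :
    (Fin n → V × W) ≃ₗ[k] (Fin n → V) × (Fin n → W) where
  toFun v := (fun i => (v i).1, fun i => (v i).2)
  invFun x := fun i => (x.1 i, x.2 i)
  map_add' _ _ := rfl
  map_smul' _ _ := rfl
  left_inv _ := rfl
  right_inv _ := rfl

/-- `p.prod q ≃ p × q`. -/
def prodSubEquiv (p : Submodule k V) (q : Submodule k W) : ↥(p.prod q) ≃ₗ[k] ↥p × ↥q where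
  toFun x := (⟨x.1.1, x.2.1⟩, ⟨x.1.2, x.2.2⟩)
  invFun y := ⟨(y.1.1, y.2.1), ⟨y.1.2, y.2.2⟩⟩
  map_add' _ _ := rfl
  map_smul' _ _ := rfl
  left_inv _ := rfl
  right_inv _ := rfl

end Generic

section Prod

variable {k Γ : Type*} [Field k] [Group Γ] {V W : Type*} [AddCommGroup V] [Module k V]
  [AddCommGroup W] [Module k W] {n : ℕ}

/-- The `e`-rank is additive in products. -/
theorem eRank_prod [Module.Finite k V] [Module.Finite k W] (ρV : Representation k Γ V)
    (ρW : Representation k Γ W) (e : Matrix (Fin n) (Fin n) (MonoidAlgebra k Γ)) :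
    eRank (ρV.prod ρW) e = eRank ρV e + eRank ρW e := by
  let Φ : (Fin n → V × W) ≃ₗ[k] (Fin n → V) × (Fin n → W) := splitEquiv k V W n
  have hcomm : ∀ v, Φ (eMap (ρV.prod ρW) e v) = (eMap ρV e).prodMap (eMap ρW e) (Φ v) := by
    intro v
    apply Prod.ext
    · exact eMap_natural (ρV.prod ρW) ρV (LinearMap.fst k V W) (fun g x => rfl) e v
    · exact eMap_natural (ρV.prod ρW) ρW (LinearMap.snd k V W) (fun g x => rfl) e v
  have hrange : (LinearMap.range (eMap (ρV.prod ρW) e)).map Φ.toLinearMap =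
      LinearMap.range ((eMap ρV e).prodMap (eMap ρW e)) := by
    ext y
    constructor
    · rintro ⟨_, ⟨v, rfl⟩, rfl⟩
      exact ⟨Φ v, (hcomm v).symm⟩
    · rintro ⟨x, rfl⟩
      refine ⟨eMap (ρV.prod ρW) e (Φ.symm x), ⟨_, rfl⟩, ?_⟩
      show Φ (eMap (ρV.prod ρW) e (Φ.symm x)) = _
      rw [hcomm, Φ.apply_symm_apply]
  show Module.finrank k (LinearMap.range (eMap (ρV.prod ρW) e)) =
    Module.finrank k (LinearMap.range (eMap ρV e)) + Module.finrank k (LinearMap.range (eMap ρW e))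
  rw [← LinearEquiv.finrank_map_eq Φ, hrange, LinearMap.range_prodMap,
    (prodSubEquiv _ _).finrank_eq, Module.finrank_prod]

end Prod

/-! ### Concrete incarnation of `F_p[P]`: functions -/

section Cast

variable (p : ℕ) [Fact p.Prime] (P : Type*)

/-- Reduction modulo `p` of the coefficients, as a function on `P`. -/
noncomputable def castFun : (P →₀ ℤ) →+ (P → ZMod p) where
  toFun y := fun x => ((y x : ℤ) : ZMod p)
  map_zero' := by
    funext x
    simp
  map_add' y z := by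
    funext x
    simp

theorem castFun_apply (y : P →₀ ℤ) (x : P) : castFun p P y x = ((y x : ℤ) : ZMod p) := rfl

theorem castFun_surjective [Finite P] : Function.Surjective (castFun p P) := by
  haveI : NeZero p := ⟨(Fact.out : p.Prime).ne_zero⟩
  intro f
  refine ⟨Finsupp.equivFunOnFinite.symm (fun x => ((f x).val : ℤ)), ?_⟩
  funext x
  rw [castFun_apply, Finsupp.coe_equivFunOnFinite_symm]
  simp

theorem castFun_eq_zero_iff (y : P →₀ ℤ) : castFun p P y = 0 ↔ ∃ z : P →₀ ℤ, p • z = y := by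
  haveI : NeZero p := ⟨(Fact.out : p.Prime).ne_zero⟩
  constructor
  · intro hy
    have hdvd : ∀ x, (p : ℤ) ∣ y x := fun x =>
      (ZMod.intCast_zmod_eq_zero_iff_dvd _ p).1 (congrFun hy x)
    refine ⟨y.mapRange (fun c : ℤ => c / (p : ℤ)) (by simp), ?_⟩
    ext x
    rw [Finsupp.smul_apply, Finsupp.mapRange_apply, nsmul_eq_mul]
    exact Int.mul_ediv_cancel' (hdvd x)
  · rintro ⟨z, rfl⟩
    funext x
    rw [castFun_apply, Finsupp.smul_apply, nsmul_eq_mul]
    simp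

theorem castFun_mapDomain (σ : P → P) (hσ : Function.Injective σ) (y : P →₀ ℤ) (x : P) :
    castFun p P (Finsupp.mapDomain σ y) (σ x) = castFun p P y x := by
  rw [castFun_apply, castFun_apply, Finsupp.mapDomain_apply hσ]

end Cast

/-! ### A sum of permutations -/

theorem sum_mapDomain_map {α β : Type*} (f : α → α) (g : β → β) (hf : Function.Bijective f)
    (hg : Function.Bijective g) (y : α ⊕ β →₀ ℤ) :
    Finsupp.sumFinsuppAddEquivProdFinsupp (Finsupp.mapDomain (Sum.map f g) y) =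
      (Finsupp.mapDomain f (Finsupp.sumFinsuppAddEquivProdFinsupp y).1,
        Finsupp.mapDomain g (Finsupp.sumFinsuppAddEquivProdFinsupp y).2) := by
  have hinj : Function.Injective (Sum.map f g) := Sum.map_injective.2 ⟨hf.1, hg.1⟩
  apply Prod.ext
  · ext x
    obtain ⟨a, rfl⟩ := hf.2 x
    rw [Finsupp.fst_sumFinsuppAddEquivProdFinsupp]
    show Finsupp.mapDomain (Sum.map f g) y (Sum.map f g (Sum.inl a)) = _
    rw [Finsupp.mapDomain_apply hinj, Finsupp.mapDomain_apply hf.1,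
      Finsupp.fst_sumFinsuppAddEquivProdFinsupp]
  · ext x
    obtain ⟨a, rfl⟩ := hg.2 x
    rw [Finsupp.snd_sumFinsuppAddEquivProdFinsupp]
    show Finsupp.mapDomain (Sum.map f g) y (Sum.map f g (Sum.inr a)) = _
    rw [Finsupp.mapDomain_apply hinj, Finsupp.mapDomain_apply hg.1,
      Finsupp.snd_sumFinsuppAddEquivProdFinsupp]

/-! ### Concrete incarnation of `U[p]`: `c ↦ ζ ^ c` -/

section Mu

variable {K L : Type*} [Field K] [Field L] [NumberField L] [Algebra K L]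
  {TL : Set (HeightOneSpectrum (𝓞 L))}

theorem additive_ext {x y : Additive (TL.unit L)}
    (hxy : (((x.toMul : TL.unit L) : Lˣ) : L) = (((y.toMul : TL.unit L) : Lˣ) : L)) : x = y :=
  Additive.toMul.injective (unit_ext hxy)

theorem coe_nsmul (m : ℕ) (x : Additive (TL.unit L)) :
    ((((m • x).toMul : TL.unit L) : Lˣ) : L) = ((((x.toMul : TL.unit L) : Lˣ) : L)) ^ m := by
  rw [toMul_nsmul]
  push_cast
  rfl

variable (p : ℕ) [Fact p.Prime] (ζ : L) (hζ : IsPrimitiveRoot ζ p)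

/-- `ζ` as a `TL`-unit. -/
noncomputable def zetaU (TL : Set (HeightOneSpectrum (𝓞 L))) : Additive (TL.unit L) :=
  haveI : NeZero p := ⟨(Fact.out : p.Prime).ne_zero⟩
  jmap TL (Additive.ofMul (hζ.toInteger_isPrimitiveRoot.isUnit (NeZero.ne p)).unit)

theorem coe_zetaU : ((((zetaU p ζ hζ TL).toMul : TL.unit L) : Lˣ) : L) = ζ := rfl

theorem nsmul_zetaU : p • zetaU p ζ hζ TL = 0 := by
  apply additive_ext
  rw [coe_nsmul, coe_zetaU, hζ.pow_eq_one]
  rfl

/-- `c ↦ ζ ^ c`, `F_p → U`. -/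
noncomputable def muHom (TL : Set (HeightOneSpectrum (𝓞 L))) : ZMod p →+ Additive (TL.unit L) :=
  ZMod.lift p ⟨zmultiplesHom _ (zetaU p ζ hζ TL), by
    show (p : ℤ) • zetaU p ζ hζ TL = 0
    rw [natCast_zsmul]
    exact nsmul_zetaU p ζ hζ⟩

theorem coe_muHom (c : ZMod p) :
    ((((muHom p ζ hζ TL c).toMul : TL.unit L) : Lˣ) : L) = ζ ^ c.val := by
  haveI : NeZero p := ⟨(Fact.out : p.Prime).ne_zero⟩
  have hc : c = (((c.val : ℕ) : ℤ) : ZMod p) := by simp
  have h1 : muHom p ζ hζ TL c = c.val • zetaU p ζ hζ TL := by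
    conv_lhs => rw [hc]
    rw [muHom, ZMod.lift_coe]
    show ((c.val : ℕ) : ℤ) • zetaU p ζ hζ TL = _
    rw [natCast_zsmul]
  rw [h1, coe_nsmul, coe_zetaU]

theorem muHom_injective : Function.Injective (muHom p ζ hζ TL) := by
  haveI : NeZero p := ⟨(Fact.out : p.Prime).ne_zero⟩
  rw [injective_iff_map_eq_zero]
  intro c hc
  have h1 : ζ ^ c.val = 1 := by
    rw [← coe_muHom p ζ hζ (TL := TL), hc]
    rfl
  have h2 := (hζ.pow_eq_one_iff_dvd _).1 h1
  have h3 : c.val = 0 := Nat.eq_zero_of_dvd_of_lt h2 (ZMod.val_lt c)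
  exact (ZMod.val_eq_zero c).1 h3

theorem muHom_range (x : Additive (TL.unit L)) : p • x = 0 ↔ ∃ c, muHom p ζ hζ TL c = x := by
  haveI : NeZero p := ⟨(Fact.out : p.Prime).ne_zero⟩
  constructor
  · intro hx
    have h1 : ((((x.toMul : TL.unit L) : Lˣ) : L)) ^ p = 1 := by
      rw [← coe_nsmul, hx]
      rfl
    obtain ⟨i, hi, hi'⟩ := hζ.eq_pow_of_pow_eq_one h1
    refine ⟨(i : ZMod p), ?_⟩
    apply additive_ext
    rw [coe_muHom, ZMod.val_natCast, Nat.mod_eq_of_lt hi, hi']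
  · rintro ⟨c, rfl⟩
    rw [← map_nsmul]
    have h0 : p • c = 0 := by
      rw [nsmul_eq_mul]
      simp
    rw [h0, map_zero]

theorem muHom_equivariant (h : GalStable K L TL) (χ : (L ≃ₐ[K] L) → ZMod p)
    (hχ : ∀ τ : L ≃ₐ[K] L, τ ζ = ζ ^ (χ τ).val) (τ : L ≃ₐ[K] L) (c : ZMod p) :
    muHom p ζ hζ TL (χ τ * c) = Additive.ofMul (galTU h τ (muHom p ζ hζ TL c).toMul) := by
  apply additive_ext
  rw [coe_muHom]
  show _ = τ ((((muHom p ζ hζ TL c).toMul : TL.unit L) : Lˣ) : L)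
  rw [coe_muHom, map_pow, hχ, ← pow_mul, ZMod.val_mul, ← pow_eq_pow_mod _ hζ.pow_eq_one]

end Mu

/-! ### Enough units, `eRank` spelling -/

section Units

variable {K L : Type*} [Field K] [Field L] [NumberField L] [Algebra K L] [FiniteDimensional K L]
  {TL : Set (HeightOneSpectrum (𝓞 L))} [Fintype TL] (h : GalStable K L TL) (p : ℕ) [Fact p.Prime]
  {V_U V_T V_L V_I V_S : Type*} [AddCommGroup V_U] [Module (ZMod p) V_U] [AddCommGroup V_T]
  [Module (ZMod p) V_T] [AddCommGroup V_L] [Module (ZMod p) V_L] [AddCommGroup V_I]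
  [Module (ZMod p) V_I] [AddCommGroup V_S] [Module (ZMod p) V_S]
  (ρ_U : Representation (ZMod p) (L ≃ₐ[K] L) V_U) (ρ_T : Representation (ZMod p) (L ≃ₐ[K] L) V_T)
  (ρ_L : Representation (ZMod p) (L ≃ₐ[K] L) V_L) (ρ_I : Representation (ZMod p) (L ≃ₐ[K] L) V_I)
  (ρ_S : Representation (ZMod p) (L ≃ₐ[K] L) V_S)

/-- **Enough units (EU)**, generic incarnations: for every idempotent matrix `e` over `F_p[Γ]`,
`rk_e (U/p) + rk_e (F_p) = rk_e (U[p]) + rk_e (F_p[∞_L ⊔ TL])`. -/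
theorem eRank_units
    (b_U : Additive (TL.unit L) →+ V_U) (hb_U : Function.Surjective b_U)
    (hk_U : ∀ x : Additive (TL.unit L), b_U x = 0 ↔ ∃ y, p • y = x)
    (he_U : ∀ (τ : L ≃ₐ[K] L) (x : Additive (TL.unit L)),
      b_U (Additive.ofMul (galTU h τ x.toMul)) = ρ_U τ (b_U x))
    (ι : V_T →+ Additive (TL.unit L)) (hι : Function.Injective ι)
    (hιr : ∀ x : Additive (TL.unit L), p • x = 0 ↔ ∃ v, ι v = x)
    (he_T : ∀ (τ : L ≃ₐ[K] L) (v : V_T), ι (ρ_T τ v) = Additive.ofMul (galTU h τ (ι v).toMul))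
    (b_L : ((InfinitePlace L ⊕ TL) →₀ ℤ) →+ V_L) (hb_L : Function.Surjective b_L)
    (hk_L : ∀ y : (InfinitePlace L ⊕ TL) →₀ ℤ, b_L y = 0 ↔ ∃ z, p • z = y)
    (he_L : ∀ (τ : L ≃ₐ[K] L) (y : (InfinitePlace L ⊕ TL) →₀ ℤ),
      b_L (Finsupp.mapDomain (plMap h τ) y) = ρ_L τ (b_L y))
    {n : ℕ} (e : Matrix (Fin n) (Fin n) (MonoidAlgebra (ZMod p) (L ≃ₐ[K] L))) (he : e * e = e) :
    eRank ρ_U e + eRank (Representation.trivial (ZMod p) (L ≃ₐ[K] L) (ZMod p)) e =
      eRank ρ_T e + eRank ρ_L e :=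
  finrank_units h p ρ_U ρ_T ρ_L b_U hb_U hk_U he_U ι hι hιr he_T b_L hb_L hk_L he_L e he

/-- **Enough units (EU)**, with `F_p[∞_L]` and `F_p[TL]` separately:
`rk_e (U/p) + rk_e (F_p) = rk_e (U[p]) + (rk_e (F_p[∞_L]) + rk_e (F_p[TL]))`. -/
theorem eRank_units_split
    (b_U : Additive (TL.unit L) →+ V_U) (hb_U : Function.Surjective b_U)
    (hk_U : ∀ x : Additive (TL.unit L), b_U x = 0 ↔ ∃ y, p • y = x)
    (he_U : ∀ (τ : L ≃ₐ[K] L) (x : Additive (TL.unit L)),
      b_U (Additive.ofMul (galTU h τ x.toMul)) = ρ_U τ (b_U x))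
    (ι : V_T →+ Additive (TL.unit L)) (hι : Function.Injective ι)
    (hιr : ∀ x : Additive (TL.unit L), p • x = 0 ↔ ∃ v, ι v = x)
    (he_T : ∀ (τ : L ≃ₐ[K] L) (v : V_T), ι (ρ_T τ v) = Additive.ofMul (galTU h τ (ι v).toMul))
    (b_I : (InfinitePlace L →₀ ℤ) →+ V_I) (hb_I : Function.Surjective b_I)
    (hk_I : ∀ y : InfinitePlace L →₀ ℤ, b_I y = 0 ↔ ∃ z, p • z = y)
    (he_I : ∀ (τ : L ≃ₐ[K] L) (y : InfinitePlace L →₀ ℤ),
      b_I (Finsupp.mapDomain (fun w : InfinitePlace L => τ • w) y) = ρ_I τ (b_I y))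
    (b_S : (TL →₀ ℤ) →+ V_S) (hb_S : Function.Surjective b_S)
    (hk_S : ∀ y : TL →₀ ℤ, b_S y = 0 ↔ ∃ z, p • z = y)
    (he_S : ∀ (τ : L ≃ₐ[K] L) (y : TL →₀ ℤ),
      b_S (Finsupp.mapDomain (fun v : TL => (⟨galPrime τ v.1, h τ v.1 v.2⟩ : TL)) y) =
        ρ_S τ (b_S y))
    {n : ℕ} (e : Matrix (Fin n) (Fin n) (MonoidAlgebra (ZMod p) (L ≃ₐ[K] L))) (he : e * e = e) :
    eRank ρ_U e + eRank (Representation.trivial (ZMod p) (L ≃ₐ[K] L) (ZMod p)) e =
      eRank ρ_T e + (eRank ρ_I e + eRank ρ_S e) := by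
  classical
  haveI : Finite V_I := finite_of_surjective_finsupp p b_I hb_I hk_I
  haveI : Finite V_S := finite_of_surjective_finsupp p b_S hb_S hk_S
  let σ : ((InfinitePlace L ⊕ TL) →₀ ℤ) ≃+ (InfinitePlace L →₀ ℤ) × (TL →₀ ℤ) :=
    Finsupp.sumFinsuppAddEquivProdFinsupp
  let b_L : ((InfinitePlace L ⊕ TL) →₀ ℤ) →+ V_I × V_S :=
    (b_I.prodMap b_S).comp σ.toAddMonoidHom
  have hb_L : Function.Surjective b_L :=
    (Prod.map_surjective.2 ⟨hb_I, hb_S⟩).comp σ.surjective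
  have hk_L : ∀ y : (InfinitePlace L ⊕ TL) →₀ ℤ, b_L y = 0 ↔ ∃ z, p • z = y := by
    intro y
    show (b_I (σ y).1, b_S (σ y).2) = 0 ↔ _
    rw [Prod.mk_eq_zero, hk_I, hk_S]
    constructor
    · rintro ⟨⟨z₁, hz₁⟩, z₂, hz₂⟩
      refine ⟨σ.symm (z₁, z₂), ?_⟩
      apply σ.injective
      rw [map_nsmul, σ.apply_symm_apply]
      exact Prod.ext hz₁ hz₂
    · rintro ⟨z, rfl⟩
      exact ⟨⟨(σ z).1, by rw [map_nsmul]; rfl⟩, (σ z).2, by rw [map_nsmul]; rfl⟩
  have he_L : ∀ (τ : L ≃ₐ[K] L) (y : (InfinitePlace L ⊕ TL) →₀ ℤ),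
      b_L (Finsupp.mapDomain (plMap h τ) y) = (ρ_I.prod ρ_S) τ (b_L y) := by
    intro τ y
    letI := primeAct h
    have h1 : σ (Finsupp.mapDomain (plMap h τ) y) = _ :=
      sum_mapDomain_map (fun w : InfinitePlace L => τ • w)
        (fun v : TL => (⟨galPrime τ v.1, h τ v.1 v.2⟩ : TL))
        (MulAction.bijective τ) (MulAction.bijective τ) y
    show (b_I (σ (Finsupp.mapDomain (plMap h τ) y)).1,
      b_S (σ (Finsupp.mapDomain (plMap h τ) y)).2) = (ρ_I τ (b_I (σ y).1), ρ_S τ (b_S (σ y).2))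
    rw [h1, he_I, he_S]
  have key := eRank_units h p ρ_U ρ_T (ρ_I.prod ρ_S) b_U hb_U hk_U he_U ι hι hιr he_T
    b_L hb_L hk_L he_L e he
  rw [eRank_prod] at key
  exact key

/-- **Enough units (EU), concrete exit**: `U[p] = F_p` with `τ` acting through the exponent `χ τ`
of `τ ζ = ζ ^ χ τ`; `F_p[∞_L]` and `F_p[TL]` are the function spaces with
`(τ f)(w) = f (τ⁻¹ w)`; `U/p` is any incarnation `b_U`. -/
theorem eRank_units_fun
    (b_U : Additive (TL.unit L) →+ V_U) (hb_U : Function.Surjective b_U)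
    (hk_U : ∀ x : Additive (TL.unit L), b_U x = 0 ↔ ∃ y, p • y = x)
    (he_U : ∀ (τ : L ≃ₐ[K] L) (x : Additive (TL.unit L)),
      b_U (Additive.ofMul (galTU h τ x.toMul)) = ρ_U τ (b_U x))
    (ζ : L) (hζ : IsPrimitiveRoot ζ p) (χ : (L ≃ₐ[K] L) → ZMod p)
    (hχ : ∀ τ : L ≃ₐ[K] L, τ ζ = ζ ^ (χ τ).val)
    (ρ_mu : Representation (ZMod p) (L ≃ₐ[K] L) (ZMod p))
    (hρ_mu : ∀ (τ : L ≃ₐ[K] L) (c : ZMod p), ρ_mu τ c = χ τ * c)
    (ρ_inf : Representation (ZMod p) (L ≃ₐ[K] L) (InfinitePlace L → ZMod p))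
    (hρ_inf : ∀ (τ : L ≃ₐ[K] L) (f : InfinitePlace L → ZMod p) (w : InfinitePlace L),
      ρ_inf τ f w = f (τ⁻¹ • w))
    (ρ_pl : Representation (ZMod p) (L ≃ₐ[K] L) (TL → ZMod p))
    (hρ_pl : ∀ (τ : L ≃ₐ[K] L) (f : TL → ZMod p) (v : TL),
      ρ_pl τ f v = f ⟨galPrime τ⁻¹ v.1, h τ⁻¹ v.1 v.2⟩)
    {n : ℕ} (e : Matrix (Fin n) (Fin n) (MonoidAlgebra (ZMod p) (L ≃ₐ[K] L))) (he : e * e = e) :
    eRank ρ_U e + eRank (Representation.trivial (ZMod p) (L ≃ₐ[K] L) (ZMod p)) e =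
      eRank ρ_mu e + (eRank ρ_inf e + eRank ρ_pl e) := by
  letI := primeAct h
  refine eRank_units_split h p ρ_U ρ_mu ρ_inf ρ_pl b_U hb_U hk_U he_U
    (muHom p ζ hζ TL) (muHom_injective p ζ hζ) (muHom_range p ζ hζ)
    (fun τ c => by rw [hρ_mu]; exact muHom_equivariant p ζ hζ h χ hχ τ c)
    (castFun p _) (castFun_surjective p _) (castFun_eq_zero_iff p _)
    (fun τ y => ?_)
    (castFun p _) (castFun_surjective p _) (castFun_eq_zero_iff p _)
    (fun τ y => ?_) e he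
  · funext w
    rw [hρ_inf]
    have h1 := castFun_mapDomain p _ (fun w : InfinitePlace L => τ • w) (MulAction.injective τ) y
      (τ⁻¹ • w)
    have h2 : τ • τ⁻¹ • w = w := smul_inv_smul τ w
    simp only [h2] at h1
    exact h1
  · funext v
    rw [hρ_pl]
    have h1 := castFun_mapDomain p _ (fun v : TL => (⟨galPrime τ v.1, h τ v.1 v.2⟩ : TL))
      (MulAction.injective τ) y ⟨galPrime τ⁻¹ v.1, h τ⁻¹ v.1 v.2⟩
    have h2 : (⟨galPrime τ (galPrime τ⁻¹ v.1), h τ _ (h τ⁻¹ v.1 v.2)⟩ : TL) = v := by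
      apply Subtype.ext
      show galPrime τ (galPrime τ⁻¹ v.1) = v.1
      rw [← galPrime_mul, mul_inv_cancel, galPrime_one]
    simp only [h2] at h1
    exact h1

end Units

end Fermat.Agent.S56.EC.UnitRankE
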