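/-
S56, brick EC.2 (helper287): the seam `Seams.SeamUnits` of the EC.6a contract (helper39).

* `ModP A p`, `mkP`, `repP` : the quotient `A / pA` of an abelian group with an action by
  endomorphisms, as an `F_p`-representation;
* `finite_modP_units` : `U_TL / p` is finite (Dirichlet);
* `chiK_spec` : `τ ζ = ζ ^ ω(τ)` for the character `Twist.chiK`;
* `seamUnits : Seams.SeamUnits K S hcyc` : with `V_U := ModP (Additive ((TS K S).unit ↥K)) p`,
  for every idempotent `ε` over `F_p[Γ]`,
  `rk_ε(U_S/p) + rk_ε(F_p) = rk_ε(μ_p) + rk_ε(F_p[∞_K]) + rk_ε(F_p[S_K])`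
  (`= UnitRankE.eRank_units_fun` at `L := ↥K` over `ℚ`, `TL := TS K S`).
-/
import Fermat.Agent.S56.EC.Seams
import Fermat.Agent.S56.EC.UnitRankE

set_option autoImplicit false

open scoped NumberField
open IsDedekindDomain ExtCitation

namespace Fermat.Agent.S56.EC.UnitSeam

open NumberField
  Fermat.Agent.S55.Glue
  Fermat.Agent.CFT.Global.CountAbs Fermat.Agent.CFT.Global.TUnitsHerbrand
  Fermat.Agent.CFT.Global.GalPrime Fermat.Agent.CFT.Global.CountV
  Fermat.Agent.S56.EC.RankAdapt Fermat.Agent.S56.EC.Twist Fermat.Agent.S56.EC.PlacesDictS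
  Fermat.Agent.S56.EC.Seams
  Fermat.Agent.S56.EC.UnitBridge Fermat.Agent.S56.EC.UnitRank Fermat.Agent.S56.EC.UnitRankE
  Fermat.Agent.S56.EC.IdemRank

set_option linter.unusedSectionVars false
set_option linter.style.haveILetI false

local notation "Qb" => AlgebraicClosure ℚ

/-! ### `A / pA` as an `F_p`-representation -/

section ModP

variable (A : Type*) [AddCommGroup A] (p : ℕ)

/-- `A / pA`. -/
def ModP : Type _ := A ⧸ (nsmulAddMonoidHom p : A →+ A).range

instance : AddCommGroup (ModP A p) :=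
  inferInstanceAs (AddCommGroup (A ⧸ (nsmulAddMonoidHom p : A →+ A).range))

/-- The projection `A → A / pA`. -/
def mkP : A →+ ModP A p := QuotientAddGroup.mk' (nsmulAddMonoidHom p : A →+ A).range

theorem mkP_surjective : Function.Surjective (mkP A p) :=
  QuotientAddGroup.mk'_surjective _

theorem mkP_eq_zero_iff (x : A) : mkP A p x = 0 ↔ ∃ y : A, p • y = x := by
  have h1 : mkP A p x = 0 ↔ x ∈ (nsmulAddMonoidHom p : A →+ A).range :=
    QuotientAddGroup.eq_zero_iff x
  rw [h1]
  rfl

theorem nsmul_modP (x : ModP A p) : p • x = 0 := by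
  obtain ⟨a, rfl⟩ := mkP_surjective A p x
  rw [← map_nsmul, mkP_eq_zero_iff]
  exact ⟨a, rfl⟩

instance : Module (ZMod p) (ModP A p) := AddCommGroup.zmodModule (nsmul_modP A p)

/-- The endomorphism of `A / pA` induced by an endomorphism of `A`. -/
def mapP (f : A →+ A) : ModP A p →+ ModP A p :=
  QuotientAddGroup.map _ _ f (by
    rintro _ ⟨y, rfl⟩
    exact ⟨f y, (map_nsmul f p y).symm⟩)

theorem mapP_mk (f : A →+ A) (x : A) : mapP A p f (mkP A p x) = mkP A p (f x) := rfl

variable {Γ : Type*} [Group Γ] (α : Γ →* AddMonoid.End A)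

/-- The representation of `Γ` on `A / pA` induced by an action on `A`. -/
noncomputable def repP : Representation (ZMod p) Γ (ModP A p) where
  toFun g := (mapP A p (α g)).toZModLinearMap p
  map_one' := by
    apply LinearMap.ext
    intro x
    obtain ⟨a, rfl⟩ := mkP_surjective A p x
    show mapP A p (α 1) (mkP A p a) = mkP A p a
    rw [mapP_mk, map_one]
    rfl
  map_mul' g g' := by
    apply LinearMap.ext
    intro x
    obtain ⟨a, rfl⟩ := mkP_surjective A p x
    show mapP A p (α (g * g')) (mkP A p a) = mapP A p (α g) (mapP A p (α g') (mkP A p a))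
    rw [mapP_mk, mapP_mk, mapP_mk, map_mul]
    rfl

theorem repP_mk (g : Γ) (x : A) : repP A p α g (mkP A p x) = mkP A p (α g x) := rfl

end ModP

/-! ### The units modulo `p` -/

section UnitsModP

variable {K L : Type*} [Field K] [Field L] [NumberField L] [Algebra K L]
  {TL : Set (HeightOneSpectrum (𝓞 L))}

/-- The action of `Γ` on the `TL`-units, as a monoid homomorphism. -/
noncomputable def galEnd (h : GalStable K L TL) :
    (L ≃ₐ[K] L) →* AddMonoid.End (Additive (TL.unit L)) :=
  letI := tAct h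
  DistribMulAction.toAddMonoidEnd (L ≃ₐ[K] L) (Additive (TL.unit L))

theorem galEnd_apply (h : GalStable K L TL) (τ : L ≃ₐ[K] L) (x : Additive (TL.unit L)) :
    galEnd h τ x = Additive.ofMul (galTU h τ x.toMul) := rfl

/-- Over the base `L` itself, the Galois action is trivial. -/
theorem galTU_self (h0 : GalStable L L TL) (τ : L ≃ₐ[L] L) (x : TL.unit L) :
    galTU h0 τ x = x :=
  unit_ext (by
    rw [coe_galTU]
    exact τ.commutes _)

/-- `U_TL / p` is finite. -/
theorem finite_modP_units [Fintype TL] (p : ℕ) [Fact p.Prime] (ζ : L) (hζ : IsPrimitiveRoot ζ p) :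
    Finite (ModP (Additive (TL.unit L)) p) := by
  have hone : ∀ τ : L ≃ₐ[L] L, τ = 1 := fun τ => AlgEquiv.ext (fun x => τ.commutes x)
  have h0 : GalStable L L TL := by
    intro τ w hw
    rw [hone τ, galPrime_one]
    exact hw
  have hpl : ∀ τ : L ≃ₐ[L] L, plMap h0 τ = id := by
    intro τ
    funext x
    rw [hone τ]
    rcases x with w | v
    · show Sum.inl ((1 : L ≃ₐ[L] L) • w) = Sum.inl w
      rw [one_smul]
    · exact congrArg Sum.inr (Subtype.ext (galPrime_one v.1))
  exact finite_VU h0 p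
    (Representation.trivial (ZMod p) (L ≃ₐ[L] L) (ModP (Additive (TL.unit L)) p))
    (Representation.trivial (ZMod p) (L ≃ₐ[L] L) (ZMod p))
    (Representation.trivial (ZMod p) (L ≃ₐ[L] L) ((InfinitePlace L ⊕ TL) → ZMod p))
    (mkP _ p) (mkP_surjective _ p) (mkP_eq_zero_iff _ p)
    (fun τ x => by
      rw [galTU_self h0 τ]
      rfl)
    (muHom p ζ hζ TL) (muHom_injective p ζ hζ) (muHom_range p ζ hζ)
    (fun τ v => by
      rw [galTU_self h0 τ]
      rfl)
    (castFun p _) (castFun_surjective p _) (castFun_eq_zero_iff p _)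
    (fun τ y => by
      rw [hpl τ, Finsupp.mapDomain_id]
      rfl)

end UnitsModP

/-! ### The cyclotomic character of `Γ` on a primitive root -/

section Chi

variable {p : ℕ} [Fact p.Prime] (K : IntermediateField ℚ Qb)

theorem chiK_spec (hcyc : cycloField p ≤ K) (ζ : ↥K) (hζ : IsPrimitiveRoot ζ p)
    (τ : ↥K ≃ₐ[ℚ] ↥K) :
    τ ζ = ζ ^ (((chiK K hcyc τ : (ZMod p)ˣ) : ZMod p)).val := by
  haveI : NeZero p := ⟨(Fact.out : p.Prime).ne_zero⟩
  have hz : IsPrimitiveRoot ((ζ : ↥K) : Qb) p := hζ.map_of_injective K.val.injective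
  let t : Qbˣ := (hz.isUnit (NeZero.ne p)).unit
  have ht : t ∈ rootsOfUnity p Qb := by
    rw [mem_rootsOfUnity]
    apply Units.ext
    rw [Units.val_pow_eq_pow_val, Units.val_one]
    exact hz.pow_eq_one
  have h1 := modularCyclotomicCharacter.spec Qb (card_rootsOfUnity_eq_self p)
    ((gLift K τ : Qb ≃ₐ[ℚ] Qb) : Qb ≃+* Qb) ht
  apply Subtype.ext
  have h2 : ((τ ζ : ↥K) : Qb) = gLift K τ ((ζ : ↥K) : Qb) := (gLift_apply K τ ζ).symm
  rw [h2]
  have h3 : (((ζ ^ (((chiK K hcyc τ : (ZMod p)ˣ) : ZMod p)).val : ↥K) : ↥K) : Qb) =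
      ((ζ : ↥K) : Qb) ^ (((chiK K hcyc τ : (ZMod p)ˣ) : ZMod p)).val := rfl
  rw [h3]
  exact h1

end Chi

/-! ### The seam -/

section Seam

variable {p : ℕ} [Fact p.Prime] (K : IntermediateField ℚ Qb) [NumberField K]
  (S : Finset Nat.Primes)

/-- **Seam (EU), enough units**: `Seams.SeamUnits` holds, with `V_U := U_S / p U_S`. -/
theorem seamUnits (hcyc : cycloField p ≤ K) : SeamUnits (p := p) K S hcyc := by
  obtain ⟨ζ, hζ⟩ := exists_primitiveRoot_of_cycloField_le (p := p) K hcyc
  haveI : Fintype ↥(TS K S) := (finite_SKset S K).fintype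
  haveI : Finite (ModP (Additive ((TS K S).unit ↥K)) p) := finite_modP_units p ζ hζ
  refine ⟨ModP (Additive ((TS K S).unit ↥K)) p, inferInstance, inferInstance,
    Module.Finite.of_finite, repP _ p (galEnd (galStable_TS K S)), mkP _ p,
    mkP_surjective _ p, mkP_eq_zero_iff _ p, fun τ x => rfl, ?_⟩
  intro n ε hε
  have key := eRank_units_fun (galStable_TS K S) p
    (repP (Additive ((TS K S).unit ↥K)) p (galEnd (galStable_TS K S)))
    (mkP _ p) (mkP_surjective _ p) (mkP_eq_zero_iff _ p) (fun τ x => rfl)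
    ζ hζ (fun τ => ((chiK K hcyc τ : (ZMod p)ˣ) : ZMod p)) (chiK_spec K hcyc ζ hζ)
    (chiRep K hcyc) (fun τ c => rfl) (infRep K) (fun τ f w => rfl)
    (finRep K S) (fun τ f v => rfl) ε hε
  rw [add_assoc]
  exact key

end Seam

end Fermat.Agent.S56.EC.UnitSeam
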