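/-
S56 / brick EC (helper39, EC architect): THE EXIT OF BRICK EC FROM THE ONE SEAM `SeamKum`.

`SeamArch` (`EC/ArchTwin`, helper212), `SeamLoc` (`EC/SeamLoc`, helper276) and `SeamUnits`
(`EC/UnitSeam`, helper287; also `EC/UnitsOfKum`) are theorems; `EPSigma` and `ECExit` follow from
the Kummer seam `SeamKum`, asked where `EPSigma` is used: `p` odd, `p ∈ S`, `K` a number field
unramified outside `S` containing `μ_p`, `Cl_K = Cl_K^p ⟨S_K⟩`.
-/
import Fermat.Agent.S56.EC.ExitOfSeams
import Fermat.Agent.S56.EC.SeamLoc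
import Fermat.Agent.S56.EC.ArchTwin
import Fermat.Agent.S56.EC.UnitSeam

set_option autoImplicit false

open scoped NumberField
open CategoryTheory ExtCitation IsDedekindDomain

namespace Fermat.Agent.S56.EC.ExitOfKum

open Fermat.Agent.S55 Fermat.Agent.S55.Abs Fermat.Agent.S55.Count Fermat.Agent.S55.Glue
  Fermat.Agent.CFT.Global.CountV Fermat.Agent.CFT.Global.SelmerCount
  Fermat.Agent.S56.EC.Seams Fermat.Agent.S56.EC.ExitOfSeams

local notation "Qb" => AlgebraicClosure ℚ

/-- The Kummer seam `SeamKum`, at every place where `EPSigma` consumes it. -/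
def KumSeam : Prop :=
  ∀ (p : ℕ) [Fact p.Prime], p ≠ 2 → ∀ (S : Finset Nat.Primes), pPrime p ∈ S →
    ∀ (K : IntermediateField ℚ Qb) [NumberField K], K.IsUnramifiedOutside S →
    cycloField p ≤ K → (clS (𝓞 K) p (SK S K)).index = 1 → SeamKum (p := p) K S

/-- The other three seams are theorems. -/
theorem allSeams_of_kum (h : KumSeam) : AllSeams := by
  intro p _ hp2 S hpS K _ hK hcyc h1
  exact ⟨h p hp2 S hpS K hK hcyc h1, ArchTwin.seamArch_of_cyclo K hcyc, SeamLoc.seamLoc K S hcyc,
    UnitSeam.seamUnits K S hcyc⟩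

/-- **`EPSigma` from the Kummer seam.** -/
theorem epSigma_of_kum (h : KumSeam) : EPSigma := epSigma_of_allSeams (allSeams_of_kum h)

/-- **The exit of brick EC from the Kummer seam.** -/
theorem ecExit_of_kum (h : KumSeam) : ECExit := ecExit_of_allSeams (allSeams_of_kum h)

end Fermat.Agent.S56.EC.ExitOfKum
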