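import Mathlib
import Fermat.Agent.CFT.Global.CountV
import Fermat.Agent.S55.Glue.LevelGalois

/-!
# S56 / EC.3 (b2): Galois equivariance of the Kummer character of `CountV`

`Qb = AlgebraicClosure ℚ`, `Gq = Gal(Qb/ℚ)`, `K ≤ Qb` an intermediate field containing a primitive
`p`-th root of unity `ζ`, `G_K = K.fixingSubgroup`.  For `g : Gq` with `g K ⊆ K`
(`hg : ∀ x ∈ K, g x ∈ K`):

* `chi K ζ hζ g : ZMod p`     : the exponent with `g ζ = ζ ^ (chi g).val` (no hypothesis on `g`);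
  `chi_spec`, `chi_eq_of_apply` (uniqueness), `chi_one`, `chi_mul`, `chi_ne_zero`,
  `chi_eq_one_of_mem` (`g ∈ G_K`);
* `mapUnit K g hg : Kˣ →* Kˣ` : `a ↦ g a`;
* `conjFix K g hg : G_K →* G_K` : `σ ↦ g⁻¹ σ g`;
* `kum_mapUnit` : **`kum (g a) σ = chi g * kum a (g⁻¹ σ g)`**;
* `kum_mapUnit_fun`, `kum_conjFix`, `mapUnit_mem_range_pow` : function forms;
* `comp_conjFix_mem_VS`, `conjVS` : `c ↦ c ∘ (σ ↦ g⁻¹ σ g)` preserves the level-`S` characters
  `VS p S K` (a linear endomorphism); `kum_mapUnit_mem_VS`, `kum_mapUnit_eq_smul_conjVS`.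
-/

set_option autoImplicit false

namespace Fermat.Agent.S56.EC.KumEquiv

local notation "Qb" => AlgebraicClosure ℚ
local notation "Gq" => (AlgebraicClosure ℚ ≃ₐ[ℚ] AlgebraicClosure ℚ)

open Fermat.Agent.CFT.Kummer Fermat.Agent.CFT.Global.CountV

variable {p : ℕ} [Fact p.Prime] (K : IntermediateField ℚ Qb)

/-! ### The mod `p` cyclotomic exponent of `g` with respect to `ζ` -/

section Chi

variable (ζ : K) (hζ : IsPrimitiveRoot ζ p)

include hζ in
theorem exists_chi (g : Gq) : ∃ k : ZMod p, g (ζ : Qb) = (ζ : Qb) ^ k.val := by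
  have hp : p.Prime := Fact.out
  have : NeZero p := ⟨hp.ne_zero⟩
  have hz := isPrimitiveRoot_coe K ζ hζ
  have h1 : (g (ζ : Qb)) ^ p = 1 := by
    rw [← map_pow, hz.pow_eq_one, map_one]
  obtain ⟨i, hi, hi'⟩ := hz.eq_pow_of_pow_eq_one h1
  refine ⟨(i : ZMod p), ?_⟩
  rw [ZMod.val_natCast, Nat.mod_eq_of_lt hi, hi']

/-- The exponent `χ(g) ∈ 𝔽_p` with `g ζ = ζ ^ χ(g)` (the mod `p` cyclotomic character, read on the
primitive root `ζ`). -/
noncomputable def chi (g : Gq) : ZMod p := Classical.choose (exists_chi K ζ hζ g)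

theorem chi_spec (g : Gq) : g (ζ : Qb) = (ζ : Qb) ^ (chi K ζ hζ g).val :=
  Classical.choose_spec (exists_chi K ζ hζ g)

/-- `chi` is determined by its defining property. -/
theorem chi_eq_of_apply (g : Gq) (n : ℕ) (h : g (ζ : Qb) = (ζ : Qb) ^ n) :
    chi K ζ hζ g = (n : ZMod p) := by
  have hp : p.Prime := Fact.out
  have : NeZero p := ⟨hp.ne_zero⟩
  have hz := isPrimitiveRoot_coe K ζ hζ
  have h1 := chi_spec K ζ hζ g
  rw [h] at h1
  exact (natCast_eq_of_pow_eq_pow_val hz n _ h1).symm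

theorem chi_one : chi K ζ hζ 1 = 1 := by
  have h := chi_eq_of_apply K ζ hζ 1 1 (by simp)
  simpa using h

theorem chi_mul (g h : Gq) : chi K ζ hζ (g * h) = chi K ζ hζ g * chi K ζ hζ h := by
  have hp : p.Prime := Fact.out
  have : NeZero p := ⟨hp.ne_zero⟩
  have h1 := chi_eq_of_apply K ζ hζ (g * h) ((chi K ζ hζ h).val * (chi K ζ hζ g).val) (by
    rw [AlgEquiv.mul_apply, chi_spec K ζ hζ h, map_pow, chi_spec K ζ hζ g, ← pow_mul, mul_comm])
  rw [h1]
  push_cast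
  rw [ZMod.natCast_zmod_val, ZMod.natCast_zmod_val, mul_comm]

theorem chi_ne_zero (g : Gq) : chi K ζ hζ g ≠ 0 := by
  intro h0
  have h1 := chi_mul K ζ hζ g g⁻¹
  rw [mul_inv_cancel, chi_one, h0, zero_mul] at h1
  exact one_ne_zero h1

theorem chi_inv (g : Gq) : chi K ζ hζ g⁻¹ = (chi K ζ hζ g)⁻¹ := by
  have h1 := chi_mul K ζ hζ g g⁻¹
  rw [mul_inv_cancel, chi_one] at h1
  exact eq_inv_of_mul_eq_one_right h1.symm

/-- `chi` is trivial on `G_K`. -/
theorem chi_eq_one_of_mem (g : Gq) (hg : g ∈ K.fixingSubgroup) : chi K ζ hζ g = 1 := by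
  have h := chi_eq_of_apply K ζ hζ g 1 (by
    rw [pow_one]
    exact (IntermediateField.mem_fixingSubgroup_iff K g).mp hg ζ ζ.2)
  simpa using h

/-- `chi` as a homomorphism `Gq →* 𝔽_pˣ`. -/
noncomputable def chiHom : Gq →* (ZMod p)ˣ where
  toFun g := Units.mk0 (chi K ζ hζ g) (chi_ne_zero K ζ hζ g)
  map_one' := Units.ext (by simp [chi_one])
  map_mul' g h := Units.ext (by simp [chi_mul])

@[simp] theorem coe_chiHom (g : Gq) : ((chiHom K ζ hζ g : (ZMod p)ˣ) : ZMod p) = chi K ζ hζ g :=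
  rfl

end Chi

/-! ### The action of `g` on `Kˣ` and on `G_K` -/

section Act

variable (g : Gq) (hg : ∀ x ∈ K, g x ∈ K)

/-- `a ↦ g a` on `Kˣ`, for `g` with `g K ⊆ K`. -/
noncomputable def mapUnit : Kˣ →* Kˣ where
  toFun a := Units.mk0 ⟨g ((a : K) : Qb), hg _ (a : K).2⟩ (by
    intro h0
    have h1 : g ((a : K) : Qb) = 0 := congrArg Subtype.val h0
    rw [map_eq_zero] at h1
    exact a.ne_zero (Subtype.ext h1))
  map_one' := by
    apply Units.ext
    apply Subtype.ext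
    simp
  map_mul' a b := by
    apply Units.ext
    apply Subtype.ext
    simp

@[simp] theorem coe_mapUnit (a : Kˣ) :
    (((mapUnit K g hg a : Kˣ) : K) : Qb) = g ((a : K) : Qb) := rfl

/-- `σ ↦ g⁻¹ σ g` on `G_K`, for `g` with `g K ⊆ K`. -/
noncomputable def conjFix : ↥K.fixingSubgroup →* ↥K.fixingSubgroup where
  toFun σ := ⟨g⁻¹ * (σ : Gq) * g, by
    rw [IntermediateField.mem_fixingSubgroup_iff]
    intro x hx
    have h1 : (σ : Gq) (g x) = g x :=
      (IntermediateField.mem_fixingSubgroup_iff K (σ : Gq)).mp σ.2 _ (hg x hx)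
    rw [AlgEquiv.mul_apply, AlgEquiv.mul_apply, h1]
    exact AlgEquiv.symm_apply_apply g x⟩
  map_one' := Subtype.ext (by simp)
  map_mul' σ τ := Subtype.ext (by simp [mul_assoc])

@[simp] theorem coe_conjFix (σ : ↥K.fixingSubgroup) :
    ((conjFix K g hg σ : ↥K.fixingSubgroup) : Gq) = g⁻¹ * (σ : Gq) * g := rfl

end Act

/-! ### Equivariance of the Kummer character -/

section Equivariance

variable (ζ : K) (hζ : IsPrimitiveRoot ζ p) (g : Gq) (hg : ∀ x ∈ K, g x ∈ K)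

/-- **Kummer equivariance**: `kum (g a) σ = χ(g) * kum a (g⁻¹ σ g)`. -/
theorem kum_mapUnit (a : Kˣ) (σ : ↥K.fixingSubgroup) :
    kum K ζ hζ (mapUnit K g hg a) σ =
      chi K ζ hζ g * kum K ζ hζ a (conjFix K g hg σ) := by
  have hp : p.Prime := Fact.out
  have : NeZero p := ⟨hp.ne_zero⟩
  have hθ : (g (root p K a)) ^ p = (((mapUnit K g hg a : Kˣ) : K) : Qb) := by
    rw [← map_pow, root_pow, coe_mapUnit]
  have hconj : ((conjFix K g hg σ : ↥K.fixingSubgroup) : Gq) (root p K a) =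
      (ζ : Qb) ^ (kum K ζ hζ a (conjFix K g hg σ)).val * root p K a :=
    kum_root K ζ hζ a (conjFix K g hg σ)
  have h1 : (σ : Gq) (g (root p K a)) =
      (ζ : Qb) ^ ((chi K ζ hζ g).val * (kum K ζ hζ a (conjFix K g hg σ)).val) *
        g (root p K a) := by
    have h2 : (σ : Gq) (g (root p K a)) =
        g (((conjFix K g hg σ : ↥K.fixingSubgroup) : Gq) (root p K a)) := by
      rw [coe_conjFix, AlgEquiv.mul_apply, AlgEquiv.mul_apply]
      exact (AlgEquiv.apply_symm_apply g _).symm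
    rw [h2, hconj, map_mul, map_pow, chi_spec K ζ hζ g, ← pow_mul]
  have h3 := kum_eq_of_apply K ζ hζ (mapUnit K g hg a) _ hθ σ _ h1
  rw [h3]
  push_cast
  rw [ZMod.natCast_zmod_val, ZMod.natCast_zmod_val]

/-- Function form: `kum (g a) = χ(g) • (kum a ∘ (σ ↦ g⁻¹ σ g))`. -/
theorem kum_mapUnit_fun (a : Kˣ) :
    kum K ζ hζ (mapUnit K g hg a) =
      chi K ζ hζ g • (kum K ζ hζ a ∘ conjFix K g hg) := by
  funext σ
  rw [kum_mapUnit K ζ hζ g hg a σ]
  rfl

/-- Solved for the conjugated character: `kum a (g⁻¹ σ g) = χ(g)⁻¹ * kum (g a) σ`. -/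
theorem kum_conjFix (a : Kˣ) (σ : ↥K.fixingSubgroup) :
    kum K ζ hζ a (conjFix K g hg σ) =
      (chi K ζ hζ g)⁻¹ * kum K ζ hζ (mapUnit K g hg a) σ := by
  rw [kum_mapUnit K ζ hζ g hg a σ, ← mul_assoc, inv_mul_cancel₀ (chi_ne_zero K ζ hζ g), one_mul]

omit [Fact p.Prime] in
/-- `a ↦ g a` preserves the `p`-th powers of `Kˣ`. -/
theorem mapUnit_mem_range_pow (a : Kˣ) (ha : a ∈ (powMonoidHom p : Kˣ →* Kˣ).range) :
    mapUnit K g hg a ∈ (powMonoidHom p : Kˣ →* Kˣ).range := by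
  obtain ⟨b, rfl⟩ := ha
  exact ⟨mapUnit K g hg b, by rw [powMonoidHom_apply, powMonoidHom_apply, map_pow]⟩

end Equivariance

/-! ### Conjugation on the level-`S` characters -/

section Level

variable (g : Gq) (hg : ∀ x ∈ K, g x ∈ K) {S : Finset Nat.Primes}

/-- `c ↦ c ∘ (σ ↦ g⁻¹ σ g)` preserves the level-`S` characters of `G_K`. -/
theorem comp_conjFix_mem_VS (c : ↥K.fixingSubgroup → ZMod p) (hc : c ∈ VS p S K) :
    c ∘ conjFix K g hg ∈ VS p S K := by
  obtain ⟨hadd, F, hF, hcF⟩ := hc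
  refine ⟨fun σ τ => ?_, F.map (g : Qb →ₐ[ℚ] Qb),
    Fermat.Agent.S55.Glue.isUnramifiedOutside_map hF g, fun h s hs => ?_⟩
  · simp only [Function.comp_apply, map_mul, hadd]
  · simp only [Function.comp_apply, map_mul]
    refine hcF _ _ ?_
    rw [IntermediateField.mem_fixingSubgroup_iff]
    intro x hx
    have h1 : (s : Gq) (g x) = g x :=
      (IntermediateField.mem_fixingSubgroup_iff _ (s : Gq)).mp hs _
        ((IntermediateField.mem_map _).2 ⟨x, hx, rfl⟩)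
    rw [coe_conjFix, AlgEquiv.mul_apply, AlgEquiv.mul_apply, h1]
    exact AlgEquiv.symm_apply_apply g x

/-- Conjugation by `g` as a linear endomorphism of the level-`S` characters. -/
noncomputable def conjVS : VS p S K →ₗ[ZMod p] VS p S K where
  toFun c := ⟨(c : ↥K.fixingSubgroup → ZMod p) ∘ conjFix K g hg,
    comp_conjFix_mem_VS K g hg _ c.2⟩
  map_add' _ _ := Subtype.ext rfl
  map_smul' _ _ := Subtype.ext rfl

@[simp] theorem conjVS_apply (c : VS p S K) (σ : ↥K.fixingSubgroup) :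
    (conjVS K g hg c : ↥K.fixingSubgroup → ZMod p) σ =
      (c : ↥K.fixingSubgroup → ZMod p) (conjFix K g hg σ) := rfl

variable (ζ : K) (hζ : IsPrimitiveRoot ζ p)

/-- The Kummer character of `g a` is of level `S` when that of `a` is. -/
theorem kum_mapUnit_mem_VS (a : Kˣ) (h : kum K ζ hζ a ∈ VS p S K) :
    kum K ζ hζ (mapUnit K g hg a) ∈ VS p S K := by
  rw [kum_mapUnit_fun K ζ hζ g hg a]
  exact (VS p S K).smul_mem _ (comp_conjFix_mem_VS K g hg _ h)

/-- Equivariance inside `VS`: `kum (g a) = χ(g) • conj_g (kum a)`. -/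
theorem kum_mapUnit_eq_smul_conjVS (a : Kˣ) (h : kum K ζ hζ a ∈ VS p S K) :
    (⟨kum K ζ hζ (mapUnit K g hg a), kum_mapUnit_mem_VS K g hg ζ hζ a h⟩ : VS p S K) =
      chi K ζ hζ g • conjVS K g hg ⟨kum K ζ hζ a, h⟩ :=
  Subtype.ext (kum_mapUnit_fun K ζ hζ g hg a)

end Level

end Fermat.Agent.S56.EC.KumEquiv
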