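/-
S56, brick EC.2 (helper287), the inequality form of "enough units" for the EC.6a seam:
for ANY finite `F_p[Γ]`-module `H` with an equivariant additive map `κ : U → H` whose kernel is
`p U` (the Kummer map into `H¹`), and every idempotent matrix `e` over `F_p[Γ]`,

    `rk_e (μ_p) + rk_e (F_p[∞_L]) + rk_e (F_p[TL]) ≤ rk_e (H) + rk_e (F_p)`.

No incarnation of `U / p` has to be built by the consumer: the file uses the image of `κ`.
Also: `eRank` is monotone along injective / surjective equivariant linear maps.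
-/
import Mathlib
import Fermat.Agent.S56.EC.UnitRankE

set_option autoImplicit false

namespace Fermat.Agent.S56.EC.UnitRankLe

open NumberField IsDedekindDomain
  Fermat.Agent.CFT.Global.GalPrime
  Fermat.Agent.CFT.Global.TUnitsHerbrand
  Fermat.Agent.S56.EC.UnitRankE Fermat.Agent.S56.EC.IdemRank

set_option linter.unusedSectionVars false
set_option linter.style.haveILetI false

/-! ### Monotonicity of the `e`-rank -/

section Generic

variable {k Γ : Type*} [Field k] [Group Γ] {V W : Type*} [AddCommGroup V] [Module k V]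
  [AddCommGroup W] [Module k W] {n : ℕ}

/-- The `e`-rank is monotone along injective equivariant linear maps. -/
theorem eRank_le_of_injective [Module.Finite k W] (ρV : Representation k Γ V)
    (ρW : Representation k Γ W) (f : V →ₗ[k] W) (hf : Function.Injective f)
    (hfe : ∀ (g : Γ) (v : V), f (ρV g v) = ρW g (f v))
    (e : Matrix (Fin n) (Fin n) (MonoidAlgebra k Γ)) : eRank ρV e ≤ eRank ρW e := by
  let F : (Fin n → V) →ₗ[k] (Fin n → W) := f.compLeft (Fin n)
  have hF : Function.Injective F := hf.comp_left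
  have hcomm : ∀ v, F (eMap ρV e v) = eMap ρW e (F v) := fun v => eMap_natural ρV ρW f hfe e v
  have hmem : ∀ x ∈ LinearMap.range (eMap ρV e), F x ∈ LinearMap.range (eMap ρW e) := by
    rintro _ ⟨v, rfl⟩
    exact ⟨F v, (hcomm v).symm⟩
  let g : ↥(LinearMap.range (eMap ρV e)) →ₗ[k] ↥(LinearMap.range (eMap ρW e)) := F.restrict hmem
  have hg : Function.Injective g := by
    intro x y hxy
    apply Subtype.ext
    apply hF
    exact congrArg Subtype.val hxy
  exact LinearMap.finrank_le_finrank_of_injective hg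

/-- The `e`-rank is monotone along surjective equivariant linear maps. -/
theorem eRank_le_of_surjective [Module.Finite k V] (ρV : Representation k Γ V)
    (ρW : Representation k Γ W) (f : V →ₗ[k] W) (hf : Function.Surjective f)
    (hfe : ∀ (g : Γ) (v : V), f (ρV g v) = ρW g (f v))
    (e : Matrix (Fin n) (Fin n) (MonoidAlgebra k Γ)) : eRank ρW e ≤ eRank ρV e := by
  let F : (Fin n → V) →ₗ[k] (Fin n → W) := f.compLeft (Fin n)
  have hF : Function.Surjective F := hf.comp_left
  have hcomm : ∀ v, F (eMap ρV e v) = eMap ρW e (F v) := fun v => eMap_natural ρV ρW f hfe e v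
  have hmem : ∀ x ∈ LinearMap.range (eMap ρV e), F x ∈ LinearMap.range (eMap ρW e) := by
    rintro _ ⟨v, rfl⟩
    exact ⟨F v, (hcomm v).symm⟩
  let g : ↥(LinearMap.range (eMap ρV e)) →ₗ[k] ↥(LinearMap.range (eMap ρW e)) := F.restrict hmem
  have hg : Function.Surjective g := by
    rintro ⟨_, ⟨w, rfl⟩⟩
    obtain ⟨v, rfl⟩ := hF w
    refine ⟨⟨eMap ρV e v, ⟨v, rfl⟩⟩, ?_⟩
    apply Subtype.ext
    exact hcomm v
  exact LinearMap.finrank_le_finrank_of_surjective hg

end Generic

/-! ### Enough units, inequality form -/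

section Units

variable {K L : Type*} [Field K] [Field L] [NumberField L] [Algebra K L] [FiniteDimensional K L]
  {TL : Set (HeightOneSpectrum (𝓞 L))} [Fintype TL] (h : GalStable K L TL) (p : ℕ) [Fact p.Prime]
  {H : Type*} [AddCommGroup H] [Module (ZMod p) H]
  (ρ_H : Representation (ZMod p) (L ≃ₐ[K] L) H)

/-- **Enough units (EU), inequality form**: `κ : U → H` additive, equivariant, with kernel `p U`
(e.g. the Kummer map into `H¹`); then for every idempotent `e`,
`rk_e (μ_p) + (rk_e (F_p[∞_L]) + rk_e (F_p[TL])) ≤ rk_e (H) + rk_e (F_p)`. -/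
theorem eRank_units_le [Module.Finite (ZMod p) H]
    (κ : Additive (TL.unit L) →+ H)
    (hκ : ∀ x : Additive (TL.unit L), κ x = 0 ↔ ∃ y, p • y = x)
    (hκe : ∀ (τ : L ≃ₐ[K] L) (x : Additive (TL.unit L)),
      κ (Additive.ofMul (galTU h τ x.toMul)) = ρ_H τ (κ x))
    (ζ : L) (hζ : IsPrimitiveRoot ζ p) (χ : (L ≃ₐ[K] L) → ZMod p)
    (hχ : ∀ τ : L ≃ₐ[K] L, τ ζ = ζ ^ (χ τ).val)
    (ρ_mu : Representation (ZMod p) (L ≃ₐ[K] L) (ZMod p))
    (hρ_mu : ∀ (τ : L ≃ₐ[K] L) (c : ZMod p), ρ_mu τ c = χ τ * c)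
    (ρ_inf : Representation (ZMod p) (L ≃ₐ[K] L) (InfinitePlace L → ZMod p))
    (hρ_inf : ∀ (τ : L ≃ₐ[K] L) (f : InfinitePlace L → ZMod p) (w : InfinitePlace L),
      ρ_inf τ f w = f (τ⁻¹ • w))
    (ρ_pl : Representation (ZMod p) (L ≃ₐ[K] L) (TL → ZMod p))
    (hρ_pl : ∀ (τ : L ≃ₐ[K] L) (f : TL → ZMod p) (v : TL),
      ρ_pl τ f v = f ⟨galPrime τ⁻¹ v.1, h τ⁻¹ v.1 v.2⟩)
    {n : ℕ} (e : Matrix (Fin n) (Fin n) (MonoidAlgebra (ZMod p) (L ≃ₐ[K] L))) (he : e * e = e) :
    eRank ρ_mu e + (eRank ρ_inf e + eRank ρ_pl e) ≤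
      eRank ρ_H e + eRank (Representation.trivial (ZMod p) (L ≃ₐ[K] L) (ZMod p)) e := by
  let W : Submodule (ZMod p) H := AddSubgroup.toZModSubmodule p κ.range
  have hW : ∀ g : L ≃ₐ[K] L, W ≤ W.comap (ρ_H g) := by
    rintro g _ ⟨x, rfl⟩
    show ρ_H g (κ x) ∈ W
    rw [← hκe]
    exact ⟨_, rfl⟩
  let ρ_U : Representation (ZMod p) (L ≃ₐ[K] L) W := ρ_H.subrepresentation W hW
  let b_U : Additive (TL.unit L) →+ W :=
    { toFun := fun x => ⟨κ x, ⟨x, rfl⟩⟩
      map_zero' := Subtype.ext (map_zero κ)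
      map_add' := fun x y => Subtype.ext (map_add κ x y) }
  have hb_U : Function.Surjective b_U := by
    rintro ⟨_, ⟨x, rfl⟩⟩
    exact ⟨x, rfl⟩
  have hk_U : ∀ x : Additive (TL.unit L), b_U x = 0 ↔ ∃ y, p • y = x := by
    intro x
    rw [← hκ]
    exact Subtype.ext_iff
  have he_U : ∀ (τ : L ≃ₐ[K] L) (x : Additive (TL.unit L)),
      b_U (Additive.ofMul (galTU h τ x.toMul)) = ρ_U τ (b_U x) :=
    fun τ x => Subtype.ext (hκe τ x)
  have key := eRank_units_fun h p ρ_U b_U hb_U hk_U he_U ζ hζ χ hχ ρ_mu hρ_mu ρ_inf hρ_inf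
    ρ_pl hρ_pl e he
  have hle : eRank ρ_U e ≤ eRank ρ_H e :=
    eRank_le_of_injective ρ_U ρ_H W.subtype W.injective_subtype (fun g v => rfl) e
  rw [← key]
  exact Nat.add_le_add_right hle _

end Units

end Fermat.Agent.S56.EC.UnitRankLe
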