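/-
S56, brick EC.2 (helper287): the kernel hypothesis of "enough units" in the form the Kummer map
gives it.  A `TL`-unit which is a `p`-th power in `Lˣ` is the `p`-th power of a `TL`-unit
(`exists_nsmul_iff_exists_pow`), so the hypothesis
`κ x = 0 ↔ ∃ y : Additive (TL.unit L), p • y = x` of `UnitRankLe.eRank_units_le` may be replaced by
`κ x = 0 ↔ ∃ y : Lˣ, y ^ p = x` (`eRank_units_le_pow`).
-/
import Mathlib
import Fermat.Agent.S56.EC.UnitRankLe

set_option autoImplicit false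

namespace Fermat.Agent.S56.EC.UnitRankPow

open NumberField IsDedekindDomain
  Fermat.Agent.CFT.Global.GalPrime
  Fermat.Agent.CFT.Global.TUnitsHerbrand
  Fermat.Agent.S56.EC.UnitRankE Fermat.Agent.S56.EC.UnitRankLe Fermat.Agent.S56.EC.IdemRank

set_option linter.unusedSectionVars false
set_option linter.style.haveILetI false

variable {L : Type*} [Field L] [NumberField L] {TL : Set (HeightOneSpectrum (𝓞 L))}

/-- A unit of `L` whose `m`-th power (`m ≠ 0`) is a `TL`-unit is a `TL`-unit. -/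
theorem mem_unit_of_pow_mem (y : Lˣ) (m : ℕ) (hm : m ≠ 0) (hy : y ^ m ∈ TL.unit L) :
    y ∈ TL.unit L := by
  rw [mem_unit_iff] at hy ⊢
  intro w hw
  have h1 := hy w hw
  rw [Units.val_pow_eq_pow_val, map_pow] at h1
  exact (pow_eq_one_iff.1 h1).resolve_right hm

/-- Divisibility by `m` in the `TL`-units is divisibility by `m` in `Lˣ`. -/
theorem exists_nsmul_iff_exists_pow (m : ℕ) (hm : m ≠ 0) (x : Additive (TL.unit L)) :
    (∃ y : Additive (TL.unit L), m • y = x) ↔ ∃ y : Lˣ, y ^ m = ((x.toMul : TL.unit L) : Lˣ) := by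
  constructor
  · rintro ⟨y, rfl⟩
    refine ⟨((y.toMul : TL.unit L) : Lˣ), ?_⟩
    rw [toMul_nsmul]
    rfl
  · rintro ⟨y, hy⟩
    have hmem : y ∈ TL.unit L := by
      apply mem_unit_of_pow_mem y m hm
      rw [hy]
      exact (x.toMul : TL.unit L).2
    refine ⟨Additive.ofMul (⟨y, hmem⟩ : TL.unit L), ?_⟩
    apply Additive.toMul.injective
    apply Subtype.ext
    rw [toMul_nsmul]
    exact hy

section Units

variable {K : Type*} [Field K] [Algebra K L] [FiniteDimensional K L]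
  [Fintype TL] (h : GalStable K L TL) (p : ℕ) [Fact p.Prime]
  {H : Type*} [AddCommGroup H] [Module (ZMod p) H]
  (ρ_H : Representation (ZMod p) (L ≃ₐ[K] L) H)

/-- **Enough units (EU), inequality form, Kummer-kernel spelling**: `κ : U → H` additive,
equivariant, with `κ x = 0` exactly when `x` is a `p`-th power in `Lˣ`; then for every
idempotent `e`, `rk_e (μ_p) + (rk_e (F_p[∞_L]) + rk_e (F_p[TL])) ≤ rk_e (H) + rk_e (F_p)`. -/
theorem eRank_units_le_pow [Module.Finite (ZMod p) H]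
    (κ : Additive (TL.unit L) →+ H)
    (hκ : ∀ x : Additive (TL.unit L), κ x = 0 ↔ ∃ y : Lˣ, y ^ p = ((x.toMul : TL.unit L) : Lˣ))
    (hκe : ∀ (τ : L ≃ₐ[K] L) (x : Additive (TL.unit L)),
      κ (Additive.ofMul (galTU h τ x.toMul)) = ρ_H τ (κ x))
    (ζ : L) (hζ : IsPrimitiveRoot ζ p) (χ : (L ≃ₐ[K] L) → ZMod p)
    (hχ : ∀ τ : L ≃ₐ[K] L, τ ζ = ζ ^ (χ τ).val)
    (ρ_mu : Representation (ZMod p) (L ≃ₐ[K] L) (ZMod p))
    (hρ_mu : ∀ (τ : L ≃ₐ[K] L) (c : ZMod p), ρ_mu τ c = χ τ * c)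
    (ρ_inf : Representation (ZMod p) (L ≃ₐ[K] L) (InfinitePlace L → ZMod p))
    (hρ_inf : ∀ (τ : L ≃ₐ[K] L) (f : InfinitePlace L → ZMod p) (w : InfinitePlace L),
      ρ_inf τ f w = f (τ⁻¹ • w))
    (ρ_pl : Representation (ZMod p) (L ≃ₐ[K] L) (TL → ZMod p))
    (hρ_pl : ∀ (τ : L ≃ₐ[K] L) (f : TL → ZMod p) (v : TL),
      ρ_pl τ f v = f ⟨galPrime τ⁻¹ v.1, h τ⁻¹ v.1 v.2⟩)
    {n : ℕ} (e : Matrix (Fin n) (Fin n) (MonoidAlgebra (ZMod p) (L ≃ₐ[K] L))) (he : e * e = e) :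
    eRank ρ_mu e + (eRank ρ_inf e + eRank ρ_pl e) ≤
      eRank ρ_H e + eRank (Representation.trivial (ZMod p) (L ≃ₐ[K] L) (ZMod p)) e :=
  eRank_units_le h p ρ_H κ
    (fun x => (hκ x).trans
      (exists_nsmul_iff_exists_pow p (Fact.out : p.Prime).ne_zero x).symm)
    hκe ζ hζ χ hχ ρ_mu hρ_mu ρ_inf hρ_inf ρ_pl hρ_pl e he

end Units

end Fermat.Agent.S56.EC.UnitRankPow
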