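/-
S56 / brick EC, row EC.6a, seam (ii) (helper97; other-box twin dealt by the ledger, L-16 (3)):
THE KUMMER SEAM `Seams.SeamKum`.

`K ≤ ℚ̄` a number field containing `μ_p`, unramified outside `S ∋ p`; `U = G_K`,
`M0(K) = coind_U^{G_ℚ} 𝔽_p`.  For an `S`-unit `x` of `K` the Kummer character
`kum x : G_K → 𝔽_p` (`CFT/Global/CountV`) is a level-`S` character, and

  `κ x := [ind₁ R (kum x)] ∈ H¹(G_S, M0(K))`      (`R` any retraction `G_ℚ → G_K`)

is additive, vanishes exactly on the `p`-th powers of `S`-units, and satisfies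
`κ (g|_K x) = ω(g) • H¹(lt g) (κ x)` for every `g` in the normaliser of `G_K`.

* `chi_eq_om`        : the exponent `KumEquiv.chi` is the mod `p` cyclotomic character;
* `mem_coboundaries₁_of_sh₁_eq_zero` : a cocycle with values in `coind` whose Shapiro restriction
  vanishes is a coboundary;
* `shH1`, `shH1_eq_zero_iff` : the Shapiro class map `V_S(K) → H¹(G_S, M0(K))`, injective;
* `kumVS`            : `x ↦ kum x`, as an additive map from the `S`-units to `V_S(K)`;
* `kumVS_galTU`      : `kum (g|_K x) = ω(g) • (kum x ∘ (σ ↦ g⁻¹ σ g))`;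
* `seamKum`          : `Seams.SeamKum K S`.
-/
import Fermat.Agent.S56.EC.Seams
import Fermat.Agent.S56.EC.KumEquiv
import Fermat.Agent.S56.EC.UnitRankPow

set_option autoImplicit false

open scoped NumberField
open CategoryTheory ExtCitation IsDedekindDomain groupCohomology

namespace Fermat.Agent.S56.EC.KumSeamTwin

open Fermat.Agent.S55 Fermat.Agent.S55.Abs Fermat.Agent.S55.Shapiro Fermat.Agent.S55.Glue
  Fermat.Agent.CFT.Global.CountV Fermat.Agent.CFT.Global.CountQ
  Fermat.Agent.CFT.Global.CountAbs Fermat.Agent.CFT.Global.TUnitsHerbrand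
  Fermat.Agent.CFT.Global.SelmerCount
  Fermat.Agent.S56.EC.CoindAction Fermat.Agent.S56.EC.Twist Fermat.Agent.S56.EC.PlacesDictS
  Fermat.Agent.S56.EC.Seams Fermat.Agent.S56.EC.KumEquiv

local notation "Qb" => AlgebraicClosure ℚ

variable {p : ℕ} [Fact p.Prime] (K : IntermediateField ℚ Qb)

/-! ### `chi` is the cyclotomic character -/

/-- The exponent `χ(g)` with `g ζ = ζ ^ χ(g)` is the mod `p` cyclotomic character of `g`. -/
theorem chi_eq_om (ζ : K) (hζ : IsPrimitiveRoot ζ p) (g : GQ) :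
    chi K ζ hζ g = om (p := p) g := by
  have hp : p.Prime := Fact.out
  have : NeZero p := ⟨hp.ne_zero⟩
  have hz := isPrimitiveRoot_coe K ζ hζ
  have h1 : chi K ζ hζ g = modularCyclotomicCharacter Qb (card_rootsOfUnity_eq_self p)
      (g : Qb ≃+* Qb) := by
    refine modularCyclotomicCharacter.unique Qb (card_rootsOfUnity_eq_self p) _ (fun t ht => ?_)
    have h2 : ((t : Qbˣ) : Qb) ^ p = 1 := by
      have := (mem_rootsOfUnity p t).1 ht
      rw [← Units.val_pow_eq_pow_val, this, Units.val_one]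
    obtain ⟨i, -, hi⟩ := hz.eq_pow_of_pow_eq_one h2
    rw [← hi]
    show g ((ζ : Qb) ^ i) = ((ζ : Qb) ^ i) ^ (chi K ζ hζ g).val
    rw [map_pow, chi_spec K ζ hζ g, ← pow_mul, ← pow_mul, mul_comm]
  exact h1

/-! ### Shapiro: a cocycle with vanishing restriction is a coboundary -/

section Shapiro

variable {k : Type} [Field k] {G : Type} [Group G] {U : Subgroup G} {A : Rep.{0} k ↥U}

/-- A `1`-cocycle of `G` with values in `coind_U^G A` whose Shapiro restriction to `U` vanishes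
is a coboundary. -/
theorem mem_coboundaries₁_of_sh₁_eq_zero (R : Retr U) {φ : G → Rep.coind U.subtype A}
    (hφ : φ ∈ cocycles₁ (Rep.coind U.subtype A)) (h0 : sh₁ U A φ = 0) :
    φ ∈ coboundaries₁ (Rep.coind U.subtype A) := by
  have h1 := ind₁_sh₁_sub R φ
  have h2 : (d₁₂ (Rep.coind U.subtype A)).hom φ = 0 := LinearMap.mem_ker.mp hφ
  rw [h0, map_zero, h2, map_zero, add_zero, zero_sub] at h1
  refine ⟨-(hom₀ A R φ), ?_⟩
  rw [map_neg, ← h1, neg_neg]

end Shapiro

/-! ### The Shapiro class map in the level vocabulary -/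

section ClassMap

variable (S : Finset Nat.Primes)

/-- `ind₁` of a level-`S` character of `G_K` is a level-`S` cocycle with values in `M0(K)`. -/
theorem ind₁_mem_Z1 (hK : K.IsUnramifiedOutside S) (R : Retr K.fixingSubgroup)
    {c : ↥K.fixingSubgroup → ZMod p} (hc : c ∈ VS p S K) :
    ind₁ (AK p K) R c ∈ Z1 (globalLevel S) (MK p K) :=
  ⟨(isLevelConstantS₁_iff S _).1 (isLevelConstantS₁_ind₁ hK R hc),
    ind₁_mem_cocycles₁ R ((mem_cocycles₁_AK_iff K _).mpr hc.1)⟩

/-- The Shapiro cocycle map `V_S(K) → Z¹(G_S, M0(K))`. -/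
noncomputable def shZ (hK : K.IsUnramifiedOutside S) (R : Retr K.fixingSubgroup) :
    ↥(VS p S K) →ₗ[ZMod p] ↥(Z1 (globalLevel S) (MK p K)) where
  toFun c := ⟨ind₁ (AK p K) R c.1, ind₁_mem_Z1 K S hK R c.2⟩
  map_add' c c' := Subtype.ext (map_add (ind₁ (AK p K) R) c.1 c'.1)
  map_smul' a c := Subtype.ext (map_smul (ind₁ (AK p K) R) a c.1)

theorem shZ_coe (hK : K.IsUnramifiedOutside S) (R : Retr K.fixingSubgroup) (c : ↥(VS p S K)) :
    ((shZ K S hK R c : ↥(Z1 (globalLevel S) (MK p K))) : GQ → MK p K) = ind₁ (AK p K) R c.1 :=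
  rfl

/-- The Shapiro class map `V_S(K) → H¹(G_S, M0(K))`. -/
noncomputable def shH1 (hK : K.IsUnramifiedOutside S) (R : Retr K.fixingSubgroup) :
    ↥(VS p S K) →ₗ[ZMod p] S55.Abs.H1 (globalLevel S) (MK p K) :=
  (Submodule.mkQ _) ∘ₗ shZ K S hK R

theorem shH1_apply (hK : K.IsUnramifiedOutside S) (R : Retr K.fixingSubgroup) (c : ↥(VS p S K)) :
    shH1 K S hK R c = Submodule.Quotient.mk (shZ K S hK R c) := rfl

/-- The Shapiro class map is injective. -/
theorem shH1_eq_zero_iff (hK : K.IsUnramifiedOutside S) (R : Retr K.fixingSubgroup)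
    (c : ↥(VS p S K)) : shH1 K S hK R c = 0 ↔ c = 0 := by
  constructor
  · intro h
    rw [shH1_apply, Submodule.Quotient.mk_eq_zero, Submodule.mem_comap] at h
    have h1 : ind₁ (AK p K) R c.1 ∈ coboundaries₁ (MK p K) := h
    have h2 := sh₁_mem_coboundaries₁ h1
    rw [sh₁_ind₁] at h2
    exact Subtype.ext (eq_zero_of_mem_coboundaries₁_AK K h2)
  · rintro rfl
    exact map_zero _

end ClassMap

/-! ### The Kummer map on `S`-units -/

section Kummer

variable [NumberField K] (S : Finset Nat.Primes) (ζ : K) (hζ : IsPrimitiveRoot ζ p)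

/-- An `S`-unit lies in the Selmer subgroup `selS`. -/
theorem unit_mem_selS (x : (TS K S).unit ↥K) : (x : (↥K)ˣ) ∈ selS (↥K) p (SK S K) := by
  have hp : p.Prime := Fact.out
  rw [mem_selS_iff_valuation (↥K) p hp.ne_zero]
  intro v hv
  refine ⟨0, ?_⟩
  have hv' : v ∉ TS K S := fun h => hv ((mem_SK_iff S K v).2 h)
  rw [mul_zero, WithZero.exp_zero]
  exact (mem_unit_iff (x : (↥K)ˣ)).1 x.2 v hv'

/-- The Kummer character of an `S`-unit is a level-`S` character. -/
theorem kum_unit_mem_VS (hpS : pPrime p ∈ S) (hK : K.IsUnramifiedOutside S)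
    (x : (TS K S).unit ↥K) : kum K ζ hζ (x : (↥K)ˣ) ∈ VS p S K :=
  (kum_mem_VS_iff S K ζ hζ hpS hK _).2 (unit_mem_selS K S x)

/-- The Kummer map `U_S → V_S(K)`, additive. -/
noncomputable def kumVS (hpS : pPrime p ∈ S) (hK : K.IsUnramifiedOutside S) :
    Additive ((TS K S).unit ↥K) →+ ↥(VS p S K) where
  toFun x := ⟨kum K ζ hζ ((x.toMul : (TS K S).unit ↥K) : (↥K)ˣ),
    kum_unit_mem_VS K S ζ hζ hpS hK x.toMul⟩
  map_zero' := Subtype.ext (kum_one K ζ hζ)
  map_add' _ _ := Subtype.ext (kum_mul K ζ hζ _ _)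

theorem kumVS_coe (hpS : pPrime p ∈ S) (hK : K.IsUnramifiedOutside S)
    (x : Additive ((TS K S).unit ↥K)) :
    ((kumVS K S ζ hζ hpS hK x : ↥(VS p S K)) : ↥K.fixingSubgroup → ZMod p) =
      kum K ζ hζ ((x.toMul : (TS K S).unit ↥K) : (↥K)ˣ) := rfl

/-- The kernel of the Kummer map on `S`-units: the `p`-th powers of `S`-units. -/
theorem kumVS_eq_zero_iff (hpS : pPrime p ∈ S) (hK : K.IsUnramifiedOutside S)
    (x : Additive ((TS K S).unit ↥K)) :
    kumVS K S ζ hζ hpS hK x = 0 ↔ ∃ y : Additive ((TS K S).unit ↥K), p • y = x := by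
  have hp : p.Prime := Fact.out
  rw [UnitRankPow.exists_nsmul_iff_exists_pow p hp.ne_zero x]
  have h1 : kumVS K S ζ hζ hpS hK x = 0 ↔
      kum K ζ hζ ((x.toMul : (TS K S).unit ↥K) : (↥K)ˣ) = 0 := by
    constructor
    · intro h
      have h2 := congrArg Subtype.val h
      exact h2
    · intro h
      exact Subtype.ext h
  rw [h1, kum_eq_zero_iff]
  constructor
  · rintro ⟨y, hy⟩
    exact ⟨y, hy⟩
  · rintro ⟨y, hy⟩
    exact ⟨y, hy⟩

/-- **Equivariance of the Kummer character on `S`-units**: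
`kum (g|_K x) σ = ω(g) * kum x (g⁻¹ σ g)`. -/
theorem kum_galTU (g : ↥(Nrm K.fixingSubgroup)) (x : (TS K S).unit ↥K)
    (σ : ↥K.fixingSubgroup) :
    kum K ζ hζ ((galTU (galStable_TS K S) (resNrm K g) x : (TS K S).unit ↥K) : (↥K)ˣ) σ =
      om (p := p) (g : GQ) * kum K ζ hζ (x : (↥K)ˣ) (cj K.fixingSubgroup g σ) := by
  have hg : ∀ a ∈ K, (g : GQ) a ∈ K := fun a ha => Twist.apply_mem_of_mem_nrm K g.2 ha
  have e1 : ((galTU (galStable_TS K S) (resNrm K g) x : (TS K S).unit ↥K) : (↥K)ˣ) =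
      mapUnit K (g : GQ) hg (x : (↥K)ˣ) := by
    apply Units.ext
    apply Subtype.ext
    rfl
  have e2 : cj K.fixingSubgroup g σ = conjFix K (g : GQ) hg σ := Subtype.ext rfl
  rw [e1, e2, kum_mapUnit K ζ hζ (g : GQ) hg (x : (↥K)ˣ) σ, chi_eq_om]

end Kummer

/-! ### The seam -/

section Seam

variable [NumberField K] (S : Finset Nat.Primes)

/-- **Seam (ii), Kummer.**  For a number field `K ⊇ μ_p` unramified outside `S ∋ p`, the Kummer
map `U_S → H¹(G_S, M0(K))` is additive, has kernel the `p`-th powers of `S`-units, and is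
`ω`-twisted equivariant for the normaliser of `G_K`. -/
theorem seamKum (hpS : pPrime p ∈ S) (hK : K.IsUnramifiedOutside S)
    (hcyc : cycloField p ≤ K) : SeamKum (p := p) K S := by
  obtain ⟨ζ, hζ⟩ := exists_primitiveRoot_of_cycloField_le K hcyc
  obtain ⟨R⟩ := Retr.nonempty K.fixingSubgroup
  refine ⟨(shH1 K S hK R).toAddMonoidHom.comp (kumVS K S ζ hζ hpS hK), fun x => ?_,
    fun g x => ?_⟩
  · show shH1 K S hK R (kumVS K S ζ hζ hpS hK x) = 0 ↔ _
    rw [shH1_eq_zero_iff, kumVS_eq_zero_iff]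
  · let c₁ : ↥(Z1 (globalLevel S) (MK p K)) := shZ K S hK R (kumVS K S ζ hζ hpS hK
      (Additive.ofMul (galTU (galStable_TS K S) (resNrm K g) x.toMul)))
    let c₀ : ↥(Z1 (globalLevel S) (MK p K)) := shZ K S hK R (kumVS K S ζ hζ hpS hK x)
    let c₂ : ↥(Z1 (globalLevel S) (MK p K)) :=
      ⟨cmap₁ (lt K.fixingSubgroup (ZMod p) g) c₀.1,
        cmap₁_mem_Z1 (lt K.fixingSubgroup (ZMod p) g) c₀.2⟩
    show (Submodule.Quotient.mk c₁ : S55.Abs.H1 (globalLevel S) (MK p K)) =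
      Submodule.Quotient.mk (om (p := p) (g : GQ) • c₂)
    rw [Submodule.Quotient.eq, Submodule.mem_comap]
    show c₁.1 - om (p := p) (g : GQ) • c₂.1 ∈ coboundaries₁ (MK p K)
    -- the difference is a cocycle with vanishing Shapiro restriction
    have hdiff : c₁.1 - om (p := p) (g : GQ) • c₂.1 ∈ cocycles₁ (MK p K) :=
      (c₁ - om (p := p) (g : GQ) • c₂).2.2
    refine mem_coboundaries₁_of_sh₁_eq_zero R hdiff ?_
    rw [map_sub, map_smul]
    funext σ
    have h1 : sh₁ K.fixingSubgroup (AK p K) c₁.1 σ =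
        kum K ζ hζ ((galTU (galStable_TS K S) (resNrm K g) x.toMul : (TS K S).unit ↥K) :
          (↥K)ˣ) σ := by
      show sh₁ K.fixingSubgroup (AK p K) (ind₁ (AK p K) R (kum K ζ hζ
        ((galTU (galStable_TS K S) (resNrm K g) x.toMul : (TS K S).unit ↥K) : (↥K)ˣ))) σ = _
      rw [sh₁_ind₁]
    have h4 : sh₁ K.fixingSubgroup (AK p K) c₀.1 (cj K.fixingSubgroup g σ) =
        kum K ζ hζ ((x.toMul : (TS K S).unit ↥K) : (↥K)ˣ) (cj K.fixingSubgroup g σ) := by
      show sh₁ K.fixingSubgroup (AK p K) (ind₁ (AK p K) R (kum K ζ hζ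
        ((x.toMul : (TS K S).unit ↥K) : (↥K)ˣ))) (cj K.fixingSubgroup g σ) = _
      rw [sh₁_ind₁]
    have h2 : sh₁ K.fixingSubgroup (AK p K) c₂.1 σ =
        kum K ζ hζ ((x.toMul : (TS K S).unit ↥K) : (↥K)ˣ) (cj K.fixingSubgroup g σ) := by
      rw [← h4]
      exact sh₁_lt (k := ZMod p) (U := K.fixingSubgroup) (V := ZMod p) g (c := c₀.1) c₀.2.2 σ
    rw [Pi.sub_apply, Pi.smul_apply, h1, h2, kum_galTU K S ζ hζ g x.toMul σ, Pi.zero_apply]
    show _ - om (p := p) (g : GQ) * _ = 0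
    rw [sub_self]

end Seam

end Fermat.Agent.S56.EC.KumSeamTwin
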