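/-
S56 / brick EC (helper39, EC architect): THE CLOSED EXIT OF BRICK EC.

* `kumSeam`  : the Kummer seam `SeamKum` (`EC/KumSeamTwin`, helper97) wherever `EPSigma` uses it;
* `epSigma : EPSigma` : `χ₂(G_S, X) = - dim X^{c = -1}` for the direct summands of `M0(K)ⁿ` cut out
  by idempotent matrices over `𝔽_p[Aut K]` (`EC/Contract`);
* `ecExit : ECExit`   : `χ₂(G_S, N) ≤ - dim N^{c = -1}` for every finite `𝔽_p[Gal(F/ℚ)]`-module `N`
  when the Sylow `p`-subgroups of `Gal(F/ℚ)` are TI (`EC/Contract`).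

The chain: `EC/Seams` (second-level contract) — `SeamKum` (`KumSeamTwin`), `SeamArch`
(`ArchTwin`), `SeamLoc` (`SeamLoc`), `SeamUnits` (`UnitSeam`) — `EC/BaseLe`, `EC/Base`
(`EPSigma`) — `EC/ExitB` with `EC/SteinbergFinal` (`ECExit`).
-/
import Fermat.Agent.S56.EC.ExitOfKum
import Fermat.Agent.S56.EC.KumSeamTwin

set_option autoImplicit false

namespace Fermat.Agent.S56.EC.Final

/-- The Kummer seam. -/
theorem kumSeam : ExitOfKum.KumSeam := by
  intro p _ _ S hpS K _ hK hcyc _
  exact KumSeamTwin.seamKum K S hpS hK hcyc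

/-- **(EP-Σ)**, closed. -/
theorem epSigma : EPSigma := ExitOfKum.epSigma_of_kum kumSeam

/-- **The exit of brick EC**, closed. -/
theorem ecExit : ECExit := ExitOfKum.ecExit_of_kum kumSeam

end Fermat.Agent.S56.EC.Final
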