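/-
S56 / brick EC: EXISTENCE OF `S_big` (helper276, own risk).

`clS (𝓞 K) p (SK T K)` is the subgroup of `Cl_K` generated by the `p`-th powers and the classes of
the primes of `K` above `T`; the hypothesis `index = 1` (`ρ_K = 0`) of `ChiM0.sha2_M0_eq_bot`
holds for every `T` containing a suitable finite set of primes:

* `exists_primes_mem`              : every prime of `𝓞 K` contains a prime number;
* `exists_finset_clGen_eq_top`     : the classes of the primes above a finite set `S` generate `Cl_K`;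
* `exists_finset_clS_index_eq_one` : `∃ S, ∀ T ⊇ S, [Cl_K : Cl_K^p ⟨T_K⟩] = 1`;
* `finite_le`                      : a number field `F ≤ ℚ̄` has finitely many subfields;
* `exists_Sbig`                    : `∃ S ⊇ S₀, ∀ T ⊇ S, ∀ K ≤ F, [Cl_K : Cl_K^p ⟨T_K⟩] = 1`.
-/
import Mathlib
import Fermat.Agent.CFT.Global.CountV

set_option autoImplicit false

open scoped NumberField nonZeroDivisors
open IsDedekindDomain

namespace Fermat.Agent.S56.EC.SBig

open Fermat.Agent.CFT.Global.CountV Fermat.Agent.CFT.Global.SelmerCount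
  Fermat.Agent.CFT.Global.IndexLattice

local notation "Qb" => AlgebraicClosure ℚ

/-- A prime ideal containing a natural number `n ≥ 2` contains a prime number. -/
theorem exists_prime_mem_of_natCast_mem {R : Type*} [CommRing R] (P : Ideal R) [hP : P.IsPrime] :
    ∀ n : ℕ, 2 ≤ n → (n : R) ∈ P → ∃ q : ℕ, q.Prime ∧ (q : R) ∈ P := by
  intro n
  induction n using Nat.strong_induction_on with
  | _ n ih =>
    intro hn hmem
    by_cases hp : n.Prime
    · exact ⟨n, hp, hmem⟩
    · obtain ⟨m, hmn, hm2, hmlt⟩ := Nat.exists_dvd_of_not_prime2 hn hp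
      obtain ⟨c, rfl⟩ := hmn
      have hc2 : 2 ≤ c := by
        by_contra hc
        have hc' : c = 0 ∨ c = 1 := by omega
        rcases hc' with rfl | rfl
        · omega
        · omega
      have hclt : c < m * c := by nlinarith
      rw [Nat.cast_mul] at hmem
      rcases hP.mem_or_mem hmem with h | h
      · exact ih m hmlt hm2 h
      · exact ih c hclt hc2 h

/-- Every prime of `𝓞 K` contains a prime number. -/
theorem exists_primes_mem (K : Type*) [Field K] [NumberField K] (v : HeightOneSpectrum (𝓞 K)) :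
    ∃ q : Nat.Primes, ((q : ℕ) : 𝓞 K) ∈ v.asIdeal := by
  have hmem : ((Ideal.absNorm v.asIdeal : ℕ) : 𝓞 K) ∈ v.asIdeal := Ideal.absNorm_mem v.asIdeal
  have h0 : Ideal.absNorm v.asIdeal ≠ 0 := by
    rw [Ne, Ideal.absNorm_eq_zero_iff]
    exact v.ne_bot
  have h1 : Ideal.absNorm v.asIdeal ≠ 1 := by
    rw [Ne, Ideal.absNorm_eq_one_iff]
    exact v.isPrime.ne_top
  have hv : v.asIdeal.IsPrime := v.isPrime
  obtain ⟨q, hq, hqm⟩ := exists_prime_mem_of_natCast_mem v.asIdeal _ (by omega) hmem
  exact ⟨⟨q, hq⟩, hqm⟩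

section ClassGroupGen

variable (K : IntermediateField ℚ Qb) [NumberField K]

/-- The subgroup of the class group generated by the classes of the primes above `T`. -/
noncomputable def clGen (T : Finset Nat.Primes) : Subgroup (ClassGroup (𝓞 K)) :=
  Subgroup.closure ((fun v : HeightOneSpectrum (𝓞 K) =>
      ClassGroup.mk0 ⟨v.asIdeal, mem_nonZeroDivisors_iff_ne_zero.mpr v.ne_bot⟩) ''
        (SK T K : Set (HeightOneSpectrum (𝓞 K))))

theorem clGen_le_clS (p : ℕ) (T : Finset Nat.Primes) : clGen K T ≤ clS (𝓞 K) p (SK T K) :=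
  le_sup_right

theorem clGen_mono {T T' : Finset Nat.Primes} (h : T ⊆ T') : clGen K T ≤ clGen K T' := by
  apply Subgroup.closure_mono
  apply Set.image_mono
  intro v hv
  rw [Finset.mem_coe, mem_SK_iff] at hv ⊢
  obtain ⟨q, hq, hqv⟩ := hv
  exact ⟨q, h hq, hqv⟩

/-- The class of a nonzero ideal lies in the subgroup generated by the primes above a finite
set of prime numbers. -/
theorem exists_finset_mk0_mem (I : Ideal (𝓞 K)) :
    ∀ hI : I ∈ (Ideal (𝓞 K))⁰, ∃ S : Finset Nat.Primes, ∀ T, S ⊆ T →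
      ClassGroup.mk0 ⟨I, hI⟩ ∈ clGen K T := by
  induction I using UniqueFactorizationMonoid.induction_on_prime with
  | h₁ =>
    intro hI
    exact absurd rfl (nonZeroDivisors.ne_zero hI)
  | h₂ x hx =>
    intro hI
    refine ⟨∅, fun T _ => ?_⟩
    have hx1 : x = 1 := by
      rw [Ideal.one_eq_top]
      exact Ideal.isUnit_iff.mp hx
    have h1 : (⟨x, hI⟩ : (Ideal (𝓞 K))⁰) = 1 := Subtype.ext hx1
    rw [h1, map_one]
    exact one_mem _
  | h₃ J P hJ hP ih =>
    intro hI
    classical
    have hP0 : P ≠ ⊥ := hP.ne_zero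
    have hPprime : P.IsPrime := (Ideal.prime_iff_isPrime hP0).mp hP
    have hPmem : P ∈ (Ideal (𝓞 K))⁰ := mem_nonZeroDivisors_iff_ne_zero.mpr hP0
    have hJmem : J ∈ (Ideal (𝓞 K))⁰ := mem_nonZeroDivisors_iff_ne_zero.mpr hJ
    obtain ⟨S, hS⟩ := ih hJmem
    obtain ⟨q, hq⟩ := exists_primes_mem K (⟨P, hPprime, hP0⟩ : HeightOneSpectrum (𝓞 K))
    refine ⟨insert q S, fun T hT => ?_⟩
    have hsplit : (⟨P * J, hI⟩ : (Ideal (𝓞 K))⁰) = ⟨P, hPmem⟩ * ⟨J, hJmem⟩ := rfl
    rw [hsplit, map_mul]
    refine mul_mem (Subgroup.subset_closure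
      ⟨(⟨P, hPprime, hP0⟩ : HeightOneSpectrum (𝓞 K)), ?_, rfl⟩)
      (hS T ((Finset.subset_insert q S).trans hT))
    rw [Finset.mem_coe, mem_SK_iff]
    exact ⟨q, hT (Finset.mem_insert_self q S), hq⟩

/-- The classes of the primes above a suitable finite set of prime numbers generate `Cl_K`. -/
theorem exists_finset_clGen_eq_top :
    ∃ S : Finset Nat.Primes, ∀ T, S ⊆ T → clGen K T = ⊤ := by
  classical
  have h : ∀ c : ClassGroup (𝓞 K), ∃ S : Finset Nat.Primes, ∀ T, S ⊆ T → c ∈ clGen K T := by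
    intro c
    obtain ⟨I, rfl⟩ := ClassGroup.mk0_surjective c
    obtain ⟨S, hS⟩ := exists_finset_mk0_mem K I.1 I.2
    exact ⟨S, hS⟩
  choose Sc hSc using h
  refine ⟨Finset.univ.biUnion Sc, fun T hT => ?_⟩
  rw [eq_top_iff]
  intro c _
  exact hSc c T ((Finset.subset_biUnion_of_mem Sc (Finset.mem_univ c)).trans hT)

/-- **`ρ_K = 0` for large `T`**: `[Cl_K : Cl_K^p ⟨T_K⟩] = 1` for every `T` containing a suitable
finite set of prime numbers. -/
theorem exists_finset_clS_index_eq_one (p : ℕ) :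
    ∃ S : Finset Nat.Primes, ∀ T, S ⊆ T → (clS (𝓞 K) p (SK T K)).index = 1 := by
  obtain ⟨S, hS⟩ := exists_finset_clGen_eq_top K
  refine ⟨S, fun T hT => ?_⟩
  have h : clS (𝓞 K) p (SK T K) = ⊤ := by
    rw [eq_top_iff, ← hS T hT]
    exact clGen_le_clS K p T
  rw [h, Subgroup.index_top]

end ClassGroupGen

/-- A number field `F ≤ ℚ̄` has finitely many subfields. -/
theorem finite_le (F : IntermediateField ℚ Qb) [FiniteDimensional ℚ F] :
    {K : IntermediateField ℚ Qb | K ≤ F}.Finite := by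
  have hf : Finite (IntermediateField ℚ F) :=
    Field.finite_intermediateField_of_exists_primitive_element ℚ F
      (Field.exists_primitive_element ℚ F)
  refine Set.Finite.subset (@Set.finite_range _ _
    (IntermediateField.lift : IntermediateField ℚ F → IntermediateField ℚ Qb) ?_) ?_
  · exact hf
  · intro K hK
    exact ⟨IntermediateField.restrict hK, IntermediateField.lift_restrict hK⟩

/-- **Existence of `S_big`**: for a number field `F ≤ ℚ̄` and a finite set `S₀` of primes there is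
a finite `S ⊇ S₀` such that `[Cl_K : Cl_K^p ⟨T_K⟩] = 1` for every `T ⊇ S` and every subfield `K`
of `F`. -/
theorem exists_Sbig (p : ℕ) (F : IntermediateField ℚ Qb) [FiniteDimensional ℚ F]
    (S₀ : Finset Nat.Primes) :
    ∃ S : Finset Nat.Primes, S₀ ⊆ S ∧ ∀ T, S ⊆ T →
      ∀ (K : IntermediateField ℚ Qb) [NumberField K], K ≤ F →
        (clS (𝓞 K) p (SK T K)).index = 1 := by
  classical
  have hfin := finite_le F
  have h : ∀ K : IntermediateField ℚ Qb, ∃ S : Finset Nat.Primes,
      ∀ [NumberField K], ∀ T, S ⊆ T → (clS (𝓞 K) p (SK T K)).index = 1 := by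
    intro K
    by_cases hK : NumberField K
    · obtain ⟨S, hS⟩ := exists_finset_clS_index_eq_one K p
      exact ⟨S, fun T hT => hS T hT⟩
    · exact ⟨∅, fun {h} => absurd h hK⟩
  choose SKf hSKf using h
  refine ⟨S₀ ∪ hfin.toFinset.biUnion SKf, Finset.subset_union_left, fun T hT K _ hKF => ?_⟩
  refine hSKf K T (Finset.Subset.trans ?_ hT)
  exact (Finset.subset_biUnion_of_mem SKf (hfin.mem_toFinset.mpr hKF)).trans
    Finset.subset_union_right

end Fermat.Agent.S56.EC.SBig
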