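/-
S56 / brick EC, seam (v) `SeamArch` (helper66): THE REAL PLACE.

`K ≤ ℚ̄` a number field containing `μ_p`, `U = G_K`, `M0(K) = Fun(U \ G_ℚ, 𝔽_p)` with `G_ℚ` acting
by right translation, `c` = complex conjugation, `ω` the mod `p` cyclotomic character.

* `embOf K x : K →+* ℂ`, `a ↦ ι (x⁻¹ a)` (`ι` the Prelude's `complexEmbedding`), and
  `placeOf K x : InfinitePlace K` its place; `placeOf (u x) = placeOf x` for `u ∈ U`,
  `placeOf (x c) = placeOf x`, `placeOf` is onto, and `placeOf x = placeOf y` only if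
  `y ∈ U x ∪ U x c` (`placeOf_eq_cases`);
* `placeOf_inv_mul` : `placeOf (g⁻¹ x) = (g|_K)⁻¹ • placeOf x` for `g` in the normaliser of `U`
  (Mathlib's action `σ • w = w.comap σ.symm`);
* `cycloChar_complexConjugation` : `ω(c) = -1`;
* `kap K hcyc F := (x ↦ ω(x) · F (placeOf x))`, an element of the `(-1)`-eigenspace of `c` on
  `M0(K)`; `kapL` the linear map, `kapL_bijective`;
* `seamArch : Seams.SeamArch K` — the linear equivalence
  `(InfinitePlace K → 𝔽_p) ≃ M0(K)^{c = -1}` with
  `κ (γ • F) = ω(g) • lt g (κ F)` for `g` in the normaliser of `U`, `γ = g|_K`.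

The normalisation `ω(x)^{+1}` with the embedding `x⁻¹|_K` is forced by the equivariance
(review #7620 (2)).
-/
import Fermat.Agent.S56.EC.Seams
import Fermat.Agent.Lib.CycloChar
import Fermat.Agent.CFT.LocalBr.MuEmb

set_option autoImplicit false

open scoped NumberField
open CategoryTheory ExtCitation NumberField

namespace Fermat.Agent.S56.EC.Arch

open Fermat.Agent.S55 Fermat.Agent.S55.Abs Fermat.Agent.S55.Glue
  Fermat.Agent.S56.EC.CoindAction Fermat.Agent.S56.EC.Twist Fermat.Agent.S56.EC.Seams

local notation "Qb" => AlgebraicClosure ℚ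

local instance isAlgebraicQbar_arch : Algebra.IsAlgebraic ℚ (AlgebraicClosure ℚ) :=
  AlgebraicClosure.isAlgebraic ℚ
local instance isAlgClosureQbar_arch : IsAlgClosure ℚ (AlgebraicClosure ℚ) :=
  ⟨inferInstance, inferInstance⟩
local instance normalQbar_arch : Normal ℚ (AlgebraicClosure ℚ) :=
  IsAlgClosure.normal ℚ (AlgebraicClosure ℚ)

variable {p : ℕ} [Fact p.Prime] (K : IntermediateField ℚ Qb)

/-! ### The embedding and the infinite place attached to `x ∈ G_ℚ` -/

/-- The embedding `a ↦ ι (x⁻¹ a)` of `K` into `ℂ`. -/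
noncomputable def embOf (x : GQ) : ↥K →+* ℂ :=
  (complexEmbedding : Qb →+* ℂ).comp (((x⁻¹ : GQ) : Qb →+* Qb).comp (algebraMap ↥K Qb))

theorem embOf_apply (x : GQ) (a : ↥K) : embOf K x a = complexEmbedding (x⁻¹ (a : Qb)) := rfl

/-- The infinite place of `K` of the embedding `a ↦ ι (x⁻¹ a)`. -/
noncomputable def placeOf (x : GQ) : InfinitePlace ↥K := InfinitePlace.mk (embOf K x)

theorem embOf_mul_left {u : GQ} (hu : u ∈ K.fixingSubgroup) (x : GQ) :
    embOf K (u * x) = embOf K x := by
  ext a
  rw [embOf_apply, embOf_apply, mul_inv_rev]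
  have h1 : u⁻¹ (a : Qb) = (a : Qb) :=
    (IntermediateField.mem_fixingSubgroup_iff K u⁻¹).1 (inv_mem hu) a a.2
  show complexEmbedding (x⁻¹ (u⁻¹ (a : Qb))) = _
  rw [h1]

theorem embOf_mul_conj (x : GQ) :
    embOf K (x * complexConjugation) = ComplexEmbedding.conjugate (embOf K x) := by
  ext a
  rw [ComplexEmbedding.conjugate_coe_eq, embOf_apply, embOf_apply, mul_inv_rev,
    complexConjugation_inv]
  show complexEmbedding (complexConjugation (x⁻¹ (a : Qb))) = _
  rw [complexEmbedding_complexConjugation]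

theorem placeOf_mul_left {u : GQ} (hu : u ∈ K.fixingSubgroup) (x : GQ) :
    placeOf K (u * x) = placeOf K x := by
  rw [placeOf, placeOf, embOf_mul_left K hu]

theorem placeOf_mul_conj (x : GQ) : placeOf K (x * complexConjugation) = placeOf K x := by
  rw [placeOf, placeOf, embOf_mul_conj, InfinitePlace.mk_conjugate_eq]

/-- Two elements with the same place differ by `U` on the left and possibly `c` on the right. -/
theorem placeOf_eq_cases {x y : GQ} (h : placeOf K x = placeOf K y) :
    y * x⁻¹ ∈ K.fixingSubgroup ∨ y * complexConjugation * x⁻¹ ∈ K.fixingSubgroup := by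
  have hinj : Function.Injective (complexEmbedding : Qb → ℂ) :=
    (complexEmbedding : Qb →+* ℂ).injective
  rw [placeOf, placeOf, InfinitePlace.mk_eq_iff] at h
  rcases h with h | h
  · left
    rw [IntermediateField.mem_fixingSubgroup_iff]
    intro a ha
    have h1 := RingHom.congr_fun h ⟨a, ha⟩
    rw [embOf_apply, embOf_apply] at h1
    have h2 : x⁻¹ a = y⁻¹ a := hinj h1
    show y (x⁻¹ a) = a
    rw [h2]
    show (y * y⁻¹) a = a
    rw [mul_inv_cancel]
    rfl
  · right
    rw [IntermediateField.mem_fixingSubgroup_iff]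
    intro a ha
    have h1 := RingHom.congr_fun h ⟨a, ha⟩
    rw [ComplexEmbedding.conjugate_coe_eq, embOf_apply, embOf_apply,
      ← complexEmbedding_complexConjugation] at h1
    have h2 : complexConjugation (x⁻¹ a) = y⁻¹ a := hinj h1
    show y (complexConjugation (x⁻¹ a)) = a
    rw [h2]
    show (y * y⁻¹) a = a
    rw [mul_inv_cancel]
    rfl

/-- Every embedding of `K` into `ℂ` factors through `ι : ℚ̄ → ℂ` (counting). -/
theorem exists_comp_eq [NumberField K] (φ : ↥K →+* ℂ) :
    ∃ ψ : ↥K →+* Qb, (complexEmbedding : Qb →+* ℂ).comp ψ = φ := by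
  have hinj : Function.Injective
      (fun ψ : ↥K →+* Qb => (complexEmbedding : Qb →+* ℂ).comp ψ) := by
    intro ψ₁ ψ₂ h
    ext a
    have h1 := RingHom.congr_fun h a
    exact (complexEmbedding : Qb →+* ℂ).injective h1
  have hcard : Fintype.card (↥K →+* Qb) = Fintype.card (↥K →+* ℂ) := by
    rw [NumberField.Embeddings.card, NumberField.Embeddings.card]
  exact ((Fintype.bijective_iff_injective_and_card _).2 ⟨hinj, hcard⟩).2 φ

/-- Every embedding of `K` into `ℚ̄` is the restriction of an element of `G_ℚ`. -/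
theorem exists_gal_of_emb (ψ : ↥K →+* Qb) : ∃ y : GQ, ∀ a : ↥K, y (a : Qb) = ψ a := by
  let ψ' : ↥K →ₐ[ℚ] Qb := ψ.toRatAlgHom
  let τ : Qb →ₐ[ℚ] Qb := ψ'.liftNormal Qb
  have hτ : ∀ a : ↥K, τ (a : Qb) = ψ a := fun a => AlgHom.liftNormal_commutes ψ' Qb a
  exact ⟨AlgEquiv.ofBijective τ (Algebra.IsAlgebraic.algHom_bijective τ), hτ⟩

theorem placeOf_surjective [NumberField K] : Function.Surjective (placeOf K) := by
  intro w
  obtain ⟨ψ, hψ⟩ := exists_comp_eq K w.embedding
  obtain ⟨y, hy⟩ := exists_gal_of_emb K ψ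
  refine ⟨y⁻¹, ?_⟩
  rw [placeOf]
  have h1 : embOf K y⁻¹ = w.embedding := by
    ext a
    rw [embOf_apply, inv_inv, hy a, ← hψ]
    rfl
  rw [h1, InfinitePlace.mk_embedding]

/-- The place of `g⁻¹ x` is the translate by `(g|_K)⁻¹` of the place of `x`. -/
theorem placeOf_inv_mul (g : ↥(Nrm K.fixingSubgroup)) (x : GQ) :
    placeOf K ((g : GQ)⁻¹ * x) = (resNrm K g)⁻¹ • placeOf K x := by
  rw [placeOf, placeOf, InfinitePlace.smul_mk]
  congr 1

/-! ### The cyclotomic character -/

/-- `ω(c) = -1`. -/
theorem cycloChar_complexConjugation : cycloChar p complexConjugation = -1 := by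
  have hp : p.Prime := Fact.out
  have : NeZero p := ⟨hp.ne_zero⟩
  have hζ := Fermat.Agent.CFT.LocalBr.isPrimitiveRoot_zetaQb p
  set ζ := Fermat.Agent.CFT.LocalBr.zetaQb p with hζdef
  have h1 : complexConjugation ζ = ζ ^ ((cycloChar p complexConjugation : ZMod p)).val :=
    Fermat.Agent.CFT.LocalBr.cycloChar_spec p complexConjugation hζ.pow_eq_one
  have h2 : complexConjugation ζ = ζ⁻¹ :=
    Fermat.Agent.Lib.CycloChar.complexConjugation_root hp.ne_zero hζ.pow_eq_one
  have h3 : ζ ^ (p - 1) = ζ⁻¹ := by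
    apply eq_inv_of_mul_eq_one_left
    rw [← pow_succ, Nat.sub_add_cancel hp.one_le, hζ.pow_eq_one]
  have h4 : ((cycloChar p complexConjugation : ZMod p)).val = p - 1 :=
    hζ.pow_inj (ZMod.val_lt _) (Nat.sub_lt hp.pos Nat.one_pos) (by rw [← h1, h2, h3])
  apply Units.ext
  rw [Units.val_neg, Units.val_one, ← ZMod.natCast_zmod_val (cycloChar p complexConjugation : ZMod p),
    h4, Nat.cast_sub hp.one_le, Nat.cast_one, ZMod.natCast_self, zero_sub]

theorem om_mul (x y : GQ) : om (p := p) (x * y) = om (p := p) x * om (p := p) y := by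
  unfold om
  rw [map_mul, Units.val_mul]

theorem om_ne_zero (x : GQ) : om (p := p) x ≠ 0 := Units.ne_zero _

theorem om_of_mem (hcyc : cycloField p ≤ K) {u : GQ} (hu : u ∈ K.fixingSubgroup) :
    om (p := p) u = 1 := by
  unfold om
  rw [cycloChar_eq_one_of_mem_fixingSubgroup p (IntermediateField.fixingSubgroup_antitone hcyc hu),
    Units.val_one]

theorem om_conj : om (p := p) complexConjugation = -1 := by
  unfold om
  rw [cycloChar_complexConjugation, Units.val_neg, Units.val_one]

theorem om_mul_inv_mul (g x : GQ) : om (p := p) g * om (p := p) (g⁻¹ * x) = om (p := p) x := by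
  rw [← om_mul, mul_inv_cancel_left]

/-! ### The map `κ` -/

/-- `κ F = (x ↦ ω(x) · F (placeOf x))`, as an element of `M0(K)`. -/
noncomputable def kap (hcyc : cycloField p ≤ K) (F : InfinitePlace ↥K → ZMod p) :
    M0 (ZMod p) K.fixingSubgroup :=
  ⟨fun x => om (p := p) x * F (placeOf K x), fun u x => by
    show om (p := p) ((u : GQ) * x) * F (placeOf K ((u : GQ) * x)) =
      om (p := p) x * F (placeOf K x)
    rw [om_mul, om_of_mem K hcyc u.2, one_mul, placeOf_mul_left K u.2]⟩

theorem kap_apply (hcyc : cycloField p ≤ K) (F : InfinitePlace ↥K → ZMod p) (x : GQ) :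
    (kap K hcyc F).1 x = om (p := p) x * F (placeOf K x) := rfl

theorem kap_mem_negEig (hcyc : cycloField p ≤ K) (F : InfinitePlace ↥K → ZMod p) :
    kap K hcyc F ∈ negEig (M0 (ZMod p) K.fixingSubgroup) := by
  rw [mem_negEig]
  apply Subtype.ext
  funext x
  show om (p := p) (x * complexConjugation) * F (placeOf K (x * complexConjugation)) +
    om (p := p) x * F (placeOf K x) = 0
  rw [om_mul, om_conj, placeOf_mul_conj]
  ring

/-- `κ` as a linear map into the `(-1)`-eigenspace of complex conjugation. -/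
noncomputable def kapL (hcyc : cycloField p ≤ K) :
    (InfinitePlace ↥K → ZMod p) →ₗ[ZMod p] ↥(negEig (M0 (ZMod p) K.fixingSubgroup)) where
  toFun F := ⟨kap K hcyc F, kap_mem_negEig K hcyc F⟩
  map_add' F F' := by
    apply Subtype.ext
    apply Subtype.ext
    funext x
    show om (p := p) x * (F (placeOf K x) + F' (placeOf K x)) =
      om (p := p) x * F (placeOf K x) + om (p := p) x * F' (placeOf K x)
    rw [mul_add]
  map_smul' a F := by
    apply Subtype.ext
    apply Subtype.ext
    funext x
    show om (p := p) x * (a * F (placeOf K x)) = a * (om (p := p) x * F (placeOf K x))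
    rw [mul_left_comm]

theorem kapL_apply (hcyc : cycloField p ≤ K) (F : InfinitePlace ↥K → ZMod p) (x : GQ) :
    (kapL K hcyc F).1.1 x = om (p := p) x * F (placeOf K x) := rfl

/-- Values of an odd function at two elements with the same place. -/
theorem odd_apply_of_placeOf_eq (hcyc : cycloField p ≤ K)
    (f : ↥(negEig (M0 (ZMod p) K.fixingSubgroup))) {x y : GQ} (h : placeOf K x = placeOf K y) :
    om (p := p) x * ((om (p := p) y)⁻¹ * f.1.1 y) = f.1.1 x := by
  rcases placeOf_eq_cases K h with hu | hu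
  · have e : y = y * x⁻¹ * x := by rw [inv_mul_cancel_right]
    have h1 : f.1.1 y = f.1.1 x := by
      rw [e]
      exact coindTriv_apply_mul f.1 hu x
    have h2 : om (p := p) y = om (p := p) x := by
      rw [e, om_mul, om_of_mem K hcyc hu, one_mul]
    rw [h1, h2, mul_inv_cancel_left₀ (om_ne_zero x)]
  · have e : y = y * complexConjugation * x⁻¹ * (x * complexConjugation) := by
      rw [mul_assoc (y * complexConjugation), inv_mul_cancel_left, mul_assoc,
        complexConjugation_mul_self, mul_one]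
    have hodd : f.1.1 (x * complexConjugation) + f.1.1 x = 0 := by
      have h0 := (mem_negEig f.1).1 f.2
      exact congrFun (congrArg Subtype.val h0) x
    have h1 : f.1.1 y = -f.1.1 x := by
      rw [e, coindTriv_apply_mul f.1 hu]
      exact eq_neg_of_add_eq_zero_left hodd
    have h2 : om (p := p) y = -om (p := p) x := by
      rw [e, om_mul, om_of_mem K hcyc hu, one_mul, om_mul, om_conj, mul_neg, mul_one]
    rw [h1, h2, inv_neg, neg_mul_neg, mul_inv_cancel_left₀ (om_ne_zero x)]

theorem kapL_bijective [NumberField K] (hcyc : cycloField p ≤ K) :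
    Function.Bijective (kapL K hcyc) := by
  constructor
  · rw [injective_iff_map_eq_zero]
    intro F hF
    funext w
    obtain ⟨x, rfl⟩ := placeOf_surjective K w
    have h1 : om (p := p) x * F (placeOf K x) = 0 :=
      congrFun (congrArg (fun y : ↥(negEig (M0 (ZMod p) K.fixingSubgroup)) => y.1.1) hF) x
    exact (mul_eq_zero.1 h1).resolve_left (om_ne_zero x)
  · intro f
    choose xw hxw using placeOf_surjective K
    refine ⟨fun w => (om (p := p) (xw w))⁻¹ * f.1.1 (xw w), ?_⟩
    apply Subtype.ext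
    apply Subtype.ext
    funext x
    show om (p := p) x * ((om (p := p) (xw (placeOf K x)))⁻¹ * f.1.1 (xw (placeOf K x))) = f.1.1 x
    exact odd_apply_of_placeOf_eq K hcyc f (hxw (placeOf K x)).symm

/-! ### The seam -/

/-- **Seam (v), the real place.**  The `(-1)`-eigenspace of complex conjugation on `M0(K)` is the
permutation module on the infinite places of `K`, for the `ω`-twisted action of the normaliser
of `G_K`. -/
theorem seamArch_of_cyc [NumberField K] (hcyc : cycloField p ≤ K) : SeamArch (p := p) K := by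
  refine ⟨LinearEquiv.ofBijective (kapL K hcyc) (kapL_bijective K hcyc), fun g F => ?_⟩
  apply Subtype.ext
  apply Subtype.ext
  funext x
  show om (p := p) x * (infRep (p := p) K (resNrm K g) F) (placeOf K x) =
    om (p := p) (g : GQ) *
      (om (p := p) ((g : GQ)⁻¹ * x) * F (placeOf K ((g : GQ)⁻¹ * x)))
  rw [infRep_apply, placeOf_inv_mul, ← mul_assoc, om_mul_inv_mul]

/-- **`SeamArch`** with the binders of the EC ruling (`p ≠ 2` is not used: for `p = 2` the
statement reads "the `c`-invariants of `M0(K)` are the functions on the infinite places"). -/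
theorem seamArch [NumberField K] (_hp2 : p ≠ 2) (hcyc : cycloField p ≤ K) :
    SeamArch (p := p) K :=
  seamArch_of_cyc K hcyc

end Fermat.Agent.S56.EC.Arch
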