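/-
S56 / brick EC.6a (glue), TERM (iii) OF `EPSigma` IN THE `ε`-FORM (helper276, own risk).

`K ≤ ℚ̄` a number field containing `μ_p`, `A = M0(K) = coind_{G_K}^{G_ℚ} 𝔽_p`, `Γ = Aut(K/ℚ)`,
`Tmor γ = ω(γ) • lt (gN γ)` the twisted translations of `EC/Twist`, `θ` the self-duality of
`S55/Glue/CoindDual` and `adj` the adjoint of `EC/DualSide`.

* `resNrm_gN`          : `resNrm (gN γ) = γ`;
* `adj_comb_Tmor`      : `adj (∑ γ, x γ • Tmor γ) = ∑ γ, x γ • lt (gN γ)⁻¹` (NO character left);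
* `H0map_res_adj_comb` : on `H⁰(H, Res_r A)` the adjoint acts as
  `comb (γ ↦ actLH0 (gN γ)⁻¹) x`;
* `permTS`, `permL`    : the permutation `w ↦ γ w` of the primes of `K` above `S` and the operator
  `F ↦ (w ↦ F (γ w))` on the functions on them; `pairTS` the standard pairing;
* `locH0SEquiv_comb`   : under `PlacesDictS.locH0SEquiv` the diagonal operator becomes
  `comb (permL) x`;
* `sum_loc_rank`       : **term (iii)**: for a family presentation `a, b` of `X` with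
  `a j ≫ b i = ∑ γ, ε i j γ • Tmor γ`,
  `∑_{q ∈ S} rk (H⁰(G_q, adj (a i ≫ b j)))_{ij} = rk ρ_pl ε`,
  `ρ_pl` the permutation representation `(τ f)(w) = f (τ⁻¹ w)` of `Γ` on the functions on the
  primes of `K` above `S` (the `ρ_pl` of `UnitRankE.eRank_units_fun`, verbatim).
-/
import Fermat.Agent.S56.EC.DualSide
import Fermat.Agent.S56.EC.Twist
import Fermat.Agent.S56.EC.PlacesDictS
import Fermat.Agent.CFT.Global.CountV

set_option autoImplicit false

open scoped NumberField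
open CategoryTheory IsDedekindDomain ExtCitation

namespace Fermat.Agent.S56.EC.LocSide

open Fermat.Agent.S55 Fermat.Agent.S55.Abs Fermat.Agent.S55.Glue
  Fermat.Agent.CFT.Global.GalPrime
  Fermat.Agent.S56.EC.CoindAction Fermat.Agent.S56.EC.RetractRank Fermat.Agent.S56.EC.RankAdapt
  Fermat.Agent.S56.EC.Twist Fermat.Agent.S56.EC.DualSide Fermat.Agent.S56.EC.PlacesDictS

local notation "Qb" => AlgebraicClosure ℚ

variable {p : ℕ} [Fact p.Prime] (K : IntermediateField ℚ Qb)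

/-! ### The adjoint of a combination of twisted translations -/

/-- The lift `gN γ` restricts to `γ`. -/
theorem resNrm_gN (γ : ↥K ≃ₐ[ℚ] ↥K) : resNrm K (gN K γ) = γ := by
  apply AlgEquiv.ext
  intro a
  apply Subtype.ext
  rw [← resNrm_apply K (gN K γ) a]
  exact gLift_apply K γ a

theorem gN_injective : Function.Injective (gN K) := fun γ δ h => by
  rw [← resNrm_gN K γ, h, resNrm_gN]

section Adj

variable [FiniteDimensional ℚ K] (hcyc : cycloField p ≤ K)

/-- **The adjoint of `∑ γ, x γ • Tmor γ` is `∑ γ, x γ • lt (gN γ)⁻¹`**: the twist `ω(γ)` of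
`Tmor` cancels the `χ(g)⁻¹` of the adjoint of a left translation. -/
theorem adj_comb_Tmor (hχ : ∀ u ∈ K.fixingSubgroup, cycloChar p u = 1)
    (x : MonoidAlgebra (ZMod p) (↥K ≃ₐ[ℚ] ↥K))
    (φ : M0 (ZMod p) K.fixingSubgroup ⟶ M0 (ZMod p) K.fixingSubgroup)
    (hφ : φ = x.coeff.sum fun γ c => c • Tmor K hcyc γ) (f : M0 (ZMod p) K.fixingSubgroup) :
    (adj (cycloChar p) (CoindDual.dualTwistIso (U := K.fixingSubgroup) (cycloChar p) hχ) φ).hom f =
      x.coeff.sum fun γ c => c • (lt K.fixingSubgroup (ZMod p) (gN K γ)⁻¹).hom f := by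
  classical
  subst hφ
  have hinj := gN_injective K
  have h1 : ∀ f, (x.coeff.sum fun γ c => c • Tmor K hcyc γ).hom f =
      ∑ g ∈ x.coeff.support.image (gN K),
        (x.coeff (resNrm K g) * ((chiK K hcyc (resNrm K g) : (ZMod p)ˣ) : ZMod p)) •
          (lt K.fixingSubgroup (ZMod p) g).hom f := by
    intro f
    rw [Finset.sum_image (fun γ _ δ _ h => hinj h)]
    have e : (x.coeff.sum fun γ c => c • Tmor K hcyc γ).hom f =
        homL _ _ (x.coeff.sum fun γ c => c • Tmor K hcyc γ) f := rfl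
    rw [e, Finsupp.sum, map_sum, LinearMap.sum_apply]
    refine Finset.sum_congr rfl fun γ _ => ?_
    rw [map_smul, LinearMap.smul_apply, homL_apply, Tmor_hom_apply, smul_smul, resNrm_gN]
  rw [adj_lt_sum (cycloChar p) hχ _ _ _ h1 f, Finset.sum_image (fun γ _ δ _ h => hinj h),
    Finsupp.sum]
  refine Finset.sum_congr rfl fun γ _ => ?_
  congr 1
  rw [resNrm_gN, chiK_apply, gN_coe, mul_assoc, ← Units.val_mul, mul_inv_cancel, Units.val_one,
    mul_one]

/-- On `H⁰(H, Res_r M0(K))` the adjoint of `∑ γ, x γ • Tmor γ` is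
`∑ γ, x γ • actLH0 (gN γ)⁻¹`. -/
theorem H0map_res_adj_comb (hχ : ∀ u ∈ K.fixingSubgroup, cycloChar p u = 1)
    {H : Type} [Group H] (r : H →* GQ)
    (x : MonoidAlgebra (ZMod p) (↥K ≃ₐ[ℚ] ↥K))
    (φ : M0 (ZMod p) K.fixingSubgroup ⟶ M0 (ZMod p) K.fixingSubgroup)
    (hφ : φ = x.coeff.sum fun γ c => c • Tmor K hcyc γ)
    (y : Abs.H0 (Rep.res r (M0 (ZMod p) K.fixingSubgroup))) :
    H0map (Rep.resMap r
        (adj (cycloChar p) (CoindDual.dualTwistIso (U := K.fixingSubgroup) (cycloChar p) hχ) φ)) y =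
      comb (fun γ => (actLH0 K.fixingSubgroup (ZMod p) r (gN K γ)⁻¹ :
        Abs.H0 (Rep.res r (M0 (ZMod p) K.fixingSubgroup)) →ₗ[ZMod p]
          Abs.H0 (Rep.res r (M0 (ZMod p) K.fixingSubgroup)))) x y := by
  rw [comb_apply]
  apply Subtype.ext
  rw [H0map_apply_coe]
  have h := adj_comb_Tmor K hcyc hχ x φ hφ y.1
  refine h.trans ?_
  rw [Finsupp.sum, Finsupp.sum, Submodule.coe_sum]
  rfl

end Adj

/-! ### The permutation action on the primes above `S` -/

section Perm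

variable [NumberField K] (S : Finset Nat.Primes)

theorem finite_TS : Finite ↥(TS K S) :=
  (Fermat.Agent.CFT.Global.CountV.finite_SKset S K).to_subtype

/-- The permutation `w ↦ γ w` of the primes of `K` above `S`. -/
noncomputable def permTS (γ : ↥K ≃ₐ[ℚ] ↥K) : ↥(TS K S) ≃ ↥(TS K S) where
  toFun w := ⟨galPrime γ w.1, galPrime_mem_TS K S γ w.1 w.2⟩
  invFun w := ⟨galPrime γ⁻¹ w.1, galPrime_mem_TS K S γ⁻¹ w.1 w.2⟩
  left_inv w := by
    apply Subtype.ext
    show galPrime γ⁻¹ (galPrime γ w.1) = w.1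
    rw [← galPrime_mul, inv_mul_cancel, galPrime_one]
  right_inv w := by
    apply Subtype.ext
    show galPrime γ (galPrime γ⁻¹ w.1) = w.1
    rw [← galPrime_mul, mul_inv_cancel, galPrime_one]

theorem permTS_apply (γ : ↥K ≃ₐ[ℚ] ↥K) (w : ↥(TS K S)) :
    permTS K S γ w = ⟨galPrime γ w.1, galPrime_mem_TS K S γ w.1 w.2⟩ := rfl

theorem permTS_symm_apply (γ : ↥K ≃ₐ[ℚ] ↥K) (w : ↥(TS K S)) :
    (permTS K S γ).symm w = ⟨galPrime γ⁻¹ w.1, galPrime_mem_TS K S γ⁻¹ w.1 w.2⟩ := rfl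

variable (k : Type) [Field k]

/-- The operator `F ↦ (w ↦ F (γ w))` on the functions on the primes of `K` above `S`. -/
noncomputable def permL (γ : ↥K ≃ₐ[ℚ] ↥K) : (↥(TS K S) → k) →ₗ[k] (↥(TS K S) → k) :=
  LinearMap.funLeft k k (permTS K S γ)

theorem permL_apply (γ : ↥K ≃ₐ[ℚ] ↥K) (F : ↥(TS K S) → k) (w : ↥(TS K S)) :
    permL K S k γ F w = F ⟨galPrime γ w.1, galPrime_mem_TS K S γ w.1 w.2⟩ := rfl

/-- The standard pairing `∑ w, F w * F' w` on the functions on the primes of `K` above `S`. -/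
noncomputable def pairTS [Fintype ↥(TS K S)] : (↥(TS K S) → k) →ₗ[k] (↥(TS K S) → k) →ₗ[k] k :=
  LinearMap.mk₂ k (fun F F' => ∑ w, F w * F' w)
    (fun F₁ F₂ F' => by simp [add_mul, Finset.sum_add_distrib])
    (fun c F F' => by simp [Finset.mul_sum, mul_assoc])
    (fun F F₁ F₂ => by simp [mul_add, Finset.sum_add_distrib])
    (fun c F F' => by simp [Finset.mul_sum, mul_left_comm])

omit [NumberField K] in
theorem pairTS_apply [Fintype ↥(TS K S)] (F F' : ↥(TS K S) → k) :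
    pairTS K S k F F' = ∑ w, F w * F' w := rfl

omit [NumberField K] in
theorem pairTS_left [Fintype ↥(TS K S)] (F : ↥(TS K S) → k)
    (h : ∀ F', pairTS K S k F F' = 0) : F = 0 := by
  classical
  funext w
  have h1 := h (Pi.single w 1)
  rw [pairTS_apply, Finset.sum_eq_single w] at h1
  · simpa using h1
  · intro w' _ hw'
    rw [Pi.single_eq_of_ne hw', mul_zero]
  · intro h'
    exact absurd (Finset.mem_univ w) h'

omit [NumberField K] in
theorem pairTS_right [Fintype ↥(TS K S)] (F' : ↥(TS K S) → k)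
    (h : ∀ F, pairTS K S k F F' = 0) : F' = 0 := by
  classical
  funext w
  have h1 := h (Pi.single w 1)
  rw [pairTS_apply, Finset.sum_eq_single w] at h1
  · simpa using h1
  · intro w' _ hw'
    rw [Pi.single_eq_of_ne hw', zero_mul]
  · intro h'
    exact absurd (Finset.mem_univ w) h'

/-- The permutation representation `(τ F)(w) = F (τ⁻¹ w)` is adjoint to `permL`. -/
theorem pairTS_adjoint [Fintype ↥(TS K S)]
    (ρ_pl : Representation k (↥K ≃ₐ[ℚ] ↥K) (↥(TS K S) → k))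
    (hρ_pl : ∀ (τ : ↥K ≃ₐ[ℚ] ↥K) (f : ↥(TS K S) → k) (v : ↥(TS K S)),
      ρ_pl τ f v = f ⟨galPrime τ⁻¹ v.1, galPrime_mem_TS K S τ⁻¹ v.1 v.2⟩)
    (γ : ↥K ≃ₐ[ℚ] ↥K) (F F' : ↥(TS K S) → k) :
    pairTS K S k (ρ_pl γ F) F' = pairTS K S k F (permL K S k γ F') := by
  rw [pairTS_apply, pairTS_apply, ← Equiv.sum_comp (permTS K S γ)]
  refine Finset.sum_congr rfl fun w _ => ?_
  rw [hρ_pl]
  have e : (⟨galPrime γ⁻¹ (permTS K S γ w).1,
      galPrime_mem_TS K S γ⁻¹ (permTS K S γ w).1 (permTS K S γ w).2⟩ : ↥(TS K S)) = w :=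
    (permTS K S γ).symm_apply_apply w
  rw [e]
  rfl

end Perm

/-! ### Term (iii) -/

section Main

variable [NumberField K] (S : Finset Nat.Primes) (hcyc : cycloField p ≤ K)

/-- Under `locH0SEquiv` the diagonal operator `comb (γ ↦ actLH0 (gN γ)⁻¹) x` on
`∏_{q ∈ S} H⁰(G_q, M0(K))` becomes `comb permL x` on the functions on the primes above `S`. -/
theorem locH0SEquiv_comb (x : MonoidAlgebra (ZMod p) (↥K ≃ₐ[ℚ] ↥K))
    (y : (q : ↥S) → Abs.H0 (Rep.res (primeLocalToGlobal q.1) (M0 (ZMod p) K.fixingSubgroup))) :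
    locH0SEquiv K S (ZMod p) (fun q =>
        comb (fun γ => (actLH0 K.fixingSubgroup (ZMod p) (primeLocalToGlobal q.1) (gN K γ)⁻¹ :
          Abs.H0 (Rep.res (primeLocalToGlobal q.1) (M0 (ZMod p) K.fixingSubgroup)) →ₗ[ZMod p]
            Abs.H0 (Rep.res (primeLocalToGlobal q.1) (M0 (ZMod p) K.fixingSubgroup)))) x (y q)) =
      comb (permL K S (ZMod p)) x (locH0SEquiv K S (ZMod p) y) := by
  have e : (fun q : ↥S =>
        comb (fun γ => (actLH0 K.fixingSubgroup (ZMod p) (primeLocalToGlobal q.1) (gN K γ)⁻¹ :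
          Abs.H0 (Rep.res (primeLocalToGlobal q.1) (M0 (ZMod p) K.fixingSubgroup)) →ₗ[ZMod p]
            Abs.H0 (Rep.res (primeLocalToGlobal q.1) (M0 (ZMod p) K.fixingSubgroup)))) x (y q)) =
      ∑ γ ∈ x.coeff.support, x.coeff γ • (fun q : ↥S =>
        actLH0 K.fixingSubgroup (ZMod p) (primeLocalToGlobal q.1) (gN K γ)⁻¹ (y q)) := by
    funext q
    rw [comb_apply, Finsupp.sum, Finset.sum_apply]
    rfl
  have hlin : ∀ z, locH0SEquiv (k := ZMod p) K S (ZMod p) z =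
      (locH0SEquiv (k := ZMod p) K S (ZMod p)).toLinearMap z := fun _ => rfl
  rw [e, hlin, map_sum, comb_apply, Finsupp.sum]
  refine Finset.sum_congr rfl fun γ _ => ?_
  rw [map_smul]
  congr 1
  funext w
  show locH0SEquiv (k := ZMod p) K S (ZMod p) _ w = _
  have hg : ∀ a : ↥K, (((gN K γ)⁻¹ : ↥(Nrm K.fixingSubgroup)) : GQ) (a : Qb) =
      ((γ⁻¹ a : ↥K) : Qb) := fun a => inv_apply_of_restrict K γ (gLift_apply K γ) a
  rw [locH0SEquiv_actLH0 K S (ZMod p) (gN K γ)⁻¹ γ⁻¹ hg y w, permL_apply]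
  rfl

/-- **Term (iii) of `EPSigma`**: for a family presentation `a, b` of `X` over `M0(K)` whose
idempotent matrix is `a j ≫ b i = ∑ γ, ε i j γ • Tmor γ`, the sum over `q ∈ S` of the ranks of
the matrix operators `(H⁰(G_q, adj (a i ≫ b j)))_{ij}` is the rank of `ε` on the permutation
representation of `Γ` on the functions on the primes of `K` above `S`. -/
theorem sum_loc_rank (hχ : ∀ u ∈ K.fixingSubgroup, cycloChar p u = 1)
    {n : ℕ} {X : Rep.{0} (ZMod p) GQ}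
    (a : Fin n → (M0 (ZMod p) K.fixingSubgroup ⟶ X))
    (b : Fin n → (X ⟶ M0 (ZMod p) K.fixingSubgroup))
    (ε : Matrix (Fin n) (Fin n) (MonoidAlgebra (ZMod p) (↥K ≃ₐ[ℚ] ↥K)))
    (hε : ∀ i j, a j ≫ b i = (ε i j).coeff.sum fun γ c => c • Tmor K hcyc γ)
    (ρ_pl : Representation (ZMod p) (↥K ≃ₐ[ℚ] ↥K) (↥(TS K S) → ZMod p))
    (hρ_pl : ∀ (τ : ↥K ≃ₐ[ℚ] ↥K) (f : ↥(TS K S) → ZMod p) (v : ↥(TS K S)),
      ρ_pl τ f v = f ⟨galPrime τ⁻¹ v.1, galPrime_mem_TS K S τ⁻¹ v.1 v.2⟩) :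
    ∑ v : ↥S, Module.finrank (ZMod p) ↥(LinearMap.range (famOp fun i j =>
        H0map (Rep.resMap (primeLocalToGlobal v.1)
          (adj (cycloChar p) (CoindDual.dualTwistIso (U := K.fixingSubgroup) (cycloChar p) hχ)
            (a i ≫ b j))))) =
      rk ρ_pl ε := by
  classical
  have : Finite ↥(TS K S) := finite_TS K S
  have : Fintype ↥(TS K S) := Fintype.ofFinite _
  have hfinProd : Module.Finite (ZMod p)
      ((q : ↥S) → Abs.H0 (Rep.res (primeLocalToGlobal q.1) (M0 (ZMod p) K.fixingSubgroup))) :=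
    Module.Finite.equiv (locH0SEquiv K S (ZMod p)).symm
  have hfin : ∀ v : ↥S, Module.Finite (ZMod p)
      (Abs.H0 (Rep.res (primeLocalToGlobal v.1) (M0 (ZMod p) K.fixingSubgroup))) := fun v =>
    Module.Finite.of_surjective
      (LinearMap.proj (R := ZMod p) (φ := fun q : ↥S =>
        Abs.H0 (Rep.res (primeLocalToGlobal q.1) (M0 (ZMod p) K.fixingSubgroup))) v)
      (LinearMap.proj_surjective v)
  have hv : ∀ v : ↥S, (fun i j => H0map (Rep.resMap (primeLocalToGlobal v.1)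
        (adj (cycloChar p) (CoindDual.dualTwistIso (U := K.fixingSubgroup) (cycloChar p) hχ)
          (a i ≫ b j)))) =
      fun i j => comb (fun γ =>
        (actLH0 K.fixingSubgroup (ZMod p) (primeLocalToGlobal v.1) (gN K γ)⁻¹ :
          Abs.H0 (Rep.res (primeLocalToGlobal v.1) (M0 (ZMod p) K.fixingSubgroup)) →ₗ[ZMod p]
            Abs.H0 (Rep.res (primeLocalToGlobal v.1) (M0 (ZMod p) K.fixingSubgroup)))) (ε j i) := by
    intro v
    funext i j
    apply LinearMap.ext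
    intro y
    exact H0map_res_adj_comb K hcyc hχ (primeLocalToGlobal v.1) (ε j i) (a i ≫ b j) (hε j i) y
  rw [Finset.sum_congr rfl fun v _ => by rw [hv v]]
  rw [← finrank_range_famOp_pi (k := ZMod p) (fun (v : ↥S) i j => comb (fun γ =>
        (actLH0 K.fixingSubgroup (ZMod p) (primeLocalToGlobal v.1) (gN K γ)⁻¹ :
          Abs.H0 (Rep.res (primeLocalToGlobal v.1) (M0 (ZMod p) K.fixingSubgroup)) →ₗ[ZMod p]
            Abs.H0 (Rep.res (primeLocalToGlobal v.1) (M0 (ZMod p) K.fixingSubgroup)))) (ε j i))]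
  rw [rk_eq_of_adjoint ρ_pl (permL K S (ZMod p)) (pairTS K S (ZMod p))
    (pairTS_left K S (ZMod p)) (pairTS_right K S (ZMod p))
    (pairTS_adjoint K S (ZMod p) ρ_pl hρ_pl) ε]
  exact finrank_range_famOp_eq_of_equiv (locH0SEquiv K S (ZMod p)) _ _
    (fun i j y => locH0SEquiv_comb K S (ε j i) y)

/-- `sum_loc_rank` in the literal form of the third term of `DualSide.chi2_retract_eq_adj` for
the counting data `dataS p S hpS inv`. -/
theorem sum_loc_rank_dataS (hpS : pPrime p ∈ S) (inv : Count.InvS p S)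
    (hχ : ∀ u ∈ K.fixingSubgroup, cycloChar p u = 1)
    {n : ℕ} {X : Rep.{0} (ZMod p) GQ}
    (a : Fin n → (M0 (ZMod p) K.fixingSubgroup ⟶ X))
    (b : Fin n → (X ⟶ M0 (ZMod p) K.fixingSubgroup))
    (ε : Matrix (Fin n) (Fin n) (MonoidAlgebra (ZMod p) (↥K ≃ₐ[ℚ] ↥K)))
    (hε : ∀ i j, a j ≫ b i = (ε i j).coeff.sum fun γ c => c • Tmor K hcyc γ)
    (ρ_pl : Representation (ZMod p) (↥K ≃ₐ[ℚ] ↥K) (↥(TS K S) → ZMod p))
    (hρ_pl : ∀ (τ : ↥K ≃ₐ[ℚ] ↥K) (f : ↥(TS K S) → ZMod p) (v : ↥(TS K S)),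
      ρ_pl τ f v = f ⟨galPrime τ⁻¹ v.1, galPrime_mem_TS K S τ⁻¹ v.1 v.2⟩) :
    ∑ v, Module.finrank (ZMod p) ↥(LinearMap.range (famOp fun i j =>
        H0map (Rep.resMap ((Count.dataS p S hpS inv).loc v)
          (adj (Count.dataS p S hpS inv).χ
            (CoindDual.dualTwistIso (U := K.fixingSubgroup) (cycloChar p) hχ) (a i ≫ b j))))) =
      rk ρ_pl ε :=
  sum_loc_rank K S hcyc hχ a b ε hε ρ_pl hρ_pl

end Main

end Fermat.Agent.S56.EC.LocSide
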