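/-
S56 / brick EC, row EC.6a (helper39): THE SEAM `SeamUnits` IS A COROLLARY OF `SeamKum`.

`H = H¹(G_S, M0(K))` carries the twisted action `γ ↦ H¹(T_γ)` of `Γ = Aut(K/ℚ)`
(`T_γ = ω(γ) • lt (gN γ)`, `EC/Twist`).  The Kummer map `κ : U_S → H` of `SeamKum` is equivariant
for it, with kernel `p U_S`; its image `V_U` is therefore an incarnation of `U_S / p`, and the rank
identity of `SeamUnits` is `UnitRankE.eRank_units_fun` (helper287).

* `h1Rep K S hcyc` : the representation of `Γ` on `H¹(G_S, M0(K))`;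
* `h1Rep_resNrm`   : `h1Rep (g|_K) = ω(g) • H¹(lt g)` for every `g` normalising `G_K`;
* `seamUnits_of_seamKum` : `SeamKum K S → SeamUnits K S hcyc` (when `H¹(G_S, M0(K))` is finite).
-/
import Fermat.Agent.S56.EC.Seams
import Fermat.Agent.S56.EC.LocSide
import Fermat.Agent.S56.EC.UnitRankE
import Fermat.Agent.CFT.LocalBr.MuEmb

set_option autoImplicit false

open scoped NumberField
open CategoryTheory ExtCitation IsDedekindDomain

namespace Fermat.Agent.S56.EC.UnitsOfKum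

open Fermat.Agent.S55 Fermat.Agent.S55.Abs Fermat.Agent.S55.Count Fermat.Agent.S55.Glue
  Fermat.Agent.S55.Glue.CoindDual
  Fermat.Agent.CFT.Global.CountAbs Fermat.Agent.CFT.Global.TUnitsHerbrand
  Fermat.Agent.CFT.Global.GalPrime
  Fermat.Agent.S56.EC.CoindAction Fermat.Agent.S56.EC.RankAdapt Fermat.Agent.S56.EC.RetractRank
  Fermat.Agent.S56.EC.Twist Fermat.Agent.S56.EC.DualSide Fermat.Agent.S56.EC.PlacesDictS
  Fermat.Agent.S56.EC.Seams Fermat.Agent.S56.EC.IdemRank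

local notation "Qb" => AlgebraicClosure ℚ

variable {p : ℕ} [Fact p.Prime] (K : IntermediateField ℚ Qb) (S : Finset Nat.Primes)

/-- The twisted action of `Γ = Aut(K/ℚ)` on `H¹(G_S, M0(K))`: `γ ↦ H¹(T_γ)`. -/
noncomputable def h1Rep (hcyc : cycloField p ≤ K) :
    Representation (ZMod p) (↥K ≃ₐ[ℚ] ↥K) (H1 (globalLevel S) (M0 (ZMod p) K.fixingSubgroup)) where
  toFun γ := H1map (globalLevel S) (Tmor K hcyc γ)
  map_one' := by
    apply LinearMap.ext
    intro x
    exact H1map_of_hom_id (globalLevel S) (fun m => by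
      have h := congrArg (fun T => T m) (map_one (twRep K hcyc))
      exact h) x
  map_mul' γ δ := by
    apply LinearMap.ext
    intro x
    exact H1map_of_hom_comp (globalLevel S) (fun m => by
      have h := congrArg (fun T => T m) (map_mul (twRep K hcyc) γ δ)
      exact h) x

theorem h1Rep_apply (hcyc : cycloField p ≤ K) (γ : ↥K ≃ₐ[ℚ] ↥K)
    (w : H1 (globalLevel S) (M0 (ZMod p) K.fixingSubgroup)) :
    h1Rep K S hcyc γ w = H1map (globalLevel S) (Tmor K hcyc γ) w := rfl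

/-- `h1Rep (g|_K) = ω(g) • H¹(lt g)` for every `g` normalising `G_K`. -/
theorem h1Rep_resNrm (hcyc : cycloField p ≤ K) (g : ↥(Nrm K.fixingSubgroup))
    (w : H1 (globalLevel S) (M0 (ZMod p) K.fixingSubgroup)) :
    h1Rep K S hcyc (resNrm K g) w =
      om (p := p) (g : GQ) • H1map (globalLevel S) (lt K.fixingSubgroup (ZMod p) g) w := by
  rw [h1Rep_apply]
  have h1 := H1map_eq_of_hom_eq (globalLevel S)
    (φ := Tmor K hcyc (resNrm K g))
    (ψ := om (p := p) (g : GQ) • lt K.fixingSubgroup (ZMod p) g)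
    (fun m => Tmor_hom_eq_of_restrict K hcyc g (resNrm K g) (resNrm_apply K g) m) w
  rw [h1]
  have h2 := (H1mapL (globalLevel S) (M0 (ZMod p) K.fixingSubgroup)
    (M0 (ZMod p) K.fixingSubgroup)).map_smul (om (p := p) (g : GQ))
    (lt K.fixingSubgroup (ZMod p) g)
  exact congrArg (fun T => T w) h2

variable [NumberField K]

/-- **`SeamUnits` from `SeamKum`**: the image of the Kummer map in `H¹(G_S, M0(K))` is an
incarnation of `U_S / p`. -/
theorem seamUnits_of_seamKum (hcyc : cycloField p ≤ K)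
    [Module.Finite (ZMod p) (H1 (globalLevel S) (M0 (ZMod p) K.fixingSubgroup))]
    (hKum : SeamKum (p := p) K S) : SeamUnits (p := p) K S hcyc := by
  classical
  obtain ⟨κ, hκ0, hκg⟩ := hKum
  haveI : Finite ↥(TS K S) := LocSide.finite_TS K S
  letI : Fintype ↥(TS K S) := Fintype.ofFinite _
  have hκe : ∀ (τ : ↥K ≃ₐ[ℚ] ↥K) (x : Additive ((TS K S).unit ↥K)),
      κ (Additive.ofMul (galTU (galStable_TS K S) τ x.toMul)) = h1Rep K S hcyc τ (κ x) := by
    intro τ x
    have h := hκg (gN K τ) x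
    have h' := h1Rep_resNrm K S hcyc (gN K τ) (κ x)
    rw [LocSide.resNrm_gN] at h h'
    rw [h, h']
  let W : Submodule (ZMod p) (H1 (globalLevel S) (M0 (ZMod p) K.fixingSubgroup)) :=
    AddSubgroup.toZModSubmodule p κ.range
  have hW : ∀ g : ↥K ≃ₐ[ℚ] ↥K, W ≤ W.comap (h1Rep K S hcyc g) := by
    rintro g _ ⟨x, rfl⟩
    show h1Rep K S hcyc g (κ x) ∈ W
    rw [← hκe]
    exact ⟨_, rfl⟩
  let ρ_U : Representation (ZMod p) (↥K ≃ₐ[ℚ] ↥K) W := (h1Rep K S hcyc).subrepresentation W hW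
  let b_U : Additive ((TS K S).unit ↥K) →+ W :=
    { toFun := fun x => ⟨κ x, ⟨x, rfl⟩⟩
      map_zero' := Subtype.ext (map_zero κ)
      map_add' := fun x y => Subtype.ext (map_add κ x y) }
  have hb_U : Function.Surjective b_U := by
    rintro ⟨_, ⟨x, rfl⟩⟩
    exact ⟨x, rfl⟩
  have hk_U : ∀ x : Additive ((TS K S).unit ↥K), b_U x = 0 ↔ ∃ y, p • y = x := by
    intro x
    rw [← hκ0]
    exact Subtype.ext_iff
  have he_U : ∀ (τ : ↥K ≃ₐ[ℚ] ↥K) (x : Additive ((TS K S).unit ↥K)),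
      b_U (Additive.ofMul (galTU (galStable_TS K S) τ x.toMul)) = ρ_U τ (b_U x) :=
    fun τ x => Subtype.ext (hκe τ x)
  obtain ⟨ζ, hζ⟩ := exists_primitiveRoot_of_cycloField_le (p := p) K hcyc
  have hχ : ∀ τ : ↥K ≃ₐ[ℚ] ↥K, τ ζ = ζ ^ (((chiK K hcyc τ : (ZMod p)ˣ) : ZMod p)).val := by
    intro τ
    apply Subtype.ext
    have h1 : ((ζ : ↥K) : Qb) ^ p = 1 := by
      have h := congrArg (fun z : ↥K => (z : Qb)) hζ.pow_eq_one
      exact h
    have h2 := Fermat.Agent.CFT.LocalBr.cycloChar_spec p (gLift K τ) h1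
    rw [gLift_apply] at h2
    rw [h2]
    rfl
  refine ⟨↥W, inferInstance, inferInstance, inferInstance, ρ_U, b_U, hb_U, hk_U, he_U,
    fun n ε hε => ?_⟩
  have key := UnitRankE.eRank_units_fun (galStable_TS K S) p ρ_U b_U hb_U hk_U he_U ζ hζ
    (fun τ => ((chiK K hcyc τ : (ZMod p)ˣ) : ZMod p)) hχ
    (chiRep K hcyc) (fun τ c => chiRep_apply K hcyc τ c)
    (infRep K) (fun τ f w => rfl) (finRep K S) (fun τ f v => rfl) ε hε
  rw [add_assoc]
  exact key

end Fermat.Agent.S56.EC.UnitsOfKum
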