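/-
S56 / brick EC (helper39, EC architect): THE EXIT OF BRICK EC FROM THREE SEAMS.

`SeamUnits` is a corollary of `SeamKum` (`EC/UnitsOfKum`), so `ECExit` and `EPSigma` follow from
the three seams `SeamKum`, `SeamArch`, `SeamLoc` of `EC/Seams.lean`, asked exactly where `EPSigma`
is used: `p` odd, `p ∈ S`, `K` a number field unramified outside `S` containing `μ_p`,
`Cl_K = Cl_K^p ⟨S_K⟩`.
-/
import Fermat.Agent.S56.EC.ExitOfSeams
import Fermat.Agent.S56.EC.UnitsOfKum

set_option autoImplicit false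

open scoped NumberField
open CategoryTheory ExtCitation IsDedekindDomain

namespace Fermat.Agent.S56.EC.ExitOfThree

open Fermat.Agent.S55 Fermat.Agent.S55.Abs Fermat.Agent.S55.Count Fermat.Agent.S55.Glue
  Fermat.Agent.CFT.Global.CountV Fermat.Agent.CFT.Global.SelmerCount
  Fermat.Agent.S56.EC.Seams Fermat.Agent.S56.EC.ExitOfSeams

local notation "Qb" => AlgebraicClosure ℚ

/-- The three seams `SeamKum`, `SeamArch`, `SeamLoc`, at every place where `EPSigma` consumes
them. -/
def ThreeSeams : Prop :=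
  ∀ (p : ℕ) [Fact p.Prime], p ≠ 2 → ∀ (S : Finset Nat.Primes), pPrime p ∈ S →
    ∀ (K : IntermediateField ℚ Qb) [NumberField K], K.IsUnramifiedOutside S →
    ∀ (hcyc : cycloField p ≤ K), (clS (𝓞 K) p (SK S K)).index = 1 →
      SeamKum (p := p) K S ∧ SeamArch (p := p) K ∧ SeamLoc (p := p) K S hcyc

/-- The fourth seam `SeamUnits` follows from `SeamKum`. -/
theorem allSeams_of_three (h : ThreeSeams) : AllSeams := by
  intro p _ hp2 S hpS K _ hK hcyc h1
  obtain ⟨hKum, hArch, hLoc⟩ := h p hp2 S hpS K hK hcyc h1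
  obtain ⟨inv, hyp, -⟩ := Uncond.exists_inv_hyp hp2 S hpS
  have hfinA : Module.Finite (ZMod p) (M0 (ZMod p) K.fixingSubgroup) := EPLoc.finite_M0 p K
  have hMA : IsDisc (globalLevel S) (M0 (ZMod p) K.fixingSubgroup) :=
    isDisc_coindTriv (globalLevel S) K.fixingSubgroup ⟨_, ⟨K, hK, rfl⟩, le_rfl⟩ (ZMod p)
  have hfinH1 : Module.Finite (ZMod p) (H1 (globalLevel S) (M0 (ZMod p) K.fixingSubgroup)) :=
    hyp.fin_H1 _ hMA
  exact ⟨hKum, hArch, hLoc, UnitsOfKum.seamUnits_of_seamKum K S hcyc hKum⟩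

/-- **`EPSigma` from the three seams.** -/
theorem epSigma_of_three (h : ThreeSeams) : EPSigma :=
  epSigma_of_allSeams (allSeams_of_three h)

/-- **The exit of brick EC from the three seams.** -/
theorem ecExit_of_three (h : ThreeSeams) : ECExit :=
  ecExit_of_allSeams (allSeams_of_three h)

end Fermat.Agent.S56.EC.ExitOfThree
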