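/-
S56, brick EC.1, second file (helper185): THE OPERATOR LAYER of `ProjRank`.

For a ring `R` acting on an additive group `C` (`φ : R →+* AddMonoid.End C`; think of
`R = ℤ[Γ]`), a matrix `E` over `R` acts on `ι → C` (`matOp φ E`).  This file provides the
operators `T` of `ProjRank` in this form, and the "power versions" of its statements: hypotheses
on the `R`-groups themselves, conclusions for `matOp` on the powers.
-/
import Fermat.Agent.S56.EC.ProjRank

set_option autoImplicit false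

namespace Fermat.Agent.S56.EC.ProjRank

/-! ### The action of matrices -/

section MatOp

variable {R : Type*} [Ring R] {ι : Type*} [Fintype ι]
variable {C : Type*} [AddCommGroup C] {C' : Type*} [AddCommGroup C']

/-- The action of a matrix over `R` on `ι → C`, for a ring action `φ` of `R` on `C`. -/
def matOp (φ : R →+* AddMonoid.End C) (E : Matrix ι ι R) : (ι → C) →+ (ι → C) where
  toFun x i := ∑ j, φ (E i j) (x j)
  map_zero' := by
    funext i
    simp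
  map_add' x y := by
    funext i
    simp [Finset.sum_add_distrib]

theorem matOp_apply (φ : R →+* AddMonoid.End C) (E : Matrix ι ι R) (x : ι → C) (i : ι) :
    matOp φ E x i = ∑ j, φ (E i j) (x j) := rfl

/-- Evaluation of a finite sum of endomorphisms. -/
theorem end_sum_apply {κ : Type*} (s : Finset κ) (f : κ → AddMonoid.End C) (c : C) :
    (∑ k ∈ s, f k) c = ∑ k ∈ s, f k c := by
  classical
  induction s using Finset.induction_on with
  | empty => rfl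
  | insert a s ha ih =>
    rw [Finset.sum_insert ha, Finset.sum_insert ha, ← ih]
    rfl

theorem matOp_mul (φ : R →+* AddMonoid.End C) (E E' : Matrix ι ι R) (x : ι → C) :
    matOp φ (E * E') x = matOp φ E (matOp φ E' x) := by
  funext i
  simp only [matOp_apply, Matrix.mul_apply, map_sum, map_mul]
  rw [Finset.sum_comm]
  refine Finset.sum_congr rfl fun j _ => ?_
  rw [end_sum_apply]
  rfl

theorem matOp_sub (φ : R →+* AddMonoid.End C) (E E' : Matrix ι ι R) (x : ι → C) :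
    matOp φ (E - E') x = matOp φ E x - matOp φ E' x := by
  funext i
  simp only [matOp_apply, Matrix.sub_apply, map_sub, Pi.sub_apply, ← Finset.sum_sub_distrib]
  rfl

theorem matOp_nsmul (φ : R →+* AddMonoid.End C) (c : ℕ) (E : Matrix ι ι R) (x : ι → C) :
    matOp φ (c • E) x = c • matOp φ E x := by
  funext i
  simp only [matOp_apply, Matrix.smul_apply, map_nsmul, Pi.smul_apply, Finset.smul_sum]
  rfl

/-- The hypothesis `hT` of `ProjRank` for `T = matOp φ E`, `D = matOp φ d`. -/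
theorem matOp_idem_mod (φ : R →+* AddMonoid.End C) (p : ℕ) (E d : Matrix ι ι R)
    (h : E * E - E = p • d) (x : ι → C) :
    matOp φ E (matOp φ E x) - matOp φ E x = p • matOp φ d x := by
  rw [← matOp_mul, ← matOp_sub, h, matOp_nsmul]

/-- Naturality of `matOp` in `R`-equivariant maps. -/
theorem matOp_natural (φ : R →+* AddMonoid.End C) (φ' : R →+* AddMonoid.End C') (a : C →+ C')
    (ha : ∀ (r : R) (c : C), a (φ r c) = φ' r (a c)) (E : Matrix ι ι R) (x : ι → C) :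
    a.compLeft ι (matOp φ E x) = matOp φ' E (a.compLeft ι x) := by
  funext i
  change a (∑ j, φ (E i j) (x j)) = ∑ j, φ' (E i j) (a (x j))
  rw [map_sum]
  exact Finset.sum_congr rfl fun j _ => ha _ _

end MatOp

/-! ### Powers of maps -/

section Powers

variable {ι : Type*} {A B B' : Type*} [AddCommGroup A] [AddCommGroup B] [AddCommGroup B']

theorem compLeft_injective (a : A →+ B) (ha : Function.Injective a) :
    Function.Injective (a.compLeft ι) := by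
  intro x y h
  funext i
  exact ha (congrFun h i)

theorem compLeft_surjective (a : A →+ B) (ha : Function.Surjective a) :
    Function.Surjective (a.compLeft ι) := by
  intro y
  choose x hx using fun i => ha (y i)
  exact ⟨x, funext hx⟩

/-- Exactness passes to powers. -/
theorem compLeft_exact (f : A →+ B) (g : B →+ B') (hfg : ∀ y : B, g y = 0 ↔ ∃ x, f x = y)
    (y : ι → B) : g.compLeft ι y = 0 ↔ ∃ x, f.compLeft ι x = y := by
  constructor
  · intro h
    choose x hx using fun i => (hfg (y i)).1 (congrFun h i)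
    exact ⟨x, funext hx⟩
  · rintro ⟨x, rfl⟩
    funext i
    exact (hfg _).2 ⟨x i, rfl⟩

/-- `ker = p ·` passes to powers. -/
theorem compLeft_ker_mulp (p : ℕ) (b : A →+ B) (hk : ∀ x : A, b x = 0 ↔ ∃ y, p • y = x)
    (x : ι → A) : b.compLeft ι x = 0 ↔ ∃ y, p • y = x := by
  constructor
  · intro h
    choose y hy using fun i => (hk (x i)).1 (congrFun h i)
    exact ⟨y, funext hy⟩
  · rintro ⟨y, rfl⟩
    funext i
    exact (hk _).2 ⟨y i, rfl⟩

/-- `range = p`-torsion passes to powers. -/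
theorem compLeft_range_tor (p : ℕ) (a : A →+ B) (har : ∀ c : B, p • c = 0 ↔ ∃ v, a v = c)
    (x : ι → B) : p • x = 0 ↔ ∃ n, a.compLeft ι n = x := by
  constructor
  · intro h
    choose n hn using fun i => (har (x i)).1 (congrFun h i)
    exact ⟨n, funext hn⟩
  · rintro ⟨n, rfl⟩
    funext i
    exact (har _).2 ⟨n i, rfl⟩

theorem compLeft_torsion_free (p : ℕ) (htf : ∀ x : A, p • x = 0 → x = 0) (x : ι → A)
    (h : p • x = 0) : x = 0 := by
  funext i
  exact htf _ (congrFun h i)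

/-- A finite-index range stays of finite index on powers. -/
theorem compLeft_range_index_ne_zero [Fintype ι] (f : A →+ B) (hfin : f.range.index ≠ 0) :
    (f.compLeft ι).range.index ≠ 0 := by
  have h : (f.compLeft ι).range = AddSubgroup.pi Set.univ (fun _ : ι => f.range) := by
    ext y
    constructor
    · rintro ⟨x, rfl⟩ i -
      exact ⟨x i, rfl⟩
    · intro hy
      choose x hx using fun i => hy i (Set.mem_univ i)
      exact ⟨x, funext hx⟩
  rw [h, AddSubgroup.index_pi]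
  exact Finset.prod_ne_zero_iff.2 fun _ _ => hfin

end Powers

/-! ### The power versions of (A), (PA'), (LAT), (SES-p) -/

section PowerVersions

variable {R : Type*} [Ring R] {ι : Type*} [Fintype ι]

/-- **(A), `R`-form.**  For a short exact sequence of `R`-groups with `A₂` killed by `p` and a
matrix `E` with `E * E - E = p • d`: `|E A₂^ι| = |E A₁^ι| · |E A₃^ι|`. -/
theorem card_range_matOp_of_exact {A₁ A₂ A₃ : Type*} [AddCommGroup A₁] [AddCommGroup A₂]
    [AddCommGroup A₃] (φ₁ : R →+* AddMonoid.End A₁) (φ₂ : R →+* AddMonoid.End A₂)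
    (φ₃ : R →+* AddMonoid.End A₃) (f : A₁ →+ A₂) (g : A₂ →+ A₃)
    (hf : Function.Injective f) (hg : Function.Surjective g)
    (hfg : ∀ y : A₂, g y = 0 ↔ ∃ x, f x = y)
    (hfφ : ∀ (r : R) (x : A₁), f (φ₁ r x) = φ₂ r (f x))
    (hgφ : ∀ (r : R) (y : A₂), g (φ₂ r y) = φ₃ r (g y))
    (p : ℕ) (hp : ∀ y : A₂, p • y = 0) (E d : Matrix ι ι R) (hE : E * E - E = p • d) :
    Nat.card (matOp φ₂ E).range = Nat.card (matOp φ₁ E).range * Nat.card (matOp φ₃ E).range := by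
  refine card_range_of_exact (f.compLeft ι) (g.compLeft ι) (compLeft_injective f hf)
    (compLeft_surjective g hg) ?_ (matOp φ₁ E) (matOp φ₂ E) (matOp φ₃ E) ?_
    (fun x => matOp_natural φ₁ φ₂ f hfφ E x) (fun x => matOp_natural φ₂ φ₃ g hgφ E x)
  · ext y
    exact ((compLeft_exact f g hfg y).symm)
  · intro x
    have h := matOp_idem_mod φ₂ p E d hE x
    have h0 : p • matOp φ₂ d x = 0 := by
      funext i
      exact hp _
    rw [h0] at h
    exact sub_eq_zero.1 h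

/-- **(PA'), `R`-form.**  `C` a finite `R`-group, `V₁ ≅ C[p]` through `a`, `V₂ ≅ C / pC` through
`b` (equivariant), `E * E - E = p • d`: `|E V₁^ι| = |E V₂^ι|`. -/
theorem card_range_matOp_eq_of_torsion_quot {C V₁ V₂ : Type*} [AddCommGroup C] [Finite C]
    [AddCommGroup V₁] [AddCommGroup V₂] (p : ℕ) [Fact p.Prime]
    (φ : R →+* AddMonoid.End C) (φ₁ : R →+* AddMonoid.End V₁) (φ₂ : R →+* AddMonoid.End V₂)
    (a : V₁ →+ C) (ha : Function.Injective a) (har : ∀ c : C, p • c = 0 ↔ ∃ v, a v = c)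
    (b : C →+ V₂) (hb : Function.Surjective b) (hbk : ∀ c : C, b c = 0 ↔ ∃ c', p • c' = c)
    (haφ : ∀ (r : R) (v : V₁), a (φ₁ r v) = φ r (a v))
    (hbφ : ∀ (r : R) (c : C), b (φ r c) = φ₂ r (b c))
    (E d : Matrix ι ι R) (hE : E * E - E = p • d) :
    Nat.card (matOp φ₁ E).range = Nat.card (matOp φ₂ E).range :=
  card_range_eq_of_torsion_quot p (matOp φ E) (matOp φ d) (matOp_idem_mod φ p E d hE)
    (a.compLeft ι) (compLeft_injective a ha) (compLeft_range_tor p a har)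
    (b.compLeft ι) (compLeft_surjective b hb) (compLeft_ker_mulp p b hbk)
    (matOp φ₁ E) (matOp φ₂ E) (fun n => matOp_natural φ₁ φ a haφ E n)
    (fun x => matOp_natural φ φ₂ b hbφ E x)

/-- **(LAT), `R`-form.**  `f : L₁ → L₂` injective equivariant with finite cokernel, `L₂` without
`p`-torsion, `Vᵢ ≅ Lᵢ / p Lᵢ` through `bᵢ` (equivariant), `V₁` finite, `E * E - E = p • d`:
`|E V₁^ι| = |E V₂^ι|`. -/
theorem card_range_matOp_eq_of_finite_index {L₁ L₂ V₁ V₂ : Type*} [AddCommGroup L₁]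
    [AddCommGroup L₂] [AddCommGroup V₁] [AddCommGroup V₂] [Finite V₁] (p : ℕ) [Fact p.Prime]
    (ψ₁ : R →+* AddMonoid.End L₁) (ψ₂ : R →+* AddMonoid.End L₂)
    (φ₁ : R →+* AddMonoid.End V₁) (φ₂ : R →+* AddMonoid.End V₂)
    (f : L₁ →+ L₂) (hf : Function.Injective f) (hfin : f.range.index ≠ 0)
    (htf : ∀ x : L₂, p • x = 0 → x = 0)
    (hfψ : ∀ (r : R) (x : L₁), f (ψ₁ r x) = ψ₂ r (f x))
    (b₁ : L₁ →+ V₁) (hb₁ : Function.Surjective b₁) (hk₁ : ∀ x : L₁, b₁ x = 0 ↔ ∃ y, p • y = x)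
    (hbφ₁ : ∀ (r : R) (x : L₁), b₁ (ψ₁ r x) = φ₁ r (b₁ x))
    (b₂ : L₂ →+ V₂) (hb₂ : Function.Surjective b₂) (hk₂ : ∀ x : L₂, b₂ x = 0 ↔ ∃ y, p • y = x)
    (hbφ₂ : ∀ (r : R) (x : L₂), b₂ (ψ₂ r x) = φ₂ r (b₂ x))
    (E d : Matrix ι ι R) (hE : E * E - E = p • d) :
    Nat.card (matOp φ₁ E).range = Nat.card (matOp φ₂ E).range :=
  card_range_eq_of_finite_index p (f.compLeft ι) (compLeft_injective f hf)
    (compLeft_range_index_ne_zero f hfin) (compLeft_torsion_free p htf)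
    (matOp ψ₁ E) (matOp ψ₁ d) (matOp_idem_mod ψ₁ p E d hE)
    (matOp ψ₂ E) (matOp ψ₂ d) (matOp_idem_mod ψ₂ p E d hE)
    (fun x => matOp_natural ψ₁ ψ₂ f hfψ E x)
    (b₁.compLeft ι) (compLeft_surjective b₁ hb₁) (compLeft_ker_mulp p b₁ hk₁)
    (b₂.compLeft ι) (compLeft_surjective b₂ hb₂) (compLeft_ker_mulp p b₂ hk₂)
    (matOp φ₁ E) (matOp φ₂ E) (fun x => matOp_natural ψ₁ φ₁ b₁ hbφ₁ E x)
    (fun x => matOp_natural ψ₂ φ₂ b₂ hbφ₂ E x)

/-- **(SES-p), `R`-form.**  `0 → L₁ → L₂ → L₃ → 0` exact equivariant, `L₃` without `p`-torsion,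
`Vᵢ ≅ Lᵢ / p Lᵢ` through `bᵢ` (equivariant), `E * E - E = p • d`:
`|E V₂^ι| = |E V₁^ι| · |E V₃^ι|`. -/
theorem card_range_matOp_mod_of_exact {L₁ L₂ L₃ V₁ V₂ V₃ : Type*} [AddCommGroup L₁]
    [AddCommGroup L₂] [AddCommGroup L₃] [AddCommGroup V₁] [AddCommGroup V₂] [AddCommGroup V₃]
    (p : ℕ) (ψ₁ : R →+* AddMonoid.End L₁) (ψ₂ : R →+* AddMonoid.End L₂)
    (ψ₃ : R →+* AddMonoid.End L₃) (φ₁ : R →+* AddMonoid.End V₁) (φ₂ : R →+* AddMonoid.End V₂)
    (φ₃ : R →+* AddMonoid.End V₃)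
    (f : L₁ →+ L₂) (g : L₂ →+ L₃) (hf : Function.Injective f) (hg : Function.Surjective g)
    (hfg : ∀ y : L₂, g y = 0 ↔ ∃ x, f x = y) (htf : ∀ x : L₃, p • x = 0 → x = 0)
    (hfψ : ∀ (r : R) (x : L₁), f (ψ₁ r x) = ψ₂ r (f x))
    (hgψ : ∀ (r : R) (y : L₂), g (ψ₂ r y) = ψ₃ r (g y))
    (b₁ : L₁ →+ V₁) (hb₁ : Function.Surjective b₁) (hk₁ : ∀ x : L₁, b₁ x = 0 ↔ ∃ y, p • y = x)
    (hbφ₁ : ∀ (r : R) (x : L₁), b₁ (ψ₁ r x) = φ₁ r (b₁ x))
    (b₂ : L₂ →+ V₂) (hb₂ : Function.Surjective b₂) (hk₂ : ∀ x : L₂, b₂ x = 0 ↔ ∃ y, p • y = x)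
    (hbφ₂ : ∀ (r : R) (x : L₂), b₂ (ψ₂ r x) = φ₂ r (b₂ x))
    (b₃ : L₃ →+ V₃) (hb₃ : Function.Surjective b₃) (hk₃ : ∀ x : L₃, b₃ x = 0 ↔ ∃ y, p • y = x)
    (hbφ₃ : ∀ (r : R) (x : L₃), b₃ (ψ₃ r x) = φ₃ r (b₃ x))
    (E d : Matrix ι ι R) (hE : E * E - E = p • d) :
    Nat.card (matOp φ₂ E).range = Nat.card (matOp φ₁ E).range * Nat.card (matOp φ₃ E).range :=
  card_range_mod_of_exact p (f.compLeft ι) (g.compLeft ι) (compLeft_injective f hf)
    (compLeft_surjective g hg) (compLeft_exact f g hfg) (compLeft_torsion_free p htf)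
    (matOp ψ₁ E) (matOp ψ₂ E) (matOp ψ₂ d) (matOp ψ₃ E) (matOp_idem_mod ψ₂ p E d hE)
    (fun x => matOp_natural ψ₁ ψ₂ f hfψ E x) (fun x => matOp_natural ψ₂ ψ₃ g hgψ E x)
    (b₁.compLeft ι) (compLeft_surjective b₁ hb₁) (compLeft_ker_mulp p b₁ hk₁)
    (b₂.compLeft ι) (compLeft_surjective b₂ hb₂) (compLeft_ker_mulp p b₂ hk₂)
    (b₃.compLeft ι) (compLeft_surjective b₃ hb₃) (compLeft_ker_mulp p b₃ hk₃)
    (matOp φ₁ E) (matOp φ₂ E) (matOp φ₃ E) (fun x => matOp_natural ψ₁ φ₁ b₁ hbφ₁ E x)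
    (fun x => matOp_natural ψ₂ φ₂ b₂ hbφ₂ E x) (fun x => matOp_natural ψ₃ φ₃ b₃ hbφ₃ E x)

end PowerVersions

/-! ### Lifting idempotent matrices; change of rings -/

section LiftMatrix

variable {ι : Type*} [Fintype ι]

/-- Change of rings: `matOp` along `φ ∘ ρ` is `matOp` of the image matrix. -/
theorem matOp_comp_map {R S : Type*} [Ring R] [Ring S] {C : Type*} [AddCommGroup C]
    (ρ : R →+* S) (φ : S →+* AddMonoid.End C) (E : Matrix ι ι R) :
    matOp (φ.comp ρ) E = matOp φ (E.map ρ) := rfl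

/-- For a surjective ring homomorphism `ρ` whose kernel is contained in `p R`, every idempotent
matrix `e` lifts to `E` with `E * E - E = p • d`. -/
theorem exists_matrix_lift {R S : Type*} [Ring R] [Ring S] (ρ : R →+* S)
    (hρ : Function.Surjective ρ) (p : ℕ) (hker : ∀ x : R, ρ x = 0 → ∃ d : R, x = p • d)
    (e : Matrix ι ι S) (he : e * e = e) :
    ∃ E d : Matrix ι ι R, E.map ρ = e ∧ E * E - E = p • d := by
  classical
  choose E₀ hE₀ using fun ij : ι × ι => hρ (e ij.1 ij.2)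
  let E : Matrix ι ι R := Matrix.of fun i j => E₀ (i, j)
  have hEe : E.map ρ = e := by
    ext i j
    exact hE₀ (i, j)
  have h1 : ρ.mapMatrix (E * E - E) = 0 := by
    rw [map_sub, map_mul, RingHom.mapMatrix_apply, hEe, he, sub_self]
  have h0 : ∀ i j, ρ ((E * E - E) i j) = 0 := fun i j => congrFun (congrFun h1 i) j
  choose d₀ hd₀ using fun ij : ι × ι => hker _ (h0 ij.1 ij.2)
  refine ⟨E, Matrix.of fun i j => d₀ (i, j), hEe, ?_⟩
  ext i j
  exact hd₀ (i, j)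

variable (Γ : Type*) [Monoid Γ] (p : ℕ)

/-- Reduction of coefficients `ℤ[Γ] → (ℤ/p)[Γ]`. -/
noncomputable abbrev redHom : MonoidAlgebra ℤ Γ →+* MonoidAlgebra (ZMod p) Γ :=
  MonoidAlgebra.mapRingHom Γ (Int.castRingHom (ZMod p))

theorem redHom_surjective : Function.Surjective (redHom Γ p) := by
  intro y
  refine ⟨MonoidAlgebra.ofCoeff (y.coeff.mapRange (ZMod.cast : ZMod p → ℤ) ZMod.cast_zero), ?_⟩
  apply MonoidAlgebra.coeff_injective
  ext g
  rw [MonoidAlgebra.coeff_mapRingHom]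
  simp

theorem redHom_ker (x : MonoidAlgebra ℤ Γ) (hx : redHom Γ p x = 0) :
    ∃ d : MonoidAlgebra ℤ Γ, x = p • d := by
  refine ⟨MonoidAlgebra.ofCoeff (x.coeff.mapRange (fun a : ℤ => a / (p : ℤ)) (by simp)), ?_⟩
  apply MonoidAlgebra.coeff_injective
  ext g
  have h1 : ((x.coeff g : ℤ) : ZMod p) = 0 := by
    have h2 := congrArg (fun z : MonoidAlgebra (ZMod p) Γ => z.coeff g) hx
    simpa using h2
  rw [ZMod.intCast_zmod_eq_zero_iff_dvd] at h1
  rw [MonoidAlgebra.coeff_smul]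
  simp only [Finsupp.coe_smul, Pi.smul_apply, Finsupp.mapRange_apply, nsmul_eq_mul]
  exact (Int.mul_ediv_cancel' h1).symm

/-- **Lifting.**  Every idempotent matrix over `(ℤ/p)[Γ]` is the reduction of a matrix `E` over
`ℤ[Γ]` with `E * E - E = p • d`. -/
theorem exists_int_lift (e : Matrix ι ι (MonoidAlgebra (ZMod p) Γ)) (he : e * e = e) :
    ∃ E d : Matrix ι ι (MonoidAlgebra ℤ Γ), E.map (redHom Γ p) = e ∧ E * E - E = p • d :=
  exists_matrix_lift (redHom Γ p) (redHom_surjective Γ p) p (redHom_ker Γ p) e he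

end LiftMatrix

/-! ### Group actions: `ℤ[Γ]` and `(ℤ/p)[Γ]` -/

section GroupAction

variable {Γ : Type*} [Monoid Γ] {C C' : Type*} [AddCommGroup C] [AddCommGroup C']

/-- The action of `ℤ[Γ]` on an additive group with a `Γ`-action by endomorphisms. -/
noncomputable def intAct (α : Γ →* AddMonoid.End C) : MonoidAlgebra ℤ Γ →+* AddMonoid.End C :=
  (MonoidAlgebra.lift ℤ (AddMonoid.End C) Γ α).toRingHom

theorem intAct_of (α : Γ →* AddMonoid.End C) (g : Γ) :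
    intAct α (MonoidAlgebra.of ℤ Γ g) = α g :=
  MonoidAlgebra.lift_of α g

/-- An additive map which commutes with the group elements commutes with all of `ℤ[Γ]`. -/
theorem equivariant_of_of (φ : MonoidAlgebra ℤ Γ →+* AddMonoid.End C)
    (φ' : MonoidAlgebra ℤ Γ →+* AddMonoid.End C') (a : C →+ C')
    (ha : ∀ (g : Γ) (c : C), a (φ (MonoidAlgebra.of ℤ Γ g) c) = φ' (MonoidAlgebra.of ℤ Γ g) (a c))
    (r : MonoidAlgebra ℤ Γ) (c : C) : a (φ r c) = φ' r (a c) := by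
  induction r using MonoidAlgebra.induction_on with
  | of g => exact ha g c
  | add x y hx hy =>
    rw [map_add, map_add]
    change a (φ x c + φ y c) = φ' x (a c) + φ' y (a c)
    rw [map_add, hx, hy]
  | smul n x hx =>
    rw [map_zsmul, map_zsmul]
    change a (n • φ x c) = n • φ' x (a c)
    rw [map_zsmul, hx]

variable (p : ℕ)

theorem comp_redHom_of (β : MonoidAlgebra (ZMod p) Γ →+* AddMonoid.End C) (g : Γ) :
    (β.comp (redHom Γ p)) (MonoidAlgebra.of ℤ Γ g) = β (MonoidAlgebra.of (ZMod p) Γ g) := by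
  change β (redHom Γ p (MonoidAlgebra.of ℤ Γ g)) = _
  congr 1
  simp [redHom, MonoidAlgebra.of_apply]

/-- A group on which `(ℤ/p)[Γ]` acts is killed by `p`. -/
theorem nsmul_eq_zero_of_act (β : MonoidAlgebra (ZMod p) Γ →+* AddMonoid.End C) (c : C) :
    p • c = 0 := by
  have h1 : ((p : ℕ) : MonoidAlgebra (ZMod p) Γ) = 0 := by
    have h2 : ((p : ℕ) : ZMod p) = 0 := ZMod.natCast_self p
    have h3 : ((p : ℕ) : MonoidAlgebra (ZMod p) Γ)
        = algebraMap (ZMod p) (MonoidAlgebra (ZMod p) Γ) ((p : ℕ) : ZMod p) := by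
      rw [map_natCast]
    rw [h3, h2, map_zero]
  have h4 : β ((p : ℕ) : MonoidAlgebra (ZMod p) Γ) c = 0 := by rw [h1, map_zero]; rfl
  rw [map_natCast] at h4
  exact h4

end GroupAction

/-! ### The group forms: idempotent matrices over `(ℤ/p)[Γ]`

`Γ` a monoid.  Integral objects (`C`, `Lᵢ`) carry an action `MonoidAlgebra ℤ Γ →+* AddMonoid.End _`
(for instance `intAct α`), objects killed by `p` (`Vᵢ`) an action
`MonoidAlgebra (ZMod p) Γ →+* AddMonoid.End _`; equivariance is only asked on group elements. -/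

section GroupForms

variable {Γ : Type*} [Monoid Γ] {ι : Type*} [Fintype ι] (p : ℕ)

/-- **(A), group form.** -/
theorem card_range_of_exact_grp {V₁ V₂ V₃ : Type*} [AddCommGroup V₁] [AddCommGroup V₂]
    [AddCommGroup V₃] (β₁ : MonoidAlgebra (ZMod p) Γ →+* AddMonoid.End V₁)
    (β₂ : MonoidAlgebra (ZMod p) Γ →+* AddMonoid.End V₂)
    (β₃ : MonoidAlgebra (ZMod p) Γ →+* AddMonoid.End V₃)
    (f : V₁ →+ V₂) (g : V₂ →+ V₃) (hf : Function.Injective f) (hg : Function.Surjective g)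
    (hfg : ∀ y : V₂, g y = 0 ↔ ∃ x, f x = y)
    (hfβ : ∀ (γ : Γ) (x : V₁), f (β₁ (MonoidAlgebra.of (ZMod p) Γ γ) x)
      = β₂ (MonoidAlgebra.of (ZMod p) Γ γ) (f x))
    (hgβ : ∀ (γ : Γ) (y : V₂), g (β₂ (MonoidAlgebra.of (ZMod p) Γ γ) y)
      = β₃ (MonoidAlgebra.of (ZMod p) Γ γ) (g y))
    (e : Matrix ι ι (MonoidAlgebra (ZMod p) Γ)) (he : e * e = e) :
    Nat.card (matOp β₂ e).range = Nat.card (matOp β₁ e).range * Nat.card (matOp β₃ e).range := by
  obtain ⟨E, d, hE, hEd⟩ := exists_int_lift Γ p e he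
  have key := card_range_matOp_of_exact (β₁.comp (redHom Γ p)) (β₂.comp (redHom Γ p))
    (β₃.comp (redHom Γ p)) f g hf hg hfg
    (equivariant_of_of _ _ f (fun γ x => by rw [comp_redHom_of, comp_redHom_of]; exact hfβ γ x))
    (equivariant_of_of _ _ g (fun γ y => by rw [comp_redHom_of, comp_redHom_of]; exact hgβ γ y))
    p (nsmul_eq_zero_of_act p β₂) E d hEd
  rw [matOp_comp_map, matOp_comp_map, matOp_comp_map, hE] at key
  exact key

/-- **(PA), group form.**  `C` a finite group with `Γ`-action, `V₁ ≅ C[p]`, `V₂ ≅ C / pC`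
equivariantly, `e` an idempotent matrix over `(ℤ/p)[Γ]`: `|e V₁^ι| = |e V₂^ι|`. -/
theorem card_range_eq_of_torsion_quot_grp [Fact p.Prime] {C V₁ V₂ : Type*} [AddCommGroup C]
    [Finite C] [AddCommGroup V₁] [AddCommGroup V₂]
    (φ : MonoidAlgebra ℤ Γ →+* AddMonoid.End C)
    (β₁ : MonoidAlgebra (ZMod p) Γ →+* AddMonoid.End V₁)
    (β₂ : MonoidAlgebra (ZMod p) Γ →+* AddMonoid.End V₂)
    (a : V₁ →+ C) (ha : Function.Injective a) (har : ∀ c : C, p • c = 0 ↔ ∃ v, a v = c)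
    (b : C →+ V₂) (hb : Function.Surjective b) (hbk : ∀ c : C, b c = 0 ↔ ∃ c', p • c' = c)
    (haφ : ∀ (γ : Γ) (v : V₁), a (β₁ (MonoidAlgebra.of (ZMod p) Γ γ) v)
      = φ (MonoidAlgebra.of ℤ Γ γ) (a v))
    (hbφ : ∀ (γ : Γ) (c : C), b (φ (MonoidAlgebra.of ℤ Γ γ) c)
      = β₂ (MonoidAlgebra.of (ZMod p) Γ γ) (b c))
    (e : Matrix ι ι (MonoidAlgebra (ZMod p) Γ)) (he : e * e = e) :
    Nat.card (matOp β₁ e).range = Nat.card (matOp β₂ e).range := by
  obtain ⟨E, d, hE, hEd⟩ := exists_int_lift Γ p e he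
  have key := card_range_matOp_eq_of_torsion_quot p φ (β₁.comp (redHom Γ p))
    (β₂.comp (redHom Γ p)) a ha har b hb hbk
    (equivariant_of_of _ _ a (fun γ v => by rw [comp_redHom_of]; exact haφ γ v))
    (equivariant_of_of _ _ b (fun γ c => by rw [comp_redHom_of]; exact hbφ γ c)) E d hEd
  rw [matOp_comp_map, matOp_comp_map, hE] at key
  exact key

/-- **(LAT), group form.**  `f : L₁ → L₂` injective equivariant with finite cokernel, `L₂`
without `p`-torsion, `Vᵢ ≅ Lᵢ / p Lᵢ` equivariantly, `V₁` finite, `e` an idempotent matrix over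
`(ℤ/p)[Γ]`: `|e V₁^ι| = |e V₂^ι|`. -/
theorem card_range_eq_of_finite_index_grp [Fact p.Prime] {L₁ L₂ V₁ V₂ : Type*} [AddCommGroup L₁]
    [AddCommGroup L₂] [AddCommGroup V₁] [AddCommGroup V₂] [Finite V₁]
    (ψ₁ : MonoidAlgebra ℤ Γ →+* AddMonoid.End L₁) (ψ₂ : MonoidAlgebra ℤ Γ →+* AddMonoid.End L₂)
    (β₁ : MonoidAlgebra (ZMod p) Γ →+* AddMonoid.End V₁)
    (β₂ : MonoidAlgebra (ZMod p) Γ →+* AddMonoid.End V₂)
    (f : L₁ →+ L₂) (hf : Function.Injective f) (hfin : f.range.index ≠ 0)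
    (htf : ∀ x : L₂, p • x = 0 → x = 0)
    (hfψ : ∀ (γ : Γ) (x : L₁), f (ψ₁ (MonoidAlgebra.of ℤ Γ γ) x)
      = ψ₂ (MonoidAlgebra.of ℤ Γ γ) (f x))
    (b₁ : L₁ →+ V₁) (hb₁ : Function.Surjective b₁) (hk₁ : ∀ x : L₁, b₁ x = 0 ↔ ∃ y, p • y = x)
    (hbβ₁ : ∀ (γ : Γ) (x : L₁), b₁ (ψ₁ (MonoidAlgebra.of ℤ Γ γ) x)
      = β₁ (MonoidAlgebra.of (ZMod p) Γ γ) (b₁ x))
    (b₂ : L₂ →+ V₂) (hb₂ : Function.Surjective b₂) (hk₂ : ∀ x : L₂, b₂ x = 0 ↔ ∃ y, p • y = x)
    (hbβ₂ : ∀ (γ : Γ) (x : L₂), b₂ (ψ₂ (MonoidAlgebra.of ℤ Γ γ) x)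
      = β₂ (MonoidAlgebra.of (ZMod p) Γ γ) (b₂ x))
    (e : Matrix ι ι (MonoidAlgebra (ZMod p) Γ)) (he : e * e = e) :
    Nat.card (matOp β₁ e).range = Nat.card (matOp β₂ e).range := by
  obtain ⟨E, d, hE, hEd⟩ := exists_int_lift Γ p e he
  have key := card_range_matOp_eq_of_finite_index p ψ₁ ψ₂ (β₁.comp (redHom Γ p))
    (β₂.comp (redHom Γ p)) f hf hfin htf (equivariant_of_of _ _ f hfψ)
    b₁ hb₁ hk₁ (equivariant_of_of _ _ b₁ (fun γ x => by rw [comp_redHom_of]; exact hbβ₁ γ x))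
    b₂ hb₂ hk₂ (equivariant_of_of _ _ b₂ (fun γ x => by rw [comp_redHom_of]; exact hbβ₂ γ x))
    E d hEd
  rw [matOp_comp_map, matOp_comp_map, hE] at key
  exact key

/-- **(SES-p), group form.**  `0 → L₁ → L₂ → L₃ → 0` exact equivariant, `L₃` without `p`-torsion,
`Vᵢ ≅ Lᵢ / p Lᵢ` equivariantly, `e` an idempotent matrix over `(ℤ/p)[Γ]`:
`|e V₂^ι| = |e V₁^ι| · |e V₃^ι|`. -/
theorem card_range_mod_of_exact_grp {L₁ L₂ L₃ V₁ V₂ V₃ : Type*} [AddCommGroup L₁]
    [AddCommGroup L₂] [AddCommGroup L₃] [AddCommGroup V₁] [AddCommGroup V₂] [AddCommGroup V₃]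
    (ψ₁ : MonoidAlgebra ℤ Γ →+* AddMonoid.End L₁) (ψ₂ : MonoidAlgebra ℤ Γ →+* AddMonoid.End L₂)
    (ψ₃ : MonoidAlgebra ℤ Γ →+* AddMonoid.End L₃)
    (β₁ : MonoidAlgebra (ZMod p) Γ →+* AddMonoid.End V₁)
    (β₂ : MonoidAlgebra (ZMod p) Γ →+* AddMonoid.End V₂)
    (β₃ : MonoidAlgebra (ZMod p) Γ →+* AddMonoid.End V₃)
    (f : L₁ →+ L₂) (g : L₂ →+ L₃) (hf : Function.Injective f) (hg : Function.Surjective g)
    (hfg : ∀ y : L₂, g y = 0 ↔ ∃ x, f x = y) (htf : ∀ x : L₃, p • x = 0 → x = 0)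
    (hfψ : ∀ (γ : Γ) (x : L₁), f (ψ₁ (MonoidAlgebra.of ℤ Γ γ) x)
      = ψ₂ (MonoidAlgebra.of ℤ Γ γ) (f x))
    (hgψ : ∀ (γ : Γ) (y : L₂), g (ψ₂ (MonoidAlgebra.of ℤ Γ γ) y)
      = ψ₃ (MonoidAlgebra.of ℤ Γ γ) (g y))
    (b₁ : L₁ →+ V₁) (hb₁ : Function.Surjective b₁) (hk₁ : ∀ x : L₁, b₁ x = 0 ↔ ∃ y, p • y = x)
    (hbβ₁ : ∀ (γ : Γ) (x : L₁), b₁ (ψ₁ (MonoidAlgebra.of ℤ Γ γ) x)
      = β₁ (MonoidAlgebra.of (ZMod p) Γ γ) (b₁ x))
    (b₂ : L₂ →+ V₂) (hb₂ : Function.Surjective b₂) (hk₂ : ∀ x : L₂, b₂ x = 0 ↔ ∃ y, p • y = x)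
    (hbβ₂ : ∀ (γ : Γ) (x : L₂), b₂ (ψ₂ (MonoidAlgebra.of ℤ Γ γ) x)
      = β₂ (MonoidAlgebra.of (ZMod p) Γ γ) (b₂ x))
    (b₃ : L₃ →+ V₃) (hb₃ : Function.Surjective b₃) (hk₃ : ∀ x : L₃, b₃ x = 0 ↔ ∃ y, p • y = x)
    (hbβ₃ : ∀ (γ : Γ) (x : L₃), b₃ (ψ₃ (MonoidAlgebra.of ℤ Γ γ) x)
      = β₃ (MonoidAlgebra.of (ZMod p) Γ γ) (b₃ x))
    (e : Matrix ι ι (MonoidAlgebra (ZMod p) Γ)) (he : e * e = e) :
    Nat.card (matOp β₂ e).range = Nat.card (matOp β₁ e).range * Nat.card (matOp β₃ e).range := by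
  obtain ⟨E, d, hE, hEd⟩ := exists_int_lift Γ p e he
  have key := card_range_matOp_mod_of_exact p ψ₁ ψ₂ ψ₃ (β₁.comp (redHom Γ p))
    (β₂.comp (redHom Γ p)) (β₃.comp (redHom Γ p)) f g hf hg hfg htf
    (equivariant_of_of _ _ f hfψ) (equivariant_of_of _ _ g hgψ)
    b₁ hb₁ hk₁ (equivariant_of_of _ _ b₁ (fun γ x => by rw [comp_redHom_of]; exact hbβ₁ γ x))
    b₂ hb₂ hk₂ (equivariant_of_of _ _ b₂ (fun γ x => by rw [comp_redHom_of]; exact hbβ₂ γ x))
    b₃ hb₃ hk₃ (equivariant_of_of _ _ b₃ (fun γ x => by rw [comp_redHom_of]; exact hbβ₃ γ x))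
    E d hEd
  rw [matOp_comp_map, matOp_comp_map, matOp_comp_map, hE] at key
  exact key

end GroupForms

/-! ### Adapters to `Representation` and to `Module.finrank` -/

section Rep

/-- The action of the group algebra on a representation, as a ring homomorphism into the
additive endomorphisms. -/
noncomputable def repAct {k : Type*} [CommRing k] {Γ : Type*} [Monoid Γ] {V : Type*}
    [AddCommGroup V] [Module k V] (ρ : Representation k Γ V) :
    MonoidAlgebra k Γ →+* AddMonoid.End V where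
  toFun r := (ρ.asAlgebraHom r).toAddMonoidHom
  map_one' := by rw [map_one]; rfl
  map_mul' x y := by rw [map_mul]; rfl
  map_zero' := by rw [map_zero]; rfl
  map_add' x y := by rw [map_add]; rfl

theorem repAct_apply {k : Type*} [CommRing k] {Γ : Type*} [Monoid Γ] {V : Type*}
    [AddCommGroup V] [Module k V] (ρ : Representation k Γ V) (r : MonoidAlgebra k Γ) (v : V) :
    repAct ρ r v = ρ.asAlgebraHom r v := rfl

theorem repAct_of {k : Type*} [CommRing k] {Γ : Type*} [Monoid Γ] {V : Type*}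
    [AddCommGroup V] [Module k V] (ρ : Representation k Γ V) (g : Γ) (v : V) :
    repAct ρ (MonoidAlgebra.of k Γ g) v = ρ g v := by
  rw [repAct_apply, Representation.asAlgebraHom_of]

theorem matOp_repAct_apply {k : Type*} [CommRing k] {Γ : Type*} [Monoid Γ] {V : Type*}
    [AddCommGroup V] [Module k V] {ι : Type*} [Fintype ι] (ρ : Representation k Γ V)
    (e : Matrix ι ι (MonoidAlgebra k Γ)) (x : ι → V) (i : ι) :
    matOp (repAct ρ) e x i = ∑ j, ρ.asAlgebraHom (e i j) (x j) := rfl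

/-- From cardinals to ranks: if the additive map `T` is the underlying map of the
`ZMod p`-linear map `F` on a finite-dimensional space, then `|T W| = p ^ rank F`. -/
theorem card_range_eq_pow_finrank (p : ℕ) [Fact p.Prime] {W : Type*} [AddCommGroup W]
    [Module (ZMod p) W] [Module.Finite (ZMod p) W] (T : W →+ W) (F : W →ₗ[ZMod p] W)
    (h : ∀ x, T x = F x) :
    Nat.card T.range = p ^ Module.finrank (ZMod p) (LinearMap.range F) := by
  have h1 : Nat.card T.range = Nat.card (LinearMap.range F) := by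
    refine Nat.card_congr (Equiv.subtypeEquivRight fun y => ?_)
    constructor
    · rintro ⟨x, rfl⟩
      exact ⟨x, (h x).symm⟩
    · rintro ⟨x, rfl⟩
      exact ⟨x, h x⟩
  rw [h1, Module.natCard_eq_pow_finrank (K := ZMod p), Nat.card_zmod]

end Rep

end Fermat.Agent.S56.EC.ProjRank
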