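import Fermat.Agent.S56.EC.IdemRank
import Fermat.Agent.S56.EC.ProjRankOp

/-!
# S56 / EC.1 (helper26): the `e`-rank calculus, first half

`eMap ρ e`, `eRank ρ e` are defined in `EC/IdemRank.lean`.  Here (`k` a commutative ring or a
field as needed, `Γ` a monoid, `e e' : Matrix (Fin n) (Fin n) (MonoidAlgebra k Γ)`):

* (R1) `eMap_zero`, `eMap_one`, `eMap_add`, `eMap_sub`, `eMap_smul`, `eMap_mul`, `eMapHom`
  (the ring homomorphism `e ↦ eMap ρ e`), `eMap_idem`, `eMap_eq_matOp` (bridge to
  `ProjRank.matOp (ProjRank.repAct ρ) e`);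
* (R2) `eRank_add_compl` : `eRank ρ e + eRank ρ (1 - e) = n * finrank k V` for `e * e = e`;
* (R3) `asAlgebraHom_natural`, `eMap_natural`, `eRank_le_of_injective`,
  `eRank_le_of_surjective`, `eRank_eq_of_equiv` for equivariant maps;
* (R4) `eRank_exact` : additivity of `eRank · e` in short exact sequences (`e * e = e`);
* (R8) `twAlg ψ` (the algebra endomorphism `γ ↦ ψ γ • γ` of `k[Γ]`), `tw ψ e := e.map (twAlg ψ)`,
  `twRep ψ ρ` (`γ ↦ ψ γ • ρ γ`), `eMap_twRep`, `eRank_twRep`, `eRank_eq_tw_of_twist`, `tw_idem`,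
  `tw_one_sub`;
* bridge to cardinals: `card_range_matOp_repAct` : for `k = ZMod p`,
  `Nat.card (matOp (repAct ρ) e).range = p ^ eRank ρ e`.
-/

set_option autoImplicit false

namespace Fermat.Agent.S56.EC.IdemRank

open Fermat.Agent.S56.EC.ProjRank

section Ring

variable {k Γ V W : Type*} [CommRing k] [Monoid Γ] [AddCommGroup V] [Module k V]
  [AddCommGroup W] [Module k W] {n : ℕ}

/-! ### (R1) `e ↦ eMap ρ e` is a ring homomorphism -/

/-- Bridge to `ProjRank.matOp`. -/
theorem eMap_eq_matOp (ρ : Representation k Γ V) (e : Matrix (Fin n) (Fin n) (MonoidAlgebra k Γ))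
    (v : Fin n → V) : eMap ρ e v = matOp (repAct ρ) e v := by
  funext i
  rw [eMap_apply, matOp_repAct_apply]

theorem eMap_zero (ρ : Representation k Γ V) :
    eMap ρ (0 : Matrix (Fin n) (Fin n) (MonoidAlgebra k Γ)) = 0 := by
  refine LinearMap.ext fun v => funext fun i => ?_
  rw [eMap_apply]
  simp

theorem eMap_one (ρ : Representation k Γ V) :
    eMap ρ (1 : Matrix (Fin n) (Fin n) (MonoidAlgebra k Γ)) = LinearMap.id := by
  refine LinearMap.ext fun v => funext fun i => ?_
  rw [eMap_apply, LinearMap.id_apply, Finset.sum_eq_single i]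
  · rw [Matrix.one_apply_eq, map_one]
    rfl
  · intro j _ hji
    rw [Matrix.one_apply_ne (Ne.symm hji), map_zero]
    rfl
  · intro h
    exact absurd (Finset.mem_univ i) h

theorem eMap_add (ρ : Representation k Γ V) (e e' : Matrix (Fin n) (Fin n) (MonoidAlgebra k Γ)) :
    eMap ρ (e + e') = eMap ρ e + eMap ρ e' := by
  refine LinearMap.ext fun v => funext fun i => ?_
  rw [LinearMap.add_apply, Pi.add_apply, eMap_apply, eMap_apply, eMap_apply,
    ← Finset.sum_add_distrib]
  refine Finset.sum_congr rfl fun j _ => ?_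
  rw [Matrix.add_apply, map_add, LinearMap.add_apply]

theorem eMap_sub (ρ : Representation k Γ V) (e e' : Matrix (Fin n) (Fin n) (MonoidAlgebra k Γ)) :
    eMap ρ (e - e') = eMap ρ e - eMap ρ e' := by
  refine LinearMap.ext fun v => funext fun i => ?_
  rw [LinearMap.sub_apply, Pi.sub_apply, eMap_apply, eMap_apply, eMap_apply,
    ← Finset.sum_sub_distrib]
  refine Finset.sum_congr rfl fun j _ => ?_
  rw [Matrix.sub_apply, map_sub, LinearMap.sub_apply]

theorem eMap_smul (ρ : Representation k Γ V) (c : k)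
    (e : Matrix (Fin n) (Fin n) (MonoidAlgebra k Γ)) : eMap ρ (c • e) = c • eMap ρ e := by
  refine LinearMap.ext fun v => funext fun i => ?_
  rw [LinearMap.smul_apply, Pi.smul_apply, eMap_apply, eMap_apply, Finset.smul_sum]
  refine Finset.sum_congr rfl fun j _ => ?_
  rw [Matrix.smul_apply, map_smul, LinearMap.smul_apply]

theorem eMap_mul_apply (ρ : Representation k Γ V)
    (e e' : Matrix (Fin n) (Fin n) (MonoidAlgebra k Γ)) (v : Fin n → V) :
    eMap ρ (e * e') v = eMap ρ e (eMap ρ e' v) := by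
  rw [eMap_eq_matOp, matOp_mul, ← eMap_eq_matOp, ← eMap_eq_matOp]

theorem eMap_mul (ρ : Representation k Γ V) (e e' : Matrix (Fin n) (Fin n) (MonoidAlgebra k Γ)) :
    eMap ρ (e * e') = eMap ρ e ∘ₗ eMap ρ e' :=
  LinearMap.ext fun v => eMap_mul_apply ρ e e' v

/-- `e ↦ eMap ρ e` as a ring homomorphism `M_n(k[Γ]) →+* End_k(V ^ n)`. -/
noncomputable def eMapHom (ρ : Representation k Γ V) (n : ℕ) :
    Matrix (Fin n) (Fin n) (MonoidAlgebra k Γ) →+* Module.End k (Fin n → V) where
  toFun e := eMap ρ e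
  map_one' := eMap_one ρ
  map_mul' e e' := eMap_mul ρ e e'
  map_zero' := eMap_zero ρ
  map_add' e e' := eMap_add ρ e e'

theorem eMapHom_apply (ρ : Representation k Γ V)
    (e : Matrix (Fin n) (Fin n) (MonoidAlgebra k Γ)) : eMapHom ρ n e = eMap ρ e := rfl

/-- An idempotent matrix acts as an idempotent operator. -/
theorem eMap_idem (ρ : Representation k Γ V) {e : Matrix (Fin n) (Fin n) (MonoidAlgebra k Γ)}
    (he : e * e = e) (v : Fin n → V) : eMap ρ e (eMap ρ e v) = eMap ρ e v := by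
  rw [← eMap_mul_apply, he]

theorem one_sub_idem {e : Matrix (Fin n) (Fin n) (MonoidAlgebra k Γ)} (he : e * e = e) :
    (1 - e) * (1 - e) = 1 - e := by
  have h : IsIdempotentElem e := he
  exact h.one_sub

/-- `eMap ρ (1 - e) = 1 - eMap ρ e`. -/
theorem eMap_one_sub_apply (ρ : Representation k Γ V)
    (e : Matrix (Fin n) (Fin n) (MonoidAlgebra k Γ)) (v : Fin n → V) :
    eMap ρ (1 - e) v = v - eMap ρ e v := by
  rw [eMap_sub, eMap_one, LinearMap.sub_apply, LinearMap.id_apply]

/-! ### (R3) equivariant maps -/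

/-- A linear map commuting with the group elements commutes with the group algebra. -/
theorem asAlgebraHom_natural (ρ : Representation k Γ V) (ρ' : Representation k Γ W)
    (f : V →ₗ[k] W) (hf : ∀ γ v, f (ρ γ v) = ρ' γ (f v)) (a : MonoidAlgebra k Γ) (v : V) :
    f (ρ.asAlgebraHom a v) = ρ'.asAlgebraHom a (f v) := by
  induction a using MonoidAlgebra.induction_on with
  | of γ => rw [Representation.asAlgebraHom_of, Representation.asAlgebraHom_of, hf]
  | add x y hx hy =>
    rw [map_add, map_add, LinearMap.add_apply, LinearMap.add_apply, map_add, hx, hy]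
  | smul c x hx =>
    rw [map_smul, map_smul, LinearMap.smul_apply, LinearMap.smul_apply, map_smul, hx]

/-- Naturality of `eMap` in equivariant maps. -/
theorem eMap_natural (ρ : Representation k Γ V) (ρ' : Representation k Γ W)
    (f : V →ₗ[k] W) (hf : ∀ γ v, f (ρ γ v) = ρ' γ (f v))
    (e : Matrix (Fin n) (Fin n) (MonoidAlgebra k Γ)) (v : Fin n → V) :
    f.compLeft (Fin n) (eMap ρ e v) = eMap ρ' e (f.compLeft (Fin n) v) := by
  funext i
  rw [LinearMap.compLeft_apply, Function.comp_apply, eMap_apply, eMap_apply, map_sum]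
  refine Finset.sum_congr rfl fun j _ => ?_
  rw [asAlgebraHom_natural ρ ρ' f hf]
  rfl

end Ring

section Field

variable {k Γ V W : Type*} [Field k] [Monoid Γ] [AddCommGroup V] [Module k V]
  [AddCommGroup W] [Module k W] {n : ℕ}

/-- (R3) injective equivariant maps do not decrease... the `e`-rank of the source is at most the
`e`-rank of the target. -/
theorem eRank_le_of_injective [FiniteDimensional k W] (ρ : Representation k Γ V)
    (ρ' : Representation k Γ W) (f : V →ₗ[k] W) (hinj : Function.Injective f)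
    (hf : ∀ γ v, f (ρ γ v) = ρ' γ (f v)) (e : Matrix (Fin n) (Fin n) (MonoidAlgebra k Γ)) :
    eRank ρ e ≤ eRank ρ' e := by
  unfold eRank
  have hF : Function.Injective (f.compLeft (Fin n)) := by
    intro x y hxy
    funext i
    exact hinj (congrFun hxy i)
  have hle : (LinearMap.range (eMap ρ e)).map (f.compLeft (Fin n)) ≤ LinearMap.range (eMap ρ' e) := by
    rintro _ ⟨_, ⟨v, rfl⟩, rfl⟩
    exact ⟨f.compLeft (Fin n) v, (eMap_natural ρ ρ' f hf e v).symm⟩
  calc Module.finrank k (LinearMap.range (eMap ρ e))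
      = Module.finrank k ((LinearMap.range (eMap ρ e)).map (f.compLeft (Fin n))) :=
        (Submodule.equivMapOfInjective _ hF _).finrank_eq
    _ ≤ Module.finrank k (LinearMap.range (eMap ρ' e)) := Submodule.finrank_mono hle

/-- (R3) surjective equivariant maps: the `e`-rank of the target is at most the `e`-rank of the
source. -/
theorem eRank_le_of_surjective [FiniteDimensional k V] (ρ : Representation k Γ V)
    (ρ' : Representation k Γ W) (f : V →ₗ[k] W) (hsurj : Function.Surjective f)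
    (hf : ∀ γ v, f (ρ γ v) = ρ' γ (f v)) (e : Matrix (Fin n) (Fin n) (MonoidAlgebra k Γ)) :
    eRank ρ' e ≤ eRank ρ e := by
  unfold eRank
  have hF : Function.Surjective (f.compLeft (Fin n)) := by
    intro y
    choose x hx using fun i => hsurj (y i)
    exact ⟨x, funext hx⟩
  have heq : LinearMap.range (eMap ρ' e) = (LinearMap.range (eMap ρ e)).map (f.compLeft (Fin n)) := by
    apply le_antisymm
    · rintro _ ⟨w, rfl⟩
      obtain ⟨v, rfl⟩ := hF w
      exact ⟨eMap ρ e v, ⟨v, rfl⟩, eMap_natural ρ ρ' f hf e v⟩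
    · rintro _ ⟨_, ⟨v, rfl⟩, rfl⟩
      exact ⟨f.compLeft (Fin n) v, (eMap_natural ρ ρ' f hf e v).symm⟩
  rw [heq]
  exact Submodule.finrank_map_le _ _

/-- (R3) equivariant isomorphisms preserve the `e`-rank (no finiteness). -/
theorem eRank_eq_of_equiv (ρ : Representation k Γ V) (ρ' : Representation k Γ W)
    (f : V ≃ₗ[k] W) (hf : ∀ γ v, f (ρ γ v) = ρ' γ (f v))
    (e : Matrix (Fin n) (Fin n) (MonoidAlgebra k Γ)) : eRank ρ e = eRank ρ' e := by
  unfold eRank
  have hF : Function.Injective ((f : V →ₗ[k] W).compLeft (Fin n)) := by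
    intro x y hxy
    funext i
    exact f.injective (congrFun hxy i)
  have hFs : Function.Surjective ((f : V →ₗ[k] W).compLeft (Fin n)) := by
    intro y
    exact ⟨fun i => f.symm (y i), funext fun i => f.apply_symm_apply (y i)⟩
  have heq : LinearMap.range (eMap ρ' e)
      = (LinearMap.range (eMap ρ e)).map ((f : V →ₗ[k] W).compLeft (Fin n)) := by
    apply le_antisymm
    · rintro _ ⟨w, rfl⟩
      obtain ⟨v, rfl⟩ := hFs w
      exact ⟨eMap ρ e v, ⟨v, rfl⟩, eMap_natural ρ ρ' (f : V →ₗ[k] W) hf e v⟩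
    · rintro _ ⟨_, ⟨v, rfl⟩, rfl⟩
      exact ⟨(f : V →ₗ[k] W).compLeft (Fin n) v,
        (eMap_natural ρ ρ' (f : V →ₗ[k] W) hf e v).symm⟩
  rw [heq]
  exact (Submodule.equivMapOfInjective _ hF _).finrank_eq

/-! ### (R2) the complement -/

/-- (R2) `eRank ρ e + eRank ρ (1 - e) = n * dim V` for an idempotent `e`. -/
theorem eRank_add_compl [FiniteDimensional k V] (ρ : Representation k Γ V)
    {e : Matrix (Fin n) (Fin n) (MonoidAlgebra k Γ)} (he : e * e = e) :
    eRank ρ e + eRank ρ (1 - e) = n * Module.finrank k V := by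
  unfold eRank
  have hker : LinearMap.range (eMap ρ (1 - e)) = LinearMap.ker (eMap ρ e) := by
    ext x
    constructor
    · rintro ⟨y, rfl⟩
      rw [LinearMap.mem_ker, eMap_one_sub_apply, map_sub, eMap_idem ρ he, sub_self]
    · intro hx
      rw [LinearMap.mem_ker] at hx
      exact ⟨x, by rw [eMap_one_sub_apply, hx, sub_zero]⟩
  rw [hker, LinearMap.finrank_range_add_finrank_ker, Module.finrank_pi_fintype]
  simp

/-! ### (R4) short exact sequences -/

/-- (R4) additivity of the `e`-rank in short exact sequences of representations, for an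
idempotent `e`. -/
theorem eRank_exact {V₁ V₂ V₃ : Type*} [AddCommGroup V₁] [Module k V₁] [AddCommGroup V₂]
    [Module k V₂] [AddCommGroup V₃] [Module k V₃] [FiniteDimensional k V₂]
    (ρ₁ : Representation k Γ V₁) (ρ₂ : Representation k Γ V₂) (ρ₃ : Representation k Γ V₃)
    (f : V₁ →ₗ[k] V₂) (g : V₂ →ₗ[k] V₃) (hf : Function.Injective f)
    (hg : Function.Surjective g) (hfg : LinearMap.range f = LinearMap.ker g)
    (hfρ : ∀ γ v, f (ρ₁ γ v) = ρ₂ γ (f v)) (hgρ : ∀ γ v, g (ρ₂ γ v) = ρ₃ γ (g v))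
    {e : Matrix (Fin n) (Fin n) (MonoidAlgebra k Γ)} (he : e * e = e) :
    eRank ρ₂ e = eRank ρ₁ e + eRank ρ₃ e := by
  unfold eRank
  refine finrank_range_of_exact (f.compLeft (Fin n)) (g.compLeft (Fin n)) ?_ ?_ ?_
    (eMap ρ₁ e) (eMap ρ₂ e) (eMap ρ₃ e) (eMap_idem ρ₂ he)
    (eMap_natural ρ₁ ρ₂ f hfρ e) (eMap_natural ρ₂ ρ₃ g hgρ e)
  · intro x y hxy
    funext i
    exact hf (congrFun hxy i)
  · intro y
    choose x hx using fun i => hg (y i)
    exact ⟨x, funext hx⟩
  · ext y
    constructor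
    · rintro ⟨x, rfl⟩
      rw [LinearMap.mem_ker]
      funext i
      have h : f (x i) ∈ LinearMap.ker g := hfg ▸ LinearMap.mem_range_self f (x i)
      exact h
    · intro hy
      rw [LinearMap.mem_ker] at hy
      have h : ∀ i, y i ∈ LinearMap.range f := fun i => by
        rw [hfg, LinearMap.mem_ker]
        exact congrFun hy i
      choose x hx using h
      exact ⟨x, funext hx⟩

end Field

/-! ### (R8) twists -/

section Twist

variable {k Γ V W : Type*} [CommRing k] [Monoid Γ] [AddCommGroup V] [Module k V]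
  [AddCommGroup W] [Module k W] {n : ℕ}

/-- The `k`-algebra endomorphism `γ ↦ ψ γ • γ` of `k[Γ]`, for a character `ψ : Γ →* k`
(for `ψ : Γ →* kˣ` use `(Units.coeHom k).comp ψ`). -/
noncomputable def twAlg (ψ : Γ →* k) : MonoidAlgebra k Γ →ₐ[k] MonoidAlgebra k Γ :=
  MonoidAlgebra.lift k (MonoidAlgebra k Γ) Γ
    { toFun := fun γ => MonoidAlgebra.single γ (ψ γ)
      map_one' := by rw [map_one]; rfl
      map_mul' := fun a b => by rw [map_mul, MonoidAlgebra.single_mul_single] }

theorem twAlg_of (ψ : Γ →* k) (γ : Γ) :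
    twAlg ψ (MonoidAlgebra.of k Γ γ) = MonoidAlgebra.single γ (ψ γ) := by
  unfold twAlg
  rw [MonoidAlgebra.lift_of]
  rfl

theorem twAlg_single (ψ : Γ →* k) (γ : Γ) (c : k) :
    twAlg ψ (MonoidAlgebra.single γ c) = MonoidAlgebra.single γ (c * ψ γ) := by
  unfold twAlg
  rw [MonoidAlgebra.lift_single]
  change c • MonoidAlgebra.single γ (ψ γ) = _
  rw [MonoidAlgebra.smul_single, smul_eq_mul]

/-- The twist of a matrix over `k[Γ]` by a character: apply `γ ↦ ψ γ • γ` entrywise. -/
noncomputable def tw (ψ : Γ →* k) (e : Matrix (Fin n) (Fin n) (MonoidAlgebra k Γ)) :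
    Matrix (Fin n) (Fin n) (MonoidAlgebra k Γ) :=
  e.map (twAlg ψ)

theorem tw_apply (ψ : Γ →* k) (e : Matrix (Fin n) (Fin n) (MonoidAlgebra k Γ)) (i j : Fin n) :
    tw ψ e i j = twAlg ψ (e i j) := rfl

theorem tw_mul (ψ : Γ →* k) (e e' : Matrix (Fin n) (Fin n) (MonoidAlgebra k Γ)) :
    tw ψ (e * e') = tw ψ e * tw ψ e' := by
  unfold tw
  exact Matrix.map_mul (f := (twAlg ψ).toRingHom)

theorem tw_one (ψ : Γ →* k) : tw ψ (1 : Matrix (Fin n) (Fin n) (MonoidAlgebra k Γ)) = 1 := by
  unfold tw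
  exact Matrix.map_one _ (map_zero _) (map_one _)

theorem tw_sub (ψ : Γ →* k) (e e' : Matrix (Fin n) (Fin n) (MonoidAlgebra k Γ)) :
    tw ψ (e - e') = tw ψ e - tw ψ e' := by
  unfold tw
  exact Matrix.map_sub (f := (twAlg ψ).toRingHom) (map_sub _) e e'

theorem tw_one_sub (ψ : Γ →* k) (e : Matrix (Fin n) (Fin n) (MonoidAlgebra k Γ)) :
    tw ψ (1 - e) = 1 - tw ψ e := by
  rw [tw_sub, tw_one]

/-- The twist of an idempotent is idempotent. -/
theorem tw_idem (ψ : Γ →* k) {e : Matrix (Fin n) (Fin n) (MonoidAlgebra k Γ)} (he : e * e = e) :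
    tw ψ e * tw ψ e = tw ψ e := by
  rw [← tw_mul, he]

/-- The twist of a representation by a character: `γ ↦ ψ γ • ρ γ`. -/
def twRep (ψ : Γ →* k) (ρ : Representation k Γ V) : Representation k Γ V where
  toFun γ := ψ γ • ρ γ
  map_one' := by rw [map_one, map_one, one_smul]
  map_mul' a b := by rw [map_mul, map_mul, smul_mul_smul_comm]

theorem twRep_apply (ψ : Γ →* k) (ρ : Representation k Γ V) (γ : Γ) (v : V) :
    twRep ψ ρ γ v = ψ γ • ρ γ v := rfl

/-- The group algebra acts on the twisted representation through `twAlg ψ`. -/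
theorem asAlgebraHom_twRep (ψ : Γ →* k) (ρ : Representation k Γ V) (a : MonoidAlgebra k Γ) :
    (twRep ψ ρ).asAlgebraHom a = ρ.asAlgebraHom (twAlg ψ a) := by
  induction a using MonoidAlgebra.induction_on with
  | of γ =>
    rw [Representation.asAlgebraHom_of, twAlg_of, Representation.asAlgebraHom_single]
    rfl
  | add x y hx hy => rw [map_add, map_add, map_add, hx, hy]
  | smul c x hx => rw [map_smul, map_smul, map_smul, hx]

/-- (R8) `eMap` of the twisted representation is `eMap` of the twisted matrix. -/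
theorem eMap_twRep (ψ : Γ →* k) (ρ : Representation k Γ V)
    (e : Matrix (Fin n) (Fin n) (MonoidAlgebra k Γ)) : eMap (twRep ψ ρ) e = eMap ρ (tw ψ e) := by
  refine LinearMap.ext fun v => funext fun i => ?_
  rw [eMap_apply, eMap_apply]
  refine Finset.sum_congr rfl fun j _ => ?_
  rw [asAlgebraHom_twRep, tw_apply]

/-- (R8) the `e`-rank of the twisted representation is the rank of the twisted matrix. -/
theorem eRank_twRep (ψ : Γ →* k) (ρ : Representation k Γ V)
    (e : Matrix (Fin n) (Fin n) (MonoidAlgebra k Γ)) : eRank (twRep ψ ρ) e = eRank ρ (tw ψ e) := by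
  unfold eRank
  rw [eMap_twRep]

/-- (R8), hypothesis form: if `ρ' γ = ψ γ • ρ γ` for all `γ`, then `eRank ρ' e = eRank ρ (tw ψ e)`. -/
theorem eRank_eq_tw_of_twist (ψ : Γ →* k) (ρ ρ' : Representation k Γ V)
    (h : ∀ γ v, ρ' γ v = ψ γ • ρ γ v) (e : Matrix (Fin n) (Fin n) (MonoidAlgebra k Γ)) :
    eRank ρ' e = eRank ρ (tw ψ e) := by
  have h' : ρ' = twRep ψ ρ := by
    ext γ v
    rw [h, twRep_apply]
  rw [h', eRank_twRep]

end Twist

/-! ### Bridge to the cardinal forms of `ProjRank` -/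

section Card

variable {Γ : Type*} [Monoid Γ] {n : ℕ}

/-- For `k = ZMod p`: the cardinal of the image of `ProjRank.matOp (ProjRank.repAct ρ) e` is
`p ^ eRank ρ e`. -/
theorem card_range_matOp_repAct (p : ℕ) [Fact p.Prime] {V : Type*} [AddCommGroup V]
    [Module (ZMod p) V] [Module.Finite (ZMod p) V] (ρ : Representation (ZMod p) Γ V)
    (e : Matrix (Fin n) (Fin n) (MonoidAlgebra (ZMod p) Γ)) :
    Nat.card (matOp (repAct ρ) e).range = p ^ eRank ρ e :=
  card_range_eq_pow_finrank p _ (eMap ρ e) fun x => (eMap_eq_matOp ρ e x).symm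

end Card

end Fermat.Agent.S56.EC.IdemRank
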