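import Fermat.Agent.S56.EC.IdemRankBasic

/-!
# S56 / EC.1 (helper26): the `e`-rank calculus, second half

* (R5) **adjoints and `dagger`**.  `invLin : k[Γ] →ₗ[k] k[Γ]` is the anti-involution `γ ↦ γ⁻¹`,
  `dagger e := (e.map invLin)ᵀ` (an anti-involution of `M_n(k[Γ])`, preserving idempotents).
  - `finrank_range_eq_of_adjoint` : adjoint operators for a nondegenerate pairing of
    finite-dimensional spaces have the same rank ("rank of the transpose");
  - `eRank_dagger_of_pairing` : `B (ρ γ v) (ρ' γ v') = B v v'` nondegenerate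
    `⟹ eRank ρ' (dagger e) = eRank ρ e`;
  - `eRank_dagger_of_twisted_pairing` : `B (ρ γ v) (ρ' γ v') = ψ γ * B v v'`
    `⟹ eRank ρ' (tw (invChar ψ) (dagger e)) = eRank ρ e`;
  - `eRank_dual` : `eRank ρ.dual (dagger e) = eRank ρ e`;
  - `eRank_dagger_of_perm` : permutation representations on `X → k` are self-dual.
* (R6) `eRank_eq_of_torsion_quot` : **(PA)** `eRank (C[p]) e = eRank (C / p C) e` for a finite
  `Γ`-group `C` and an idempotent `e` over `(ZMod p)[Γ]`.
* (R7) `eRank_eq_of_finite_index` : the **lattice lemma**.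
* `eRank_mod_of_exact` : **(SES-p)**, additivity of `eRank (L / p L) e` in short exact sequences
  of `Γ`-groups with `p`-torsion-free cokernel.

(R6), (R7), (SES-p) are the group forms of `EC/ProjRankOp.lean` (helper185) read through
`card_range_matOp_repAct`.
-/

set_option autoImplicit false

namespace Fermat.Agent.S56.EC.IdemRank

open Fermat.Agent.S56.EC.ProjRank

/-! ### The anti-involution `γ ↦ γ⁻¹` of the group algebra -/

section Inv

variable {k Γ : Type*} [CommRing k] [Group Γ]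

/-- The `k`-linear anti-involution `γ ↦ γ⁻¹` of `k[Γ]`. -/
noncomputable def invLin (k Γ : Type*) [CommRing k] [Group Γ] :
    MonoidAlgebra k Γ →ₗ[k] MonoidAlgebra k Γ where
  toFun a := MonoidAlgebra.mapDomain (fun γ : Γ => γ⁻¹) a
  map_add' := MonoidAlgebra.mapDomain_add _
  map_smul' c a := MonoidAlgebra.mapDomain_smul _ c a

theorem invLin_single (γ : Γ) (c : k) :
    invLin k Γ (MonoidAlgebra.single γ c) = MonoidAlgebra.single γ⁻¹ c :=
  MonoidAlgebra.mapDomain_single

theorem invLin_of (γ : Γ) : invLin k Γ (MonoidAlgebra.of k Γ γ) = MonoidAlgebra.of k Γ γ⁻¹ := by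
  rw [MonoidAlgebra.of_apply, MonoidAlgebra.of_apply, invLin_single]

theorem invLin_one : invLin k Γ 1 = 1 := by
  rw [← map_one (MonoidAlgebra.of k Γ), invLin_of, inv_one]

theorem invLin_of_mul (γ : Γ) (b : MonoidAlgebra k Γ) :
    invLin k Γ (MonoidAlgebra.of k Γ γ * b) = invLin k Γ b * invLin k Γ (MonoidAlgebra.of k Γ γ) := by
  induction b using MonoidAlgebra.induction_on with
  | of δ => rw [← map_mul, invLin_of, invLin_of, invLin_of, mul_inv_rev, map_mul]
  | add x y hx hy => rw [mul_add, map_add, map_add, add_mul, hx, hy]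
  | smul c x hx => rw [mul_smul_comm, map_smul, map_smul, smul_mul_assoc, hx]

/-- `invLin` reverses products. -/
theorem invLin_mul (a b : MonoidAlgebra k Γ) :
    invLin k Γ (a * b) = invLin k Γ b * invLin k Γ a := by
  induction a using MonoidAlgebra.induction_on with
  | of γ => exact invLin_of_mul γ b
  | add x y hx hy => rw [add_mul, map_add, map_add, mul_add, hx, hy]
  | smul c x hx => rw [smul_mul_assoc, map_smul, map_smul, mul_smul_comm, hx]

theorem invLin_invLin (a : MonoidAlgebra k Γ) : invLin k Γ (invLin k Γ a) = a := by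
  induction a using MonoidAlgebra.induction_on with
  | of γ => rw [invLin_of, invLin_of, inv_inv]
  | add x y hx hy => rw [map_add, map_add, hx, hy]
  | smul c x hx => rw [map_smul, map_smul, hx]

variable {n : ℕ}

/-- The dagger of a matrix over `k[Γ]`: transpose and apply `γ ↦ γ⁻¹` entrywise. -/
noncomputable def dagger (e : Matrix (Fin n) (Fin n) (MonoidAlgebra k Γ)) :
    Matrix (Fin n) (Fin n) (MonoidAlgebra k Γ) :=
  Matrix.of fun i j => invLin k Γ (e j i)

theorem dagger_apply (e : Matrix (Fin n) (Fin n) (MonoidAlgebra k Γ)) (i j : Fin n) :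
    dagger e i j = invLin k Γ (e j i) := rfl

theorem dagger_dagger (e : Matrix (Fin n) (Fin n) (MonoidAlgebra k Γ)) : dagger (dagger e) = e := by
  refine Matrix.ext fun i j => ?_
  rw [dagger_apply, dagger_apply, invLin_invLin]

/-- `dagger` reverses products. -/
theorem dagger_mul (e e' : Matrix (Fin n) (Fin n) (MonoidAlgebra k Γ)) :
    dagger (e * e') = dagger e' * dagger e := by
  refine Matrix.ext fun i j => ?_
  rw [dagger_apply, Matrix.mul_apply, Matrix.mul_apply, map_sum (invLin k Γ)]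
  refine Finset.sum_congr rfl fun l _ => ?_
  rw [invLin_mul, dagger_apply, dagger_apply]

theorem dagger_one : dagger (1 : Matrix (Fin n) (Fin n) (MonoidAlgebra k Γ)) = 1 := by
  refine Matrix.ext fun i j => ?_
  rw [dagger_apply]
  by_cases h : i = j
  · subst h
    rw [Matrix.one_apply_eq, invLin_one]
  · rw [Matrix.one_apply_ne (Ne.symm h), Matrix.one_apply_ne h, map_zero]

theorem dagger_sub (e e' : Matrix (Fin n) (Fin n) (MonoidAlgebra k Γ)) :
    dagger (e - e') = dagger e - dagger e' := by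
  refine Matrix.ext fun i j => ?_
  rw [Matrix.sub_apply, dagger_apply, dagger_apply, dagger_apply, Matrix.sub_apply, map_sub]

theorem dagger_one_sub (e : Matrix (Fin n) (Fin n) (MonoidAlgebra k Γ)) :
    dagger (1 - e) = 1 - dagger e := by
  rw [dagger_sub, dagger_one]

/-- The dagger of an idempotent is idempotent. -/
theorem dagger_idem {e : Matrix (Fin n) (Fin n) (MonoidAlgebra k Γ)} (he : e * e = e) :
    dagger e * dagger e = dagger e := by
  rw [← dagger_mul, he]

/-- The inverse character `γ ↦ ψ γ⁻¹`. -/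
def invChar (ψ : Γ →* k) : Γ →* k where
  toFun γ := ψ γ⁻¹
  map_one' := by rw [inv_one, map_one]
  map_mul' a b := by rw [mul_inv_rev, map_mul, mul_comm]

theorem invChar_apply (ψ : Γ →* k) (γ : Γ) : invChar ψ γ = ψ γ⁻¹ := rfl

theorem invChar_mul_self (ψ : Γ →* k) (γ : Γ) : invChar ψ γ * ψ γ = 1 := by
  rw [invChar_apply, ← map_mul, inv_mul_cancel, map_one]

/-- `invLin` intertwines the twist by `ψ` with the twist by the inverse character. -/
theorem invLin_twAlg (ψ : Γ →* k) (a : MonoidAlgebra k Γ) :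
    invLin k Γ (twAlg ψ a) = twAlg (invChar ψ) (invLin k Γ a) := by
  induction a using MonoidAlgebra.induction_on with
  | of γ =>
    rw [twAlg_of, invLin_single, invLin_of, twAlg_of, invChar_apply, inv_inv]
  | add x y hx hy => rw [map_add, map_add, map_add, map_add, hx, hy]
  | smul c x hx => rw [map_smul, map_smul, map_smul, map_smul, hx]

theorem dagger_tw (ψ : Γ →* k) (e : Matrix (Fin n) (Fin n) (MonoidAlgebra k Γ)) :
    dagger (tw ψ e) = tw (invChar ψ) (dagger e) := by
  refine Matrix.ext fun i j => ?_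
  rw [dagger_apply, tw_apply, tw_apply, dagger_apply, invLin_twAlg]

end Inv

/-! ### (R5) adjoint operators have the same rank -/

section Adjoint

variable {k : Type*} [Field k]

/-- **Rank of the transpose**: two operators which are adjoint for a nondegenerate pairing of
finite-dimensional spaces have the same rank. -/
theorem finrank_range_eq_of_adjoint {U U' : Type*} [AddCommGroup U] [Module k U]
    [AddCommGroup U'] [Module k U'] [FiniteDimensional k U] [FiniteDimensional k U']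
    (B : U →ₗ[k] U' →ₗ[k] k) (hl : ∀ u, (∀ u', B u u' = 0) → u = 0)
    (hr : ∀ u', (∀ u, B u u' = 0) → u' = 0) (T : U →ₗ[k] U) (T' : U' →ₗ[k] U')
    (h : ∀ u u', B (T u) u' = B u (T' u')) :
    Module.finrank k (LinearMap.range T') = Module.finrank k (LinearMap.range T) := by
  have hBinj : Function.Injective B := by
    refine (injective_iff_map_eq_zero B).2 fun u hu => hl u fun u' => ?_
    rw [hu]
    rfl
  have hΦinj : Function.Injective B.flip := by
    refine (injective_iff_map_eq_zero B.flip).2 fun u' hu' => hr u' fun u => ?_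
    rw [← LinearMap.flip_apply, hu']
    rfl
  have h1 : Module.finrank k U ≤ Module.finrank k U' := by
    have h := LinearMap.finrank_le_finrank_of_injective hBinj
    rwa [Subspace.dual_finrank_eq] at h
  have h2 : Module.finrank k U' ≤ Module.finrank k U := by
    have h := LinearMap.finrank_le_finrank_of_injective hΦinj
    rwa [Subspace.dual_finrank_eq] at h
  have hΦsurj : Function.Surjective B.flip :=
    (LinearMap.injective_iff_surjective_of_finrank_eq_finrank
      (by rw [Subspace.dual_finrank_eq]; exact le_antisymm h2 h1)).1 hΦinj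
  have hcomm : ∀ u', T.dualMap (B.flip u') = B.flip (T' u') := by
    intro u'
    refine LinearMap.ext fun u => ?_
    rw [LinearMap.dualMap_apply, LinearMap.flip_apply, LinearMap.flip_apply, h]
  have hrange : LinearMap.range T.dualMap = (LinearMap.range T').map B.flip := by
    ext φ
    constructor
    · rintro ⟨ψ, rfl⟩
      obtain ⟨u', rfl⟩ := hΦsurj ψ
      exact ⟨T' u', ⟨u', rfl⟩, (hcomm u').symm⟩
    · rintro ⟨_, ⟨u', rfl⟩, rfl⟩
      exact ⟨B.flip u', hcomm u'⟩
  rw [← LinearMap.finrank_range_dualMap_eq_finrank_range T, hrange]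
  exact (Submodule.equivMapOfInjective _ hΦinj _).finrank_eq

variable {Γ : Type*} [Group Γ] {V V' : Type*} [AddCommGroup V] [Module k V] [AddCommGroup V']
  [Module k V'] {n : ℕ}

/-- For an invariant pairing, the adjoint of `a ∈ k[Γ]` is `invLin a`. -/
theorem pairing_asAlgebraHom (ρ : Representation k Γ V) (ρ' : Representation k Γ V')
    (B : V →ₗ[k] V' →ₗ[k] k) (hB : ∀ γ v v', B (ρ γ v) (ρ' γ v') = B v v')
    (a : MonoidAlgebra k Γ) (v : V) (v' : V') :
    B (ρ.asAlgebraHom a v) v' = B v (ρ'.asAlgebraHom (invLin k Γ a) v') := by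
  induction a using MonoidAlgebra.induction_on with
  | of γ =>
    rw [Representation.asAlgebraHom_of, invLin_of, Representation.asAlgebraHom_of]
    have h1 : ρ' γ (ρ' γ⁻¹ v') = v' := by
      have h2 : ρ' γ * ρ' γ⁻¹ = 1 := by rw [← map_mul, mul_inv_cancel, map_one]
      have h3 := congrArg (fun f : Module.End k V' => f v') h2
      exact h3
    calc B (ρ γ v) v' = B (ρ γ v) (ρ' γ (ρ' γ⁻¹ v')) := by rw [h1]
      _ = B v (ρ' γ⁻¹ v') := hB γ v _
  | add x y hx hy =>
    simp only [map_add, LinearMap.add_apply, hx, hy]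
  | smul c x hx =>
    simp only [map_smul, LinearMap.smul_apply, hx]

/-- The pairing on `V ^ n × V' ^ n`, `(u, u') ↦ ∑ i, B (u i) (u' i)`. -/
noncomputable def powPair (B : V →ₗ[k] V' →ₗ[k] k) (n : ℕ) :
    (Fin n → V) →ₗ[k] (Fin n → V') →ₗ[k] k :=
  LinearMap.mk₂ k (fun u u' => ∑ i, B (u i) (u' i))
    (fun u₁ u₂ u' => by simp [Finset.sum_add_distrib])
    (fun c u u' => by simp [Finset.mul_sum])
    (fun u u'₁ u'₂ => by simp [Finset.sum_add_distrib])
    (fun c u u' => by simp [Finset.mul_sum])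

theorem powPair_apply (B : V →ₗ[k] V' →ₗ[k] k) (u : Fin n → V) (u' : Fin n → V') :
    powPair B n u u' = ∑ i, B (u i) (u' i) := rfl

/-- `eMap ρ' (dagger e)` is the adjoint of `eMap ρ e` for the power of an invariant pairing. -/
theorem powPair_eMap (ρ : Representation k Γ V) (ρ' : Representation k Γ V')
    (B : V →ₗ[k] V' →ₗ[k] k) (hB : ∀ γ v v', B (ρ γ v) (ρ' γ v') = B v v')
    (e : Matrix (Fin n) (Fin n) (MonoidAlgebra k Γ)) (u : Fin n → V) (u' : Fin n → V') :
    powPair B n (eMap ρ e u) u' = powPair B n u (eMap ρ' (dagger e) u') := by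
  rw [powPair_apply, powPair_apply]
  have h1 : ∀ i, B (eMap ρ e u i) (u' i)
      = ∑ j, B (u j) (ρ'.asAlgebraHom (dagger e j i) (u' i)) := by
    intro i
    rw [eMap_apply, map_sum, LinearMap.sum_apply]
    refine Finset.sum_congr rfl fun j _ => ?_
    rw [pairing_asAlgebraHom ρ ρ' B hB, dagger_apply]
  have h2 : ∀ j, B (u j) (eMap ρ' (dagger e) u' j)
      = ∑ i, B (u j) (ρ'.asAlgebraHom (dagger e j i) (u' i)) := by
    intro j
    rw [eMap_apply, map_sum]
  rw [Finset.sum_congr rfl fun i _ => h1 i, Finset.sum_congr rfl fun j _ => h2 j, Finset.sum_comm]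

/-- (R5), pairing form: for a nondegenerate invariant pairing `B : V × V' → k`,
`eRank ρ' (dagger e) = eRank ρ e`. -/
theorem eRank_dagger_of_pairing [FiniteDimensional k V] [FiniteDimensional k V']
    (ρ : Representation k Γ V) (ρ' : Representation k Γ V') (B : V →ₗ[k] V' →ₗ[k] k)
    (hl : ∀ v, (∀ v', B v v' = 0) → v = 0) (hr : ∀ v', (∀ v, B v v' = 0) → v' = 0)
    (hB : ∀ γ v v', B (ρ γ v) (ρ' γ v') = B v v')
    (e : Matrix (Fin n) (Fin n) (MonoidAlgebra k Γ)) : eRank ρ' (dagger e) = eRank ρ e := by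
  classical
  unfold eRank
  refine finrank_range_eq_of_adjoint (powPair B n) ?_ ?_ (eMap ρ e) (eMap ρ' (dagger e))
    (powPair_eMap ρ ρ' B hB e)
  · intro u hu
    funext i
    refine hl (u i) fun v' => ?_
    have h := hu (Pi.single i v')
    rw [powPair_apply, Finset.sum_eq_single i] at h
    · rwa [Pi.single_eq_same] at h
    · intro j _ hji
      rw [Pi.single_eq_of_ne hji, map_zero]
    · intro h'
      exact absurd (Finset.mem_univ i) h'
  · intro u' hu'
    funext i
    refine hr (u' i) fun v => ?_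
    have h := hu' (Pi.single i v)
    rw [powPair_apply, Finset.sum_eq_single i] at h
    · rwa [Pi.single_eq_same] at h
    · intro j _ hji
      rw [Pi.single_eq_of_ne hji, map_zero, LinearMap.zero_apply]
    · intro h'
      exact absurd (Finset.mem_univ i) h'

/-- (R5), twisted pairing form: if `B (ρ γ v) (ρ' γ v') = ψ γ * B v v'`, then
`eRank ρ' (tw (invChar ψ) (dagger e)) = eRank ρ e`. -/
theorem eRank_dagger_of_twisted_pairing [FiniteDimensional k V] [FiniteDimensional k V']
    (ψ : Γ →* k) (ρ : Representation k Γ V) (ρ' : Representation k Γ V')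
    (B : V →ₗ[k] V' →ₗ[k] k)
    (hl : ∀ v, (∀ v', B v v' = 0) → v = 0) (hr : ∀ v', (∀ v, B v v' = 0) → v' = 0)
    (hB : ∀ γ v v', B (ρ γ v) (ρ' γ v') = ψ γ * B v v')
    (e : Matrix (Fin n) (Fin n) (MonoidAlgebra k Γ)) :
    eRank ρ' (tw (invChar ψ) (dagger e)) = eRank ρ e := by
  rw [← eRank_twRep]
  refine eRank_dagger_of_pairing ρ (twRep (invChar ψ) ρ') B hl hr (fun γ v v' => ?_) e
  rw [twRep_apply, map_smul, smul_eq_mul, hB, ← mul_assoc, invChar_mul_self, one_mul]

/-- (R5) for the dual representation: `eRank ρ.dual (dagger e) = eRank ρ e`. -/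
theorem eRank_dual [FiniteDimensional k V] (ρ : Representation k Γ V)
    (e : Matrix (Fin n) (Fin n) (MonoidAlgebra k Γ)) : eRank ρ.dual (dagger e) = eRank ρ e := by
  refine eRank_dagger_of_pairing ρ ρ.dual (Module.Dual.eval k V) ?_ ?_ ?_ e
  · intro v hv
    exact (Module.forall_dual_apply_eq_zero_iff k v).1 hv
  · intro φ hφ
    exact LinearMap.ext hφ
  · intro γ v φ
    rw [Module.Dual.eval_apply, Module.Dual.eval_apply, Representation.dual_apply,
      Module.Dual.transpose_apply, LinearMap.comp_apply]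
    have h2 : ρ γ⁻¹ * ρ γ = 1 := by rw [← map_mul, inv_mul_cancel, map_one]
    have h3 := congrArg (fun f : Module.End k V => f v) h2
    exact congrArg φ h3

/-- (R5) for permutation representations on `X → k` (any convention: `ρ γ f = f ∘ π γ` for
permutations `π γ` of the finite set `X`): `eRank ρ (dagger e) = eRank ρ e`. -/
theorem eRank_dagger_of_perm {X : Type*} [Fintype X] (ρ : Representation k Γ (X → k))
    (π : Γ → Equiv.Perm X) (hρ : ∀ γ f x, ρ γ f x = f (π γ x))
    (e : Matrix (Fin n) (Fin n) (MonoidAlgebra k Γ)) : eRank ρ (dagger e) = eRank ρ e := by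
  classical
  let B : (X → k) →ₗ[k] (X → k) →ₗ[k] k :=
    LinearMap.mk₂ k (fun f f' => ∑ x, f x * f' x)
      (fun f₁ f₂ f' => by simp [add_mul, Finset.sum_add_distrib])
      (fun c f f' => by simp [Finset.mul_sum, mul_assoc])
      (fun f f'₁ f'₂ => by simp [mul_add, Finset.sum_add_distrib])
      (fun c f f' => by simp [Finset.mul_sum, mul_left_comm])
  have hBapp : ∀ f f', B f f' = ∑ x, f x * f' x := fun _ _ => rfl
  refine eRank_dagger_of_pairing ρ ρ B ?_ ?_ ?_ e
  · intro f hf
    funext x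
    have h := hf (Pi.single x 1)
    rw [hBapp, Finset.sum_eq_single x] at h
    · simpa using h
    · intro y _ hyx
      rw [Pi.single_eq_of_ne hyx, mul_zero]
    · intro h'
      exact absurd (Finset.mem_univ x) h'
  · intro f' hf'
    funext x
    have h := hf' (Pi.single x 1)
    rw [hBapp, Finset.sum_eq_single x] at h
    · simpa using h
    · intro y _ hyx
      rw [Pi.single_eq_of_ne hyx, zero_mul]
    · intro h'
      exact absurd (Finset.mem_univ x) h'
  · intro γ f f'
    rw [hBapp, hBapp]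
    have h : ∀ x, ρ γ f x * ρ γ f' x = (fun y => f y * f' y) (π γ x) := fun x => by
      rw [hρ, hρ]
    rw [Finset.sum_congr rfl fun x _ => h x]
    exact Equiv.sum_comp (π γ) fun y => f y * f' y

end Adjoint

/-! ### (R6), (R7), (SES-p): the integral statements -/

section Integral

variable {Γ : Type*} [Monoid Γ] {n : ℕ} (p : ℕ) [Fact p.Prime]

/-- (R6) **(PA)**.  `C` a finite additive group with a `Γ`-action `phi`, `V₁ ≅ C[p]` (through
`a`) and `V₂ ≅ C / p C` (through `b`) equivariantly, `e` an idempotent matrix over `(ZMod p)[Γ]`: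
`eRank ρ₁ e = eRank ρ₂ e`. -/
theorem eRank_eq_of_torsion_quot {C V₁ V₂ : Type*} [AddCommGroup C] [Finite C]
    [AddCommGroup V₁] [Module (ZMod p) V₁] [AddCommGroup V₂] [Module (ZMod p) V₂]
    (phi : Γ →* AddMonoid.End C) (ρ₁ : Representation (ZMod p) Γ V₁)
    (ρ₂ : Representation (ZMod p) Γ V₂)
    (a : V₁ →+ C) (ha : Function.Injective a) (har : ∀ c : C, p • c = 0 ↔ ∃ v, a v = c)
    (b : C →+ V₂) (hb : Function.Surjective b) (hbk : ∀ c : C, b c = 0 ↔ ∃ c', p • c' = c)
    (haφ : ∀ γ v, a (ρ₁ γ v) = phi γ (a v)) (hbφ : ∀ γ c, b (phi γ c) = ρ₂ γ (b c))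
    {e : Matrix (Fin n) (Fin n) (MonoidAlgebra (ZMod p) Γ)} (he : e * e = e) :
    eRank ρ₁ e = eRank ρ₂ e := by
  have : Finite V₁ := Finite.of_injective a ha
  have : Finite V₂ := Finite.of_surjective b hb
  have : Module.Finite (ZMod p) V₁ := Module.Finite.of_finite
  have : Module.Finite (ZMod p) V₂ := Module.Finite.of_finite
  have key := card_range_eq_of_torsion_quot_grp p (intAct phi) (repAct ρ₁) (repAct ρ₂) a ha har
    b hb hbk (fun γ v => by rw [repAct_of, intAct_of]; exact haφ γ v)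
    (fun γ c => by rw [repAct_of, intAct_of]; exact hbφ γ c) e he
  rw [card_range_matOp_repAct, card_range_matOp_repAct] at key
  exact Nat.pow_right_injective (Fact.out : p.Prime).two_le key

/-- (R7) **the lattice lemma**.  `f : L₁ → L₂` an injective equivariant map of `Γ`-groups with
finite cokernel, `L₂` without `p`-torsion, `Vᵢ ≅ Lᵢ / p Lᵢ` equivariantly (through `bᵢ`), `e` an
idempotent matrix over `(ZMod p)[Γ]`: `eRank ρ₁ e = eRank ρ₂ e`. -/
theorem eRank_eq_of_finite_index {L₁ L₂ V₁ V₂ : Type*} [AddCommGroup L₁] [AddCommGroup L₂]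
    [AddCommGroup V₁] [Module (ZMod p) V₁] [Module.Finite (ZMod p) V₁]
    [AddCommGroup V₂] [Module (ZMod p) V₂] [Module.Finite (ZMod p) V₂]
    (α₁ : Γ →* AddMonoid.End L₁) (α₂ : Γ →* AddMonoid.End L₂)
    (ρ₁ : Representation (ZMod p) Γ V₁) (ρ₂ : Representation (ZMod p) Γ V₂)
    (f : L₁ →+ L₂) (hf : Function.Injective f) (hfin : f.range.index ≠ 0)
    (htf : ∀ x : L₂, p • x = 0 → x = 0) (hfα : ∀ γ x, f (α₁ γ x) = α₂ γ (f x))
    (b₁ : L₁ →+ V₁) (hb₁ : Function.Surjective b₁) (hk₁ : ∀ x : L₁, b₁ x = 0 ↔ ∃ y, p • y = x)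
    (hbρ₁ : ∀ γ x, b₁ (α₁ γ x) = ρ₁ γ (b₁ x))
    (b₂ : L₂ →+ V₂) (hb₂ : Function.Surjective b₂) (hk₂ : ∀ x : L₂, b₂ x = 0 ↔ ∃ y, p • y = x)
    (hbρ₂ : ∀ γ x, b₂ (α₂ γ x) = ρ₂ γ (b₂ x))
    {e : Matrix (Fin n) (Fin n) (MonoidAlgebra (ZMod p) Γ)} (he : e * e = e) :
    eRank ρ₁ e = eRank ρ₂ e := by
  have : Finite V₁ := Module.finite_of_finite (ZMod p)
  have key := card_range_eq_of_finite_index_grp p (intAct α₁) (intAct α₂) (repAct ρ₁) (repAct ρ₂)
    f hf hfin htf (fun γ x => by rw [intAct_of, intAct_of]; exact hfα γ x)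
    b₁ hb₁ hk₁ (fun γ x => by rw [repAct_of, intAct_of]; exact hbρ₁ γ x)
    b₂ hb₂ hk₂ (fun γ x => by rw [repAct_of, intAct_of]; exact hbρ₂ γ x) e he
  rw [card_range_matOp_repAct, card_range_matOp_repAct] at key
  exact Nat.pow_right_injective (Fact.out : p.Prime).two_le key

/-- **(SES-p)**.  `0 → L₁ → L₂ → L₃ → 0` an exact sequence of `Γ`-groups, `L₃` without
`p`-torsion, `Vᵢ ≅ Lᵢ / p Lᵢ` equivariantly (through `bᵢ`), `e` an idempotent matrix over
`(ZMod p)[Γ]`: `eRank ρ₂ e = eRank ρ₁ e + eRank ρ₃ e`. -/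
theorem eRank_mod_of_exact {L₁ L₂ L₃ V₁ V₂ V₃ : Type*} [AddCommGroup L₁] [AddCommGroup L₂]
    [AddCommGroup L₃]
    [AddCommGroup V₁] [Module (ZMod p) V₁] [Module.Finite (ZMod p) V₁]
    [AddCommGroup V₂] [Module (ZMod p) V₂] [Module.Finite (ZMod p) V₂]
    [AddCommGroup V₃] [Module (ZMod p) V₃] [Module.Finite (ZMod p) V₃]
    (α₁ : Γ →* AddMonoid.End L₁) (α₂ : Γ →* AddMonoid.End L₂) (α₃ : Γ →* AddMonoid.End L₃)
    (ρ₁ : Representation (ZMod p) Γ V₁) (ρ₂ : Representation (ZMod p) Γ V₂)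
    (ρ₃ : Representation (ZMod p) Γ V₃)
    (f : L₁ →+ L₂) (g : L₂ →+ L₃) (hf : Function.Injective f) (hg : Function.Surjective g)
    (hfg : ∀ y : L₂, g y = 0 ↔ ∃ x, f x = y) (htf : ∀ x : L₃, p • x = 0 → x = 0)
    (hfα : ∀ γ x, f (α₁ γ x) = α₂ γ (f x)) (hgα : ∀ γ y, g (α₂ γ y) = α₃ γ (g y))
    (b₁ : L₁ →+ V₁) (hb₁ : Function.Surjective b₁) (hk₁ : ∀ x : L₁, b₁ x = 0 ↔ ∃ y, p • y = x)
    (hbρ₁ : ∀ γ x, b₁ (α₁ γ x) = ρ₁ γ (b₁ x))
    (b₂ : L₂ →+ V₂) (hb₂ : Function.Surjective b₂) (hk₂ : ∀ x : L₂, b₂ x = 0 ↔ ∃ y, p • y = x)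
    (hbρ₂ : ∀ γ x, b₂ (α₂ γ x) = ρ₂ γ (b₂ x))
    (b₃ : L₃ →+ V₃) (hb₃ : Function.Surjective b₃) (hk₃ : ∀ x : L₃, b₃ x = 0 ↔ ∃ y, p • y = x)
    (hbρ₃ : ∀ γ x, b₃ (α₃ γ x) = ρ₃ γ (b₃ x))
    {e : Matrix (Fin n) (Fin n) (MonoidAlgebra (ZMod p) Γ)} (he : e * e = e) :
    eRank ρ₂ e = eRank ρ₁ e + eRank ρ₃ e := by
  have key := card_range_mod_of_exact_grp p (intAct α₁) (intAct α₂) (intAct α₃)
    (repAct ρ₁) (repAct ρ₂) (repAct ρ₃) f g hf hg hfg htf
    (fun γ x => by rw [intAct_of, intAct_of]; exact hfα γ x)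
    (fun γ y => by rw [intAct_of, intAct_of]; exact hgα γ y)
    b₁ hb₁ hk₁ (fun γ x => by rw [repAct_of, intAct_of]; exact hbρ₁ γ x)
    b₂ hb₂ hk₂ (fun γ x => by rw [repAct_of, intAct_of]; exact hbρ₂ γ x)
    b₃ hb₃ hk₃ (fun γ x => by rw [repAct_of, intAct_of]; exact hbρ₃ γ x) e he
  rw [card_range_matOp_repAct, card_range_matOp_repAct, card_range_matOp_repAct, ← pow_add] at key
  exact Nat.pow_right_injective (Fact.out : p.Prime).two_le key

end Integral

end Fermat.Agent.S56.EC.IdemRank
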