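/-
S56 / brick EC.6 (glue), INFLATION LAYER (helper276, own risk).

The Steinberg reduction (`EC/SteinbergInd/Defs`: `Inv`, `SubAdd`, `ExAdd`) speaks about invariants
of `F_p`-representations of a group `G` (in the application a finite quotient of `G_ℚ`).  This
file provides the two invariants of the application and their formal properties:

* `infl π ρ`           : the inflation of `ρ : Representation (ZMod p) G V` along `π : GG →* G`,
                          as an object of `Rep (ZMod p) GG`;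
* `chiInv π 𝒰`         : `V, ρ ↦ χ₂(𝒰, infl π ρ)`;
* `fInv π c`           : `V, ρ ↦ - dim ker (ρ (π c) + 1)`   (the archimedean term);
* `isDisc_infl`        : `infl π ρ` is discrete if `π` is trivial on a member of the level family;
* `chiInv_congr`, `chiInv_biprod`, `subAdd_chiInv` : `χ` is an isomorphism invariant, additive on
  direct sums and SUBADDITIVE on equivariant short exact sequences (under `D.Hyp`);
* `fInv_congr`, `exAdd_fInv` : `f` is an isomorphism invariant and ADDITIVE on equivariant short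
  exact sequences (`p` odd, `(π c)² = 1`);
* `subAdd_chiInv_global` : the subadditivity for `G_ℚ`, `𝒰 = globalLevel T`, unconditionally.
-/
import Fermat.Agent.S55.Count.Uncond
import Fermat.Agent.S55.Count.MainBiprod
import Fermat.Agent.S56.EC.SteinbergInd.Defs

set_option autoImplicit false

open CategoryTheory groupCohomology ExtCitation

namespace Fermat.Agent.S56.EC.Inflate

open Fermat.Agent.S55 Fermat.Agent.S55.Abs Fermat.Agent.S55.Count
open Fermat.Agent.S56.EC.SteinbergInd

/-! ### The `(-1)`-eigenspace is exact (characteristic `≠ 2`) -/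

section NegEig

variable {k : Type*} [Field k] {A B C : Type*} [AddCommGroup A] [Module k A] [AddCommGroup B]
  [Module k B] [AddCommGroup C] [Module k C]

/-- For an equivariant short exact sequence `0 → A → B → C → 0` of modules with involutions
(`char k ≠ 2`): `dim B^- = dim A^- + dim C^-`. -/
theorem finrank_negEig_exact (h2 : (2 : k) ≠ 0) [FiniteDimensional k B]
    (a : A →ₗ[k] A) (b : B →ₗ[k] B) (c : C →ₗ[k] C) (hb : ∀ x, b (b x) = x)
    (i : A →ₗ[k] B) (q : B →ₗ[k] C) (hia : ∀ x, i (a x) = b (i x))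
    (hqb : ∀ x, q (b x) = c (q x)) (hi : Function.Injective i) (hex : Function.Exact i q)
    (hq : Function.Surjective q) :
    Module.finrank k ↥(LinearMap.ker (b + 1)) =
      Module.finrank k ↥(LinearMap.ker (a + 1)) + Module.finrank k ↥(LinearMap.ker (c + 1)) := by
  have hmemB : ∀ x : B, x ∈ LinearMap.ker (b + 1) ↔ b x = -x := fun x => by
    rw [LinearMap.mem_ker, LinearMap.add_apply, Module.End.one_apply, add_eq_zero_iff_eq_neg]
  have hmemA : ∀ x : A, x ∈ LinearMap.ker (a + 1) ↔ a x = -x := fun x => by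
    rw [LinearMap.mem_ker, LinearMap.add_apply, Module.End.one_apply, add_eq_zero_iff_eq_neg]
  have hmemC : ∀ x : C, x ∈ LinearMap.ker (c + 1) ↔ c x = -x := fun x => by
    rw [LinearMap.mem_ker, LinearMap.add_apply, Module.End.one_apply, add_eq_zero_iff_eq_neg]
  -- the restricted maps
  let q' : ↥(LinearMap.ker (b + 1)) →ₗ[k] ↥(LinearMap.ker (c + 1)) :=
    q.restrict (fun x hx => by
      rw [hmemC, ← hqb, (hmemB x).1 hx, map_neg])
  let i' : ↥(LinearMap.ker (a + 1)) →ₗ[k] ↥(LinearMap.ker q') :=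
    LinearMap.codRestrict (LinearMap.ker q')
      (i.restrict (p := LinearMap.ker (a + 1)) (q := LinearMap.ker (b + 1)) (fun x hx => by
        rw [hmemB, ← hia, (hmemA x).1 hx, map_neg]))
      (fun x => by
        rw [LinearMap.mem_ker]
        apply Subtype.ext
        show q (i x.1) = 0
        exact hex.apply_apply_eq_zero x.1)
  have hi' : Function.Bijective i' := by
    constructor
    · intro x y hxy
      apply Subtype.ext
      apply hi
      have := congrArg (fun z : ↥(LinearMap.ker q') => ((z : ↥(LinearMap.ker (b + 1))) : B)) hxy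
      exact this
    · rintro ⟨⟨x, hx⟩, hxq⟩
      have hqx : q x = 0 := by
        have := congrArg Subtype.val (LinearMap.mem_ker.mp hxq)
        exact this
      obtain ⟨z, rfl⟩ := (hex x).1 hqx
      have hz : z ∈ LinearMap.ker (a + 1) := by
        rw [hmemA]
        apply hi
        rw [hia, (hmemB (i z)).1 hx, map_neg]
      exact ⟨⟨z, hz⟩, rfl⟩
  have hq' : Function.Surjective q' := by
    rintro ⟨y, hy⟩
    obtain ⟨x, rfl⟩ := hq y
    have hcy : c (q x) = -q x := (hmemC _).1 hy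
    have hx' : (2 : k)⁻¹ • (x - b x) ∈ LinearMap.ker (b + 1) := by
      rw [hmemB, map_smul, map_sub, hb, ← smul_neg, neg_sub]
    refine ⟨⟨(2 : k)⁻¹ • (x - b x), hx'⟩, ?_⟩
    apply Subtype.ext
    show q ((2 : k)⁻¹ • (x - b x)) = q x
    rw [map_smul, map_sub, hqb, hcy, sub_neg_eq_add, ← two_smul k (q x), smul_smul,
      inv_mul_cancel₀ h2, one_smul]
  have h1 := LinearMap.finrank_range_add_finrank_ker q'
  have h3 : Module.finrank k ↥(LinearMap.range q') = Module.finrank k ↥(LinearMap.ker (c + 1)) := by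
    rw [LinearMap.range_eq_top.mpr hq', finrank_top]
  have h4 : Module.finrank k ↥(LinearMap.ker (a + 1)) = Module.finrank k ↥(LinearMap.ker q') :=
    (LinearEquiv.ofBijective i' hi').finrank_eq
  rw [← h1, h3, h4, add_comm]

end NegEig

/-! ### Inflation -/

section Infl

variable {p : ℕ} [Fact p.Prime] {GG G : Type} [Group GG] [Group G] (π : GG →* G)

/-- The inflation of a representation of `G` along `π : GG →* G`, as an object of `Rep`. -/
noncomputable def infl {V : Type} [AddCommGroup V] [Module (ZMod p) V]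
    (ρ : Representation (ZMod p) G V) : Rep.{0} (ZMod p) GG :=
  Rep.of (ρ.comp π)

theorem infl_ρ_apply {V : Type} [AddCommGroup V] [Module (ZMod p) V]
    (ρ : Representation (ZMod p) G V) (g : GG) (v : V) :
    (infl π ρ).ρ g v = ρ (π g) v := rfl

instance finite_infl {V : Type} [AddCommGroup V] [Module (ZMod p) V] [Finite V]
    (ρ : Representation (ZMod p) G V) : Module.Finite (ZMod p) (infl π ρ) :=
  inferInstanceAs (Module.Finite (ZMod p) V)

/-- The inflated morphism of an equivariant linear map. -/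
noncomputable def inflHom {V W : Type} [AddCommGroup V] [Module (ZMod p) V] [AddCommGroup W]
    [Module (ZMod p) W] (ρV : Representation (ZMod p) G V) (ρW : Representation (ZMod p) G W)
    (φ : V →ₗ[ZMod p] W) (hφ : ∀ g v, φ (ρV g v) = ρW g (φ v)) : infl π ρV ⟶ infl π ρW :=
  Rep.ofHom (LinearMap.intertwiningMap_of_isIntertwiningMap (infl π ρV).ρ (infl π ρW).ρ φ
    (fun g v => hφ (π g) v))

@[simp] theorem inflHom_hom_apply {V W : Type} [AddCommGroup V] [Module (ZMod p) V]
    [AddCommGroup W] [Module (ZMod p) W] (ρV : Representation (ZMod p) G V)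
    (ρW : Representation (ZMod p) G W) (φ : V →ₗ[ZMod p] W)
    (hφ : ∀ g v, φ (ρV g v) = ρW g (φ v)) (v : V) :
    (inflHom π ρV ρW φ hφ).hom v = φ v := rfl

/-- `infl π ρ` is discrete as soon as `π` is trivial on a member of the level family. -/
theorem isDisc_infl (𝒰 : LevelFamily GG) (hπ : ∃ U ∈ 𝒰.sets, ∀ s ∈ U, π s = 1) {V : Type}
    [AddCommGroup V] [Module (ZMod p) V] (ρ : Representation (ZMod p) G V) :
    IsDisc 𝒰 (infl π ρ) := by
  obtain ⟨U, hU, h⟩ := hπ
  refine ⟨U, hU, fun s hs m => ?_⟩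
  show ρ (π s) m = m
  rw [h s hs, map_one]
  rfl

/-- The Euler characteristic invariant: `χ₂(𝒰, infl π ρ)`. -/
noncomputable def chiInv (𝒰 : LevelFamily GG) : Inv p G :=
  fun _ _ _ ρ => chi2 𝒰 (infl π ρ)

/-- The archimedean invariant: `- dim ker (ρ (π c) + 1)`. -/
noncomputable def fInv (c : GG) : Inv p G :=
  fun _ _ _ ρ => -(Module.finrank (ZMod p) ↥(LinearMap.ker (ρ (π c) + 1)) : ℤ)

theorem chiInv_apply (𝒰 : LevelFamily GG) {V : Type} [AddCommGroup V] [Module (ZMod p) V]
    (ρ : Representation (ZMod p) G V) : chiInv π 𝒰 V ρ = chi2 𝒰 (infl π ρ) := rfl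

theorem fInv_apply (c : GG) {V : Type} [AddCommGroup V] [Module (ZMod p) V]
    (ρ : Representation (ZMod p) G V) :
    fInv π c V ρ = -(Module.finrank (ZMod p) ↥(LinearMap.ker (ρ (π c) + 1)) : ℤ) := rfl

/-- `f` in terms of the inflated object: `- dim ker ((infl π ρ).ρ c + 1)`. -/
theorem fInv_eq_infl (c : GG) {V : Type} [AddCommGroup V] [Module (ZMod p) V]
    (ρ : Representation (ZMod p) G V) :
    fInv π c V ρ =
      -(Module.finrank (ZMod p) ↥(LinearMap.ker ((infl π ρ).ρ c + 1)) : ℤ) := rfl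

/-- `χ` is an isomorphism invariant. -/
theorem chiInv_congr (𝒰 : LevelFamily GG) {V W : Type} [AddCommGroup V] [Module (ZMod p) V]
    [AddCommGroup W] [Module (ZMod p) W] (ρV : Representation (ZMod p) G V)
    (ρW : Representation (ZMod p) G W) (T : V ≃ₗ[ZMod p] W)
    (hT : ∀ g v, T (ρV g v) = ρW g (T v)) : chiInv π 𝒰 W ρW = chiInv π 𝒰 V ρV :=
  EPLoc.chi2_congr 𝒰 (M := infl π ρV) (N := infl π ρW) T (fun g v => hT (π g) v)

/-- `f` is an isomorphism invariant. -/
theorem fInv_congr (c : GG) {V W : Type} [AddCommGroup V] [Module (ZMod p) V]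
    [AddCommGroup W] [Module (ZMod p) W] (ρV : Representation (ZMod p) G V)
    (ρW : Representation (ZMod p) G W) (T : V ≃ₗ[ZMod p] W)
    (hT : ∀ g v, T (ρV g v) = ρW g (T v)) : fInv π c W ρW = fInv π c V ρV := by
  have hmem : ∀ v : V, v ∈ LinearMap.ker (ρV (π c) + 1) ↔ T v ∈ LinearMap.ker (ρW (π c) + 1) := by
    intro v
    rw [LinearMap.mem_ker, LinearMap.mem_ker, LinearMap.add_apply, LinearMap.add_apply,
      Module.End.one_apply, Module.End.one_apply, ← hT, ← map_add, T.map_eq_zero_iff]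
  have e : ↥(LinearMap.ker (ρV (π c) + 1)) ≃ₗ[ZMod p] ↥(LinearMap.ker (ρW (π c) + 1)) :=
    LinearEquiv.ofBijective
      (T.toLinearMap.restrict (p := LinearMap.ker (ρV (π c) + 1))
        (q := LinearMap.ker (ρW (π c) + 1)) (fun v hv => (hmem v).1 hv))
      ⟨fun x y hxy => Subtype.ext (T.injective (congrArg Subtype.val hxy)),
        fun y => ⟨⟨T.symm y.1, (hmem _).2 (by rw [T.apply_symm_apply]; exact y.2)⟩,
          Subtype.ext (T.apply_symm_apply y.1)⟩⟩
  rw [fInv_apply, fInv_apply, e.finrank_eq]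

variable (D : CData (ZMod p) GG)

/-- `χ` is additive on direct sums (biproduct presentation). -/
theorem chiInv_biprod (h : D.Hyp) (hπ : ∃ U ∈ D.𝒰.sets, ∀ s ∈ U, π s = 1) {X A B : Type}
    [AddCommGroup X] [Module (ZMod p) X] [AddCommGroup A] [Module (ZMod p) A] [Finite A]
    [AddCommGroup B] [Module (ZMod p) B] [Finite B] (ρX : Representation (ZMod p) G X)
    (ρA : Representation (ZMod p) G A) (ρB : Representation (ZMod p) G B)
    (iA : A →ₗ[ZMod p] X) (iB : B →ₗ[ZMod p] X) (pA : X →ₗ[ZMod p] A) (pB : X →ₗ[ZMod p] B)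
    (hiA : ∀ g a, iA (ρA g a) = ρX g (iA a)) (hiB : ∀ g b, iB (ρB g b) = ρX g (iB b))
    (hpA : ∀ g x, pA (ρX g x) = ρA g (pA x)) (hpB : ∀ g x, pB (ρX g x) = ρB g (pB x))
    (hA : ∀ a, pA (iA a) = a) (hB : ∀ b, pB (iB b) = b) (hsum : ∀ x, iA (pA x) + iB (pB x) = x) :
    chiInv π D.𝒰 X ρX = chiInv π D.𝒰 A ρA + chiInv π D.𝒰 B ρB := by
  have hdA := isDisc_infl π D.𝒰 hπ ρA
  have hdB := isDisc_infl π D.𝒰 hπ ρB
  have := CData.finite_H0 (infl π ρA)
  have := CData.finite_H0 (infl π ρB)
  have := h.fin_H1 (infl π ρA) hdA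
  have := h.fin_H1 (infl π ρB) hdB
  have := h.fin_H2 (infl π ρA) hdA
  have := h.fin_H2 (infl π ρB) hdB
  exact MainBiprod.chi2_biprod D.𝒰 (inflHom π ρA ρX iA hiA) (inflHom π ρB ρX iB hiB)
    (inflHom π ρX ρA pA hpA) (inflHom π ρX ρB pB hpB) hA hB hsum

/-- **`χ` is subadditive on equivariant short exact sequences.** -/
theorem subAdd_chiInv (h : D.Hyp) (hπ : ∃ U ∈ D.𝒰.sets, ∀ s ∈ U, π s = 1) :
    SubAdd (chiInv π D.𝒰 : Inv p G) := by
  intro A B C _ _ _ _ _ _ _ _ _ ρA ρB ρC i q hi hq hinj hex hsurj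
  obtain ⟨E, -, -⟩ := SplitSES.exists_of_exact (inflHom π ρA ρB i hi) (inflHom π ρB ρC q hq)
    hinj hsurj (fun m => hex m)
  have hdA := isDisc_infl π D.𝒰 hπ ρA
  have hdB := isDisc_infl π D.𝒰 hπ ρB
  have hdC := isDisc_infl π D.𝒰 hπ ρC
  have := CData.finite_H0 (infl π ρA)
  have := CData.finite_H0 (infl π ρB)
  have := CData.finite_H0 (infl π ρC)
  have := h.fin_H1 (infl π ρA) hdA
  have := h.fin_H1 (infl π ρB) hdB
  have := h.fin_H1 (infl π ρC) hdC
  have := h.fin_H2 (infl π ρA) hdA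
  have := h.fin_H2 (infl π ρB) hdB
  have := h.fin_H2 (infl π ρC) hdC
  exact chi2_mid_le D.𝒰 E hdB

/-- **`f` is additive on equivariant short exact sequences** (`p` odd, `(π c)² = 1`). -/
theorem exAdd_fInv (hp2 : p ≠ 2) (c : GG) (hc : π c * π c = 1) :
    ExAdd (fInv π c : Inv p G) := by
  intro A B C _ _ _ _ _ _ _ _ _ ρA ρB ρC i q hi hq hinj hex hsurj
  have h2 : (2 : ZMod p) ≠ 0 := by
    intro h
    have h' : ((2 : ℕ) : ZMod p) = 0 := by exact_mod_cast h
    rw [ZMod.natCast_eq_zero_iff] at h'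
    have hp : p.Prime := Fact.out
    exact hp2 ((Nat.prime_dvd_prime_iff_eq hp Nat.prime_two).mp h')
  have hb : ∀ x, ρB (π c) (ρB (π c) x) = x := fun x => by
    rw [← Module.End.mul_apply, ← map_mul, hc, map_one, Module.End.one_apply]
  have key := finrank_negEig_exact h2 (ρA (π c)) (ρB (π c)) (ρC (π c)) hb i q
    (fun x => hi (π c) x) (fun x => hq (π c) x) hinj hex hsurj
  rw [fInv_apply, fInv_apply, fInv_apply, key]
  push_cast
  ring

end Infl

/-! ### The global case -/

section Global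

variable {p : ℕ} [Fact p.Prime] {G : Type} [Group G]

/-- **Subadditivity of `χ₂(G_{ℚ,T}, -)` on inflated representations**, unconditionally. -/
theorem subAdd_chiInv_global (hp2 : p ≠ 2) (T : Finset Nat.Primes) (hpT : pPrime p ∈ T)
    (π : GQ →* G) (hπ : ∃ U ∈ (globalLevel T).sets, ∀ s ∈ U, π s = 1) :
    SubAdd (chiInv π (globalLevel T) : Inv p G) := by
  obtain ⟨inv, hyp, -⟩ := Uncond.exists_inv_hyp hp2 T hpT
  exact subAdd_chiInv π (dataS p T hpT inv) hyp hπ

/-- **Additivity of `χ₂(G_{ℚ,T}, -)` on direct sums of inflated representations.** -/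
theorem chiInv_biprod_global (hp2 : p ≠ 2) (T : Finset Nat.Primes) (hpT : pPrime p ∈ T)
    (π : GQ →* G) (hπ : ∃ U ∈ (globalLevel T).sets, ∀ s ∈ U, π s = 1) {X A B : Type}
    [AddCommGroup X] [Module (ZMod p) X] [AddCommGroup A] [Module (ZMod p) A] [Finite A]
    [AddCommGroup B] [Module (ZMod p) B] [Finite B] (ρX : Representation (ZMod p) G X)
    (ρA : Representation (ZMod p) G A) (ρB : Representation (ZMod p) G B)
    (iA : A →ₗ[ZMod p] X) (iB : B →ₗ[ZMod p] X) (pA : X →ₗ[ZMod p] A) (pB : X →ₗ[ZMod p] B)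
    (hiA : ∀ g a, iA (ρA g a) = ρX g (iA a)) (hiB : ∀ g b, iB (ρB g b) = ρX g (iB b))
    (hpA : ∀ g x, pA (ρX g x) = ρA g (pA x)) (hpB : ∀ g x, pB (ρX g x) = ρB g (pB x))
    (hA : ∀ a, pA (iA a) = a) (hB : ∀ b, pB (iB b) = b) (hsum : ∀ x, iA (pA x) + iB (pB x) = x) :
    chiInv π (globalLevel T) X ρX =
      chiInv π (globalLevel T) A ρA + chiInv π (globalLevel T) B ρB := by
  obtain ⟨inv, hyp, -⟩ := Uncond.exists_inv_hyp hp2 T hpT
  exact chiInv_biprod π (dataS p T hpT inv) hyp hπ ρX ρA ρB iA iB pA pB hiA hiB hpA hpB hA hB hsum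

end Global

end Fermat.Agent.S56.EC.Inflate
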