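import Mathlib
import Fermat.Prelude.Def_ExtCitation_KummerBridge
import Fermat.Agent.S56.EC.KumEquiv
import Fermat.Agent.CFT.Global.TUnitsHerbrand

/-!
# S56 / EC.6a, seam (ii): Kummer equivariance in the restriction vocabulary

Bridge between `EC/KumEquiv` (`kum (g a) σ = chi g * kum a (g⁻¹ σ g)` for `g : Gq` with
`g K ⊆ K`) and the vocabulary of `EC/Twist`, `EC/Seams` (an automorphism `τ` of `K`, an element
`g : Gq` restricting to it, the Prelude's mod `p` cyclotomic character `cycloChar p`, the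
action `galTU` on `T`-units).

Everything is stated in BINDER STYLE: `g : Gq`, `τ : ↥K ≃ₐ[ℚ] ↥K` and
`hg : ∀ a : ↥K, g (a : Qb) = ((τ a : ↥K) : Qb)`.

* `apply_eq_pow_cycloChar` : `g x = x ^ (cycloChar p g).val` for `x ^ p = 1`;
* `chi_eq_cycloChar` : `chi K ζ hζ g = cycloChar p g` (in `ZMod p`);
* `apply_mem_of_restrict`, `mapUnit_eq_map` : `KumEquiv.mapUnit K g _ = Units.map τ`;
* `kum_map` : `kum (τ a) σ = cycloChar p g * kum a σ'` for `σ' = g⁻¹ σ g`;
* `coe_galTU_eq_map`, `kum_galTU` : the same on `T`-units, for `galTU h τ`;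
* `kum_galTU_mem_VS`, `kum_galTU_eq_smul_conjVS` : inside the level-`S` characters `VS p S K`.
-/

set_option autoImplicit false

open scoped NumberField
open IsDedekindDomain ExtCitation

namespace Fermat.Agent.S56.EC.KumTwist

local notation "Qb" => AlgebraicClosure ℚ
local notation "Gq" => (AlgebraicClosure ℚ ≃ₐ[ℚ] AlgebraicClosure ℚ)

open Fermat.Agent.CFT.Kummer Fermat.Agent.CFT.Global.CountV Fermat.Agent.S56.EC.KumEquiv
  Fermat.Agent.CFT.Global.TUnitsHerbrand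

variable {p : ℕ} [Fact p.Prime] (K : IntermediateField ℚ Qb)

/-! ### `chi` is the mod `p` cyclotomic character -/

section Chi

/-- The defining property of the Prelude's mod `p` cyclotomic character. -/
theorem apply_eq_pow_cycloChar (g : Gq) {x : Qb} (hx : x ^ p = 1) :
    g x = x ^ ((cycloChar p g : (ZMod p)ˣ) : ZMod p).val := by
  have hp : p.Prime := Fact.out
  have : NeZero p := ⟨hp.ne_zero⟩
  have hx0 : x ≠ 0 := by
    rintro rfl
    rw [zero_pow hp.ne_zero] at hx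
    exact zero_ne_one hx
  have ht : Units.mk0 x hx0 ∈ rootsOfUnity p Qb := by
    rw [mem_rootsOfUnity]
    ext
    simp [hx]
  exact modularCyclotomicCharacter.spec Qb (card_rootsOfUnity_eq_self p) (g : Qb ≃+* Qb) ht

variable (ζ : K) (hζ : IsPrimitiveRoot ζ p)

/-- The exponent `chi` of `EC/KumEquiv` is the Prelude's mod `p` cyclotomic character. -/
theorem chi_eq_cycloChar (g : Gq) :
    chi K ζ hζ g = ((cycloChar p g : (ZMod p)ˣ) : ZMod p) := by
  have hp : p.Prime := Fact.out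
  have : NeZero p := ⟨hp.ne_zero⟩
  have hz := isPrimitiveRoot_coe K ζ hζ
  have h := chi_eq_of_apply K ζ hζ g _ (apply_eq_pow_cycloChar g hz.pow_eq_one)
  rw [h, ZMod.natCast_zmod_val]

end Chi

/-! ### An element restricting to an automorphism of `K` -/

section Restrict

variable (g : Gq) (τ : ↥K ≃ₐ[ℚ] ↥K) (hg : ∀ a : ↥K, g (a : Qb) = ((τ a : ↥K) : Qb))

include hg in
/-- An element of `Gq` restricting to an automorphism of `K` maps `K` into `K`. -/
theorem apply_mem_of_restrict : ∀ x ∈ K, g x ∈ K := by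
  intro x hx
  rw [hg ⟨x, hx⟩]
  exact (τ ⟨x, hx⟩).2

/-- `KumEquiv.mapUnit K g _` is `Units.map τ`. -/
theorem mapUnit_apply_eq_map (a : (↥K)ˣ) :
    mapUnit K g (apply_mem_of_restrict K g τ hg) a =
      Units.map (MonoidHomClass.toMonoidHom τ) a := by
  apply Units.ext
  apply Subtype.ext
  rw [coe_mapUnit]
  exact hg (a : ↥K)

theorem mapUnit_eq_map :
    mapUnit K g (apply_mem_of_restrict K g τ hg) = Units.map (MonoidHomClass.toMonoidHom τ) :=
  MonoidHom.ext (mapUnit_apply_eq_map K g τ hg)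

variable (ζ : K) (hζ : IsPrimitiveRoot ζ p)

include hg in
/-- **Kummer equivariance, restriction form**: `kum (τ a) σ = ω(g) * kum a (g⁻¹ σ g)` for every
`g` restricting to `τ`. -/
theorem kum_map (a : (↥K)ˣ) (σ σ' : ↥K.fixingSubgroup) (hσ : (σ' : Gq) = g⁻¹ * (σ : Gq) * g) :
    kum K ζ hζ (Units.map (MonoidHomClass.toMonoidHom τ) a) σ =
      ((cycloChar p g : (ZMod p)ˣ) : ZMod p) * kum K ζ hζ a σ' := by
  have hσ' : σ' = conjFix K g (apply_mem_of_restrict K g τ hg) σ := Subtype.ext hσ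
  rw [← mapUnit_apply_eq_map K g τ hg a, kum_mapUnit K ζ hζ g _ a σ, chi_eq_cycloChar K ζ hζ g,
    hσ']

/-- Function form: `kum (τ a) = ω(g) • (kum a ∘ (σ ↦ g⁻¹ σ g))`. -/
theorem kum_map_fun (a : (↥K)ˣ) :
    kum K ζ hζ (Units.map (MonoidHomClass.toMonoidHom τ) a) =
      ((cycloChar p g : (ZMod p)ˣ) : ZMod p) •
        (kum K ζ hζ a ∘ conjFix K g (apply_mem_of_restrict K g τ hg)) := by
  funext σ
  rw [kum_map K g τ hg ζ hζ a σ (conjFix K g (apply_mem_of_restrict K g τ hg) σ)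
    (coe_conjFix K g _ σ)]
  rfl

/-! ### `T`-units -/

section TUnits

variable [NumberField ↥K] {T : Set (HeightOneSpectrum (𝓞 ↥K))} (h : GalStable ℚ ↥K T)

omit [Fact p.Prime] in
/-- The action `galTU` on `T`-units is `Units.map τ`. -/
theorem coe_galTU_eq_map (x : T.unit ↥K) :
    ((galTU h τ x : T.unit ↥K) : (↥K)ˣ) =
      Units.map (MonoidHomClass.toMonoidHom τ) (x : (↥K)ˣ) := rfl

include hg in
/-- **Kummer equivariance on `T`-units**:
`kum (galTU h τ x) σ = ω(g) * kum x (g⁻¹ σ g)` for every `g` restricting to `τ`. -/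
theorem kum_galTU (x : T.unit ↥K) (σ σ' : ↥K.fixingSubgroup)
    (hσ : (σ' : Gq) = g⁻¹ * (σ : Gq) * g) :
    kum K ζ hζ ((galTU h τ x : T.unit ↥K) : (↥K)ˣ) σ =
      ((cycloChar p g : (ZMod p)ˣ) : ZMod p) * kum K ζ hζ (x : (↥K)ˣ) σ' :=
  kum_map K g τ hg ζ hζ (x : (↥K)ˣ) σ σ' hσ

/-- Function form on `T`-units. -/
theorem kum_galTU_fun (x : T.unit ↥K) :
    kum K ζ hζ ((galTU h τ x : T.unit ↥K) : (↥K)ˣ) =
      ((cycloChar p g : (ZMod p)ˣ) : ZMod p) •
        (kum K ζ hζ (x : (↥K)ˣ) ∘ conjFix K g (apply_mem_of_restrict K g τ hg)) :=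
  kum_map_fun K g τ hg ζ hζ (x : (↥K)ˣ)

variable {S : Finset Nat.Primes}

include hg in
/-- The Kummer character of `galTU h τ x` is of level `S` when that of `x` is. -/
theorem kum_galTU_mem_VS (x : T.unit ↥K) (hx : kum K ζ hζ (x : (↥K)ˣ) ∈ VS p S K) :
    kum K ζ hζ ((galTU h τ x : T.unit ↥K) : (↥K)ˣ) ∈ VS p S K := by
  rw [kum_galTU_fun K g τ hg ζ hζ h x]
  exact (VS p S K).smul_mem _ (comp_conjFix_mem_VS K g (apply_mem_of_restrict K g τ hg) _ hx)

/-- **Equivariance inside `VS`**: `kum (galTU h τ x) = ω(g) • conj_g (kum x)`. -/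
theorem kum_galTU_eq_smul_conjVS (x : T.unit ↥K) (hx : kum K ζ hζ (x : (↥K)ˣ) ∈ VS p S K) :
    (⟨kum K ζ hζ ((galTU h τ x : T.unit ↥K) : (↥K)ˣ),
        kum_galTU_mem_VS K g τ hg ζ hζ h x hx⟩ : VS p S K) =
      ((cycloChar p g : (ZMod p)ˣ) : ZMod p) •
        conjVS K g (apply_mem_of_restrict K g τ hg) ⟨kum K ζ hζ (x : (↥K)ˣ), hx⟩ :=
  Subtype.ext (kum_galTU_fun K g τ hg ζ hζ h x)

end TUnits

end Restrict

end Fermat.Agent.S56.EC.KumTwist
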