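import Mathlib
import Fermat.Agent.CFT.Global.CountAbs
import Fermat.Agent.CFT.Global.TUnitsHerbrand
import Fermat.Agent.S56.EC.CoindAction

/-!
# S56 / EC.3, arithmetic half (helper46): Shapiro and Kummer for `M0(K)`, equivariantly

`Qb = AlgebraicClosure ℚ`, `Gq = Gal(Qb/ℚ)`, `K ≤ Qb` a number field unramified outside `S ∋ p`
with `μ_p ⊂ K`, `M0(K) = MK p K = coindTriv (Fix K) 𝔽_p`, `N = Nrm (Fix K)` the normaliser of
`Fix K` in `Gq`, acting on `M0(K)` by helper97's `CoindAction.lt` (`(g • f) x = f (g⁻¹ x)`).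

* `cjV g` : conjugation `c ↦ (u ↦ c (g⁻¹ u g))` on the level-`S` characters `V_S(K)` of `G_K`;
* `shEquiv : H¹(G_{ℚ,S}, M0(K)) ≃ V_S(K)` (level cohomology `Abs.H1 (globalLevel S)`), and
  `shH1_actH1 : shH1 (g • x) = cjV g (shH1 x)`;
* `kumH1 : B_S → H¹(G_{ℚ,S}, M0(K))` (`B_S = selS K p (SK S K) ⊇ U_S`), the class whose Shapiro
  image is the Kummer character; `kumH1_eq_zero_iff` (kernel = `p`-th powers);
* `kum_conj` : `kum_{g a}(σ) = χ_p(g) · kum_a(g⁻¹ σ g)` and `kumH1_conj` :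
  `kumH1 (g a) = χ_p(g) • (g • kumH1 a)` (`χ_p = cycloChar p`);
* `Aut(K)`: `exists_lift`, `mem_nrm_of_restrict`, `autToGam : Aut(K) →* Gam (Fix K)`,
  `cycK : Aut(K) → 𝔽_pˣ`;
* `kumU : U_S → H¹(G_{ℚ,S}, M0(K))` on the `S`-units (`(SKset S K).unit K`, the spelling of
  `TUnitsHerbrand` / `S56/EC/UnitLattice`), `kumU_eq_zero_iff` (kernel `= p · U_S`),
  `kumU_galTU` : `kumU (τ x) = χ_p(τ) • (τ • kumU x)`.
-/

set_option autoImplicit false

open scoped NumberField IntermediateField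
open IsDedekindDomain groupCohomology ExtCitation CategoryTheory

namespace Fermat.Agent.S56.EC.M0Act

local notation "Qb" => AlgebraicClosure ℚ
local notation "Gq" => (AlgebraicClosure ℚ ≃ₐ[ℚ] AlgebraicClosure ℚ)

open Fermat.Agent.CFT.Global.CountV Fermat.Agent.CFT.Global.CountQ Fermat.Agent.S55.Shapiro
  Fermat.Agent.S55.Abs Fermat.Agent.CFT.Global.SelmerCount Fermat.Agent.S56.EC.CoindAction

variable {p : ℕ} [Fact p.Prime] (K : IntermediateField ℚ Qb)

/-! ### Conjugation on the level-`S` characters of `G_K` -/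

section Conj

variable (S : Finset Nat.Primes)

/-- Conjugation by `g ∈ N(Fix K)` on the level-`S` characters of `G_K`:
`(cjV g c) u = c (g⁻¹ u g)`. -/
noncomputable def cjV (hK : K.IsUnramifiedOutside S) (g : ↥(Nrm K.fixingSubgroup)) :
    ↥(VS p S K) →ₗ[ZMod p] ↥(VS p S K) where
  toFun c := ⟨fun u => c.1 (cj K.fixingSubgroup g u), by
    obtain ⟨c, hadd, F, hF, hcF⟩ := c
    obtain ⟨F', hFF', -, hF', hn⟩ := Fermat.Agent.S55.Glue.exists_normal_isUnramifiedOutside hF hK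
    refine ⟨fun σ τ => ?_, F', hF', fun u s hs => ?_⟩
    · show c (cj K.fixingSubgroup g (σ * τ)) =
        c (cj K.fixingSubgroup g σ) + c (cj K.fixingSubgroup g τ)
      rw [cj_mul, hadd]
    · show c (cj K.fixingSubgroup g (u * s)) = c (cj K.fixingSubgroup g u)
      rw [cj_mul]
      refine hcF _ _ ?_
      have h1 := Fermat.Agent.S55.Glue.conj_mem_fixingSubgroup F' hs (g : Gq)⁻¹
      rw [inv_inv] at h1
      exact IntermediateField.fixingSubgroup_antitone hFF' h1⟩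
  map_add' _ _ := rfl
  map_smul' _ _ := rfl

theorem cjV_apply (hK : K.IsUnramifiedOutside S) (g : ↥(Nrm K.fixingSubgroup))
    (c : ↥(VS p S K)) (u : ↥K.fixingSubgroup) :
    (cjV K S hK g c).1 u = c.1 (cj K.fixingSubgroup g u) := rfl

end Conj

/-! ### Shapiro on the level cohomology: `H¹(G_{ℚ,S}, M0(K)) ≃ V_S(K)` -/

section Shapiro

variable (S : Finset Nat.Primes)

/-- Evaluation at `1` on level-`S` cocycles. -/
noncomputable def shZ : ↥(Z1 (globalLevel S) (MK p K)) →ₗ[ZMod p] ↥(VS p S K) :=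
  LinearMap.codRestrict (VS p S K)
    ((sh₁ K.fixingSubgroup (AK p K)).comp (Z1 (globalLevel S) (MK p K)).subtype)
    (fun c => sh₁_mem_VS c.2.2 ((isLevelConstantS₁_iff S _).mpr c.2.1))

theorem shZ_apply (c : ↥(Z1 (globalLevel S) (MK p K))) (u : ↥K.fixingSubgroup) :
    (shZ K S c).1 u = (c.1 (u : Gq)).1 1 := rfl

/-- **Shapiro**, as a map on the level cohomology: the class of `c` goes to `u ↦ c(u)(1)`. -/
noncomputable def shH1 : S55.Abs.H1 (globalLevel S) (MK p K) →ₗ[ZMod p] ↥(VS p S K) :=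
  Submodule.liftQ _ (shZ K S) (fun c hc => by
    rw [LinearMap.mem_ker]
    apply Subtype.ext
    exact eq_zero_of_mem_coboundaries₁_AK K (sh₁_mem_coboundaries₁ hc))

theorem shH1_mk (c : ↥(Z1 (globalLevel S) (MK p K))) :
    shH1 K S (Submodule.Quotient.mk c) = shZ K S c := rfl

theorem shH1_injective : Function.Injective (shH1 (p := p) K S) := by
  rw [← LinearMap.ker_eq_bot, LinearMap.ker_eq_bot']
  intro x hx
  obtain ⟨c, rfl⟩ := Submodule.Quotient.mk_surjective _ x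
  rw [shH1_mk] at hx
  rw [Submodule.Quotient.mk_eq_zero, Submodule.mem_comap]
  refine (mem_coboundaries₁_iff_sh₁ c.2.2).mpr ?_
  have h0 : sh₁ K.fixingSubgroup (AK p K) c.1 = 0 := congrArg Subtype.val hx
  rw [h0]
  exact Submodule.zero_mem _

/-- The class of `ind₁ c`, `c` a level-`S` character of `G_K`. -/
noncomputable def indH1 (hK : K.IsUnramifiedOutside S) (R : Retr K.fixingSubgroup)
    (c : ↥(VS p S K)) : S55.Abs.H1 (globalLevel S) (MK p K) :=
  Submodule.Quotient.mk ⟨ind₁ (AK p K) R c.1,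
    (isLevelConstantS₁_iff S _).mp (isLevelConstantS₁_ind₁ hK R c.2),
    ind₁_mem_cocycles₁ R ((mem_cocycles₁_AK_iff K _).mpr c.2.1)⟩

theorem shH1_indH1 (hK : K.IsUnramifiedOutside S) (R : Retr K.fixingSubgroup) (c : ↥(VS p S K)) :
    shH1 K S (indH1 K S hK R c) = c := by
  apply Subtype.ext
  show sh₁ K.fixingSubgroup (AK p K) (ind₁ (AK p K) R c.1) = c.1
  rw [sh₁_ind₁]

theorem shH1_surjective (hK : K.IsUnramifiedOutside S) :
    Function.Surjective (shH1 (p := p) K S) := by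
  intro c
  obtain ⟨R⟩ := Retr.nonempty K.fixingSubgroup
  exact ⟨indH1 K S hK R c, shH1_indH1 K S hK R c⟩

/-- **Shapiro**: `H¹(G_{ℚ,S}, M0(K)) ≃ V_S(K)` on the level cohomology. -/
noncomputable def shEquiv (hK : K.IsUnramifiedOutside S) :
    S55.Abs.H1 (globalLevel S) (MK p K) ≃ₗ[ZMod p] ↥(VS p S K) :=
  LinearEquiv.ofBijective (shH1 K S) ⟨shH1_injective K S, shH1_surjective K S hK⟩

theorem shEquiv_apply (hK : K.IsUnramifiedOutside S)
    (x : S55.Abs.H1 (globalLevel S) (MK p K)) : shEquiv K S hK x = shH1 K S x := rfl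

/-- **Shapiro is equivariant**: the action of `N(Fix K)` on `H¹` through `lt` corresponds to
conjugation on `V_S(K)`. -/
theorem shH1_actH1 (hK : K.IsUnramifiedOutside S) (g : ↥(Nrm K.fixingSubgroup))
    (x : S55.Abs.H1 (globalLevel S) (MK p K)) :
    shH1 K S (actH1 K.fixingSubgroup (ZMod p) (globalLevel S) g x) =
      cjV K S hK g (shH1 K S x) := by
  obtain ⟨c, rfl⟩ := Submodule.Quotient.mk_surjective _ x
  apply Subtype.ext
  funext u
  exact sh₁_lt K.fixingSubgroup (ZMod p) g c.2.2 u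

end Shapiro

/-! ### The Kummer map `B_S → H¹(G_{ℚ,S}, M0(K))` and its equivariance -/

section Kummer

variable (S : Finset Nat.Primes) [NumberField K] (ζ : K) (hζ : IsPrimitiveRoot ζ p)

/-- The Kummer characters of `B_S = {a ∈ Kˣ | p ∣ ord_v a, v ∉ S_K}`, as level-`S` characters. -/
noncomputable def kumV (hpS : pPrime p ∈ S) (hK : K.IsUnramifiedOutside S) :
    Additive ↥(selS K p (SK S K)) →+ ↥(VS p S K) where
  toFun a := ⟨kum K ζ hζ (a.toMul : Kˣ), (kum_mem_VS_iff S K ζ hζ hpS hK _).mpr a.toMul.2⟩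
  map_zero' := Subtype.ext (kum_one K ζ hζ)
  map_add' _ _ := Subtype.ext (kum_mul K ζ hζ _ _)

theorem kumV_apply (hpS : pPrime p ∈ S) (hK : K.IsUnramifiedOutside S)
    (a : Additive ↥(selS K p (SK S K))) :
    (kumV K S ζ hζ hpS hK a : ↥K.fixingSubgroup → ZMod p) = kum K ζ hζ (a.toMul : Kˣ) := rfl

/-- **The Kummer map** `B_S → H¹(G_{ℚ,S}, M0(K))`: the class whose Shapiro image is the Kummer
character. -/
noncomputable def kumH1 (hpS : pPrime p ∈ S) (hK : K.IsUnramifiedOutside S) :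
    Additive ↥(selS K p (SK S K)) →+ S55.Abs.H1 (globalLevel S) (MK p K) :=
  ((shEquiv (p := p) K S hK).symm.toLinearMap.toAddMonoidHom).comp (kumV K S ζ hζ hpS hK)

theorem shH1_kumH1 (hpS : pPrime p ∈ S) (hK : K.IsUnramifiedOutside S)
    (a : Additive ↥(selS K p (SK S K))) :
    shH1 K S (kumH1 K S ζ hζ hpS hK a) = kumV K S ζ hζ hpS hK a :=
  (shEquiv (p := p) K S hK).apply_symm_apply _

/-- The kernel of the Kummer map: the `p`-th powers of `Kˣ`. -/
theorem kumH1_eq_zero_iff (hpS : pPrime p ∈ S) (hK : K.IsUnramifiedOutside S)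
    (a : Additive ↥(selS K p (SK S K))) :
    kumH1 K S ζ hζ hpS hK a = 0 ↔ (a.toMul : Kˣ) ∈ (powMonoidHom p : Kˣ →* Kˣ).range := by
  rw [← kum_eq_zero_iff K ζ hζ]
  constructor
  · intro h
    have h1 := shH1_kumH1 K S ζ hζ hpS hK a
    rw [h, map_zero] at h1
    exact (congrArg Subtype.val h1).symm
  · intro h
    apply shH1_injective K S
    rw [shH1_kumH1, map_zero]
    exact Subtype.ext h

omit [NumberField K] in
/-- **Kummer equivariance.** For `g ∈ N(Fix K)` and `a, b ∈ Kˣ` with `g(a) = b`: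
`kum_b(σ) = χ_p(g) · kum_a(g⁻¹ σ g)`. -/
theorem kum_conj (g : ↥(Nrm K.fixingSubgroup)) (a b : Kˣ)
    (hab : (g : Gq) ((a : K) : Qb) = ((b : K) : Qb)) (σ : ↥K.fixingSubgroup) :
    kum K ζ hζ b σ = ((cycloChar p (g : Gq) : (ZMod p)ˣ) : ZMod p) *
      kum K ζ hζ a (cj K.fixingSubgroup g σ) := by
  have hp : p.Prime := Fact.out
  have : NeZero p := ⟨hp.ne_zero⟩
  have hθ : ((g : Gq) (root p K a)) ^ p = ((b : K) : Qb) := by rw [← map_pow, root_pow, hab]
  have h1 := kum_root K ζ hζ a (cj K.fixingSubgroup g σ)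
  have hζp : ((ζ : K) : Qb) ^ p = 1 := (isPrimitiveRoot_coe K ζ hζ).pow_eq_one
  have hgζ : (g : Gq) (ζ : Qb) = (ζ : Qb) ^ ((cycloChar p (g : Gq) : (ZMod p)ˣ) : ZMod p).val :=
    Fermat.Agent.CFT.LocalBr.cycloChar_spec p (g : Gq) hζp
  have h2 : (σ : Gq) ((g : Gq) (root p K a)) =
      (ζ : Qb) ^ (((cycloChar p (g : Gq) : (ZMod p)ˣ) : ZMod p).val *
        (kum K ζ hζ a (cj K.fixingSubgroup g σ)).val) * (g : Gq) (root p K a) := by
    have h3 : (σ : Gq) ((g : Gq) (root p K a)) =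
        (g : Gq) (((cj K.fixingSubgroup g σ : ↥K.fixingSubgroup) : Gq) (root p K a)) := by
      rw [cj_coe]
      simp [AlgEquiv.mul_apply]
    rw [h3, h1, map_mul, map_pow, hgζ, ← pow_mul]
  rw [kum_eq_of_apply K ζ hζ b _ hθ σ _ h2]
  push_cast
  rw [ZMod.natCast_zmod_val, ZMod.natCast_zmod_val]

/-- Kummer equivariance on `V_S(K)`. -/
theorem kumV_conj (hpS : pPrime p ∈ S) (hK : K.IsUnramifiedOutside S)
    (g : ↥(Nrm K.fixingSubgroup)) (a b : Additive ↥(selS K p (SK S K)))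
    (hab : (g : Gq) (((a.toMul : Kˣ) : K) : Qb) = (((b.toMul : Kˣ) : K) : Qb)) :
    kumV K S ζ hζ hpS hK b =
      ((cycloChar p (g : Gq) : (ZMod p)ˣ) : ZMod p) •
        cjV K S hK g (kumV K S ζ hζ hpS hK a) := by
  apply Subtype.ext
  funext σ
  exact kum_conj K ζ hζ g _ _ hab σ

/-- **The Kummer map is equivariant up to the cyclotomic twist**: if `g(a) = b` then
`kumH1 b = χ_p(g) • (g • kumH1 a)`, `g ∈ N(Fix K)` acting on `H¹` through `lt`. -/
theorem kumH1_conj (hpS : pPrime p ∈ S) (hK : K.IsUnramifiedOutside S)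
    (g : ↥(Nrm K.fixingSubgroup)) (a b : Additive ↥(selS K p (SK S K)))
    (hab : (g : Gq) (((a.toMul : Kˣ) : K) : Qb) = (((b.toMul : Kˣ) : K) : Qb)) :
    kumH1 K S ζ hζ hpS hK b =
      ((cycloChar p (g : Gq) : (ZMod p)ˣ) : ZMod p) •
        actH1 K.fixingSubgroup (ZMod p) (globalLevel S) g (kumH1 K S ζ hζ hpS hK a) := by
  apply shH1_injective K S
  rw [shH1_kumH1, map_smul, shH1_actH1 K S hK, shH1_kumH1]
  exact kumV_conj K S ζ hζ hpS hK g a b hab

end Kummer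

/-! ### The group `Aut(K)`: lifts to `G_ℚ`, the map to `Γ = N(Fix K) / Fix K` -/

section Aut

/-- An element of `G_ℚ` restricting to an automorphism of `K` normalises `Fix K`. -/
theorem mem_nrm_of_restrict (g : Gq) (τ : ↥K ≃ₐ[ℚ] ↥K)
    (h : ∀ x : ↥K, g (x : Qb) = ((τ x : ↥K) : Qb)) : g ∈ Nrm K.fixingSubgroup := by
  have hinv : ∀ x : ↥K, g⁻¹ (x : Qb) = ((τ.symm x : ↥K) : Qb) := by
    intro x
    have h1 := h (τ.symm x)
    rw [AlgEquiv.apply_symm_apply] at h1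
    rw [← h1]
    exact AlgEquiv.symm_apply_apply g _
  rw [Subgroup.mem_normalizer_iff]
  intro u
  rw [IntermediateField.mem_fixingSubgroup_iff, IntermediateField.mem_fixingSubgroup_iff]
  constructor
  · intro hu x hx
    have h1 := hinv ⟨x, hx⟩
    have h2 := h (τ.symm ⟨x, hx⟩)
    rw [AlgEquiv.apply_symm_apply] at h2
    show g (u (g⁻¹ x)) = x
    rw [show g⁻¹ x = ((τ.symm ⟨x, hx⟩ : ↥K) : Qb) from h1, hu _ (τ.symm ⟨x, hx⟩).2, h2]
  · intro hu x hx
    have h1 := hu _ (τ ⟨x, hx⟩).2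
    have h2 := h ⟨x, hx⟩
    have h3 : g (u (g⁻¹ ((τ ⟨x, hx⟩ : ↥K) : Qb))) = ((τ ⟨x, hx⟩ : ↥K) : Qb) := h1
    rw [← h2] at h3
    have h4 : g⁻¹ (g x) = x := AlgEquiv.symm_apply_apply g x
    rw [show g⁻¹ (g ((⟨x, hx⟩ : ↥K) : Qb)) = x from h4] at h3
    exact g.injective h3

/-- Every automorphism of `K` lifts to `G_ℚ`. -/
theorem exists_lift (τ : ↥K ≃ₐ[ℚ] ↥K) :
    ∃ g : Gq, ∀ x : ↥K, g (x : Qb) = ((τ x : ↥K) : Qb) := by
  have : Algebra.IsAlgebraic ℚ Qb := AlgebraicClosure.isAlgebraic ℚ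
  have : IsAlgClosure ℚ Qb := ⟨inferInstance, inferInstance⟩
  have : Normal ℚ Qb := IsAlgClosure.normal ℚ Qb
  exact ⟨τ.liftNormal Qb, fun x => τ.liftNormal_commutes Qb x⟩

/-- A chosen lift of `τ ∈ Aut(K)` to the normaliser of `Fix K`. -/
noncomputable def liftK (τ : ↥K ≃ₐ[ℚ] ↥K) : ↥(Nrm K.fixingSubgroup) :=
  ⟨(exists_lift K τ).choose, mem_nrm_of_restrict K _ τ (exists_lift K τ).choose_spec⟩

theorem liftK_spec (τ : ↥K ≃ₐ[ℚ] ↥K) (x : ↥K) :
    (liftK K τ : Gq) (x : Qb) = ((τ x : ↥K) : Qb) := (exists_lift K τ).choose_spec x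

/-- Two lifts of the same automorphism differ by an element of `Fix K`. -/
theorem inv_mul_mem_of_restrict (g g' : Gq) (τ : ↥K ≃ₐ[ℚ] ↥K)
    (h : ∀ x : ↥K, g (x : Qb) = ((τ x : ↥K) : Qb))
    (h' : ∀ x : ↥K, g' (x : Qb) = ((τ x : ↥K) : Qb)) : g⁻¹ * g' ∈ K.fixingSubgroup := by
  rw [IntermediateField.mem_fixingSubgroup_iff]
  intro x hx
  show g⁻¹ (g' x) = x
  rw [show g' x = g x from (h' ⟨x, hx⟩).trans (h ⟨x, hx⟩).symm]
  exact AlgEquiv.symm_apply_apply g x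

/-- The class in `Γ = N(Fix K) / Fix K` of any lift of `τ`. -/
theorem mk_eq_of_restrict (g g' : ↥(Nrm K.fixingSubgroup)) (τ : ↥K ≃ₐ[ℚ] ↥K)
    (h : ∀ x : ↥K, (g : Gq) (x : Qb) = ((τ x : ↥K) : Qb))
    (h' : ∀ x : ↥K, (g' : Gq) (x : Qb) = ((τ x : ↥K) : Qb)) :
    (QuotientGroup.mk g : Gam K.fixingSubgroup) = QuotientGroup.mk g' := by
  rw [QuotientGroup.eq]
  exact Subgroup.mem_subgroupOf.mpr (inv_mul_mem_of_restrict K _ _ τ h h')

/-- **The adapter `Aut(K) → Γ = N(Fix K) / Fix K`**: `τ ↦` the class of any lift of `τ`.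
Composing helper97's `ltRepQ`, `actH0Q`, `actH1Q`, `actH2Q`, `actLH0Q` with it gives the actions
of `Aut(K)`. -/
noncomputable def autToGam : (↥K ≃ₐ[ℚ] ↥K) →* Gam K.fixingSubgroup where
  toFun τ := QuotientGroup.mk (liftK K τ)
  map_one' := by
    rw [mk_eq_of_restrict K (liftK K 1) 1 1 (liftK_spec K 1) (fun _ => rfl)]
    rfl
  map_mul' τ τ' := by
    rw [mk_eq_of_restrict K (liftK K (τ * τ')) (liftK K τ * liftK K τ') (τ * τ')
      (liftK_spec K (τ * τ')) (fun x => by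
        show (liftK K τ : Gq) ((liftK K τ' : Gq) (x : Qb)) = ((τ (τ' x) : ↥K) : Qb)
        rw [liftK_spec, liftK_spec])]
    rfl

theorem autToGam_eq (τ : ↥K ≃ₐ[ℚ] ↥K) (g : ↥(Nrm K.fixingSubgroup))
    (h : ∀ x : ↥K, (g : Gq) (x : Qb) = ((τ x : ↥K) : Qb)) :
    autToGam K τ = QuotientGroup.mk g :=
  mk_eq_of_restrict K _ _ τ (liftK_spec K τ) h

variable (ζ : K) (hζ : IsPrimitiveRoot ζ p)

/-- The mod `p` cyclotomic character on `Aut(K)` (meaningful when `μ_p ⊂ K`). -/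
noncomputable def cycK (p : ℕ) [Fact p.Prime] (K : IntermediateField ℚ Qb)
    (τ : ↥K ≃ₐ[ℚ] ↥K) : (ZMod p)ˣ := cycloChar p (liftK K τ : Gq)

include hζ in
theorem cycK_eq (τ : ↥K ≃ₐ[ℚ] ↥K) (g : Gq) (h : ∀ x : ↥K, g (x : Qb) = ((τ x : ↥K) : Qb)) :
    cycloChar p g = cycK p K τ := by
  have h1 := cycloChar_eq_one_of_isPrimitiveRoot ζ hζ _
    (inv_mul_mem_of_restrict K _ _ τ (liftK_spec K τ) h)
  rw [map_mul, map_inv, inv_mul_eq_one] at h1
  exact h1.symm

include hζ in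
theorem cycK_one : cycK p K 1 = 1 := by
  rw [← cycK_eq K ζ hζ 1 1 (fun _ => rfl), map_one]

include hζ in
theorem cycK_mul (τ τ' : ↥K ≃ₐ[ℚ] ↥K) : cycK p K (τ * τ') = cycK p K τ * cycK p K τ' := by
  have h : ∀ x : ↥K, ((liftK K τ : Gq) * (liftK K τ' : Gq)) (x : Qb) = (((τ * τ') x : ↥K) : Qb) := by
    intro x
    show (liftK K τ : Gq) ((liftK K τ' : Gq) (x : Qb)) = ((τ (τ' x) : ↥K) : Qb)
    rw [liftK_spec, liftK_spec]
  rw [← cycK_eq K ζ hζ (τ * τ') _ h, map_mul]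
  rfl

/-- The mod `p` cyclotomic character of `Aut(K)`, as a homomorphism (`μ_p ⊂ K`). -/
noncomputable def cycKHom : (↥K ≃ₐ[ℚ] ↥K) →* (ZMod p)ˣ where
  toFun := cycK p K
  map_one' := cycK_one K ζ hζ
  map_mul' := cycK_mul K ζ hζ

theorem cycKHom_apply (τ : ↥K ≃ₐ[ℚ] ↥K) : cycKHom K ζ hζ τ = cycK p K τ := rfl

end Aut

/-! ### The `S`-units -/

section Units

open Fermat.Agent.CFT.Global.TUnitsHerbrand Fermat.Agent.CFT.Global.GalPrime

variable (S : Finset Nat.Primes) [NumberField K] (ζ : K) (hζ : IsPrimitiveRoot ζ p)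

/-- The set of primes of `K` above `S` is stable under `Aut(K)`. -/
theorem galStable_SKset : GalStable ℚ ↥K (SKset S K) := by
  rintro τ w ⟨q, hq, hmem⟩
  refine ⟨q, hq, ?_⟩
  rw [mem_galPrime, map_natCast]
  exact hmem

/-- The `S`-units lie in `B_S`. -/
theorem unit_le_selS : (SKset S K).unit K ≤ selS K p (SK S K) := by
  intro x hx
  have hp : p.Prime := Fact.out
  rw [mem_selS_iff_valuation K p hp.ne_zero]
  intro v hv
  refine ⟨0, ?_⟩
  rw [mul_zero, WithZero.exp_zero]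
  refine (mem_unit_iff x).mp hx v ?_
  rw [← coe_SK]
  exact_mod_cast hv

/-- **The Kummer map on the `S`-units**, `U_S → H¹(G_{ℚ,S}, M0(K))`. -/
noncomputable def kumU (hpS : pPrime p ∈ S) (hK : K.IsUnramifiedOutside S) :
    Additive ((SKset S K).unit K) →+ S55.Abs.H1 (globalLevel S) (MK p K) :=
  (kumH1 K S ζ hζ hpS hK).comp
    (MonoidHom.toAdditive (Subgroup.inclusion (unit_le_selS (p := p) K S)))

theorem kumU_apply (hpS : pPrime p ∈ S) (hK : K.IsUnramifiedOutside S)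
    (x : Additive ((SKset S K).unit K)) :
    kumU K S ζ hζ hpS hK x = kumH1 K S ζ hζ hpS hK
      (Additive.ofMul (Subgroup.inclusion (unit_le_selS (p := p) K S) x.toMul)) := rfl

/-- The kernel of the Kummer map on the `S`-units is `p · U_S`: so `U_S / p` embeds in
`H¹(G_{ℚ,S}, M0(K))`. -/
theorem kumU_eq_zero_iff (hpS : pPrime p ∈ S) (hK : K.IsUnramifiedOutside S)
    (x : Additive ((SKset S K).unit K)) :
    kumU K S ζ hζ hpS hK x = 0 ↔ ∃ y : Additive ((SKset S K).unit K), p • y = x := by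
  have hp : p.Prime := Fact.out
  rw [kumU_apply, kumH1_eq_zero_iff]
  constructor
  · rintro ⟨b, hb⟩
    have hb' : b ^ p = ((x.toMul : (SKset S K).unit K) : Kˣ) := hb
    have hbu : b ∈ (SKset S K).unit K := by
      rw [mem_unit_iff]
      intro w hw
      have h1 := (mem_unit_iff _).mp (x.toMul : (SKset S K).unit K).2 w hw
      rw [← hb', Units.val_pow_eq_pow_val, map_pow] at h1
      exact (pow_eq_one_iff_of_nonneg zero_le hp.ne_zero).mp h1
    refine ⟨Additive.ofMul ⟨b, hbu⟩, ?_⟩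
    apply Additive.toMul.injective
    apply Subtype.ext
    exact hb'
  · rintro ⟨y, rfl⟩
    exact ⟨((y.toMul : (SKset S K).unit K) : Kˣ), rfl⟩

/-- **The Kummer map on the `S`-units is `Aut(K)`-equivariant up to the cyclotomic twist**:
for `τ ∈ Aut(K)` and ANY lift `g ∈ N(Fix K)` of `τ`,
`kumU (τ x) = χ_p(g) • (g • kumU x)`, `g` acting on `H¹` through `lt` (`actH1`). -/
theorem kumU_galTU (hpS : pPrime p ∈ S) (hK : K.IsUnramifiedOutside S)
    (h : GalStable ℚ ↥K (SKset S K)) (τ : ↥K ≃ₐ[ℚ] ↥K) (g : ↥(Nrm K.fixingSubgroup))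
    (hg : ∀ x : ↥K, (g : Gq) (x : Qb) = ((τ x : ↥K) : Qb)) (x : (SKset S K).unit K) :
    kumU K S ζ hζ hpS hK (Additive.ofMul (galTU h τ x)) =
      ((cycloChar p (g : Gq) : (ZMod p)ˣ) : ZMod p) •
        actH1 K.fixingSubgroup (ZMod p) (globalLevel S) g
          (kumU K S ζ hζ hpS hK (Additive.ofMul x)) :=
  kumH1_conj K S ζ hζ hpS hK g _ _ (hg _)

/-- The same in terms of `Aut(K)` only: `kumU (τ x) = χ_p(τ) • (τ • kumU x)`, `τ` acting on
`H¹` through `autToGam` and helper97's `actH1Q`. -/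
theorem kumU_galTU_aut (hpS : pPrime p ∈ S) (hK : K.IsUnramifiedOutside S)
    (h : GalStable ℚ ↥K (SKset S K)) (τ : ↥K ≃ₐ[ℚ] ↥K) (x : (SKset S K).unit K) :
    kumU K S ζ hζ hpS hK (Additive.ofMul (galTU h τ x)) =
      ((cycKHom K ζ hζ τ : (ZMod p)ˣ) : ZMod p) •
        actH1Q K.fixingSubgroup (ZMod p) (globalLevel S) (autToGam K τ)
          (kumU K S ζ hζ hpS hK (Additive.ofMul x)) :=
  kumU_galTU K S ζ hζ hpS hK h τ (liftK K τ) (liftK_spec K τ) x

end Units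

end Fermat.Agent.S56.EC.M0Act
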