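/-
S56 / brick EC (helper97): restriction from the normaliser of `Gal(ℚ̄/K)` to `Aut(K/ℚ)`.

`K` an intermediate field of `ℚ̄/ℚ`, `U = K.fixingSubgroup`, `Nrm U` its normaliser in
`G_ℚ` (`CoindAction.Nrm`), `Gam U = Nrm U / U`.

* `apply_mem_of_mem_nrm` : a normalising element maps `K` into `K`;
  `mem_nrm_of_maps` : conversely, `g` with `g K ⊆ K` and `g⁻¹ K ⊆ K` normalises `U`;
* `restrK K : Nrm U →* (K ≃ₐ[ℚ] K)`, with `restrK_apply : (restrK K g a : ℚ̄) = g a`;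
* `ker_restrK` : its kernel is `U`; `exists_lift`, `restrK_surjective` : every automorphism of
  `K` lifts to a normalising element;
* `gamEquiv K : Gam U ≃* (K ≃ₐ[ℚ] K)`.
-/
import Fermat.Agent.S56.EC.CoindAction
import Fermat.Agent.S55.Base.Fact

set_option autoImplicit false

namespace Fermat.Agent.S56.EC.Restrict

open Fermat.Agent.S56.EC.CoindAction

local notation "Qb" => AlgebraicClosure ℚ
local notation "GQ" => (AlgebraicClosure ℚ ≃ₐ[ℚ] AlgebraicClosure ℚ)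

variable (K : IntermediateField ℚ Qb)

/-- A normalising element maps `K` into `K`. -/
theorem apply_mem_of_mem_nrm {g : GQ} (hg : g ∈ Nrm K.fixingSubgroup) {a : Qb} (ha : a ∈ K) :
    g a ∈ K := by
  have := S55.Base.Fact.isGalois_Qb_fact
  rw [← InfiniteGalois.fixedField_fixingSubgroup K, IntermediateField.mem_fixedField_iff]
  intro u hu
  have h1 : g⁻¹ * u * g ∈ K.fixingSubgroup := inv_mul_mul_mem hg hu
  have h2 := (IntermediateField.mem_fixingSubgroup_iff K _).1 h1 a ha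
  have h3 : g ((g⁻¹ * u * g) a) = u (g a) := by
    rw [AlgEquiv.mul_apply, AlgEquiv.mul_apply, ← AlgEquiv.mul_apply, mul_inv_cancel,
      AlgEquiv.one_apply]
  rw [← h3, h2]

/-- An element mapping `K` into `K` in both directions normalises `Gal(ℚ̄/K)`. -/
theorem mem_nrm_of_maps {g : GQ} (h1 : ∀ a ∈ K, g a ∈ K) (h2 : ∀ a ∈ K, g⁻¹ a ∈ K) :
    g ∈ Nrm K.fixingSubgroup := by
  rw [Subgroup.mem_normalizer_iff]
  intro h
  constructor
  · intro hh
    rw [IntermediateField.mem_fixingSubgroup_iff]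
    intro a ha
    rw [AlgEquiv.mul_apply, AlgEquiv.mul_apply,
      (IntermediateField.mem_fixingSubgroup_iff K h).1 hh _ (h2 a ha), ← AlgEquiv.mul_apply,
      mul_inv_cancel, AlgEquiv.one_apply]
  · intro hh
    rw [IntermediateField.mem_fixingSubgroup_iff]
    intro a ha
    have e := (IntermediateField.mem_fixingSubgroup_iff K _).1 hh _ (h1 a ha)
    have e1 : (g * h * g⁻¹) (g a) = g (h a) := by
      rw [AlgEquiv.mul_apply, AlgEquiv.mul_apply, ← AlgEquiv.mul_apply g⁻¹ g, inv_mul_cancel,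
        AlgEquiv.one_apply]
    rw [e1] at e
    exact g.injective e

/-- The algebra endomorphism of `K` induced by a normalising element. -/
noncomputable def restrHom (g : ↥(Nrm K.fixingSubgroup)) : ↥K →ₐ[ℚ] ↥K where
  toFun a := ⟨(g : GQ) (a : Qb), apply_mem_of_mem_nrm K g.2 a.2⟩
  map_one' := Subtype.ext (map_one (g : GQ))
  map_mul' a b := Subtype.ext (map_mul (g : GQ) (a : Qb) (b : Qb))
  map_zero' := Subtype.ext (map_zero (g : GQ))
  map_add' a b := Subtype.ext (map_add (g : GQ) (a : Qb) (b : Qb))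
  commutes' r := Subtype.ext ((g : GQ).commutes r)

theorem restrHom_apply (g : ↥(Nrm K.fixingSubgroup)) (a : ↥K) :
    ((restrHom K g a : ↥K) : Qb) = (g : GQ) (a : Qb) := rfl

/-- The automorphism of `K` induced by a normalising element. -/
noncomputable def restr (g : ↥(Nrm K.fixingSubgroup)) : ↥K ≃ₐ[ℚ] ↥K :=
  AlgEquiv.ofAlgHom (restrHom K g) (restrHom K g⁻¹)
    (AlgHom.ext fun a => Subtype.ext (by
      show (g : GQ) (((g⁻¹ : ↥(Nrm K.fixingSubgroup)) : GQ) (a : Qb)) = (a : Qb)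
      rw [Subgroup.coe_inv, ← AlgEquiv.mul_apply, mul_inv_cancel, AlgEquiv.one_apply]))
    (AlgHom.ext fun a => Subtype.ext (by
      show ((g⁻¹ : ↥(Nrm K.fixingSubgroup)) : GQ) ((g : GQ) (a : Qb)) = (a : Qb)
      rw [Subgroup.coe_inv, ← AlgEquiv.mul_apply, inv_mul_cancel, AlgEquiv.one_apply]))

theorem restr_apply (g : ↥(Nrm K.fixingSubgroup)) (a : ↥K) :
    ((restr K g a : ↥K) : Qb) = (g : GQ) (a : Qb) := rfl

/-- **Restriction to `K`**, as a homomorphism from the normaliser of `Gal(ℚ̄/K)`. -/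
noncomputable def restrK : ↥(Nrm K.fixingSubgroup) →* (↥K ≃ₐ[ℚ] ↥K) where
  toFun := restr K
  map_one' := AlgEquiv.ext fun _ => Subtype.ext rfl
  map_mul' _ _ := AlgEquiv.ext fun _ => Subtype.ext rfl

theorem restrK_apply (g : ↥(Nrm K.fixingSubgroup)) (a : ↥K) :
    ((restrK K g a : ↥K) : Qb) = (g : GQ) (a : Qb) := rfl

theorem mem_ker_restrK_iff (g : ↥(Nrm K.fixingSubgroup)) :
    g ∈ (restrK K).ker ↔ (g : GQ) ∈ K.fixingSubgroup := by
  rw [MonoidHom.mem_ker, IntermediateField.mem_fixingSubgroup_iff]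
  constructor
  · intro h a ha
    have h1 := congrArg (fun τ : ↥K ≃ₐ[ℚ] ↥K => ((τ ⟨a, ha⟩ : ↥K) : Qb)) h
    exact h1
  · intro h
    exact AlgEquiv.ext fun a => Subtype.ext (h _ a.2)

/-- The kernel of the restriction is `Gal(ℚ̄/K)`. -/
theorem ker_restrK :
    (restrK K).ker = K.fixingSubgroup.subgroupOf (Nrm K.fixingSubgroup) := by
  ext g
  rw [mem_ker_restrK_iff, Subgroup.mem_subgroupOf]

/-- **Every automorphism of `K` lifts to a normalising element of `G_ℚ`.** -/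
theorem exists_lift (τ : ↥K ≃ₐ[ℚ] ↥K) :
    ∃ g : ↥(Nrm K.fixingSubgroup), ∀ a : ↥K, (g : GQ) (a : Qb) = ((τ a : ↥K) : Qb) := by
  have : IsAlgClosure ℚ Qb := AlgebraicClosure.instIsAlgClosure ℚ
  have : Normal ℚ Qb := IsAlgClosure.normal ℚ Qb
  have hcomm : ∀ a : ↥K, (τ.liftNormal Qb) (a : Qb) = ((τ a : ↥K) : Qb) :=
    fun a => AlgEquiv.liftNormal_commutes τ Qb a
  have hinv : ∀ a : ↥K, (τ.liftNormal Qb)⁻¹ (a : Qb) = ((τ⁻¹ a : ↥K) : Qb) := by
    intro a
    have h1 := hcomm (τ⁻¹ a)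
    rw [← AlgEquiv.mul_apply, mul_inv_cancel, AlgEquiv.one_apply] at h1
    rw [← h1, ← AlgEquiv.mul_apply, inv_mul_cancel, AlgEquiv.one_apply]
  refine ⟨⟨τ.liftNormal Qb, mem_nrm_of_maps K (fun a ha => ?_) (fun a ha => ?_)⟩, hcomm⟩
  · rw [hcomm ⟨a, ha⟩]
    exact (τ ⟨a, ha⟩).2
  · rw [hinv ⟨a, ha⟩]
    exact (τ⁻¹ ⟨a, ha⟩).2

theorem restrK_surjective : Function.Surjective (restrK K) := by
  intro τ
  obtain ⟨g, hg⟩ := exists_lift K τ
  exact ⟨g, AlgEquiv.ext fun a => Subtype.ext (hg a)⟩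

/-- `Γ = N(Gal(ℚ̄/K)) / Gal(ℚ̄/K)` is `Aut(K/ℚ)`. -/
noncomputable def gamEquiv : Gam K.fixingSubgroup ≃* (↥K ≃ₐ[ℚ] ↥K) :=
  QuotientGroup.liftEquiv _ (restrK_surjective K) (ker_restrK K).symm

theorem gamEquiv_mk (g : ↥(Nrm K.fixingSubgroup)) :
    gamEquiv K (QuotientGroup.mk g) = restrK K g := rfl

theorem gamEquiv_mk_apply (g : ↥(Nrm K.fixingSubgroup)) (a : ↥K) :
    ((gamEquiv K (QuotientGroup.mk g) a : ↥K) : Qb) = (g : GQ) (a : Qb) := rfl

end Fermat.Agent.S56.EC.Restrict
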