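/-
S56 / brick EC: `S_big` and the vanishing of `Ш²` (helper276, own risk).

For a number field `F ≤ ℚ̄` unramified outside `S₀ ∋ p` there is a finite `S ⊇ S₀` such that for
every `T ⊇ S` and every subfield `K` of `F` containing `μ_p`:
`Ш²_T(M0(K)) = 0` (for any family of local invariants) — the hypothesis `hsA` of
`RetractRank.chi2_retract_eq` at `A = M0(K)`.
-/
import Fermat.Agent.S56.EC.SBig
import Fermat.Agent.S56.EC.ChiM0

set_option autoImplicit false

open scoped NumberField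
open CategoryTheory groupCohomology ExtCitation

namespace Fermat.Agent.S56.EC.SBigSha

open Fermat.Agent.S55 Fermat.Agent.S55.Abs Fermat.Agent.S55.Count
open Fermat.Agent.CFT.Global.CountAbs Fermat.Agent.CFT.Global.CountV
  Fermat.Agent.CFT.Global.CountQ Fermat.Agent.CFT.Global.SelmerCount Fermat.Agent.S55.Glue

local notation "Qb" => AlgebraicClosure ℚ

variable {p : ℕ} [Fact p.Prime]

/-- **`S_big`**: `Ш²_T(M0(K)) = 0` for every `T ⊇ S_big` and every subfield `K ⊇ μ_p` of `F`. -/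
theorem exists_Sbig_sha2 (hp2 : p ≠ 2) (F : IntermediateField ℚ Qb) (S₀ : Finset Nat.Primes)
    (hF : F.IsUnramifiedOutside S₀) :
    ∃ S : Finset Nat.Primes, S₀ ⊆ S ∧ ∀ T, S ⊆ T → ∀ (hpT : pPrime p ∈ T) (inv : InvS p T)
      (K : IntermediateField ℚ Qb), K ≤ F → cycloField p ≤ K →
        K.IsUnramifiedOutside T ∧
          (dataS p T hpT inv).sha2 (M0 (ZMod p) K.fixingSubgroup) = ⊥ := by
  have hFfin : FiniteDimensional ℚ F := hF.1
  obtain ⟨S, hS₀S, hS⟩ := SBig.exists_Sbig p F S₀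
  refine ⟨S, hS₀S, fun T hT hpT inv K hKF hcyc => ?_⟩
  have hKT : K.IsUnramifiedOutside T :=
    IntermediateField.IsUnramifiedOutside.mono (hS₀S.trans hT)
      (IntermediateField.IsUnramifiedOutside.of_le hKF hF)
  have hKfin : FiniteDimensional ℚ K := hKT.1
  have hKnf : NumberField K := ⟨⟩
  exact ⟨hKT, ChiM0.sha2_M0_eq_bot hp2 hpT inv K hKT hcyc (hS T hT K hKF)⟩

end Fermat.Agent.S56.EC.SBigSha
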