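/-
S56 / brick EC.6a, SEAM (iii) CLOSED (helper276): `seamLoc : Seams.SeamLoc K S hcyc`.

For presentation data `(a, b, s, c)` of a retract `X` of `M0(K)ⁿ`
(`b i ∘ a j = ∑ g ∈ s i j, c i j g • lt g`), the sum over `v ∈ S` of the ranks of the matrix
operators `(H⁰(G_v, adj (a i ≫ b j)))_{ij}` is the `ε`-rank of the permutation module on the
primes of `K` above `S`, `ε = Seams.epsMat K hcyc s c`.

Proof: `Twist.asAlgebraHom_epsOf` gives `a j ≫ b i = ∑ γ, ε i j γ • Tmor γ`; then
`LocSide.sum_loc_rank` (adjoint of `Tmor γ` = `lt (gN γ)⁻¹`, `PlacesDictS.locH0SEquiv`,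
`RankAdapt.rk_eq_of_adjoint` for the standard pairing).
-/
import Fermat.Agent.S56.EC.Seams
import Fermat.Agent.S56.EC.LocSide

set_option autoImplicit false

open scoped NumberField
open CategoryTheory ExtCitation IsDedekindDomain

namespace Fermat.Agent.S56.EC.SeamLoc

open Fermat.Agent.S55 Fermat.Agent.S55.Abs Fermat.Agent.S55.Glue
  Fermat.Agent.S56.EC.CoindAction Fermat.Agent.S56.EC.RankAdapt Fermat.Agent.S56.EC.RetractRank
  Fermat.Agent.S56.EC.Twist Fermat.Agent.S56.EC.DualSide Fermat.Agent.S56.EC.PlacesDictS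
  Fermat.Agent.S56.EC.Seams

local notation "Qb" => AlgebraicClosure ℚ

variable {p : ℕ} [Fact p.Prime] (K : IntermediateField ℚ Qb)

/-- The idempotent-matrix entries of presentation data `(s, c)` are the `epsMat`-combinations of
the twisted translations: `a j ≫ b i = ∑ γ, ε i j γ • Tmor γ`. -/
theorem comp_eq_epsMat_sum (hcyc : cycloField p ≤ K) {n : ℕ} {X : Rep.{0} (ZMod p) GQ}
    (a : Fin n → (M0 (ZMod p) K.fixingSubgroup ⟶ X))
    (b : Fin n → (X ⟶ M0 (ZMod p) K.fixingSubgroup))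
    (s : Fin n → Fin n → Finset ↥(Nrm K.fixingSubgroup))
    (c : Fin n → Fin n → ↥(Nrm K.fixingSubgroup) → ZMod p)
    (h : ∀ i j f, (b i).hom ((a j).hom f) =
      ∑ g ∈ s i j, c i j g • (lt K.fixingSubgroup (ZMod p) g).hom f) (i j : Fin n) :
    a j ≫ b i = (epsMat K hcyc s c i j).coeff.sum fun γ c => c • Tmor K hcyc γ := by
  apply homL_injective
  rw [map_combHom (homL _ _) (fun γ => Tmor K hcyc γ) (epsMat K hcyc s c i j)]
  apply LinearMap.ext
  intro f
  have h1 : comb (fun γ => homL _ _ (Tmor K hcyc γ)) (epsMat K hcyc s c i j) f =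
      (twRep K hcyc).asAlgebraHom (epsMat K hcyc s c i j) f := by
    rw [asAlgebraHom_eq_comb]
    rfl
  rw [h1]
  have h2 : (twRep K hcyc).asAlgebraHom (epsMat K hcyc s c i j) f =
      ∑ g ∈ s i j, c i j g • (lt K.fixingSubgroup (ZMod p) g).hom f :=
    asAlgebraHom_epsOf K hcyc (s i j) (c i j) f
  rw [h2, ← h i j f]
  rfl

variable [NumberField K] (S : Finset Nat.Primes)

/-- **Seam (iii), the local dual terms.** -/
theorem seamLoc (hcyc : cycloField p ≤ K) : Seams.SeamLoc (p := p) K S hcyc := by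
  intro n X a b s c h
  exact LocSide.sum_loc_rank K S hcyc (Fermat.Agent.CFT.Global.CountAbs.cycloChar_eq_one_of_cycloField_le K hcyc) a b
    (epsMat K hcyc s c) (comp_eq_epsMat_sum K hcyc a b s c h) (finRep K S)
    (fun τ f v => finRep_apply K S τ f v)

end Fermat.Agent.S56.EC.SeamLoc
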