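import Fermat.Agent.S56.EC.Steinberg

/-!
# S56, brick EC.5: the Steinberg reduction — assembly

(helper164.)  `steinbergStatement_of : ProjSeam → IndSeam → SteinbergStatement`.

* The coset model for the induced seam: `S = G ⧸ P`, `Γ = N_G(P) / P` acting by
  `bP • xP = x b⁻¹ P` (`gamAction`), `M₀(P) ≃ Fun(G ⧸ P)` by `t ↦ (xP ↦ t x⁻¹)`
  (`toCoset`, `ofCoset`), and `EPAt χ f P → IsEPAt χ f (funRep G S) (funRep Γ S)`
  (`isEPAt_of_epAt`).
* The free part: `EPAt χ f ⊥` applied to `W₀ = ker q` with the retract `I`, `R` of the projective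
  seam mirrored by `x ↦ x⁻¹` (`chi_eq_f_ker`).
* Bookkeeping: `W ≃ W₀ × N` equivariantly, so `χ W = χ W₀ + χ N`, `f W = f W₀ + f N`, and
  `χ N = χ W - χ W₀ ≤ f W - f W₀ = f N`.
-/

set_option autoImplicit false

namespace Fermat.Agent.S56.EC.Steinberg

open Fermat.Agent.S56.EC.SteinbergInd

/-! ### The coset model `S = G ⧸ P`, `Γ = N_G(P) / P` -/

section CosetModel

variable {G : Type} [Group G] (P : Subgroup G)

/-- `Γ = N_G(P) / P`. -/
abbrev Gam : Type := ↥(Nm P) ⧸ P.subgroupOf (Nm P)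

/-- `xP ↦ x b⁻¹ P` for `b ∈ N_G(P)`. -/
def cosetMap (b : ↥(Nm P)) : G ⧸ P → G ⧸ P :=
  Quotient.map' (fun x => x * (b : G)⁻¹) (by
    intro x y hxy
    have hxy' : x⁻¹ * y ∈ P := QuotientGroup.leftRel_apply.mp hxy
    refine QuotientGroup.leftRel_apply.mpr ?_
    have h := (Subgroup.mem_normalizer_iff.mp b.2 (x⁻¹ * y)).mp hxy'
    have e : (x * (b : G)⁻¹)⁻¹ * (y * (b : G)⁻¹) = (b : G) * (x⁻¹ * y) * (b : G)⁻¹ := by group
    rw [e]
    exact h)

theorem cosetMap_mk (b : ↥(Nm P)) (x : G) :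
    cosetMap P b (QuotientGroup.mk x) = QuotientGroup.mk (x * (b : G)⁻¹) := rfl

/-- The right multiplication action of `N_G(P)` on `G ⧸ P`, as a left action. -/
def cosetHom : ↥(Nm P) →* Function.End (G ⧸ P) where
  toFun b := cosetMap P b
  map_one' := by
    funext y
    induction y using QuotientGroup.induction_on with
    | H x =>
      show QuotientGroup.mk (x * (((1 : ↥(Nm P)) : G))⁻¹) = QuotientGroup.mk x
      simp
  map_mul' b c := by
    funext y
    induction y using QuotientGroup.induction_on with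
    | H x =>
      show QuotientGroup.mk (x * (((b * c : ↥(Nm P)) : G))⁻¹)
        = cosetMap P b (cosetMap P c (QuotientGroup.mk x))
      rw [cosetMap_mk, cosetMap_mk]
      congr 1
      simp [mul_assoc]

theorem cosetHom_ker : P.subgroupOf (Nm P) ≤ (cosetHom P).ker := by
  intro b hb
  rw [MonoidHom.mem_ker]
  funext y
  induction y using QuotientGroup.induction_on with
  | H x =>
    show QuotientGroup.mk (x * (b : G)⁻¹) = QuotientGroup.mk x
    rw [QuotientGroup.eq]
    have hb' : (b : G) ∈ P := Subgroup.mem_subgroupOf.mp hb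
    have e : (x * (b : G)⁻¹)⁻¹ * x = (b : G) := by group
    rw [e]
    exact hb'

/-- The action of `Γ = N_G(P) / P` on `G ⧸ P`: `bP • xP = x b⁻¹ P`. -/
@[reducible] def gamAction : MulAction (Gam P) (G ⧸ P) :=
  MulAction.ofEndHom (QuotientGroup.lift (P.subgroupOf (Nm P)) (cosetHom P) (cosetHom_ker P))

attribute [local instance] gamAction

theorem gam_smul_mk (b : ↥(Nm P)) (x : G) :
    ((QuotientGroup.mk b : Gam P) • (QuotientGroup.mk x : G ⧸ P))
      = QuotientGroup.mk (x * (b : G)⁻¹) := rfl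

theorem gam_smulComm : SMulCommClass G (Gam P) (G ⧸ P) := by
  refine ⟨fun g γ y => ?_⟩
  induction γ using QuotientGroup.induction_on with
  | H b =>
    induction y using QuotientGroup.induction_on with
    | H x =>
      show QuotientGroup.mk (g * (x * (b : G)⁻¹)) = QuotientGroup.mk (g * x * (b : G)⁻¹)
      rw [mul_assoc]

theorem not_dvd_card_gam {p : ℕ} [Fact p.Prime] [Finite G] (Q : Sylow p G) :
    ¬ p ∣ Nat.card (Gam (Q : Subgroup G)) := by
  have h1 : Nat.card (Gam (Q : Subgroup G))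
      = (Q : Subgroup G).relIndex (Nm (Q : Subgroup G)) := by
    rw [Subgroup.relIndex, Subgroup.index_eq_card]
  rw [h1]
  intro h
  exact Q.not_dvd_index (h.trans (Subgroup.relIndex_dvd_index_of_le Subgroup.le_normalizer))

end CosetModel

/-! ### Transport `M₀(P) ≃ Fun(G ⧸ P)` and `EPAt → IsEPAt` -/

section Transport

variable {p : ℕ} {G : Type} [Group G] (P : Subgroup G)

attribute [local instance] gamAction

/-- `t ↦ (y ↦ t (out y)⁻¹)` : `M₀(P) → Fun(G ⧸ P)`. -/
noncomputable def toCoset : leftInv (ZMod p) P →ₗ[ZMod p] (G ⧸ P → ZMod p) :=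
  (LinearMap.funLeft (ZMod p) (ZMod p) fun y : G ⧸ P => (Quotient.out y)⁻¹) ∘ₗ
    (leftInv (ZMod p) P).subtype

theorem toCoset_mk (t : leftInv (ZMod p) P) (x : G) :
    toCoset P t (QuotientGroup.mk x) = (t : G → ZMod p) x⁻¹ := by
  obtain ⟨h, hh⟩ := QuotientGroup.mk_out_eq_mul P x
  show (t : G → ZMod p) ((Quotient.out (QuotientGroup.mk x : G ⧸ P))⁻¹) = _
  rw [hh, mul_inv_rev]
  exact t.2 _ (inv_mem h.2) _

/-- `φ ↦ (x ↦ φ (x⁻¹ P))` : `Fun(G ⧸ P) → M₀(P)`. -/
def ofCoset : (G ⧸ P → ZMod p) →ₗ[ZMod p] leftInv (ZMod p) P :=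
  LinearMap.codRestrict (leftInv (ZMod p) P)
    (LinearMap.funLeft (ZMod p) (ZMod p) fun x : G => (QuotientGroup.mk x⁻¹ : G ⧸ P))
    (by
      intro φ h hh g
      show φ (QuotientGroup.mk (h * g)⁻¹) = φ (QuotientGroup.mk g⁻¹)
      congr 1
      rw [QuotientGroup.eq]
      have e : ((h * g)⁻¹)⁻¹ * g⁻¹ = h := by group
      rw [e]
      exact hh)

theorem ofCoset_apply (φ : G ⧸ P → ZMod p) (x : G) :
    (ofCoset P φ : G → ZMod p) x = φ (QuotientGroup.mk x⁻¹) := rfl

theorem toCoset_ofCoset (φ : G ⧸ P → ZMod p) : toCoset P (ofCoset P φ) = φ := by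
  funext y
  induction y using QuotientGroup.induction_on with
  | H x => rw [toCoset_mk, ofCoset_apply, inv_inv]

theorem toCoset_leftInvRep (g : G) (t : leftInv (ZMod p) P) :
    toCoset P (leftInvRep (ZMod p) P g t) = funRep (ZMod p) G (G ⧸ P) g (toCoset P t) := by
  funext y
  induction y using QuotientGroup.induction_on with
  | H x =>
    rw [toCoset_mk, funRep_apply]
    have e : g⁻¹ • (QuotientGroup.mk x : G ⧸ P) = QuotientGroup.mk (g⁻¹ * x) := rfl
    rw [e, toCoset_mk, mul_inv_rev, inv_inv]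
    rfl

theorem funRep_gam_toCoset (b : ↥(Nm P)) (t : leftInv (ZMod p) P) (x : G) :
    funRep (ZMod p) (Gam P) (G ⧸ P) (QuotientGroup.mk b) (toCoset P t) (QuotientGroup.mk x⁻¹)
      = (t : G → ZMod p) ((b : G)⁻¹ * x) := by
  rw [funRep_apply]
  have e : ((QuotientGroup.mk b : Gam P))⁻¹ • (QuotientGroup.mk x⁻¹ : G ⧸ P)
      = QuotientGroup.mk (x⁻¹ * (b : G)) := by
    show QuotientGroup.mk (x⁻¹ * (((b⁻¹ : ↥(Nm P)) : G))⁻¹) = _
    simp
  rw [e, toCoset_mk, mul_inv_rev, inv_inv]

theorem asAlgebraHom_apply_eq_sum {k Γ V : Type} [CommRing k] [Group Γ] [AddCommGroup V]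
    [Module k V] (τ : Representation k Γ V) (a : MonoidAlgebra k Γ) (v : V) :
    τ.asAlgebraHom a v = ∑ γ ∈ a.coeff.support, a.coeff γ • τ γ v := by
  rw [Representation.asAlgebraHom_def, MonoidAlgebra.lift_apply, Finsupp.sum,
    LinearMap.sum_apply]
  rfl

/-- `EPAt χ f P` gives helper187's `IsEPAt` for the coset model. -/
theorem isEPAt_of_epAt (χ f : Inv p G) (h : EPAt χ f P) :
    IsEPAt χ f (funRep (ZMod p) G (G ⧸ P)) (funRep (ZMod p) (Gam P) (G ⧸ P)) := by
  intro n e _ X _ _ _ ρX i r hi hr hri hir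
  classical
  refine h n X ρX
    (fun j => r ∘ₗ LinearMap.single (ZMod p) (fun _ : Fin n => G ⧸ P → ZMod p) j ∘ₗ toCoset P)
    (fun k => ofCoset P ∘ₗ LinearMap.proj k ∘ₗ i) ?_ ?_ ?_ ?_
  · intro j g t
    show r (Pi.single j (toCoset P (leftInvRep (ZMod p) P g t)))
      = ρX g (r (Pi.single j (toCoset P t)))
    rw [← hr, toCoset_leftInvRep]
    congr 1
    funext k
    by_cases hk : k = j
    · subst hk
      simp
    · simp [Pi.single_eq_of_ne hk]
  · intro k g x
    apply Subtype.ext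
    funext y
    show (i (ρX g x) k) (QuotientGroup.mk y⁻¹) = (i x k) (QuotientGroup.mk (y * g)⁻¹)
    rw [hi, funRep_apply]
    have e : g⁻¹ • (QuotientGroup.mk y⁻¹ : G ⧸ P) = QuotientGroup.mk (g⁻¹ * y⁻¹) := rfl
    rw [e, mul_inv_rev]
  · intro x
    show ∑ k, r (Pi.single k (toCoset P (ofCoset P (i x k)))) = x
    simp only [toCoset_ofCoset]
    rw [← map_sum, Finset.univ_sum_single, hri]
  · intro k j
    refine ⟨(e k j).coeff.support.image (fun γ : Gam P => ((Quotient.out γ : ↥(Nm P)) : G)),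
      fun g => if hg : g ∈ Nm P then (e k j).coeff (QuotientGroup.mk ⟨g, hg⟩) else 0, ?_, ?_⟩
    · intro g hg
      obtain ⟨γ, -, rfl⟩ := Finset.mem_image.mp hg
      exact (Quotient.out γ).2
    · intro t x
      show (i (r (Pi.single j (toCoset P t))) k) (QuotientGroup.mk x⁻¹) = _
      rw [hir, opOf_apply,
        Finset.sum_eq_single j (fun j' _ hj' => by rw [Pi.single_eq_of_ne hj', map_zero])
          (fun hj => absurd (Finset.mem_univ j) hj),
        Pi.single_eq_same, asAlgebraHom_apply_eq_sum, Finset.sum_apply, Finset.sum_image]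
      · refine Finset.sum_congr rfl fun γ _ => ?_
        have hγ : (QuotientGroup.mk (Quotient.out γ) : Gam P) = γ := QuotientGroup.out_eq' γ
        have hc : (if hg : ((Quotient.out γ : ↥(Nm P)) : G) ∈ Nm P then
            (e k j).coeff (QuotientGroup.mk ⟨((Quotient.out γ : ↥(Nm P)) : G), hg⟩) else 0)
            = (e k j).coeff γ := by
          rw [dif_pos (Quotient.out γ).2]
          exact congrArg _ hγ
        have hv : funRep (ZMod p) (Gam P) (G ⧸ P) γ (toCoset P t) (QuotientGroup.mk x⁻¹)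
            = (t : G → ZMod p) (((Quotient.out γ : ↥(Nm P)) : G)⁻¹ * x) := by
          conv_lhs => rw [← hγ]
          exact funRep_gam_toCoset P (Quotient.out γ) t x
        show (e k j).coeff γ
            * funRep (ZMod p) (Gam P) (G ⧸ P) γ (toCoset P t) (QuotientGroup.mk x⁻¹) = _ * _
        rw [hv]
        exact congrArg (· * _) hc.symm
      · intro γ _ γ' _ hγγ'
        have h1 : Quotient.out γ = Quotient.out γ' := Subtype.ext hγγ'
        calc γ = QuotientGroup.mk (Quotient.out γ) := (QuotientGroup.out_eq' γ).symm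
          _ = QuotientGroup.mk (Quotient.out γ') := by rw [h1]
          _ = γ' := QuotientGroup.out_eq' γ'

end Transport

/-! ### The free part -/

section Free

variable {p : ℕ} {G : Type} [Group G]

/-- Inversion on functions: `t ↦ (x ↦ t x⁻¹)`. -/
def invL : (G → ZMod p) →ₗ[ZMod p] (G → ZMod p) :=
  LinearMap.funLeft (ZMod p) (ZMod p) fun x : G => x⁻¹

theorem invL_apply (t : G → ZMod p) (x : G) : invL t x = t x⁻¹ := rfl

theorem invL_ltrans (g : G) (u : G → ZMod p) :
    invL (ltrans (ZMod p) G (ZMod p) g u) = rightTrans (ZMod p) G (ZMod p) g (invL u) := by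
  funext x
  show u (g⁻¹ * x⁻¹) = u ((x * g)⁻¹)
  rw [mul_inv_rev]

theorem invL_rightTrans (g : G) (t : G → ZMod p) :
    invL (rightTrans (ZMod p) G (ZMod p) g t) = ltrans (ZMod p) G (ZMod p) g (invL t) := by
  funext x
  show t (x⁻¹ * g) = t ((g⁻¹ * x)⁻¹)
  rw [mul_inv_rev, inv_inv]

theorem invL_invL (t : G → ZMod p) : invL (invL t) = t := by
  funext x
  show t (x⁻¹)⁻¹ = t x
  rw [inv_inv]

/-- The subrepresentation on the kernel of an equivariant map. -/
def kerRep {W N : Type} [AddCommGroup W] [Module (ZMod p) W] [AddCommGroup N]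
    [Module (ZMod p) N] (ρW : Representation (ZMod p) G W) (ρN : Representation (ZMod p) G N)
    (q : W →ₗ[ZMod p] N) (hq : ∀ g w, q (ρW g w) = ρN g (q w)) :
    Representation (ZMod p) G (LinearMap.ker q) :=
  ρW.subrepresentation (LinearMap.ker q) (fun g w hw => by
    show q (ρW g w) = 0
    rw [hq, LinearMap.mem_ker.mp hw, map_zero])

theorem kerRep_apply_coe {W N : Type} [AddCommGroup W] [Module (ZMod p) W] [AddCommGroup N]
    [Module (ZMod p) N] (ρW : Representation (ZMod p) G W) (ρN : Representation (ZMod p) G N)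
    (q : W →ₗ[ZMod p] N) (hq : ∀ g w, q (ρW g w) = ρN g (q w)) (g : G) (x : LinearMap.ker q) :
    ((kerRep ρW ρN q hq g x : LinearMap.ker q) : W) = ρW g x := rfl

/-- `W ≃ ker q × N` for a surjection `q` split by `s`. -/
def splitEquiv {W N : Type} [AddCommGroup W] [Module (ZMod p) W] [AddCommGroup N]
    [Module (ZMod p) N] (q : W →ₗ[ZMod p] N) (s : N →ₗ[ZMod p] W) (hqs : ∀ m, q (s m) = m) :
    W ≃ₗ[ZMod p] (LinearMap.ker q × N) :=
  LinearEquiv.ofLinear
    (LinearMap.prod (LinearMap.codRestrict (LinearMap.ker q) (LinearMap.id - s ∘ₗ q) (fun w => by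
        show q (w - s (q w)) = 0
        rw [map_sub, hqs, sub_self])) q)
    (LinearMap.coprod (LinearMap.ker q).subtype s)
    (by
      apply LinearMap.ext
      rintro ⟨x, m⟩
      have hx : q (x : W) = 0 := x.2
      apply Prod.ext
      · apply Subtype.ext
        show ((x : W) + s m) - s (q ((x : W) + s m)) = x
        rw [map_add, hx, hqs, zero_add, add_sub_cancel_right]
      · show q ((x : W) + s m) = m
        rw [map_add, hx, hqs, zero_add])
    (by
      apply LinearMap.ext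
      intro w
      show (w - s (q w)) + s (q w) = w
      rw [sub_add_cancel])

theorem splitEquiv_apply {W N : Type} [AddCommGroup W] [Module (ZMod p) W] [AddCommGroup N]
    [Module (ZMod p) N] (q : W →ₗ[ZMod p] N) (s : N →ₗ[ZMod p] W) (hqs : ∀ m, q (s m) = m)
    (w : W) : (((splitEquiv q s hqs w).1 : LinearMap.ker q) : W) = w - s (q w) ∧
      (splitEquiv q s hqs w).2 = q w := ⟨rfl, rfl⟩

/-- **The free part**: `χ = f` on `W₀ = ker q`, from `EPAt χ f ⊥` and the retract `I`, `R`. -/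
theorem chi_eq_f_ker {B : Subgroup G} (χ f : Inv p G) (hEP : EPAt χ f ⊥)
    {N : Type} [AddCommGroup N] [Module (ZMod p) N] [Finite N] [Finite (G ⧸ B)]
    (ρ : Representation (ZMod p) G N)
    (q : (G ⧸ B → N) →ₗ[ZMod p] N) (hq : ∀ g w, q (coind B ρ g w) = ρ g (q w))
    (s : N →ₗ[ZMod p] (G ⧸ B → N))
    (n : ℕ) (I : (G ⧸ B → N) →ₗ[ZMod p] (Fin n → (G → ZMod p)))
    (R : (Fin n → (G → ZMod p)) →ₗ[ZMod p] (G ⧸ B → N))
    (hI : ∀ g w k, I (coind B ρ g w) k = ltrans (ZMod p) G (ZMod p) g (I w k))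
    (hR : ∀ g v, R (fun k => ltrans (ZMod p) G (ZMod p) g (v k)) = coind B ρ g (R v))
    (hRI : ∀ w, R (I w) = w - s (q w)) (hqR : ∀ v, q (R v) = 0)
    (hent : ∀ i j, ∃ (S : Finset G) (c : G → ZMod p), ∀ (t : G → ZMod p) (x : G),
        I (R (Pi.single j t)) i x = ∑ y ∈ S, c y * t (x * y)) :
    χ (LinearMap.ker q) (kerRep (coind B ρ) ρ q hq)
      = f (LinearMap.ker q) (kerRep (coind B ρ) ρ q hq) := by
  classical
  have hbot : ∀ t : G → ZMod p, t ∈ leftInv (ZMod p) (⊥ : Subgroup G) := by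
    intro t h hh g
    rw [Subgroup.mem_bot.mp hh, one_mul]
  refine hEP n (LinearMap.ker q) (kerRep (coind B ρ) ρ q hq)
    (fun j => LinearMap.codRestrict (LinearMap.ker q)
      (R ∘ₗ LinearMap.single (ZMod p) (fun _ : Fin n => G → ZMod p) j ∘ₗ invL ∘ₗ
        (leftInv (ZMod p) (⊥ : Subgroup G)).subtype) (fun t => hqR _))
    (fun i => LinearMap.codRestrict (leftInv (ZMod p) (⊥ : Subgroup G))
      (invL ∘ₗ LinearMap.proj i ∘ₗ I ∘ₗ (LinearMap.ker q).subtype) (fun x => hbot _))
    ?_ ?_ ?_ ?_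
  · intro j g t
    apply Subtype.ext
    show R (Pi.single j (invL (rightTrans (ZMod p) G (ZMod p) g (t : G → ZMod p))))
      = coind B ρ g (R (Pi.single j (invL (t : G → ZMod p))))
    rw [← hR, invL_rightTrans]
    congr 1
    funext k
    by_cases hk : k = j
    · subst hk
      simp
    · simp [Pi.single_eq_of_ne hk]
  · intro i g x
    apply Subtype.ext
    show invL (I (coind B ρ g (x : G ⧸ B → N)) i)
      = rightTrans (ZMod p) G (ZMod p) g (invL (I (x : G ⧸ B → N) i))
    rw [hI, invL_ltrans]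
  · intro x
    apply Subtype.ext
    rw [AddSubmonoidClass.coe_finset_sum]
    show ∑ i, R (Pi.single i (invL (invL (I (x : G ⧸ B → N) i)))) = (x : G ⧸ B → N)
    simp only [invL_invL]
    rw [← map_sum, Finset.univ_sum_single, hRI, LinearMap.mem_ker.mp x.2, map_zero, sub_zero]
  · intro i j
    obtain ⟨S, c, hS⟩ := hent i j
    refine ⟨S, c, fun g _ => ?_, fun t x => ?_⟩
    · rw [Subgroup.mem_normalizer_iff]
      intro h
      simp [Subgroup.mem_bot]
    · show I (R (Pi.single j (invL (t : G → ZMod p)))) i x⁻¹ = _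
      rw [hS]
      refine Finset.sum_congr rfl fun y _ => ?_
      show c y * (t : G → ZMod p) (x⁻¹ * y)⁻¹ = _
      rw [mul_inv_rev, inv_inv]

end Free

/-! ### The assembly -/

attribute [local instance] gamAction in
/-- **(EC.5) The Steinberg reduction**, from the two seams. -/
theorem steinbergStatement_of (hproj : ProjSeam) (hind : IndSeam) : SteinbergStatement := by
  intro p _ G _ _ P hTI χ f hiso hprod hsub hfex hEP1 hEP2 N _ _ _ ρ
  obtain ⟨q, s, hq, hs, hqs, n, I, R, hI, hR, hRI, hqR, hent⟩ := hproj p G P hTI N ρ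
  -- seam 2: `χ W ≤ f W`
  have hW : χ (G ⧸ Nm (P : Subgroup G) → N) (coind (Nm (P : Subgroup G)) ρ)
      ≤ f (G ⧸ Nm (P : Subgroup G) → N) (coind (Nm (P : Subgroup G)) ρ) := by
    haveI := gam_smulComm (P : Subgroup G)
    refine hind p G (P : Subgroup G) (Nm (P : Subgroup G)) Subgroup.le_normalizer ?_ P.isPGroup'
      (G ⧸ (P : Subgroup G)) (Gam (P : Subgroup G)) (not_dvd_card_gam P)
      (QuotientGroup.mk 1) (QuotientGroup.mk' _) (QuotientGroup.mk'_surjective _) ?_ ?_ ?_
      χ f hsub hfex (isEPAt_of_epAt (P : Subgroup G) χ f hEP2) N ρ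
    · intro b hb x hx
      exact (Subgroup.mem_normalizer_iff.mp hb x).mp hx
    · intro y
      induction y using QuotientGroup.induction_on with
      | H x =>
        refine ⟨x, ?_⟩
        show (QuotientGroup.mk (x * 1) : G ⧸ (P : Subgroup G)) = QuotientGroup.mk x
        rw [mul_one]
    · intro g
      show (QuotientGroup.mk (g * 1) : G ⧸ (P : Subgroup G)) = QuotientGroup.mk 1
        ↔ g ∈ (P : Subgroup G)
      rw [QuotientGroup.eq]
      simp
    · intro b
      show (QuotientGroup.mk ((b : G) * 1) : G ⧸ (P : Subgroup G))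
        = QuotientGroup.mk (1 * (((b⁻¹ : ↥(Nm (P : Subgroup G))) : G))⁻¹)
      simp
  -- the free part: `χ W₀ = f W₀`
  have hX := chi_eq_f_ker χ f hEP1 ρ q hq s n I R hI hR hRI hqR hent
  -- `f W = f W₀ + f N`
  have hfW := hfex (LinearMap.ker q) (G ⧸ Nm (P : Subgroup G) → N) N
    (kerRep (coind (Nm (P : Subgroup G)) ρ) ρ q hq) (coind (Nm (P : Subgroup G)) ρ) ρ
    (LinearMap.ker q).subtype q (fun _ _ => rfl) hq (Submodule.injective_subtype _)
    (LinearMap.exact_subtype_ker_map q) (fun m => ⟨s m, hqs m⟩)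
  -- `χ W = χ W₀ + χ N`
  have hχW : χ (G ⧸ Nm (P : Subgroup G) → N) (coind (Nm (P : Subgroup G)) ρ)
      = χ (LinearMap.ker q) (kerRep (coind (Nm (P : Subgroup G)) ρ) ρ q hq) + χ N ρ := by
    rw [← hprod]
    refine hiso _ _ _ _ (splitEquiv q s hqs) ?_
    intro g w
    apply Prod.ext
    · apply Subtype.ext
      show coind (Nm (P : Subgroup G)) ρ g w - s (q (coind (Nm (P : Subgroup G)) ρ g w))
        = coind (Nm (P : Subgroup G)) ρ g (w - s (q w))
      rw [hq, hs, map_sub]
    · exact hq g w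
  linarith

end Fermat.Agent.S56.EC.Steinberg
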