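import Fermat.Agent.S56.EC.SteinbergInd.EP
import Fermat.Agent.S56.EC.SteinbergInd.Exact

/-!
# S56 / EC.5: the induced half of the Steinberg reduction

`G` a finite group, `P ≤ B ≤ G` with `P` a `p`-group normalised by `B`.  A *model* is a set `S`
with commuting actions of `G` and of a group `Γ` of order prime to `p`, a base point `s₀` with
`G` transitive on `S` and `Stab_G s₀ = P`, and a surjection `π : B → Γ` with
`b • s₀ = (π b)⁻¹ • s₀` (for instance `S = G ⧸ P`, `Γ = B ⧸ P` acting by right translation; in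
the arithmetic application `S = Hom(F^P, ℚ̄)`, `Γ = Aut(F^P / F^B)`).

Let `χ`, `f` be invariants of finite `F_p[G]`-representations with `χ` subadditive and `f`
additive on short exact sequences, and `χ = f` on the retracts of `Fin n → (S → F_p)` cut out by
idempotent matrices over `F_p[Γ]` (`IsEPAt`).  Then

* `chi_le_f_ind`: `χ (Ind_B^G M) ≤ f (Ind_B^G M)` for every finite representation `M` of `B`;
* `chi_le_f_coind`: `χ (G ⧸ B → N) ≤ f (G ⧸ B → N)` for every finite representation `N` of `G`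
  (the functions on `G ⧸ B` with the action `(g φ)(ω) = ρ g (φ (g⁻¹ ω))`).

Proof: `M^P ≠ 0` for `M ≠ 0` (`P` is a `p`-group), `M^P` is `B`-stable, `Ind` is exact, and
`Ind (M^P)` is an (EP) module (`EP.lean`); induct on `dim M`.
-/

namespace Fermat.Agent.S56.EC.SteinbergInd

open scoped BigOperators

/-- `χ = f` on zero modules (the case `n = 0` of `IsEPAt`). -/
theorem chi_eq_f_of_subsingleton {p : ℕ} {G : Type} [Group G] (χ f : Inv p G)
    {Γ V : Type} [Group Γ] [AddCommGroup V] [Module (ZMod p) V]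
    {ρ : Representation (ZMod p) G V} {τ : Representation (ZMod p) Γ V}
    (hEP : IsEPAt χ f ρ τ)
    (X : Type) [AddCommGroup X] [Module (ZMod p) X] [Subsingleton X]
    (ρX : Representation (ZMod p) G X) : χ X ρX = f X ρX :=
  hEP 0 0 (by simp) X ρX 0 0 (fun _ _ k => k.elim0) (fun _ _ => Subsingleton.elim _ _)
    (fun _ => Subsingleton.elim _ _) (fun _ => funext fun k => k.elim0)

/-- A non-zero finite `F_p`-representation of `B` has a non-zero vector fixed by the
`p`-subgroup `P`. -/
theorem exists_fixed_ne_zero {p : ℕ} [Fact p.Prime] {G : Type} [Group G] {P B : Subgroup G}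
    (hPB : P ≤ B) (hP : IsPGroup p ↥P) {M : Type} [AddCommGroup M] [Module (ZMod p) M]
    [Finite M] [Nontrivial M] (ρM : Representation (ZMod p) ↥B M) :
    ∃ m : M, m ≠ 0 ∧ ∀ b : ↥B, (b : G) ∈ P → ρM b m = m := by
  let _ : MulAction ↥P M :=
    { smul := fun x m => ρM (Subgroup.inclusion hPB x) m
      one_smul := fun m => by
        show ρM (Subgroup.inclusion hPB 1) m = m
        rw [map_one, map_one]
        rfl
      mul_smul := fun x y m => by
        show ρM (Subgroup.inclusion hPB (x * y)) m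
          = ρM (Subgroup.inclusion hPB x) (ρM (Subgroup.inclusion hPB y) m)
        rw [map_mul, map_mul]
        rfl }
  have hcard : p ∣ Nat.card M := by
    rw [Module.natCard_eq_pow_finrank (K := ZMod p), Nat.card_zmod]
    exact dvd_pow_self p (Module.finrank_pos (R := ZMod p) (M := M)).ne'
  have h0 : (0 : M) ∈ MulAction.fixedPoints ↥P M := by
    intro x
    show ρM (Subgroup.inclusion hPB x) 0 = 0
    exact map_zero _
  obtain ⟨m, hm, hm0⟩ := hP.exists_fixed_point_of_prime_dvd_card_of_fixed_point M hcard h0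
  refine ⟨m, fun h => hm0 h.symm, fun b hb => ?_⟩
  exact hm ⟨(b : G), hb⟩

section Main

variable {p : ℕ} [Fact p.Prime] {G : Type} [Group G] [Finite G]
  (P B : Subgroup G) (hPB : P ≤ B) (hnorm : ∀ b ∈ B, ∀ x ∈ P, b * x * b⁻¹ ∈ P)
  (hP : IsPGroup p ↥P)
  {S Γ : Type} [MulAction G S] [Group Γ] [Finite Γ] [MulAction Γ S]
  [SMulCommClass G Γ S] (hΓ : ¬ p ∣ Nat.card Γ)
  (s₀ : S) (π : ↥B →* Γ) (hπ : Function.Surjective π)
  (htrans : ∀ s : S, ∃ g : G, g • s₀ = s)
  (hstab : ∀ g : G, g • s₀ = s₀ ↔ g ∈ P)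
  (hπs : ∀ b : ↥B, (b : G) • s₀ = (π b)⁻¹ • s₀)
  (χ f : Inv p G) (hsub : SubAdd χ) (hfex : ExAdd f)
  (hEP : IsEPAt χ f (funRep (ZMod p) G S) (funRep (ZMod p) Γ S))

include hPB hnorm hP hΓ hπ htrans hstab hπs hsub hfex hEP in
theorem chi_le_f_ind_aux (d : ℕ) :
    ∀ (M : Type) [AddCommGroup M] [Module (ZMod p) M] [Finite M]
      (ρM : Representation (ZMod p) ↥B M), Module.finrank (ZMod p) M = d →
      χ ↥(indSub ρM) (indRep ρM) ≤ f ↥(indSub ρM) (indRep ρM) := by
  induction d using Nat.strong_induction_on with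
  | _ d ih =>
    intro M _ _ _ ρM hd
    rcases subsingleton_or_nontrivial M with hM | hM
    · exact (chi_eq_f_of_subsingleton χ f hEP ↥(indSub ρM) (indRep ρM)).le
    · obtain ⟨m₀, hm₀, hfix⟩ := exists_fixed_ne_zero hPB hP ρM
      -- the `P`-invariants
      let M₁ : Submodule (ZMod p) M :=
        { carrier := {m | ∀ b : ↥B, (b : G) ∈ P → ρM b m = m}
          add_mem' := fun {x y} hx hy b hb => by rw [map_add, hx b hb, hy b hb]
          zero_mem' := fun b _ => map_zero _
          smul_mem' := fun c x hx b hb => by rw [map_smul, hx b hb] }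
      have hstable : ∀ b : ↥B, M₁ ≤ M₁.comap (ρM b) := by
        intro b m hm x hx
        show ρM x (ρM b m) = ρM b m
        have hx' : ((b⁻¹ * x * b : ↥B) : G) ∈ P := by
          have := hnorm (b⁻¹ : ↥B) (b⁻¹ : ↥B).2 x hx
          simpa using this
        have h1 : ρM x (ρM b m) = ρM b (ρM (b⁻¹ * x * b) m) := by
          rw [← Module.End.mul_apply, ← Module.End.mul_apply, ← map_mul, ← map_mul]
          congr 2
          group
        rw [h1, hm _ hx']
      let ρ₁ : Representation (ZMod p) ↥B ↥M₁ := ρM.subrepresentation M₁ hstable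
      let ρ₂ : Representation (ZMod p) ↥B (M ⧸ M₁) := ρM.quotient M₁ hstable
      have htriv : ∀ b : ↥B, (b : G) ∈ P → ρ₁ b = 1 := by
        intro b hb
        refine LinearMap.ext fun m => Subtype.ext ?_
        exact m.2 b hb
      have hα : ∀ (b : ↥B) (m : ↥M₁), M₁.subtype (ρ₁ b m) = ρM b (M₁.subtype m) :=
        fun _ _ => rfl
      have hβ : ∀ (b : ↥B) (m : M), M₁.mkQ (ρM b m) = ρ₂ b (M₁.mkQ m) := fun _ _ => rfl
      have : Finite (M ⧸ M₁) := Finite.of_surjective M₁.mkQ M₁.mkQ_surjective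
      have hlt : Module.finrank (ZMod p) (M ⧸ M₁) < d := by
        have h1 := M₁.finrank_quotient_add_finrank
        have h2 : 0 < Module.finrank (ZMod p) ↥M₁ :=
          Module.finrank_pos_iff_exists_ne_zero.mpr
            ⟨⟨m₀, hfix⟩, fun h => hm₀ (congrArg Subtype.val h)⟩
        omega
      have hIH := ih _ hlt (M ⧸ M₁) ρ₂ rfl
      have hEP1 := chi_eq_f_ind_of_trivial P B hPB hΓ s₀ π hπ htrans hstab hπs χ f hEP
        ↥M₁ ρ₁ htriv
      have h3 := hsub ↥(indSub ρ₁) ↥(indSub ρM) ↥(indSub ρ₂) (indRep ρ₁) (indRep ρM) (indRep ρ₂)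
        (indMap M₁.subtype hα) (indMap M₁.mkQ hβ)
        (fun g a => indMap_equiv M₁.subtype hα g a) (fun g b => indMap_equiv M₁.mkQ hβ g b)
        (indMap_injective M₁.subtype hα M₁.injective_subtype)
        (indMap_exact M₁.subtype hα M₁.mkQ hβ M₁.injective_subtype
          (LinearMap.exact_subtype_mkQ M₁))
        (indMap_surjective M₁.mkQ hβ M₁.mkQ_surjective)
      have h4 := hfex ↥(indSub ρ₁) ↥(indSub ρM) ↥(indSub ρ₂) (indRep ρ₁) (indRep ρM) (indRep ρ₂)
        (indMap M₁.subtype hα) (indMap M₁.mkQ hβ)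
        (fun g a => indMap_equiv M₁.subtype hα g a) (fun g b => indMap_equiv M₁.mkQ hβ g b)
        (indMap_injective M₁.subtype hα M₁.injective_subtype)
        (indMap_exact M₁.subtype hα M₁.mkQ hβ M₁.injective_subtype
          (LinearMap.exact_subtype_mkQ M₁))
        (indMap_surjective M₁.mkQ hβ M₁.mkQ_surjective)
      linarith

include hPB hnorm hP hΓ hπ htrans hstab hπs hsub hfex hEP in
/-- **Induced modules.**  `χ ≤ f` on `Ind_B^G M` for every finite representation `M` of `B`. -/
theorem chi_le_f_ind (M : Type) [AddCommGroup M] [Module (ZMod p) M] [Finite M]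
    (ρM : Representation (ZMod p) ↥B M) :
    χ ↥(indSub ρM) (indRep ρM) ≤ f ↥(indSub ρM) (indRep ρM) :=
  chi_le_f_ind_aux P B hPB hnorm hP hΓ s₀ π hπ htrans hstab hπs χ f hsub hfex hEP _ M ρM rfl

include hPB hnorm hP hΓ hπ htrans hstab hπs hsub hfex hEP in
/-- **The exit of the induced half.**  `χ ≤ f` on `(G ⧸ B → N)` with the action
`(g φ)(ω) = ρ g (φ (g⁻¹ ω))`, for every finite representation `N` of `G`. -/
theorem chi_le_f_coind (N : Type) [AddCommGroup N] [Module (ZMod p) N] [Finite N]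
    (ρ : Representation (ZMod p) G N) :
    χ (G ⧸ B → N) (coind B ρ) ≤ f (G ⧸ B → N) (coind B ρ) := by
  have h1 := chi_le_f_ind P B hPB hnorm hP hΓ s₀ π hπ htrans hstab hπs χ f hsub hfex hEP N
    (resB B ρ)
  have h0 := chi_eq_f_of_subsingleton χ f hEP PUnit (1 : Representation (ZMod p) G PUnit)
  have hex : Function.Exact (0 : PUnit →ₗ[ZMod p] (G ⧸ B → N)) (coindToInd B ρ) := by
    intro φ
    constructor
    · intro h
      refine ⟨PUnit.unit, ?_⟩
      apply coindToInd_injective B ρ
      rw [h]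
      simp
    · rintro ⟨_, rfl⟩
      simp
  have h3 := hsub PUnit (G ⧸ B → N) ↥(indSub (resB B ρ)) 1 (coind B ρ) (indRep (resB B ρ))
    0 (coindToInd B ρ) (fun g a => by simp) (fun g φ => coindToInd_equiv B ρ g φ)
    (fun a b _ => Subsingleton.elim a b) hex (coindToInd_surjective B ρ)
  have h4 := hfex PUnit (G ⧸ B → N) ↥(indSub (resB B ρ)) 1 (coind B ρ) (indRep (resB B ρ))
    0 (coindToInd B ρ) (fun g a => by simp) (fun g φ => coindToInd_equiv B ρ g φ)
    (fun a b _ => Subsingleton.elim a b) hex (coindToInd_surjective B ρ)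
  linarith

end Main

end Fermat.Agent.S56.EC.SteinbergInd
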