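import Mathlib
import Fermat.Agent.S56.EC.Steinberg

/-!
# S56 / EC.5, projective half of the Steinberg reduction: `projSeam : Steinberg.ProjSeam`

`G` a finite group, `P` a TI Sylow `p`-subgroup, `B = N_G(P)`.  For a finite `F_p[G]`-module `N`
the functions `G ⧸ B → N` (action `coind B ρ`) split equivariantly as `N ⊕ W₀`, `W₀ = sumZero`
the functions of sum zero (`q = |G ⧸ B|⁻¹ ∑`, `s = const`), and `W₀` is a projective
`F_p[G]`-module: an equivariant retract of `Fin n → (G → F_p)` (left translation) whose projector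
has right-convolution entries.  This is `Steinberg.ProjSeam` (`projSeam`).

More generally (`chi_eq_f_sumZero`): for subgroups `P ≤ B` with `p ∤ [G : P]` and `P` acting
freely on the cosets `g B`, `g ∉ B`, and a *regular* model `S₁` (a `G`-torsor with a commuting
action of `Γ₁`), `IsEPAt χ f (funRep G S₁) (funRep Γ₁ S₁)` gives `χ = f` on `sumZero`.

Steps: Higman's criterion (`iH`, `rH`, `eH`, `chi_eq_f_of_higman`: an endomorphism `u` with
`∑ g, g u g⁻¹ = 1` makes the module a retract of the regular model, with projector an idempotent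
matrix over the group algebra), the transfer from `P` to `G` (`higman_of_subgroup`), the cut-off
operator on sum-zero functions built from representatives of the `P`-orbits
(`higman_sumZero`), and `free_of_isTI` (TI ⟹ `P` free off the base point).
-/

namespace Fermat.Agent.S56.EC.SteinbergProj

open scoped BigOperators
open Fermat.Agent.S56.EC.SteinbergInd

/-! ### Sum-zero functions on `G ⧸ B` -/

section SumZero

variable (k : Type) [CommRing k] {G : Type} [Group G] (B : Subgroup G) [Finite (G ⧸ B)]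
  (N : Type) [AddCommGroup N] [Module k N]

/-- The sum of the values of a function on `G ⧸ B`. -/
noncomputable def sumL : (G ⧸ B → N) →ₗ[k] N :=
  letI := Fintype.ofFinite (G ⧸ B)
  ∑ ω : G ⧸ B, LinearMap.proj ω

theorem sumL_apply [Fintype (G ⧸ B)] (φ : G ⧸ B → N) : sumL k B N φ = ∑ ω, φ ω := by
  have h : sumL k B N φ
      = @Finset.sum _ _ _ (@Finset.univ _ (Fintype.ofFinite (G ⧸ B))) (fun ω => φ ω) := by
    simp [sumL, LinearMap.sum_apply]
  rw [h]
  exact Finset.sum_congr (by ext; simp) (fun _ _ => rfl)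

/-- The functions `G ⧸ B → N` of sum zero. -/
noncomputable def sumZero : Submodule k (G ⧸ B → N) := LinearMap.ker (sumL k B N)

theorem mem_sumZero [Fintype (G ⧸ B)] (φ : G ⧸ B → N) :
    φ ∈ sumZero k B N ↔ ∑ ω, φ ω = 0 := by
  rw [sumZero, LinearMap.mem_ker, sumL_apply]

variable {k N}

theorem sumL_coind (ρ : Representation k G N) (g : G) (φ : G ⧸ B → N) :
    sumL k B N (coind B ρ g φ) = ρ g (sumL k B N φ) := by
  classical
  have := Fintype.ofFinite (G ⧸ B)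
  rw [sumL_apply, sumL_apply, map_sum]
  exact Fintype.sum_equiv (MulAction.toPerm g⁻¹) _ _ (fun ω => rfl)

theorem sumZero_le_comap (ρ : Representation k G N) (g : G) :
    sumZero k B N ≤ (sumZero k B N).comap (coind B ρ g) := by
  intro φ hφ
  rw [Submodule.mem_comap, sumZero, LinearMap.mem_ker, sumL_coind]
  rw [sumZero, LinearMap.mem_ker] at hφ
  rw [hφ, map_zero]

/-- The representation of `G` on the sum-zero functions `G ⧸ B → N`,
`(g φ)(ω) = ρ g (φ (g⁻¹ ω))`. -/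
noncomputable def coindZero (ρ : Representation k G N) :
    Representation k G ↥(sumZero k B N) :=
  (coind B ρ).subrepresentation (sumZero k B N) (sumZero_le_comap B ρ)

@[simp] theorem coindZero_apply (ρ : Representation k G N) (g : G) (φ : ↥(sumZero k B N))
    (ω : G ⧸ B) :
    (coindZero B ρ g φ : G ⧸ B → N) ω = ρ g ((φ : G ⧸ B → N) (g⁻¹ • ω)) := rfl

/-- The constant functions. -/
def constL (k : Type) [CommRing k] {G : Type} [Group G] (B : Subgroup G)
    (N : Type) [AddCommGroup N] [Module k N] : N →ₗ[k] (G ⧸ B → N) :=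
  LinearMap.pi fun _ => LinearMap.id

omit [Finite (G ⧸ B)] in
theorem constL_apply (m : N) (ω : G ⧸ B) : constL k B N m ω = m := rfl

omit [Finite (G ⧸ B)] in
theorem constL_coind (ρ : Representation k G N) (g : G) (m : N) :
    constL k B N (ρ g m) = coind B ρ g (constL k B N m) := rfl

theorem sumL_constL (m : N) : sumL k B N (constL k B N m) = (Nat.card (G ⧸ B) : k) • m := by
  classical
  have := Fintype.ofFinite (G ⧸ B)
  rw [sumL_apply]
  simp only [constL_apply, Finset.sum_const, Finset.card_univ, Nat.card_eq_fintype_card,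
    Nat.cast_smul_eq_nsmul]

/-- `w ↦ w - const (c' • ∑ w)`, as a map to the sum-zero functions (`c' = |G ⧸ B|⁻¹`). -/
noncomputable def projZ (c' : k) (hc : c' * (Nat.card (G ⧸ B) : k) = 1) :
    (G ⧸ B → N) →ₗ[k] ↥(sumZero k B N) :=
  LinearMap.codRestrict (sumZero k B N)
    (LinearMap.id - (constL k B N).comp (c' • sumL k B N))
    (fun w => by
      show sumL k B N (w - constL k B N (c' • sumL k B N w)) = 0
      rw [map_sub, sumL_constL, smul_smul, mul_comm, hc, one_smul, sub_self])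

theorem projZ_coe (c' : k) (hc : c' * (Nat.card (G ⧸ B) : k) = 1) (w : G ⧸ B → N) :
    (projZ B c' hc w : G ⧸ B → N) = w - constL k B N (c' • sumL k B N w) := rfl

theorem projZ_coind (c' : k) (hc : c' * (Nat.card (G ⧸ B) : k) = 1)
    (ρ : Representation k G N) (g : G) (w : G ⧸ B → N) :
    projZ B c' hc (coind B ρ g w) = coindZero B ρ g (projZ B c' hc w) := by
  apply Subtype.ext
  show coind B ρ g w - constL k B N (c' • sumL k B N (coind B ρ g w))
    = coind B ρ g (w - constL k B N (c' • sumL k B N w))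
  rw [map_sub, sumL_coind, ← map_smul, constL_coind]

theorem sumL_coe (w : ↥(sumZero k B N)) : sumL k B N (w : G ⧸ B → N) = 0 := w.2

theorem projZ_of_mem (c' : k) (hc : c' * (Nat.card (G ⧸ B) : k) = 1)
    (w : ↥(sumZero k B N)) : projZ B c' hc (w : G ⧸ B → N) = w := by
  apply Subtype.ext
  rw [projZ_coe, sumL_coe, smul_zero, map_zero, sub_zero]

end SumZero

/-! ### Higman's criterion: a module with `∑ g, g u g⁻¹ = 1` is a retract of the regular model -/

section Higman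

variable {p : ℕ} {G : Type} [Group G] [Fintype G]
  {S₁ Γ₁ : Type} [MulAction G S₁] [Group Γ₁] [MulAction Γ₁ S₁]
  {W : Type} [AddCommGroup W] [Module (ZMod p) W] {m : ℕ}
  (b : Module.Basis (Fin m) (ZMod p) W) (ρ₀ : Representation (ZMod p) G W)
  (u : W →ₗ[ZMod p] W)

/-- The inclusion `W → Fin m → (S₁ → F_p)`: `(i w) k (g • s₁) = (u (g⁻¹ w))_k`. -/
noncomputable def iH (E : G ≃ S₁) : W →ₗ[ZMod p] (Fin m → S₁ → ZMod p) where
  toFun w := fun k s => b.repr (u (ρ₀ (E.symm s)⁻¹ w)) k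
  map_add' w w' := by funext k s; simp
  map_smul' a w := by funext k s; simp

omit [Fintype G] [MulAction G S₁] [Group Γ₁] [MulAction Γ₁ S₁] in
theorem iH_apply (E : G ≃ S₁) (w : W) (k : Fin m) (s : S₁) :
    iH b ρ₀ u E w k s = b.repr (u (ρ₀ (E.symm s)⁻¹ w)) k := rfl

/-- Evaluation of a coordinate at a point, as a linear map. -/
def evH (p : ℕ) (m : ℕ) (S₁ : Type) (k : Fin m) (s : S₁) :
    (Fin m → S₁ → ZMod p) →ₗ[ZMod p] ZMod p where
  toFun v := v k s
  map_add' _ _ := rfl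
  map_smul' _ _ := rfl

/-- The retraction `Fin m → (S₁ → F_p) → W`: `r v = ∑ g, g (∑ k, v k (g • s₁) • b k)`. -/
noncomputable def rH (s₁ : S₁) : (Fin m → S₁ → ZMod p) →ₗ[ZMod p] W :=
  ∑ g : G, (ρ₀ g).comp
    (∑ k : Fin m, (LinearMap.toSpanSingleton (ZMod p) W (b k)).comp (evH p m S₁ k (g • s₁)))

omit [Group Γ₁] [MulAction Γ₁ S₁] in
theorem rH_apply (s₁ : S₁) (v : Fin m → S₁ → ZMod p) :
    rH b ρ₀ s₁ v = ∑ g : G, ρ₀ g (∑ k, v k (g • s₁) • b k) := by
  simp [rH, evH, LinearMap.sum_apply]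

omit [Fintype G] [Group Γ₁] [MulAction Γ₁ S₁] in
theorem iH_equiv (E : G ≃ S₁) (s₁ : S₁) (hE : ∀ g, E g = g • s₁) (h : G) (w : W) (k : Fin m) :
    iH b ρ₀ u E (ρ₀ h w) k = funRep (ZMod p) G S₁ h (iH b ρ₀ u E w k) := by
  funext s
  rw [funRep_apply, iH_apply, iH_apply]
  have h1 : E.symm (h⁻¹ • s) = h⁻¹ * E.symm s := by
    rw [Equiv.symm_apply_eq, hE, mul_smul, ← hE, Equiv.apply_symm_apply]
  rw [h1, mul_inv_rev, inv_inv, map_mul, Module.End.mul_apply]

omit [Group Γ₁] [MulAction Γ₁ S₁] in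
theorem rH_equiv (s₁ : S₁) (h : G) (v : Fin m → S₁ → ZMod p) :
    rH b ρ₀ s₁ (fun k => funRep (ZMod p) G S₁ h (v k)) = ρ₀ h (rH b ρ₀ s₁ v) := by
  rw [rH_apply, rH_apply, map_sum]
  refine Fintype.sum_equiv (Equiv.mulLeft h⁻¹) _ _ (fun g => ?_)
  simp only [funRep_apply, Equiv.coe_mulLeft]
  rw [← Module.End.mul_apply, ← map_mul, mul_inv_cancel_left, mul_smul]

omit [Group Γ₁] [MulAction Γ₁ S₁] in
theorem rH_iH (E : G ≃ S₁) (s₁ : S₁) (hE : ∀ g, E g = g • s₁)
    (hu : ∀ w, ∑ g : G, ρ₀ g (u (ρ₀ g⁻¹ w)) = w) (w : W) :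
    rH b ρ₀ s₁ (iH b ρ₀ u E w) = w := by
  rw [rH_apply]
  conv_rhs => rw [← hu w]
  refine Finset.sum_congr rfl fun g _ => ?_
  congr 1
  have h1 : E.symm (g • s₁) = g := by rw [Equiv.symm_apply_eq, hE]
  simp only [iH_apply, h1]
  exact b.sum_repr _

omit [Fintype G] [MulAction G S₁] [Group Γ₁] [MulAction Γ₁ S₁] [AddCommGroup W]
  [Module (ZMod p) W] in
theorem single_sum_eq {ι : Type} [Fintype ι] (γ : Γ₁) (a : ι → ZMod p) :
    MonoidAlgebra.single γ (∑ l, a l) = ∑ l, MonoidAlgebra.single γ (a l) :=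
  map_sum (MonoidAlgebra.singleAddHom γ) _ _

/-- The matrix over `F_p[Γ₁]` of the projector: `e k j = ∑ y, (u (y b_j))_k • [π₁ y]`. -/
noncomputable def eH (π₁ : G →* Γ₁) : Matrix (Fin m) (Fin m) (MonoidAlgebra (ZMod p) Γ₁) :=
  fun k j => ∑ y : G, MonoidAlgebra.single (π₁ y) (b.repr (u (ρ₀ y (b j))) k)

omit [MulAction G S₁] [MulAction Γ₁ S₁] in
theorem eH_mul_self (π₁ : G →* Γ₁) (hu : ∀ w, ∑ g : G, ρ₀ g (u (ρ₀ g⁻¹ w)) = w) :
    eH b ρ₀ u π₁ * eH b ρ₀ u π₁ = eH b ρ₀ u π₁ := by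
  funext k j
  rw [Matrix.mul_apply]
  have hM : ∀ y z : G, ∑ l, b.repr (u (ρ₀ y (b l))) k * b.repr (u (ρ₀ z (b j))) l
      = b.repr (u (ρ₀ y (u (ρ₀ z (b j))))) k := by
    intro y z
    conv_rhs => rw [← b.sum_repr (u (ρ₀ z (b j)))]
    simp only [map_sum, map_smul, Finsupp.coe_finsetSum, Finset.sum_apply, Finsupp.smul_apply,
      smul_eq_mul]
    exact Finset.sum_congr rfl fun l _ => mul_comm _ _
  have h1 : ∀ l, eH b ρ₀ u π₁ k l * eH b ρ₀ u π₁ l j
      = ∑ y : G, ∑ z : G, MonoidAlgebra.single (π₁ (y * z))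
          (b.repr (u (ρ₀ y (b l))) k * b.repr (u (ρ₀ z (b j))) l) := by
    intro l
    simp only [eH]
    rw [Finset.sum_mul_sum]
    simp only [MonoidAlgebra.single_mul_single, map_mul]
  simp only [h1]
  rw [Finset.sum_comm]
  have h2 : ∀ y : G, ∑ l, ∑ z : G, MonoidAlgebra.single (π₁ (y * z))
          (b.repr (u (ρ₀ y (b l))) k * b.repr (u (ρ₀ z (b j))) l)
      = ∑ w : G, MonoidAlgebra.single (π₁ w)
          (b.repr (u (ρ₀ y (u (ρ₀ y⁻¹ (ρ₀ w (b j)))))) k) := by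
    intro y
    rw [Finset.sum_comm]
    refine Fintype.sum_equiv (Equiv.mulLeft y) _ _ (fun z => ?_)
    simp only [Equiv.coe_mulLeft]
    rw [← Module.End.mul_apply (ρ₀ y⁻¹), ← map_mul, inv_mul_cancel_left, ← hM y z]
    exact (single_sum_eq (ι := Fin m) _ _).symm
  simp only [h2]
  rw [Finset.sum_comm]
  show _ = ∑ w : G, MonoidAlgebra.single (π₁ w) (b.repr (u (ρ₀ w (b j))) k)
  refine Finset.sum_congr rfl fun w _ => ?_
  refine (single_sum_eq (ι := G) (π₁ w) _).symm.trans ?_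
  congr 1
  conv_rhs => rw [← hu (ρ₀ w (b j))]
  simp only [map_sum, Finsupp.coe_finsetSum, Finset.sum_apply]

omit [Group Γ₁] [MulAction Γ₁ S₁] in
theorem iH_rH_aux (E : G ≃ S₁) (s₁ : S₁) (v : Fin m → S₁ → ZMod p) (k : Fin m) (s : S₁) :
    iH b ρ₀ u E (rH b ρ₀ s₁ v) k s
      = ∑ j, ∑ g : G, v j (g • s₁) * b.repr (u (ρ₀ ((E.symm s)⁻¹ * g) (b j))) k := by
  rw [iH_apply, rH_apply, Finset.sum_comm]
  simp only [map_sum, map_smul, map_mul, Module.End.mul_apply, Finsupp.coe_finsetSum,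
    Finset.sum_apply, Finsupp.smul_apply, smul_eq_mul]

omit [Group Γ₁] [MulAction Γ₁ S₁] in
theorem iH_rH_single [DecidableEq (Fin m)] (E : G ≃ S₁) (s₁ : S₁) (j : Fin m)
    (t : S₁ → ZMod p) (k : Fin m) (s : S₁) :
    iH b ρ₀ u E (rH b ρ₀ s₁ (Pi.single j t)) k s
      = ∑ g : G, t (g • s₁) * b.repr (u (ρ₀ ((E.symm s)⁻¹ * g) (b j))) k := by
  rw [iH_rH_aux, Finset.sum_eq_single j]
  · simp
  · intro j' _ hj'
    simp [Pi.single_eq_of_ne hj']
  · intro h
    exact absurd (Finset.mem_univ j) h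

theorem iH_rH [SMulCommClass G Γ₁ S₁] (E : G ≃ S₁) (s₁ : S₁) (hE : ∀ g, E g = g • s₁)
    (π₁ : G →* Γ₁) (hπ₁ : ∀ g : G, g • s₁ = (π₁ g)⁻¹ • s₁) (v : Fin m → S₁ → ZMod p) :
    iH b ρ₀ u E (rH b ρ₀ s₁ v) = opOf (funRep (ZMod p) Γ₁ S₁) (eH b ρ₀ u π₁) v := by
  funext k s
  rw [opOf_apply, iH_rH_aux]
  simp only [Finset.sum_apply]
  refine Finset.sum_congr rfl fun j _ => ?_
  have hR : ((funRep (ZMod p) Γ₁ S₁).asAlgebraHom (eH b ρ₀ u π₁ k j) (v j)) s
      = ∑ y : G, b.repr (u (ρ₀ y (b j))) k * v j ((π₁ y)⁻¹ • s) := by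
    simp only [eH, map_sum, Representation.asAlgebraHom_single, LinearMap.smul_apply,
      LinearMap.sum_apply, Pi.smul_apply, Finset.sum_apply, funRep_apply, smul_eq_mul]
  rw [hR]
  refine Fintype.sum_equiv (Equiv.mulLeft (E.symm s)⁻¹) _ _ (fun g => ?_)
  simp only [Equiv.coe_mulLeft]
  have h1 : ∀ g₀ : G, s = g₀ • s₁ → (π₁ (g₀⁻¹ * g))⁻¹ • s = g • s₁ := by
    intro g₀ hs
    rw [hs, ← smul_comm g₀, ← hπ₁, ← mul_smul, mul_inv_cancel_left]
  rw [h1 (E.symm s) (by rw [← hE, Equiv.apply_symm_apply]), mul_comm]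

end Higman

/-- **Higman's criterion.**  In a regular model `(S₁, Γ₁, s₁, π₁)` (`G` simply transitive on
`S₁`, `g • s₁ = (π₁ g)⁻¹ • s₁`), a finite representation `W` of `G` with an endomorphism `u`
such that `∑ g, g u g⁻¹ = 1` is an equivariant retract of `Fin m → (S₁ → F_p)` cut out by an
idempotent matrix over `F_p[Γ₁]`; hence `χ W = f W` under `IsEPAt`. -/
theorem chi_eq_f_of_higman {p : ℕ} [Fact p.Prime] {G : Type} [Group G] [Fintype G]
    {S₁ Γ₁ : Type} [MulAction G S₁] [Group Γ₁] [MulAction Γ₁ S₁] [SMulCommClass G Γ₁ S₁]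
    (s₁ : S₁) (hbij : Function.Bijective fun g : G => g • s₁) (π₁ : G →* Γ₁)
    (hπ₁ : ∀ g : G, g • s₁ = (π₁ g)⁻¹ • s₁) (χ f : Inv p G)
    (hEP1 : IsEPAt χ f (funRep (ZMod p) G S₁) (funRep (ZMod p) Γ₁ S₁))
    (W : Type) [AddCommGroup W] [Module (ZMod p) W] [Finite W]
    (ρ₀ : Representation (ZMod p) G W) (u : W →ₗ[ZMod p] W)
    (hu : ∀ w, ∑ g : G, ρ₀ g (u (ρ₀ g⁻¹ w)) = w) : χ W ρ₀ = f W ρ₀ := by
  have hE : ∀ g, Equiv.ofBijective _ hbij g = g • s₁ := fun g => rfl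
  exact hEP1 _ (eH (Module.finBasis (ZMod p) W) ρ₀ u π₁) (eH_mul_self _ ρ₀ u π₁ hu) W ρ₀
    (iH (Module.finBasis (ZMod p) W) ρ₀ u (Equiv.ofBijective _ hbij))
    (rH (Module.finBasis (ZMod p) W) ρ₀ s₁)
    (fun g x k => iH_equiv _ ρ₀ u _ s₁ hE g x k)
    (fun g v => rH_equiv _ ρ₀ s₁ g v)
    (fun x => rH_iH _ ρ₀ u _ s₁ hE hu x)
    (fun v => iH_rH _ ρ₀ u _ s₁ hE π₁ hπ₁ v)

/-! ### Transfer of Higman's criterion from a subgroup of index prime to `p` -/

/-- If `∑ x ∈ P, x u₀ x⁻¹ = 1` on `W` and `p ∤ [G : P]`, then `u = [G : P]⁻¹ u₀` satisfies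
`∑ g ∈ G, g u g⁻¹ = 1`. -/
theorem higman_of_subgroup {p : ℕ} [Fact p.Prime] {G : Type} [Group G] [Fintype G]
    {W : Type} [AddCommGroup W] [Module (ZMod p) W] (P : Subgroup G) [Fintype ↥P]
    (hidx : ¬ p ∣ P.index) (ρ₀ : Representation (ZMod p) G W) (u₀ : W →ₗ[ZMod p] W)
    (h₀ : ∀ w, ∑ x : ↥P, ρ₀ (x : G) (u₀ (ρ₀ (x : G)⁻¹ w)) = w) (w : W) :
    ∑ g : G, ρ₀ g (((P.index : ZMod p)⁻¹ • u₀) (ρ₀ g⁻¹ w)) = w := by
  classical
  obtain ⟨S, hS, -⟩ := P.exists_isComplement_left 1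
  have := Fintype.ofFinite ↥S
  let E : ↥S × ↥P ≃ G := Equiv.ofBijective _ hS
  have hc : (P.index : ZMod p) ≠ 0 := by
    rw [Ne, ZMod.natCast_eq_zero_iff]
    exact hidx
  have h1 : ∑ g : G, ρ₀ g (((P.index : ZMod p)⁻¹ • u₀) (ρ₀ g⁻¹ w))
      = ∑ sx : ↥S × ↥P, ρ₀ ((sx.1 : G) * (sx.2 : G))
          (((P.index : ZMod p)⁻¹ • u₀) (ρ₀ ((sx.1 : G) * (sx.2 : G))⁻¹ w)) :=
    (Fintype.sum_equiv E _ _ (fun sx => rfl)).symm
  rw [h1, Fintype.sum_prod_type]
  have h2 : ∀ s : ↥S, ∑ x : ↥P, ρ₀ ((s : G) * (x : G))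
        (((P.index : ZMod p)⁻¹ • u₀) (ρ₀ ((s : G) * (x : G))⁻¹ w))
      = (P.index : ZMod p)⁻¹ • w := by
    intro s
    have h3 : ∀ x : ↥P, ρ₀ ((s : G) * (x : G))
          (((P.index : ZMod p)⁻¹ • u₀) (ρ₀ ((s : G) * (x : G))⁻¹ w))
        = (P.index : ZMod p)⁻¹ •
            ρ₀ (s : G) (ρ₀ (x : G) (u₀ (ρ₀ (x : G)⁻¹ (ρ₀ (s : G)⁻¹ w)))) := by
      intro x
      rw [mul_inv_rev, map_mul, map_mul, LinearMap.smul_apply, map_smul]
      rfl
    simp only [h3]
    rw [← Finset.smul_sum, ← map_sum, h₀, Representation.self_inv_apply]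
  simp only [h2]
  rw [Finset.sum_const, Finset.card_univ, ← Nat.card_eq_fintype_card, hS.card_left,
    ← Nat.cast_smul_eq_nsmul (ZMod p), smul_smul, mul_inv_cancel₀ hc, one_smul]

/-! ### The cut-off operator on sum-zero functions -/

section Cut

variable {k : Type} [CommRing k] {G : Type} [Group G] (B : Subgroup G) [Fintype (G ⧸ B)]
  [DecidableEq (G ⧸ B)] {N : Type} [AddCommGroup N] [Module k N]

/-- The projection of all functions onto the sum-zero functions which only changes the value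
at the base point `ω₀`. -/
noncomputable def zL (ω₀ : G ⧸ B) : (G ⧸ B → N) →ₗ[k] ↥(sumZero k B N) :=
  LinearMap.codRestrict (sumZero k B N)
    (LinearMap.id - (LinearMap.single k (fun _ : G ⧸ B => N) ω₀).comp (sumL k B N))
    (fun φ => by
      rw [mem_sumZero]
      simp [sumL_apply, Finset.sum_sub_distrib])

theorem zL_apply_of_ne (ω₀ : G ⧸ B) (φ : G ⧸ B → N) {ω : G ⧸ B} (h : ω ≠ ω₀) :
    (zL (k := k) B ω₀ φ : G ⧸ B → N) ω = φ ω := by
  simp [zL, Pi.single_eq_of_ne h]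

/-- Cut-off by a predicate. -/
noncomputable def indL (T : G ⧸ B → Prop) [DecidablePred T] :
    (G ⧸ B → N) →ₗ[k] (G ⧸ B → N) where
  toFun φ := fun ω => if T ω then φ ω else 0
  map_add' φ ψ := by
    funext ω
    by_cases h : T ω <;> simp [h]
  map_smul' c φ := by
    funext ω
    by_cases h : T ω <;> simp [h]

omit [Fintype (G ⧸ B)] [DecidableEq (G ⧸ B)] in
theorem indL_apply (T : G ⧸ B → Prop) [DecidablePred T] (φ : G ⧸ B → N) (ω : G ⧸ B) :
    indL (k := k) B T φ ω = if T ω then φ ω else 0 := rfl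

omit [DecidableEq (G ⧸ B)] in
/-- Two sum-zero functions which agree away from one point are equal. -/
theorem sumZero_ext (ω₀ : G ⧸ B) {φ ψ : ↥(sumZero k B N)}
    (h : ∀ ω, ω ≠ ω₀ → (φ : G ⧸ B → N) ω = (ψ : G ⧸ B → N) ω) : φ = ψ := by
  classical
  apply Subtype.ext
  funext ω
  by_cases hω : ω = ω₀
  · subst hω
    have h1 := (mem_sumZero k B N _).mp φ.2
    have h2 := (mem_sumZero k B N _).mp ψ.2
    rw [← Finset.add_sum_erase _ _ (Finset.mem_univ ω)] at h1 h2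
    have h3 : ∑ x ∈ Finset.univ.erase ω, (φ : G ⧸ B → N) x
        = ∑ x ∈ Finset.univ.erase ω, (ψ : G ⧸ B → N) x :=
      Finset.sum_congr rfl fun x hx => h x (Finset.ne_of_mem_erase hx)
    rw [h3] at h1
    exact add_right_cancel (h1.trans h2.symm)
  · exact h ω hω

omit [Fintype (G ⧸ B)] [DecidableEq (G ⧸ B)] in
/-- A set of representatives for the orbits of `P` on the cosets other than the base point, on
which `P` acts freely. -/
theorem exists_transversal (P : Subgroup G)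
    (hfree : ∀ x ∈ P, ∀ g : G, g ∉ B → x • (g : G ⧸ B) = (g : G ⧸ B) → x = 1) :
    ∃ T : G ⧸ B → Prop, ∀ ω : G ⧸ B, ω ≠ ((1 : G) : G ⧸ B) →
      ∃! x : ↥P, T ((x : G)⁻¹ • ω) := by
  let rep : G ⧸ B → G ⧸ B := fun ω =>
    (Quotient.mk (MulAction.orbitRel ↥P (G ⧸ B)) ω).out
  have hrep1 : ∀ ω, ∃ x : ↥P, (x : G) • ω = rep ω := by
    intro ω
    have h := Quotient.mk_out (s := MulAction.orbitRel ↥P (G ⧸ B)) ω
    obtain ⟨x, hx⟩ := MulAction.mem_orbit_iff.mp (MulAction.orbitRel_apply.mp h)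
    exact ⟨x, hx⟩
  have hrep2 : ∀ (x : ↥P) ω, rep ((x : G) • ω) = rep ω := by
    intro x ω
    show (Quotient.mk (MulAction.orbitRel ↥P (G ⧸ B)) ((x : G) • ω)).out = _
    congr 1
    exact Quotient.sound (MulAction.orbitRel_apply.mpr (MulAction.mem_orbit ω x))
  refine ⟨fun ω => rep ω = ω, fun ω hω => ?_⟩
  obtain ⟨x₀, hx₀⟩ := hrep1 ω
  have hg : ∀ y : G, y ∈ P → y • ω = ω → y = 1 := by
    induction ω using QuotientGroup.induction_on with
    | H g =>
      intro y hy hyω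
      refine hfree y hy g (fun hgB => hω ?_) hyω
      exact QuotientGroup.eq.mpr (by simpa using B.inv_mem hgB)
  refine ⟨x₀⁻¹, ?_, fun y hy => ?_⟩
  · show rep (((x₀⁻¹ : ↥P) : G)⁻¹ • ω) = ((x₀⁻¹ : ↥P) : G)⁻¹ • ω
    rw [Subgroup.coe_inv, inv_inv, hrep2, hx₀]
  · have h1 : rep ω = (y : G)⁻¹ • ω := by
      have h2 : rep (((y⁻¹ : ↥P) : G) • ω) = ((y⁻¹ : ↥P) : G) • ω := by
        rw [Subgroup.coe_inv]
        exact hy
      rw [hrep2, Subgroup.coe_inv] at h2
      exact h2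
    have h3 : ((y : G) * (x₀ : G)) • ω = ω := by
      rw [mul_smul, hx₀, h1, smul_inv_smul]
    have h4 := hg _ (P.mul_mem y.2 x₀.2) h3
    exact Subtype.ext (by
      rw [Subgroup.coe_inv]
      exact eq_inv_of_mul_eq_one_left h4)

/-- **Higman's criterion over `P` for sum-zero functions.**  If `P ≤ B` acts freely on the
cosets other than the base point, the sum-zero functions `G ⧸ B → N` carry an endomorphism
`u₀` with `∑ x ∈ P, x u₀ x⁻¹ = 1`. -/
theorem higman_sumZero (P : Subgroup G) [Fintype ↥P] (hPB : P ≤ B)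
    (hfree : ∀ x ∈ P, ∀ g : G, g ∉ B → x • (g : G ⧸ B) = (g : G ⧸ B) → x = 1)
    (ρ : Representation k G N) :
    ∃ u₀ : ↥(sumZero k B N) →ₗ[k] ↥(sumZero k B N),
      ∀ w, ∑ x : ↥P, coindZero B ρ (x : G) (u₀ (coindZero B ρ (x : G)⁻¹ w)) = w := by
  classical
  obtain ⟨T, hT⟩ := exists_transversal B P hfree
  refine ⟨(zL B ((1 : G) : G ⧸ B)).comp ((indL B T).comp (sumZero k B N).subtype), fun w => ?_⟩
  apply sumZero_ext B ((1 : G) : G ⧸ B)
  intro ω hω
  have hfix : ∀ x : ↥P, (x : G)⁻¹ • ω ≠ ((1 : G) : G ⧸ B) := by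
    intro x h
    apply hω
    have h1 : ω = (x : G) • ((1 : G) : G ⧸ B) := by rw [← h, smul_inv_smul]
    rw [h1]
    exact QuotientGroup.eq.mpr (by simpa using hPB x.2)
  have hterm : ∀ x : ↥P,
      ((coindZero B ρ (x : G) (((zL B ((1 : G) : G ⧸ B)).comp
          ((indL B T).comp (sumZero k B N).subtype)) (coindZero B ρ (x : G)⁻¹ w)) :
            ↥(sumZero k B N)) : G ⧸ B → N) ω
        = if T ((x : G)⁻¹ • ω) then (w : G ⧸ B → N) ω else 0 := by
    intro x
    rw [coindZero_apply]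
    show ρ (x : G) ((zL (k := k) B ((1 : G) : G ⧸ B) (indL (k := k) B T
      ((coindZero B ρ (x : G)⁻¹ w : ↥(sumZero k B N)) : G ⧸ B → N)) : G ⧸ B → N)
        ((x : G)⁻¹ • ω)) = _
    rw [zL_apply_of_ne (k := k) B _ _ (hfix x), indL_apply (k := k)]
    split_ifs with hT'
    · rw [coindZero_apply, inv_inv, smul_inv_smul, Representation.self_inv_apply]
    · rw [map_zero]
  rw [Submodule.coe_sum, Finset.sum_apply]
  simp only [hterm]
  obtain ⟨x₀, hx₀, huniq⟩ := hT ω hω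
  rw [Finset.sum_eq_single x₀ (fun y _ hy => if_neg (fun h => hy (huniq y h)))
    (fun h => absurd (Finset.mem_univ _) h), if_pos hx₀]

end Cut

/-- **The exit of the projective half.**  `G` finite, `P ≤ B` subgroups with `p ∤ [G : P]` and
`P` acting freely on the cosets `g B`, `g ∉ B`.  In a regular model `(S₁, Γ₁, s₁, π₁)`, if
`χ = f` on the retracts of `Fin n → (S₁ → F_p)` cut out by idempotent matrices over `F_p[Γ₁]`,
then `χ = f` on the sum-zero functions `G ⧸ B → N`, for every finite representation `N` of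
`G`. -/
theorem chi_eq_f_sumZero {p : ℕ} [Fact p.Prime] {G : Type} [Group G] [Finite G]
    (P B : Subgroup G) (hPB : P ≤ B)
    (hfree : ∀ x ∈ P, ∀ g : G, g ∉ B → x • (g : G ⧸ B) = (g : G ⧸ B) → x = 1)
    (hidx : ¬ p ∣ P.index)
    {S₁ Γ₁ : Type} [MulAction G S₁] [Group Γ₁] [MulAction Γ₁ S₁] [SMulCommClass G Γ₁ S₁]
    (s₁ : S₁) (hbij : Function.Bijective fun g : G => g • s₁) (π₁ : G →* Γ₁)
    (hπ₁ : ∀ g : G, g • s₁ = (π₁ g)⁻¹ • s₁) (χ f : Inv p G)
    (hEP1 : IsEPAt χ f (funRep (ZMod p) G S₁) (funRep (ZMod p) Γ₁ S₁))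
    (N : Type) [AddCommGroup N] [Module (ZMod p) N] [Finite N]
    (ρ : Representation (ZMod p) G N) :
    χ ↥(sumZero (ZMod p) B N) (coindZero B ρ) = f ↥(sumZero (ZMod p) B N) (coindZero B ρ) := by
  classical
  have := Fintype.ofFinite G
  have := Fintype.ofFinite (G ⧸ B)
  have := Fintype.ofFinite ↥P
  obtain ⟨u₀, hu₀⟩ := higman_sumZero B P hPB hfree ρ
  exact chi_eq_f_of_higman s₁ hbij π₁ hπ₁ χ f hEP1 _ (coindZero B ρ) _
    (higman_of_subgroup P hidx (coindZero B ρ) u₀ hu₀)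

/-! ### The seam `Steinberg.ProjSeam` -/

/-- A TI Sylow `p`-subgroup acts freely on the cosets of its normaliser other than the base
point. -/
theorem free_of_isTI {p : ℕ} [Fact p.Prime] {G : Type} [Group G] (P : Sylow p G)
    (hTI : Steinberg.IsTI (P : Subgroup G)) :
    ∀ x ∈ (P : Subgroup G), ∀ g : G, g ∉ Steinberg.Nm (P : Subgroup G) →
      x • (g : G ⧸ Steinberg.Nm (P : Subgroup G)) = (g : G ⧸ Steinberg.Nm (P : Subgroup G)) →
      x = 1 := by
  intro x hx g hg hfix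
  have h1 : g⁻¹ * x * g ∈ Steinberg.Nm (P : Subgroup G) := by
    have h : ((x * g : G) : G ⧸ Steinberg.Nm (P : Subgroup G)) = (g : G ⧸ _) := hfix
    have h2 := (Steinberg.Nm (P : Subgroup G)).inv_mem (QuotientGroup.eq.mp h)
    have h3 : ((x * g)⁻¹ * g)⁻¹ = g⁻¹ * x * g := by group
    rw [h3] at h2
    exact h2
  have hP' : IsPGroup p ↥((P : Subgroup G).map (MulAut.conj g⁻¹).toMonoidHom) :=
    P.isPGroup'.map _
  have h3 : g⁻¹ * x * g ∈ (P : Subgroup G).map (MulAut.conj g⁻¹).toMonoidHom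
      ⊓ Subgroup.normalizer ((P : Subgroup G) : Set G) :=
    ⟨⟨x, hx, by simp⟩, h1⟩
  have h4 : g⁻¹ * x * g ∈ (P : Subgroup G).map (MulAut.conj g⁻¹).toMonoidHom
      ⊓ (P : Subgroup G) := by
    rw [← hP'.inf_normalizer_sylow P]
    exact h3
  have hg' : g⁻¹ ∉ Steinberg.Nm (P : Subgroup G) := fun h =>
    hg (by simpa using (Steinberg.Nm (P : Subgroup G)).inv_mem h)
  exact hTI g⁻¹ hg' x hx (by
    rw [inv_inv]
    exact h4.2)

/-- **Seam 1 of the Steinberg reduction (projective half).** -/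
theorem projSeam : Steinberg.ProjSeam := by
  intro p _ G _ _ P hTI N _ _ _ ρ
  classical
  have := Fintype.ofFinite G
  have := Fintype.ofFinite (G ⧸ Steinberg.Nm (P : Subgroup G))
  have := Fintype.ofFinite ↥(P : Subgroup G)
  have hPB : (P : Subgroup G) ≤ Steinberg.Nm (P : Subgroup G) := Subgroup.le_normalizer
  have hfree := free_of_isTI P hTI
  have hidx : ¬ p ∣ (P : Subgroup G).index := P.not_dvd_index
  have hcard : (Nat.card (G ⧸ Steinberg.Nm (P : Subgroup G)) : ZMod p) ≠ 0 := by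
    rw [Ne, ZMod.natCast_eq_zero_iff, ← Subgroup.index_eq_card]
    exact fun h => hidx (h.trans (Subgroup.index_dvd_of_le hPB))
  have hc : (Nat.card (G ⧸ Steinberg.Nm (P : Subgroup G)) : ZMod p)⁻¹
      * (Nat.card (G ⧸ Steinberg.Nm (P : Subgroup G)) : ZMod p) = 1 := inv_mul_cancel₀ hcard
  obtain ⟨u₀, hu₀⟩ := higman_sumZero (Steinberg.Nm (P : Subgroup G)) (P : Subgroup G) hPB hfree ρ
  have hu := higman_of_subgroup (P : Subgroup G) hidx
    (coindZero (Steinberg.Nm (P : Subgroup G)) ρ) u₀ hu₀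
  have hE : ∀ g : G, Equiv.refl G g = g • (1 : G) := fun g => (mul_one g).symm
  refine ⟨(Nat.card (G ⧸ Steinberg.Nm (P : Subgroup G)) : ZMod p)⁻¹
      • sumL (ZMod p) (Steinberg.Nm (P : Subgroup G)) N,
    constL (ZMod p) (Steinberg.Nm (P : Subgroup G)) N, ?_, ?_, ?_, ?_⟩
  · intro g w
    rw [LinearMap.smul_apply, LinearMap.smul_apply, sumL_coind, map_smul]
  · intro g m
    exact constL_coind _ ρ g m
  · intro m
    rw [LinearMap.smul_apply, sumL_constL, smul_smul, hc, one_smul]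
  · refine ⟨_, (iH (Module.finBasis (ZMod p) ↥(sumZero (ZMod p) (Steinberg.Nm (P : Subgroup G)) N))
        (coindZero (Steinberg.Nm (P : Subgroup G)) ρ)
        (((P : Subgroup G).index : ZMod p)⁻¹ • u₀) (Equiv.refl G)).comp
        (projZ (Steinberg.Nm (P : Subgroup G)) _ hc),
      (sumZero (ZMod p) (Steinberg.Nm (P : Subgroup G)) N).subtype.comp
        (rH (Module.finBasis (ZMod p) ↥(sumZero (ZMod p) (Steinberg.Nm (P : Subgroup G)) N))
          (coindZero (Steinberg.Nm (P : Subgroup G)) ρ) (1 : G)), ?_, ?_, ?_, ?_, ?_⟩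
    · intro g w k
      rw [LinearMap.comp_apply, projZ_coind, iH_equiv _ _ _ _ (1 : G) hE]
      rfl
    · intro g v
      rw [LinearMap.comp_apply, LinearMap.comp_apply]
      have h := rH_equiv (Module.finBasis (ZMod p)
        ↥(sumZero (ZMod p) (Steinberg.Nm (P : Subgroup G)) N))
        (coindZero (Steinberg.Nm (P : Subgroup G)) ρ) (1 : G) g v
      exact congrArg Subtype.val h
    · intro w
      rw [LinearMap.comp_apply, LinearMap.comp_apply, rH_iH _ _ _ _ (1 : G) hE hu]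
      rfl
    · intro v
      rw [LinearMap.comp_apply, LinearMap.smul_apply, Submodule.subtype_apply, sumL_coe,
        smul_zero]
    · intro i j
      refine ⟨Finset.univ, fun y => (Module.finBasis (ZMod p)
        ↥(sumZero (ZMod p) (Steinberg.Nm (P : Subgroup G)) N)).repr
          ((((P : Subgroup G).index : ZMod p)⁻¹ • u₀)
            (coindZero (Steinberg.Nm (P : Subgroup G)) ρ y
              (Module.finBasis (ZMod p)
                ↥(sumZero (ZMod p) (Steinberg.Nm (P : Subgroup G)) N) j))) i, fun t x => ?_⟩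
      rw [LinearMap.comp_apply, LinearMap.comp_apply,
        Submodule.subtype_apply, projZ_of_mem, iH_rH_single]
      refine Fintype.sum_equiv (Equiv.mulLeft x⁻¹) _ _ (fun g => ?_)
      simp only [Equiv.coe_mulLeft, Equiv.refl_symm, Equiv.refl_apply, smul_eq_mul, mul_one,
        mul_inv_cancel_left]
      rw [mul_comm]

end Fermat.Agent.S56.EC.SteinbergProj
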