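import Fermat.Agent.S56.EC.SteinbergAsm
import Fermat.Agent.S56.EC.SteinbergInd
import Fermat.Agent.S56.EC.SteinbergProj

/-!
# S56, brick EC.5: the Steinberg reduction — the closed exit

(helper164, row owner.)  `steinbergStatement : SteinbergStatement`, from

* `SteinbergAsm.steinbergStatement_of : ProjSeam → IndSeam → SteinbergStatement` (helper164),
* `SteinbergProj.projSeam : ProjSeam` (helper9: the projective half),
* `SteinbergInd.chi_le_f_coind` (helper187: the induced half), restated as `indSeam : IndSeam`.

`le_of_steinberg` is the same statement with named binders, for consumers.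
-/

set_option autoImplicit false

namespace Fermat.Agent.S56.EC.Steinberg

open Fermat.Agent.S56.EC.SteinbergInd

/-- **Seam 2 (induced half)**, closed by helper187's `chi_le_f_coind`. -/
theorem indSeam : IndSeam :=
  fun _p _ _G _ _ P B hPB hnorm hP _S _Γ _ _ _ _ _ hΓ s₀ π hπ htrans hstab hπs χ f hsub hfex hEP
      N _ _ _ ρ =>
    chi_le_f_coind P B hPB hnorm hP hΓ s₀ π hπ htrans hstab hπs χ f hsub hfex hEP N ρ

/-- **(EC.5) The Steinberg reduction.** -/
theorem steinbergStatement : SteinbergStatement :=
  steinbergStatement_of SteinbergProj.projSeam indSeam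

/-- **(EC.5) The Steinberg reduction**, with named binders: `G` finite, `P` a TI Sylow
`p`-subgroup; `χ` iso-invariant, additive on products, subadditive on short exact sequences,
`f` additive on short exact sequences, `χ = f` on the (EP) retracts of `M₀(1)ⁿ` and `M₀(P)ⁿ`.
Then `χ N ≤ f N` for every finite `𝔽_p[G]`-module `N`. -/
theorem le_of_steinberg {p : ℕ} [Fact p.Prime] {G : Type} [Group G] [Finite G] (P : Sylow p G)
    (hTI : IsTI (P : Subgroup G)) (χ f : Inv p G) (hiso : IsoInv χ) (hprod : ProdAdd χ)
    (hsub : SubAdd χ) (hfex : ExAdd f) (hEP1 : EPAt χ f ⊥) (hEP2 : EPAt χ f (P : Subgroup G))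
    (N : Type) [AddCommGroup N] [Module (ZMod p) N] [Finite N]
    (ρ : Representation (ZMod p) G N) : χ N ρ ≤ f N ρ :=
  steinbergStatement p G P hTI χ f hiso hprod hsub hfex hEP1 hEP2 N ρ

end Fermat.Agent.S56.EC.Steinberg
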