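import Fermat.Agent.S56.EC.Steinberg

/-!
# S56 / EC.5: Sylow `p`-subgroups of finite groups of `2 × 2` matrices in characteristic `p` are TI

`k` a field of characteristic `p`, `V` a `2`-dimensional `k`-vector space, `G` a finite group and
`r : G →* End_k V` a representation whose kernel is central of order prime to `p`
(`hker`; for instance `r` injective, or `G ⊆ GL₂(k) × 𝔽_p^×` with `r` the first projection).
Then every Sylow `p`-subgroup `P` of `G` is a trivial-intersection subgroup: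
`g ∉ N_G(P)`, `x ∈ P`, `g x g⁻¹ ∈ P` ⟹ `x = 1` (`isTI_of_rep2`).

Proof.  Let `x₀ ≠ 1` be central in `P`; `N₀ = r x₀ - 1 ≠ 0` satisfies `N₀² = 0`
(characteristic `p`, dimension `2`), so `ker N₀` is a line `k v₀`; every `y ∈ P` commutes with
`x₀`, hence preserves this line, hence fixes `v₀` (an eigenvalue of `p`-power order is `1`).
A `p`-element `h` with `r h v₀ = v₀` satisfies `(r h - 1) V ⊆ k v₀`, so two such elements commute
under `r`.  If `x ∈ P ∖ 1` and `g x g⁻¹ ∈ P`, then `r g v₀ ∈ k v₀`; so for `y ∈ P` the element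
`z = g y g⁻¹` is a `p`-element fixing `v₀`, the commutators `[z, y']`, `y' ∈ P`, lie in `ker r`,
are central of order prime to `p` and are killed by the order of `y'`, hence trivial; so `z`
centralises `P` and `z ∈ P` (`IsPGroup.inf_normalizer_sylow`).  The same for `g⁻¹`.
-/

namespace Fermat.Agent.S56.EC.SteinbergTI

open Fermat.Agent.S56.EC.Steinberg

section LinAlg

variable {p : ℕ} [Fact p.Prime] {k : Type} [Field k] [CharP k p] {V : Type} [AddCommGroup V]
  [Module k V]

/-- A unipotent endomorphism of a plane in characteristic `p`: `(A - 1)² = 0`. -/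
theorem sq_sub_one_eq_zero (hV : Module.finrank k V = 2) (A : Module.End k V) {m : ℕ}
    (hA : A ^ p ^ m = 1) : (A - 1) * (A - 1) = 0 := by
  have : Nontrivial V := Module.nontrivial_of_finrank_pos (R := k) (by omega)
  have : FiniteDimensional k V := Module.finite_of_finrank_pos (by omega)
  have : CharP (Module.End k V) p :=
    charP_of_injective_algebraMap (algebraMap k (Module.End k V)).injective p
  have h1 : (A - 1) ^ p ^ m = 0 := by
    rw [sub_pow_char_pow_of_commute _ _ (Commute.one_right A), hA, one_pow, sub_self]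
  have h2 := Module.End.ker_pow_le_ker_pow_finrank (A - 1) (p ^ m)
  rw [h1, hV] at h2
  have h3 : LinearMap.ker ((A - 1) ^ 2) = ⊤ := by
    rw [eq_top_iff]
    refine le_trans ?_ h2
    exact le_of_eq (LinearMap.ker_zero).symm
  rw [← pow_two]
  exact LinearMap.ker_eq_top.mp h3

omit [Fact p.Prime] [CharP k p] in
/-- A non-zero square-zero endomorphism of a plane: its kernel is the line through any of its
non-zero elements. -/
theorem exists_smul_of_mem_ker (hV : Module.finrank k V = 2) (N : Module.End k V)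
    (hsq : N * N = 0) (hN : N ≠ 0) {v₀ : V} (hv₀ : v₀ ≠ 0) (hNv₀ : N v₀ = 0) {u : V}
    (hu : N u = 0) : ∃ a : k, u = a • v₀ := by
  have : FiniteDimensional k V := Module.finite_of_finrank_pos (by omega)
  have h1 := LinearMap.finrank_range_add_finrank_ker N
  have h2 : Module.finrank k ↥(LinearMap.range N) ≤ Module.finrank k ↥(LinearMap.ker N) := by
    apply Submodule.finrank_mono
    rintro _ ⟨w, rfl⟩
    rw [LinearMap.mem_ker, ← Module.End.mul_apply, hsq]
    rfl
  have h3 : Module.finrank k ↥(LinearMap.ker N) < Module.finrank k V := by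
    apply Submodule.finrank_lt
    intro h
    exact hN (LinearMap.ker_eq_top.mp h)
  have h4 : Module.finrank k ↥(LinearMap.ker N) = 1 := by omega
  obtain ⟨a, ha⟩ := (finrank_eq_one_iff_of_nonzero' (⟨v₀, hNv₀⟩ : ↥(LinearMap.ker N))
    (fun h => hv₀ (congrArg Subtype.val h))).mp h4 ⟨u, hu⟩
  exact ⟨a, (congrArg Subtype.val ha).symm⟩

omit [Fact p.Prime] [CharP k p] in
/-- A square-zero endomorphism of a plane killing `v₀ ≠ 0` has image in `k v₀`. -/
theorem exists_smul_of_sq_zero (hV : Module.finrank k V = 2) (N : Module.End k V)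
    (hsq : N * N = 0) {v₀ : V} (hv₀ : v₀ ≠ 0) (hNv₀ : N v₀ = 0) (v : V) :
    ∃ a : k, N v = a • v₀ := by
  by_cases hN : N = 0
  · exact ⟨0, by rw [hN, zero_smul]; rfl⟩
  · refine exists_smul_of_mem_ker hV N hsq hN hv₀ hNv₀ ?_
    rw [← Module.End.mul_apply, hsq]
    rfl

/-- An eigenvalue of an endomorphism of `p`-power order is `1`. -/
theorem eigenvalue_eq_one (A : Module.End k V) {m : ℕ} (hA : A ^ p ^ m = 1) {v₀ : V}
    (hv₀ : v₀ ≠ 0) {a : k} (ha : A v₀ = a • v₀) : a = 1 := by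
  have h1 : ∀ n : ℕ, (A ^ n) v₀ = a ^ n • v₀ := by
    intro n
    induction n with
    | zero => simp
    | succ n ih => rw [pow_succ, Module.End.mul_apply, ha, map_smul, ih, smul_smul, pow_succ,
        mul_comm]
  have h2 := h1 (p ^ m)
  rw [hA, Module.End.one_apply] at h2
  have h3 : (a ^ p ^ m - 1) • v₀ = 0 := by rw [sub_smul, one_smul, ← h2, sub_self]
  have h4 : a ^ p ^ m - 1 = 0 := (smul_eq_zero.mp h3).resolve_right hv₀
  have h5 : (a - 1) ^ p ^ m = 0 := by rw [sub_pow_char_pow, one_pow, h4]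
  exact sub_eq_zero.mp (pow_eq_zero_iff (pow_ne_zero m (Fact.out : p.Prime).ne_zero) |>.mp h5)

end LinAlg

section Group

variable {p : ℕ} [Fact p.Prime] {k : Type} [Field k] [CharP k p] {V : Type} [AddCommGroup V]
  [Module k V] {G : Type} [Group G]

/-- A `p`-element fixing `v₀ ≠ 0` moves every vector along `v₀`. -/
theorem exists_smul_of_pElement (hV : Module.finrank k V = 2) (r : G →* Module.End k V)
    {v₀ : V} (hv₀ : v₀ ≠ 0) {h : G} {m : ℕ} (hh : h ^ p ^ m = 1) (hfix : r h v₀ = v₀) (v : V) :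
    ∃ a : k, r h v = v + a • v₀ := by
  have hA : (r h) ^ p ^ m = 1 := by rw [← map_pow, hh, map_one]
  have hsq := sq_sub_one_eq_zero hV (r h) hA
  obtain ⟨a, ha⟩ := exists_smul_of_sq_zero hV (r h - 1) hsq hv₀
    (by rw [LinearMap.sub_apply, hfix, Module.End.one_apply, sub_self]) v
  refine ⟨a, ?_⟩
  rw [← ha, LinearMap.sub_apply, Module.End.one_apply]
  abel

/-- Two `p`-elements fixing `v₀ ≠ 0` commute under `r`. -/
theorem map_mul_comm_of_fix (hV : Module.finrank k V = 2) (r : G →* Module.End k V)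
    {v₀ : V} (hv₀ : v₀ ≠ 0) {h h' : G} {m m' : ℕ} (hh : h ^ p ^ m = 1) (hh' : h' ^ p ^ m' = 1)
    (hfix : r h v₀ = v₀) (hfix' : r h' v₀ = v₀) : r (h * h') = r (h' * h) := by
  refine LinearMap.ext fun v => ?_
  obtain ⟨a, ha⟩ := exists_smul_of_pElement hV r hv₀ hh hfix v
  obtain ⟨a', ha'⟩ := exists_smul_of_pElement hV r hv₀ hh' hfix' v
  rw [map_mul, map_mul, Module.End.mul_apply, Module.End.mul_apply, ha, ha', map_add, map_add,
    map_smul, map_smul, hfix, hfix', ha, ha']
  abel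

end Group

/-- **Sylow `p`-subgroups are TI** for a finite group with a `2`-dimensional representation in
characteristic `p` whose kernel is central of order prime to `p`. -/
theorem isTI_of_rep2 (p : ℕ) [Fact p.Prime] (k : Type) [Field k] [CharP k p] (V : Type)
    [AddCommGroup V] [Module k V] (hV : Module.finrank k V = 2) (G : Type) [Group G] [Finite G]
    (r : G →* Module.End k V)
    (hker : ∀ z : G, r z = 1 → (∀ g : G, g * z = z * g) ∧ (orderOf z).Coprime p)
    (P : Sylow p G) : IsTI (P : Subgroup G) := by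
  intro g hg x hx hgx
  by_contra hx1
  apply hg
  have hP := P.isPGroup'
  -- elements of `P` are `p`-elements
  have hpel : ∀ y ∈ (P : Subgroup G), ∃ m : ℕ, y ^ p ^ m = 1 := by
    intro y hy
    obtain ⟨m, hm⟩ := hP ⟨y, hy⟩
    exact ⟨m, by simpa using congrArg Subtype.val hm⟩
  -- an element of order prime to `p` killed by a power of `p` is trivial
  have hcop : ∀ z : G, (orderOf z).Coprime p → ∀ m : ℕ, z ^ p ^ m = 1 → z = 1 := by
    intro z hz m hm
    have h1 : orderOf z ∣ p ^ m := orderOf_dvd_of_pow_eq_one hm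
    have h2 : orderOf z = 1 := Nat.Coprime.eq_one_of_dvd (Nat.Coprime.pow_right m hz) h1
    exact orderOf_eq_one_iff.mp h2
  have h0 : ∀ y ∈ (P : Subgroup G), r y = 1 → y = 1 := by
    intro y hy hry
    obtain ⟨m, hm⟩ := hpel y hy
    exact hcop y (hker y hry).2 m hm
  have hrpow : ∀ y ∈ (P : Subgroup G), ∃ m : ℕ, (r y) ^ p ^ m = 1 := by
    intro y hy
    obtain ⟨m, hm⟩ := hpel y hy
    exact ⟨m, by rw [← map_pow, hm, map_one]⟩
  -- a non-trivial central element of `P`
  have hPnt : Nontrivial ↥(P : Subgroup G) :=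
    ⟨⟨⟨x, hx⟩, 1, fun h => hx1 (congrArg Subtype.val h)⟩⟩
  have hcnt := hP.center_nontrivial
  obtain ⟨c, hc⟩ := exists_ne (1 : Subgroup.center ↥(P : Subgroup G))
  have hx₀P : ((c : ↥(P : Subgroup G)) : G) ∈ (P : Subgroup G) := (c : ↥(P : Subgroup G)).2
  have hx₀ne : ((c : ↥(P : Subgroup G)) : G) ≠ 1 := by
    intro h
    apply hc
    apply Subtype.ext
    apply Subtype.ext
    exact h
  have hx₀c : ∀ y ∈ (P : Subgroup G),
      y * ((c : ↥(P : Subgroup G)) : G) = ((c : ↥(P : Subgroup G)) : G) * y := by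
    intro y hy
    have h1 := Subgroup.mem_center_iff.mp c.2 ⟨y, hy⟩
    exact congrArg Subtype.val h1
  generalize ((c : ↥(P : Subgroup G)) : G) = x₀ at hx₀P hx₀ne hx₀c
  -- the fixed line
  have hN₀ : r x₀ - 1 ≠ 0 := fun h => hx₀ne (h0 x₀ hx₀P (sub_eq_zero.mp h))
  obtain ⟨m₀, hm₀⟩ := hrpow x₀ hx₀P
  have hsq₀ := sq_sub_one_eq_zero hV (r x₀) hm₀
  obtain ⟨w, hw⟩ : ∃ w, (r x₀ - 1) w ≠ 0 := by
    by_contra hcon
    refine hN₀ (LinearMap.ext fun w => ?_)
    by_contra hw'
    exact hcon ⟨w, hw'⟩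
  set v₀ := (r x₀ - 1) w with hv₀def
  have hNv₀ : (r x₀ - 1) v₀ = 0 := by
    rw [hv₀def, ← Module.End.mul_apply, hsq₀]
    rfl
  -- every element of `P` fixes `v₀`
  have hfixP : ∀ y ∈ (P : Subgroup G), r y v₀ = v₀ := by
    intro y hy
    have hcomm : r y * r x₀ = r x₀ * r y := by rw [← map_mul, ← map_mul, hx₀c y hy]
    have h1 : (r x₀ - 1) (r y v₀) = 0 := by
      have h2 : (r x₀ - 1) * r y = r y * (r x₀ - 1) := by
        rw [sub_mul, mul_sub, one_mul, mul_one, hcomm]
      rw [← Module.End.mul_apply, h2, Module.End.mul_apply, hNv₀, map_zero]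
    obtain ⟨a, ha⟩ := exists_smul_of_mem_ker hV (r x₀ - 1) hsq₀ hN₀ hw hNv₀ h1
    obtain ⟨m, hm⟩ := hrpow y hy
    rw [ha, eigenvalue_eq_one (r y) hm hw ha, one_smul]
  -- `r g` preserves the line
  have hrx : r x - 1 ≠ 0 := fun h => hx1 (h0 x hx (sub_eq_zero.mp h))
  obtain ⟨mx, hmx⟩ := hrpow x hx
  have hsqx := sq_sub_one_eq_zero hV (r x) hmx
  have hNxv₀ : (r x - 1) v₀ = 0 := by
    rw [LinearMap.sub_apply, hfixP x hx, Module.End.one_apply, sub_self]
  have hgg : ∀ t : G, ∀ v : V, r t⁻¹ (r t v) = v := by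
    intro t v
    rw [← Module.End.mul_apply, ← map_mul, inv_mul_cancel, map_one, Module.End.one_apply]
  have hgg' : ∀ t : G, ∀ v : V, r t (r t⁻¹ v) = v := by
    intro t v
    rw [← Module.End.mul_apply, ← map_mul, mul_inv_cancel, map_one, Module.End.one_apply]
  have h1 : (r x - 1) (r g⁻¹ v₀) = 0 := by
    have h2 := hfixP (g * x * g⁻¹) hgx
    rw [map_mul, map_mul, Module.End.mul_apply, Module.End.mul_apply] at h2
    have h3 := congrArg (r g⁻¹) h2
    rw [hgg] at h3
    rw [LinearMap.sub_apply, h3, Module.End.one_apply, sub_self]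
  obtain ⟨a, ha⟩ := exists_smul_of_mem_ker hV (r x - 1) hsqx hrx hw hNxv₀ h1
  have ha0 : a ≠ 0 := by
    intro h
    rw [h, zero_smul] at ha
    have h2 := hgg' g v₀
    rw [ha, map_zero] at h2
    exact hw h2.symm
  have hga : r g v₀ = a⁻¹ • v₀ := by
    have h2 := hgg' g v₀
    rw [ha, map_smul] at h2
    calc r g v₀ = a⁻¹ • (a • r g v₀) := by rw [smul_smul, inv_mul_cancel₀ ha0, one_smul]
      _ = a⁻¹ • v₀ := by rw [h2]
  -- conjugation by an element preserving the line preserves `P`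
  have key : ∀ (t : G) (b : k), b ≠ 0 → r t v₀ = b • v₀ → r t⁻¹ v₀ = b⁻¹ • v₀ →
      ∀ y ∈ (P : Subgroup G), t * y * t⁻¹ ∈ (P : Subgroup G) := by
    intro t b hb ht ht' y hy
    obtain ⟨m, hm⟩ := hpel y hy
    have hzpow : (t * y * t⁻¹) ^ p ^ m = 1 := by rw [conj_pow, hm, mul_one, mul_inv_cancel]
    have hzfix : r (t * y * t⁻¹) v₀ = v₀ := by
      rw [map_mul, map_mul, Module.End.mul_apply, Module.End.mul_apply, ht', map_smul,
        hfixP y hy, map_smul, ht, smul_smul, inv_mul_cancel₀ hb, one_smul]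
    -- `z = t y t⁻¹` centralises `P`
    have hcent : ∀ y' ∈ (P : Subgroup G), (t * y * t⁻¹) * y' * (t * y * t⁻¹)⁻¹ = y' := by
      intro y' hy'
      obtain ⟨m', hm'⟩ := hpel y' hy'
      have hcm := map_mul_comm_of_fix hV r hw hzpow hm' hzfix (hfixP y' hy')
      set z := t * y * t⁻¹ with hz
      have hrc : r (z * y' * z⁻¹ * y'⁻¹) = 1 := by
        have h2 : z * y' * z⁻¹ * y'⁻¹ = (z * y') * (z⁻¹ * y'⁻¹) := by group
        rw [h2, map_mul, hcm, ← map_mul]
        have h3 : y' * z * (z⁻¹ * y'⁻¹) = 1 := by group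
        rw [h3, map_one]
      obtain ⟨hcc, hco⟩ := hker _ hrc
      have h4 : z * y' * z⁻¹ = (z * y' * z⁻¹ * y'⁻¹) * y' := by group
      have h5 : (z * y' * z⁻¹) ^ p ^ m' = 1 := by rw [conj_pow, hm', mul_one, mul_inv_cancel]
      have h6 : ((z * y' * z⁻¹ * y'⁻¹) * y') ^ p ^ m' = (z * y' * z⁻¹ * y'⁻¹) ^ p ^ m' := by
        have hcomm : Commute (z * y' * z⁻¹ * y'⁻¹) y' := (hcc y').symm
        rw [hcomm.mul_pow, hm', mul_one]
      have h7 : (z * y' * z⁻¹ * y'⁻¹) ^ p ^ m' = 1 := by rw [← h6, ← h4, h5]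
      have h8 := hcop _ hco m' h7
      rw [h4, h8, one_mul]
    have hznorm : t * y * t⁻¹ ∈ Subgroup.normalizer ((P : Subgroup G) : Set G) := by
      rw [Subgroup.mem_normalizer_iff]
      intro h
      constructor
      · intro hh
        rw [hcent h hh]
        exact hh
      · intro hh
        have h2 := hcent _ hh
        have h3 : (t * y * t⁻¹) * h * (t * y * t⁻¹)⁻¹ = h := by
          have h4 : (t * y * t⁻¹) * ((t * y * t⁻¹) * h * (t * y * t⁻¹)⁻¹) * (t * y * t⁻¹)⁻¹
              = (t * y * t⁻¹) * h * (t * y * t⁻¹)⁻¹ := h2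
          have h5 := congrArg (fun u => (t * y * t⁻¹)⁻¹ * u * (t * y * t⁻¹)) h4
          simp only [mul_assoc, inv_mul_cancel_left, inv_mul_cancel, mul_one] at h5
          simpa [mul_assoc] using h5
        rw [← h3]
        exact hh
    have hzp : IsPGroup p ↥(Subgroup.zpowers (t * y * t⁻¹)) := by
      apply IsPGroup.of_card_dvd_pow (n := m)
      rw [Nat.card_zpowers]
      exact orderOf_dvd_of_pow_eq_one hzpow
    have h9 := hzp.inf_normalizer_sylow P
    have h10 : t * y * t⁻¹ ∈ Subgroup.zpowers (t * y * t⁻¹) ⊓ (P : Subgroup G) := by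
      rw [← h9]
      exact ⟨Subgroup.mem_zpowers _, hznorm⟩
    exact h10.2
  -- conclusion
  rw [Subgroup.mem_normalizer_iff]
  intro h
  constructor
  · intro hh
    exact key g a⁻¹ (inv_ne_zero ha0) hga (by rw [ha, inv_inv]) h hh
  · intro hh
    have h2 := key g⁻¹ a ha0 ha (by rw [inv_inv, hga]) (g * h * g⁻¹) hh
    have h3 : g⁻¹ * (g * h * g⁻¹) * g⁻¹⁻¹ = h := by group
    rw [h3] at h2
    exact h2

/-- `TIStatement` of the EC.5 contract: the faithful case. -/
theorem tiStatement : TIStatement := by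
  intro p _ k _ _ V _ _ hV G _ _ ι hι P
  refine isTI_of_rep2 p k V hV G ι (fun z hz => ?_) P
  have hz1 : z = 1 := hι (by rw [hz, map_one])
  subst hz1
  exact ⟨fun g => by rw [mul_one, one_mul], by rw [orderOf_one]; exact Nat.coprime_one_left p⟩

/-- The matrix form: `r : G →* GL₂(k)` with central kernel of order prime to `p`
(e.g. `G ⊆ GL₂(k) × 𝔽_p^×` and `r` the first projection). -/
theorem isTI_of_GL2 (p : ℕ) [Fact p.Prime] (k : Type) [Field k] [CharP k p] (G : Type) [Group G]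
    [Finite G] (r : G →* GL (Fin 2) k)
    (hker : ∀ z : G, r z = 1 → (∀ g : G, g * z = z * g) ∧ (orderOf z).Coprime p)
    (P : Sylow p G) : IsTI (P : Subgroup G) := by
  let e : Matrix (Fin 2) (Fin 2) k ≃* Module.End k (Fin 2 → k) :=
    (Matrix.toLinAlgEquiv' :
      Matrix (Fin 2) (Fin 2) k ≃ₐ[k] Module.End k (Fin 2 → k)).toRingEquiv.toMulEquiv
  refine isTI_of_rep2 p k (Fin 2 → k) (by simp) G
    (e.toMonoidHom.comp ((Units.coeHom (Matrix (Fin 2) (Fin 2) k)).comp r))
    (fun z hz => hker z ?_) P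
  have h1 : e ((r z : GL (Fin 2) k) : Matrix (Fin 2) (Fin 2) k) = 1 := hz
  have h2 : ((r z : GL (Fin 2) k) : Matrix (Fin 2) (Fin 2) k) = 1 := by
    rw [← map_one e] at h1
    exact e.injective h1
  exact Units.ext h2

end Fermat.Agent.S56.EC.SteinbergTI
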