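/-
S56, brick EC.2 (helper287): the bridge between

* matrices over the group algebra acting on `Vⁿ` for a representation `ρ : Representation k Γ V`
  (`opE ρ e`, the formula `(opE ρ e v) i = ∑ j, ρ.asAlgebraHom (e i j) (v j)` of the EC e-rank
  calculus), for ANY commutative ring `k` (so also `k = ℤ`: lattices with a `Γ`-action), and
* the operator / cardinal calculus of `S56/EC/ProjRank.lean`.

Contents: `opE` is multiplicative and additive in `e` (`opE_mul`, `opE_sub`, `opE_nsmul`, `opE_one`);
naturality in additive equivariant maps, over `ℤ` (`opE_natural`) and across the reduction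
`ℤ[Γ] → (ZMod p)[Γ]` in both directions (`opE_red`, `opE_red'`); pull-back along a group
homomorphism (`opE_comp_hom`); every matrix over `(ZMod p)[Γ]` lifts to `ℤ[Γ]` (`exists_lift`), and
a matrix with idempotent reduction is idempotent modulo `p` (`exists_nsmul_of_idem`);
`Nat.card (range (opE ρ e)) = p ^ finrank (range (opE ρ e))`.  Mathlib only.
-/
import Mathlib

set_option autoImplicit false

namespace Fermat.Agent.S56.EC.UnitBridge

variable {Γ : Type*} [Group Γ] {n : ℕ}

/-! ### The operator of a matrix over the group algebra -/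

section Op

variable {k : Type*} [CommRing k] {V : Type*} [AddCommGroup V] [Module k V]
  (ρ : Representation k Γ V)

/-- A matrix over the group algebra acting on `Vⁿ`:
`(opE ρ e v) i = ∑ j, ρ.asAlgebraHom (e i j) (v j)`. -/
noncomputable def opE (e : Matrix (Fin n) (Fin n) (MonoidAlgebra k Γ)) :
    (Fin n → V) →ₗ[k] (Fin n → V) :=
  LinearMap.pi (fun i => ∑ j, (ρ.asAlgebraHom (e i j)).comp (LinearMap.proj j))

theorem opE_apply (e : Matrix (Fin n) (Fin n) (MonoidAlgebra k Γ)) (v : Fin n → V) (i : Fin n) :
    opE ρ e v i = ∑ j, ρ.asAlgebraHom (e i j) (v j) := by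
  simp [opE]

theorem opE_mul (e e' : Matrix (Fin n) (Fin n) (MonoidAlgebra k Γ)) (v : Fin n → V) :
    opE ρ (e * e') v = opE ρ e (opE ρ e' v) := by
  funext i
  simp only [opE_apply, Matrix.mul_apply, map_sum, map_mul, LinearMap.sum_apply,
    Module.End.mul_apply]
  rw [Finset.sum_comm]

theorem opE_sub (e e' : Matrix (Fin n) (Fin n) (MonoidAlgebra k Γ)) (v : Fin n → V) :
    opE ρ (e - e') v = opE ρ e v - opE ρ e' v := by
  funext i
  simp only [opE_apply, Matrix.sub_apply, map_sub, LinearMap.sub_apply, Pi.sub_apply,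
    Finset.sum_sub_distrib]

theorem opE_nsmul (c : ℕ) (e : Matrix (Fin n) (Fin n) (MonoidAlgebra k Γ)) (v : Fin n → V) :
    opE ρ (c • e) v = c • opE ρ e v := by
  funext i
  simp only [opE_apply, Matrix.smul_apply, map_nsmul, LinearMap.smul_apply, Pi.smul_apply,
    Finset.smul_sum]

theorem opE_one (v : Fin n → V) : opE ρ (1 : Matrix (Fin n) (Fin n) (MonoidAlgebra k Γ)) v = v := by
  classical
  funext i
  rw [opE_apply, Finset.sum_eq_single i]
  · simp
  · intro j _ hj
    rw [Matrix.one_apply_ne (Ne.symm hj), map_zero, LinearMap.zero_apply]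
  · intro hi
    exact absurd (Finset.mem_univ i) hi

end Op

/-! ### Pull-back along a group homomorphism -/

section Hom

variable {G : Type*} [Group G] (r : G →* Γ) {k : Type*} [CommRing k] {V : Type*} [AddCommGroup V]
  [Module k V] (ρ : Representation k Γ V)

theorem asAlgebraHom_comp_hom (X : MonoidAlgebra k G) (v : V) :
    Representation.asAlgebraHom (ρ.comp r) X v =
      ρ.asAlgebraHom (MonoidAlgebra.mapDomainRingHom k r X) v := by
  induction X using MonoidAlgebra.induction_linear with
  | zero => simp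
  | add x y hx hy =>
    rw [map_add, map_add, map_add, LinearMap.add_apply, LinearMap.add_apply, hx, hy]
  | single g c =>
    have h1 : MonoidAlgebra.mapDomainRingHom k r (MonoidAlgebra.single g c) =
        MonoidAlgebra.single (r g) c := MonoidAlgebra.mapDomain_single
    rw [h1, Representation.asAlgebraHom_single, Representation.asAlgebraHom_single]
    rfl

/-- `opE` of a pulled-back representation is `opE` of the pushed-forward matrix. -/
theorem opE_comp_hom (e : Matrix (Fin n) (Fin n) (MonoidAlgebra k G)) (v : Fin n → V) :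
    opE (ρ.comp r) e v = opE ρ (e.map (MonoidAlgebra.mapDomainRingHom k r)) v := by
  funext i
  rw [opE_apply, opE_apply]
  exact Finset.sum_congr rfl (fun j _ => asAlgebraHom_comp_hom r ρ _ _)

end Hom

/-! ### Integral representations and naturality -/

section Int

variable {A B : Type*} [AddCommGroup A] [AddCommGroup B]
  (ρA : Representation ℤ Γ A) (ρB : Representation ℤ Γ B)

/-- Naturality of the group-algebra action in additive equivariant maps. -/
theorem asAlgebraHom_natural (f : A →+ B) (hf : ∀ (g : Γ) (a : A), f (ρA g a) = ρB g (f a))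
    (X : MonoidAlgebra ℤ Γ) (a : A) :
    f (ρA.asAlgebraHom X a) = ρB.asAlgebraHom X (f a) := by
  induction X using MonoidAlgebra.induction_linear with
  | zero => simp
  | add x y hx hy => rw [map_add, map_add, LinearMap.add_apply, LinearMap.add_apply, map_add, hx, hy]
  | single g c =>
    rw [Representation.asAlgebraHom_single, Representation.asAlgebraHom_single,
      LinearMap.smul_apply, LinearMap.smul_apply, map_zsmul, hf]

/-- Naturality of `opE` in additive equivariant maps (over `ℤ`). -/
theorem opE_natural (f : A →+ B) (hf : ∀ (g : Γ) (a : A), f (ρA g a) = ρB g (f a))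
    (E : Matrix (Fin n) (Fin n) (MonoidAlgebra ℤ Γ)) (v : Fin n → A) :
    (fun i => f (opE ρA E v i)) = opE ρB E (fun i => f (v i)) := by
  funext i
  rw [opE_apply, opE_apply, map_sum]
  exact Finset.sum_congr rfl (fun j _ => asAlgebraHom_natural ρA ρB f hf _ _)

end Int

/-! ### Reduction modulo `p` -/

section Red

variable (p : ℕ) [Fact p.Prime]

/-- The reduction `ℤ[Γ] → (ZMod p)[Γ]`. -/
noncomputable def red : MonoidAlgebra ℤ Γ →+* MonoidAlgebra (ZMod p) Γ :=
  MonoidAlgebra.mapRingHom Γ (Int.castRingHom (ZMod p))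

variable {A V : Type*} [AddCommGroup A] [AddCommGroup V] [Module (ZMod p) V]
  (ρA : Representation ℤ Γ A) (ρV : Representation (ZMod p) Γ V)

theorem intCast_smul_eq (c : ℤ) (v : V) : ((c : ZMod p)) • v = c • v :=
  Int.cast_smul_eq_zsmul (ZMod p) c v

/-- Compatibility of the group-algebra actions along an equivariant additive map `A → V`. -/
theorem asAlgebraHom_red (b : A →+ V) (hb : ∀ (g : Γ) (a : A), b (ρA g a) = ρV g (b a))
    (X : MonoidAlgebra ℤ Γ) (a : A) :
    b (ρA.asAlgebraHom X a) = ρV.asAlgebraHom (red p X) (b a) := by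
  induction X using MonoidAlgebra.induction_linear with
  | zero => simp
  | add x y hx hy =>
    rw [map_add, map_add, map_add, LinearMap.add_apply, LinearMap.add_apply, map_add, hx, hy]
  | single g c =>
    rw [red, MonoidAlgebra.mapRingHom_single, Representation.asAlgebraHom_single,
      Representation.asAlgebraHom_single, LinearMap.smul_apply, LinearMap.smul_apply,
      map_zsmul, hb, eq_intCast, intCast_smul_eq]

/-- Compatibility of the group-algebra actions along an equivariant additive map `V → A`. -/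
theorem asAlgebraHom_red' (ι : V →+ A) (hι : ∀ (g : Γ) (v : V), ι (ρV g v) = ρA g (ι v))
    (X : MonoidAlgebra ℤ Γ) (v : V) :
    ι (ρV.asAlgebraHom (red p X) v) = ρA.asAlgebraHom X (ι v) := by
  induction X using MonoidAlgebra.induction_linear with
  | zero => simp
  | add x y hx hy =>
    rw [map_add, map_add, map_add, LinearMap.add_apply, LinearMap.add_apply, map_add, hx, hy]
  | single g c =>
    rw [red, MonoidAlgebra.mapRingHom_single, Representation.asAlgebraHom_single,
      Representation.asAlgebraHom_single, LinearMap.smul_apply, LinearMap.smul_apply,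
      eq_intCast, intCast_smul_eq, map_zsmul, hι]

/-- `bⁿ ∘ opE ρA E = opE ρV (red E) ∘ bⁿ`. -/
theorem opE_red (b : A →+ V) (hb : ∀ (g : Γ) (a : A), b (ρA g a) = ρV g (b a))
    (E : Matrix (Fin n) (Fin n) (MonoidAlgebra ℤ Γ)) (v : Fin n → A) :
    (fun i => b (opE ρA E v i)) = opE ρV (E.map (red p)) (fun i => b (v i)) := by
  funext i
  rw [opE_apply, opE_apply, map_sum]
  exact Finset.sum_congr rfl (fun j _ => asAlgebraHom_red p ρA ρV b hb _ _)

/-- `ιⁿ ∘ opE ρV (red E) = opE ρA E ∘ ιⁿ`. -/
theorem opE_red' (ι : V →+ A) (hι : ∀ (g : Γ) (v : V), ι (ρV g v) = ρA g (ι v))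
    (E : Matrix (Fin n) (Fin n) (MonoidAlgebra ℤ Γ)) (v : Fin n → V) :
    (fun i => ι (opE ρV (E.map (red p)) v i)) = opE ρA E (fun i => ι (v i)) := by
  funext i
  rw [opE_apply, opE_apply, map_sum]
  exact Finset.sum_congr rfl (fun j _ => asAlgebraHom_red' p ρA ρV ι hι _ _)

/-- The reduction is surjective. -/
theorem red_surjective : Function.Surjective (red p : MonoidAlgebra ℤ Γ → MonoidAlgebra (ZMod p) Γ) := by
  intro x
  refine ⟨MonoidAlgebra.ofCoeff (x.coeff.mapRange (fun c : ZMod p => (c.val : ℤ)) (by simp)), ?_⟩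
  apply MonoidAlgebra.ext
  ext g
  rw [red, MonoidAlgebra.coeff_mapRingHom, MonoidAlgebra.coeff_ofCoeff, Finsupp.mapRange_apply,
    eq_intCast]
  simp

/-- An element of `ℤ[Γ]` reducing to `0` is divisible by `p`. -/
theorem exists_nsmul_of_red_eq_zero (X : MonoidAlgebra ℤ Γ) (hX : red p X = 0) :
    ∃ Y : MonoidAlgebra ℤ Γ, X = p • Y := by
  have hdvd : ∀ g, (p : ℤ) ∣ X.coeff g := by
    intro g
    have h1 : (red p X).coeff g = 0 := by rw [hX]; rfl
    rw [red, MonoidAlgebra.coeff_mapRingHom, eq_intCast] at h1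
    exact (ZMod.intCast_zmod_eq_zero_iff_dvd _ p).1 h1
  refine ⟨MonoidAlgebra.ofCoeff (X.coeff.mapRange (fun c : ℤ => c / (p : ℤ)) (by simp)), ?_⟩
  apply MonoidAlgebra.ext
  ext g
  rw [MonoidAlgebra.coeff_smul, Finsupp.smul_apply, MonoidAlgebra.coeff_ofCoeff,
    Finsupp.mapRange_apply, nsmul_eq_mul]
  exact (Int.mul_ediv_cancel' (hdvd g)).symm

/-- A matrix over `ℤ[Γ]` whose reduction is idempotent is idempotent modulo `p`. -/
theorem exists_nsmul_of_idem (E : Matrix (Fin n) (Fin n) (MonoidAlgebra ℤ Γ))
    (hE : E.map (red p) * E.map (red p) = E.map (red p)) :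
    ∃ d : Matrix (Fin n) (Fin n) (MonoidAlgebra ℤ Γ), E * E - E = p • d := by
  have h0 : (E * E - E).map (red p) = 0 := by
    rw [Matrix.map_sub (red p) (fun a b => map_sub _ a b), Matrix.map_mul, hE, sub_self]
  have h2 : ∀ i j, ∃ Y : MonoidAlgebra ℤ Γ, (E * E - E) i j = p • Y := by
    intro i j
    apply exists_nsmul_of_red_eq_zero
    have := congrFun (congrFun h0 i) j
    simpa using this
  choose d hd using h2
  refine ⟨Matrix.of d, ?_⟩
  ext i j
  rw [hd i j]
  rfl

/-- Every matrix over `(ZMod p)[Γ]` lifts to `ℤ[Γ]`. -/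
theorem exists_lift (e : Matrix (Fin n) (Fin n) (MonoidAlgebra (ZMod p) Γ)) :
    ∃ E : Matrix (Fin n) (Fin n) (MonoidAlgebra ℤ Γ), E.map (red p) = e := by
  choose f hf using (red_surjective (Γ := Γ) p)
  refine ⟨e.map f, ?_⟩
  ext i j
  simp [hf]

/-- The reduction commutes with the push-forward along a group homomorphism. -/
theorem red_mapDomain {G : Type*} [Group G] (r : G →* Γ) (X : MonoidAlgebra ℤ G) :
    red p (MonoidAlgebra.mapDomainRingHom ℤ r X) =
      MonoidAlgebra.mapDomainRingHom (ZMod p) r (red p X) :=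
  RingHom.congr_fun (MonoidAlgebra.mapRingHom_comp_mapDomainRingHom (Int.castRingHom (ZMod p)) r) X

theorem map_red_map_mapDomain {G : Type*} [Group G] (r : G →* Γ)
    (E : Matrix (Fin n) (Fin n) (MonoidAlgebra ℤ G)) :
    (E.map (MonoidAlgebra.mapDomainRingHom ℤ r)).map (red p) =
      (E.map (red p)).map (MonoidAlgebra.mapDomainRingHom (ZMod p) r) := by
  ext i j
  simp only [Matrix.map_apply]
  rw [red_mapDomain]

end Red

/-! ### Cardinals and ranks -/

section Card

variable (p : ℕ) [Fact p.Prime] {V : Type*} [AddCommGroup V] [Module (ZMod p) V] [Finite V]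

/-- `|range f| = p ^ rank f` for an endomorphism of a finite `F_p`-vector space. -/
theorem card_range_eq_pow {W : Type*} [AddCommGroup W] [Module (ZMod p) W] [Finite W]
    (f : W →ₗ[ZMod p] W) :
    Nat.card f.toAddMonoidHom.range = p ^ Module.finrank (ZMod p) (LinearMap.range f) := by
  have h1 : Nat.card f.toAddMonoidHom.range = Nat.card (LinearMap.range f) := rfl
  rw [h1, Module.natCard_eq_pow_finrank (K := ZMod p), Nat.card_zmod]

end Card

end Fermat.Agent.S56.EC.UnitBridge
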