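/-
S56, brick EC.2 (helper287): "enough units".  For a number field `L`, a field `K` with
`[Algebra K L] [FiniteDimensional K L]`, `Γ := L ≃ₐ[K] L` and a finite `Γ`-stable set `TL` of
primes of `L`, there is a `Γ`-equivariant map from the permutation lattice

    `φ : ℤ[∞_L ⊔ TL] → U_TL = Additive (TL.unit L)`

with finite cokernel, whose kernel is (at most) infinite cyclic with TRIVIAL `Γ`-action.

Everything is built on helper187's landed Herbrand files (`UnitsHerbrand.uu`, `psi`,
`psi_injective_aux`, `TUnitsHerbrand.dmap`, `jmap`, `exists_gen`, `finiteIndex_of_singles`): at an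
infinite place the basis vector goes to a power of the equivariant sign-pattern unit, at a finite
prime `v ∈ TL` to the `Γ`-average of a generator of a principal power of `v`.
-/
import Mathlib
import Fermat.Agent.CFT.Global.TUnitsHerbrand

set_option autoImplicit false

namespace Fermat.Agent.S56.EC.UnitLattice

open NumberField IsDedekindDomain WithZero
  Fermat.Agent.CFT.Global.FreePerm
  Fermat.Agent.CFT.Global.UnitsHerbrand Fermat.Agent.CFT.Global.GalPrime
  Fermat.Agent.CFT.Global.TUnitsHerbrand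

attribute [local instance] Finsupp.comapDistribMulAction

set_option linter.unusedSectionVars false
set_option linter.style.haveILetI false

variable {K L : Type*} [Field K] [Field L] [NumberField L] [Algebra K L]
variable {TL : Set (HeightOneSpectrum (𝓞 L))}

/-! ### Generators of principal powers of the primes in `TL` -/

/-- A generator of a principal power of `w ∈ TL`, as a `T`-unit. -/
noncomputable def gen (w : TL) : TL.unit L :=
  ⟨Units.mk0 (algebraMap (𝓞 L) L (exists_gen w.1).choose) (by
      have h0 := (exists_gen w.1).choose_spec.1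
      rwa [Ne, FaithfulSMul.algebraMap_eq_zero_iff]), by
    rw [mem_unit_iff]
    intro w' hw'
    have hne : w' ≠ w.1 := fun h => hw' (h ▸ w.2)
    rw [Units.val_mk0, HeightOneSpectrum.valuation_of_algebraMap,
      HeightOneSpectrum.intValuation_eq_one_iff]
    exact (exists_gen w.1).choose_spec.2.2 w' hne⟩

theorem coe_gen (w : TL) :
    (((gen w : TL.unit L) : Lˣ) : L) = algebraMap (𝓞 L) L (exists_gen w.1).choose := rfl

theorem dmap_gen_of_ne [Finite TL] (w w' : TL) (hne : w' ≠ w) :
    dmap TL (Additive.ofMul (gen w)) w' = 0 := by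
  rw [dmap_apply]
  have hne' : w'.1 ≠ w.1 := fun h => hne (Subtype.ext h)
  have h2 : w'.1.valuation L (algebraMap (𝓞 L) L (exists_gen w.1).choose) = 1 := by
    rw [HeightOneSpectrum.valuation_of_algebraMap, HeightOneSpectrum.intValuation_eq_one_iff]
    exact (exists_gen w.1).choose_spec.2.2 w'.1 hne'
  have h3 : w'.1.valuationOfNeZero
      ((Additive.toMul (Additive.ofMul (gen w)) : TL.unit L) : Lˣ) = 1 := by
    rw [← WithZero.coe_inj, HeightOneSpectrum.valuationOfNeZero_eq]
    exact h2
  rw [h3]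
  rfl

theorem dmap_gen_self_neg [Finite TL] (w : TL) :
    dmap TL (Additive.ofMul (gen w)) w < 0 := by
  rw [dmap_apply]
  have h2 : w.1.valuation L (algebraMap (𝓞 L) L (exists_gen w.1).choose) < 1 := by
    rw [HeightOneSpectrum.valuation_of_algebraMap, HeightOneSpectrum.intValuation_lt_one_iff_mem]
    exact (exists_gen w.1).choose_spec.2.1
  have h3 : w.1.valuationOfNeZero
      ((Additive.toMul (Additive.ofMul (gen w)) : TL.unit L) : Lˣ) < 1 := by
    rw [← WithZero.coe_lt_coe, HeightOneSpectrum.valuationOfNeZero_eq]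
    exact h2
  exact Multiplicative.toAdd_lt.2 h3

/-! ### The Galois-averaged generators -/

theorem galTU_mul (h : GalStable K L TL) (τ ρ : L ≃ₐ[K] L) (x : TL.unit L) :
    galTU h (τ * ρ) x = galTU h τ (galTU h ρ x) := unit_ext (by simp)

section Avg

variable [FiniteDimensional K L]

/-- The `Γ`-average of the generators: `a_w = ∏_τ τ(gen(τ⁻¹ w))`. -/
noncomputable def aa (h : GalStable K L TL) (w : TL) : TL.unit L :=
  letI := primeAct h
  ∏ τ : L ≃ₐ[K] L, galTU h τ (gen (τ⁻¹ • w))

theorem aa_smul (h : GalStable K L TL) (ρ : L ≃ₐ[K] L) (w : TL) :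
    letI := primeAct h
    aa h (ρ • w) = galTU h ρ (aa h w) := by
  letI := primeAct h
  unfold aa
  rw [map_prod]
  refine Fintype.prod_equiv (Equiv.mulLeft ρ⁻¹) _ _ (fun τ => ?_)
  rw [← galTU_mul]
  simp only [Equiv.coe_mulLeft, mul_inv_cancel_left, mul_inv_rev, inv_inv, mul_smul]

theorem dmap_aa_apply [Fintype TL] (h : GalStable K L TL) (w w' : TL) :
    letI := primeAct h
    dmap TL (Additive.ofMul (aa h w)) w' =
      ∑ τ : L ≃ₐ[K] L, dmap TL (Additive.ofMul (gen (τ⁻¹ • w))) (τ⁻¹ • w') := by
  letI := primeAct h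
  letI := tAct h
  have e1 : Additive.ofMul (aa h w) =
      ∑ τ : L ≃ₐ[K] L, τ • Additive.ofMul (gen (τ⁻¹ • w)) := by
    unfold aa
    rw [ofMul_prod]
    rfl
  rw [e1, map_sum, Finsupp.finsetSum_apply]
  refine Finset.sum_congr rfl (fun τ _ => ?_)
  rw [dmap_smul h, Finsupp.comapSMul_apply]

/-- The (negative) order of `a_w` at `w`. -/
noncomputable def cc [Fintype TL] (h : GalStable K L TL) (w : TL) : ℤ :=
  dmap TL (Additive.ofMul (aa h w)) w

theorem cc_neg [Fintype TL] (h : GalStable K L TL) (w : TL) : cc h w < 0 := by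
  letI := primeAct h
  unfold cc
  rw [dmap_aa_apply]
  exact Finset.sum_neg (fun τ _ => dmap_gen_self_neg _) Finset.univ_nonempty

theorem dmap_aa [Fintype TL] (h : GalStable K L TL) (w : TL) :
    dmap TL (Additive.ofMul (aa h w)) = Finsupp.single w (cc h w) := by
  classical
  letI := primeAct h
  ext w'
  rw [Finsupp.single_apply]
  split_ifs with hww
  · rw [← hww]
    rfl
  · rw [dmap_aa_apply]
    refine Finset.sum_eq_zero (fun τ _ => ?_)
    apply dmap_gen_of_ne
    intro h2
    exact hww (smul_left_cancel _ h2).symm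

end Avg

/-! ### The map `φ` -/

/-- The action of `Γ` on `∞_L ⊔ TL`. -/
@[reducible] noncomputable def plAct (h : GalStable K L TL) :
    MulAction (L ≃ₐ[K] L) (InfinitePlace L ⊕ TL) :=
  letI := primeAct h
  inferInstance

section Phi

variable [FiniteDimensional K L]

/-- The value of `φ` on a basis vector. -/
noncomputable def phiGen (h : GalStable K L TL) (m : ℕ) :
    InfinitePlace L ⊕ TL → Additive (TL.unit L) :=
  Sum.elim (fun w => jmap TL (m • Additive.ofMul (uu K L w))) (fun v => Additive.ofMul (aa h v))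

/-- The equivariant map `ℤ[∞_L ⊔ TL] → U_TL` (with parameter `m`, the exponent at the infinite
places). -/
noncomputable def phi (h : GalStable K L TL) (m : ℕ) :
    ((InfinitePlace L ⊕ TL) →₀ ℤ) →+ Additive (TL.unit L) :=
  Finsupp.liftAddHom (fun x => zmultiplesHom (Additive (TL.unit L)) (phiGen h m x))

theorem phi_single (h : GalStable K L TL) (m : ℕ) (x : InfinitePlace L ⊕ TL) (c : ℤ) :
    phi h m (Finsupp.single x c) = c • phiGen h m x := by
  simp [phi]

theorem phiGen_smul (h : GalStable K L TL) (m : ℕ) (τ : L ≃ₐ[K] L) (x : InfinitePlace L ⊕ TL) :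
    letI := tAct h
    letI := plAct h
    phiGen h m (τ • x) = τ • phiGen h m x := by
  letI := tAct h
  letI := primeAct h
  letI := galAct K L
  rcases x with w | v
  · show jmap TL (m • Additive.ofMul (uu K L (τ • w))) =
      τ • jmap TL (m • Additive.ofMul (uu K L w))
    rw [← jmap_smul h, uu_smul, smul_comm τ m]
    rfl
  · show Additive.ofMul (aa h (τ • v)) = τ • Additive.ofMul (aa h v)
    rw [aa_smul]
    rfl

theorem phi_smul (h : GalStable K L TL) (m : ℕ) (τ : L ≃ₐ[K] L)
    (y : (InfinitePlace L ⊕ TL) →₀ ℤ) :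
    letI := tAct h
    letI := plAct h
    phi h m (τ • y) = τ • phi h m y := by
  letI := tAct h
  letI := plAct h
  induction y using Finsupp.induction_linear with
  | zero => simp
  | add a b ha hb => rw [smul_add, map_add, map_add, ha, hb, smul_add]
  | single x c =>
    rw [Finsupp.comapSMul_single, phi_single, phi_single, phiGen_smul, smul_comm τ c]

theorem dmap_phi [Fintype TL] (h : GalStable K L TL) (m : ℕ)
    (y : (InfinitePlace L ⊕ TL) →₀ ℤ) (v : TL) :
    dmap TL (phi h m y) v = y (Sum.inr v) * cc h v := by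
  classical
  induction y using Finsupp.induction_linear with
  | zero => simp
  | add a b ha hb =>
    rw [map_add, map_add, Finsupp.add_apply, ha, hb, Finsupp.add_apply, add_mul]
  | single x c =>
    rw [phi_single, map_zsmul]
    rcases x with w | v'
    · have e : dmap TL (phiGen h m (Sum.inl w)) = 0 := dmap_jmap _
      rw [e, smul_zero, Finsupp.zero_apply, Finsupp.single_apply, if_neg (by simp), zero_mul]
    · have e : dmap TL (phiGen h m (Sum.inr v')) = Finsupp.single v' (cc h v') := dmap_aa h v'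
      rw [e, Finsupp.smul_apply, Finsupp.single_apply, Finsupp.single_apply]
      by_cases hv : v' = v
      · rw [if_pos hv, if_pos (by rw [hv]), hv, smul_eq_mul]
      · rw [if_neg hv, if_neg (fun h2 => hv (Sum.inr_injective h2)), smul_zero, zero_mul]

theorem phi_mapDomain_inl (h : GalStable K L TL) (m : ℕ) (y : InfinitePlace L →₀ ℤ) :
    phi h m (Finsupp.mapDomain Sum.inl y) = jmap TL (psi K L m y) := by
  induction y using Finsupp.induction_linear with
  | zero => simp
  | add a b ha hb => rw [Finsupp.mapDomain_add, map_add, ha, hb, map_add, map_add]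
  | single w c =>
    rw [Finsupp.mapDomain_single, phi_single, psi_single, map_zsmul]
    rfl

theorem deg_mapDomain_inl (y : InfinitePlace L →₀ ℤ) :
    deg (InfinitePlace L ⊕ TL) (Finsupp.mapDomain Sum.inl y) = deg (InfinitePlace L) y := by
  induction y using Finsupp.induction_linear with
  | zero => simp
  | add a b ha hb => rw [Finsupp.mapDomain_add, map_add, ha, hb, map_add]
  | single w c => rw [Finsupp.mapDomain_single, deg_single, deg_single]

/-- The key injectivity statement: on the kernel of `φ` the degree is injective. -/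
theorem eq_zero_of_phi_eq_zero [Fintype TL] (h : GalStable K L TL) (m : ℕ)
    (hm : ∀ w w' : InfinitePlace L, w' ≠ w → (m : ℝ) * Real.log (w' (uu K L w : L)) + 1 < 0)
    (y : (InfinitePlace L ⊕ TL) →₀ ℤ) (h1 : phi h m y = 0)
    (h2 : deg (InfinitePlace L ⊕ TL) y = 0) : y = 0 := by
  classical
  have hr : ∀ v : TL, y (Sum.inr v) = 0 := by
    intro v
    have e := dmap_phi h m y v
    rw [h1, map_zero, Finsupp.zero_apply] at e
    rcases mul_eq_zero.1 e.symm with h3 | h3
    · exact h3
    · exact absurd h3 (ne_of_lt (cc_neg h v))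
  have hy : Finsupp.mapDomain Sum.inl
      (Finsupp.comapDomain Sum.inl y Sum.inl_injective.injOn) = y := by
    apply Finsupp.mapDomain_comapDomain _ Sum.inl_injective
    intro x hx
    rcases x with w | v
    · exact ⟨w, rfl⟩
    · exact absurd (hr v) (Finsupp.mem_support_iff.1 hx)
  set y₁ := Finsupp.comapDomain Sum.inl y Sum.inl_injective.injOn with hy₁
  rw [← hy] at h1 h2
  rw [phi_mapDomain_inl] at h1
  rw [deg_mapDomain_inl] at h2
  have h4 : psi K L m y₁ = 0 := jmap_injective (TL := TL) (by rw [h1, map_zero])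
  have h5 : y₁ = 0 := psi_injective_aux K L m hm y₁ h4 h2
  rw [← hy, h5, Finsupp.mapDomain_zero]

/-- **Kernel**: `ker φ` is cyclic and `Γ` acts trivially on it. -/
theorem exists_ker_phi [Fintype TL] (h : GalStable K L TL) (m : ℕ)
    (hm : ∀ w w' : InfinitePlace L, w' ≠ w → (m : ℝ) * Real.log (w' (uu K L w : L)) + 1 < 0) :
    letI := plAct h
    ∃ x₀ : (InfinitePlace L ⊕ TL) →₀ ℤ, (phi h m).ker = AddSubgroup.zmultiples x₀ ∧
      ∀ τ : L ≃ₐ[K] L, τ • x₀ = x₀ := by
  letI := plAct h
  letI := tAct h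
  obtain ⟨n, hn⟩ := Int.subgroup_cyclic
    ((phi h m).ker.map (deg (InfinitePlace L ⊕ TL)))
  have hnmem : n ∈ (phi h m).ker.map (deg (InfinitePlace L ⊕ TL)) := by
    rw [hn]
    exact AddSubgroup.subset_closure (Set.mem_singleton n)
  obtain ⟨x₀, hx₀, hdeg⟩ := hnmem
  have hinj : ∀ y z : (InfinitePlace L ⊕ TL) →₀ ℤ, y ∈ (phi h m).ker → z ∈ (phi h m).ker →
      deg (InfinitePlace L ⊕ TL) y = deg (InfinitePlace L ⊕ TL) z → y = z := by
    intro y z hy hz hyz
    have h1 : phi h m (y - z) = 0 := by
      rw [map_sub, AddMonoidHom.mem_ker.1 hy, AddMonoidHom.mem_ker.1 hz, sub_zero]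
    have h2 : deg (InfinitePlace L ⊕ TL) (y - z) = 0 := by rw [map_sub, hyz, sub_self]
    exact sub_eq_zero.1 (eq_zero_of_phi_eq_zero h m hm _ h1 h2)
  refine ⟨x₀, ?_, ?_⟩
  · apply le_antisymm
    · intro y hy
      have h1 : deg (InfinitePlace L ⊕ TL) y ∈
          (phi h m).ker.map (deg (InfinitePlace L ⊕ TL)) := ⟨y, hy, rfl⟩
      rw [hn, AddSubgroup.mem_closure_singleton] at h1
      obtain ⟨k, hk⟩ := h1
      have h2 : y = k • x₀ := by
        apply hinj y (k • x₀) hy ((phi h m).ker.zsmul_mem hx₀ k)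
        rw [map_zsmul, hdeg, hk]
      rw [h2]
      exact AddSubgroup.zsmul_mem_zmultiples x₀ k
    · rw [AddSubgroup.zmultiples_le]
      exact hx₀
  · intro τ
    apply hinj (τ • x₀) x₀ _ hx₀ (deg_smul τ x₀)
    rw [AddMonoidHom.mem_ker, phi_smul, AddMonoidHom.mem_ker.1 hx₀, smul_zero]

/-! ### Finite cokernel -/

theorem finiteIndex_range_psi (m : ℕ)
    (hm : ∀ w w' : InfinitePlace L, w' ≠ w → (m : ℝ) * Real.log (w' (uu K L w : L)) + 1 < 0) :
    (psi K L m).range.FiniteIndex := by
  classical
  set Ψ : (InfinitePlace L →₀ ℤ) →+ Additive (𝓞 L)ˣ × ℤ :=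
    (psi K L m).prod (deg (InfinitePlace L)) with hΨ
  have hΨinj : Function.Injective Ψ := by
    rw [injective_iff_map_eq_zero]
    intro y hy
    have h1 : psi K L m y = 0 := congrArg Prod.fst hy
    have h2 : deg (InfinitePlace L) y = 0 := congrArg Prod.snd hy
    exact psi_injective_aux K L m hm y h1 h2
  have hfin : Finite ((Additive (𝓞 L)ˣ × ℤ) ⧸ Ψ.range) := by
    let N : Submodule ℤ (Additive (𝓞 L)ˣ × ℤ) := LinearMap.range Ψ.toIntLinearMap
    have h1 := N.finrank_quotient_add_finrank
    have h2 : Module.finrank ℤ N = Fintype.card (InfinitePlace L) := by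
      have := LinearMap.finrank_range_of_inj (f := Ψ.toIntLinearMap) hΨinj
      rw [this, Module.finrank_finsupp_self]
    have h3 : Module.finrank ℤ ((Additive (𝓞 L)ˣ × ℤ) ⧸ N) = 0 := by
      rw [finrank_prod_int, NumberField.Units.finrank_eq, NumberField.Units.rank] at h1
      have : 0 < Fintype.card (InfinitePlace L) := Fintype.card_pos
      omega
    have h4 : Module.IsTorsion ℤ ((Additive (𝓞 L)ˣ × ℤ) ⧸ N) :=
      Module.finrank_eq_zero_iff_isTorsion.1 h3
    have h5 : Finite ((Additive (𝓞 L)ˣ × ℤ) ⧸ N) := Module.finite_of_fg_torsion _ h4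
    have h6 : N.toAddSubgroup = Ψ.range := by
      ext x
      simp [N]
    have h7 : Finite ((Additive (𝓞 L)ˣ × ℤ) ⧸ N.toAddSubgroup) := h5
    exact Finite.of_equiv _ (QuotientAddGroup.quotientAddEquivOfEq h6).toEquiv
  have hfi : Ψ.range.FiniteIndex := AddSubgroup.finiteIndex_of_finite_quotient
  have e : (psi K L m).range = Ψ.range.map (AddMonoidHom.fst (Additive (𝓞 L)ˣ) ℤ) := by
    rw [AddMonoidHom.map_range, hΨ, AddMonoidHom.fst_comp_prod]
  rw [e]
  refine ⟨fun h0 => hfi.index_ne_zero ?_⟩
  have hdvd := AddSubgroup.index_map_dvd (H := Ψ.range)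
    (f := AddMonoidHom.fst (Additive (𝓞 L)ˣ) ℤ) Prod.fst_surjective
  rw [h0] at hdvd
  exact Nat.eq_zero_of_zero_dvd hdvd

/-- **Finite cokernel** of `φ`. -/
theorem finiteIndex_range_phi [Fintype TL] (h : GalStable K L TL) (m : ℕ)
    (hm : ∀ w w' : InfinitePlace L, w' ≠ w → (m : ℝ) * Real.log (w' (uu K L w : L)) + 1 < 0) :
    (phi h m).range.FiniteIndex := by
  classical
  set R := (phi h m).range with hR
  set A := (dmap TL).ker with hA
  -- the image of `R` under the divisor map has finite index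
  have h1 : (R.map (dmap TL)).FiniteIndex := by
    apply finiteIndex_of_singles
    intro v
    refine ⟨cc h v, ne_of_lt (cc_neg h v), ?_⟩
    refine ⟨phi h m (Finsupp.single (Sum.inr v) 1), ⟨_, rfl⟩, ?_⟩
    rw [phi_single, one_smul]
    exact dmap_aa h v
  have h2 : (R ⊔ A).index ≠ 0 := by
    have e := AddSubgroup.index_map R (dmap TL)
    intro h0
    apply h1.index_ne_zero
    rw [e, h0, zero_mul]
  -- the units part
  set B := (psi K L m).range.map (jmap TL) with hB
  have hBR : B ≤ R ⊓ A := by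
    rintro x ⟨u, ⟨y, rfl⟩, rfl⟩
    refine ⟨⟨Finsupp.mapDomain Sum.inl y, phi_mapDomain_inl h m y⟩, ?_⟩
    exact AddMonoidHom.mem_ker.2 (dmap_jmap _)
  have hAeq : A = (⊤ : AddSubgroup (Additive (𝓞 L)ˣ)).map (jmap TL) := by
    ext x
    constructor
    · intro hx
      obtain ⟨u, hu⟩ := exists_jmap_eq x (AddMonoidHom.mem_ker.1 hx)
      exact ⟨u, AddSubgroup.mem_top u, hu⟩
    · rintro ⟨u, -, rfl⟩
      exact AddMonoidHom.mem_ker.2 (dmap_jmap _)
  have h3 : B.relIndex A ≠ 0 := by
    rw [hAeq, hB, AddSubgroup.relIndex_map_map_of_injective _ _ jmap_injective,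
      AddSubgroup.relIndex_top_right]
    exact (finiteIndex_range_psi m hm).index_ne_zero
  have h4 : (R ⊓ A).relIndex A ≠ 0 := by
    intro h0
    have hdvd := AddSubgroup.relIndex_dvd_of_le_left A hBR
    rw [h0] at hdvd
    exact h3 (Nat.eq_zero_of_zero_dvd hdvd)
  have h5 : R.relIndex (R ⊔ A) ≠ 0 := by
    rw [AddSubgroup.relIndex_sup_left, ← AddSubgroup.inf_relIndex_right]
    exact h4
  refine ⟨?_⟩
  rw [← AddSubgroup.relIndex_mul_index (le_sup_left : R ≤ R ⊔ A)]
  exact mul_ne_zero h5 h2

/-! ### Packaged form (the exponent `m` chosen once and for all) -/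

/-- The exponent used at the infinite places. -/
noncomputable def mm (K L : Type*) [Field K] [Field L] [NumberField L] [Algebra K L]
    [FiniteDimensional K L] : ℕ := (exists_m K L).choose

theorem mm_spec (w w' : InfinitePlace L) (hne : w' ≠ w) :
    (mm K L : ℝ) * Real.log (w' (uu K L w : L)) + 1 < 0 :=
  (exists_m K L).choose_spec w w' hne

/-- **The unit lattice map** `φ : ℤ[∞_L ⊔ TL] → U_TL`. -/
noncomputable def unitMap (h : GalStable K L TL) :
    ((InfinitePlace L ⊕ TL) →₀ ℤ) →+ Additive (TL.unit L) := phi h (mm K L)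

/-- `φ` is `Γ`-equivariant. -/
theorem unitMap_smul (h : GalStable K L TL) (τ : L ≃ₐ[K] L) (y : (InfinitePlace L ⊕ TL) →₀ ℤ) :
    letI := tAct h
    letI := plAct h
    unitMap h (τ • y) = τ • unitMap h y := phi_smul h _ τ y

/-- `φ` has finite cokernel. -/
theorem finiteIndex_range_unitMap [Fintype TL] (h : GalStable K L TL) :
    (unitMap h).range.FiniteIndex := finiteIndex_range_phi h _ mm_spec

/-- The kernel of `φ` is cyclic with trivial `Γ`-action. -/
theorem exists_ker_unitMap [Fintype TL] (h : GalStable K L TL) :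
    letI := plAct h
    ∃ x₀ : (InfinitePlace L ⊕ TL) →₀ ℤ, (unitMap h).ker = AddSubgroup.zmultiples x₀ ∧
      ∀ τ : L ≃ₐ[K] L, τ • x₀ = x₀ := exists_ker_phi h _ mm_spec

end Phi

end Fermat.Agent.S56.EC.UnitLattice
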