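/-
S56, brick EC.2 (helper287), third file: the abstract "enough units" count, in the operator /
cardinal vocabulary of `S56/EC/ProjRank.lean` (helper185).

Setting: `φ : L → U` a homomorphism of additive groups (`L = ℤ[∞ ⊔ Σ]ⁿ`, `U = (Σ-units)ⁿ`) with
compatible operators `T_L`, `T_U` (`T ∘ T - T = p • D`: "apply the idempotent `e`"), such that the
torsion of `U` is finite and `range φ + torsion` has finite index.  With `Z₀ ≅ φ⁻¹(torsion)` (the
saturated kernel) and incarnations `N_L ≅ L/p`, `N_U ≅ U/p`, `N_T ≅ U[p]`, `N_Z ≅ Z₀/p`: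

    `|S_U N_U| · |S_Z N_Z| = |S_T N_T| · |S_L N_L|`,

i.e.  `rk_e (U/p) = rk_e (U[p]) + rk_e (L/p) - rk_e (Z₀/p)`.

Proof: (SES-p) for `0 → tors → U → U/tors → 0` and `0 → Z₀ → L → L/Z → 0`, (PA') for the finite
group `tors`, (LAT) for `L/Z ↪ U/tors`.  Mathlib + ProjRank only.
-/
import Mathlib
import Fermat.Agent.S56.EC.ProjRank

set_option autoImplicit false

namespace Fermat.Agent.S56.EC.UnitRankCore

open Fermat.Agent.S56.EC.ProjRank

/-! ### Reduction modulo `p` of an additive group with an operator -/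

section ModP

variable (p : ℕ) (A : Type*) [AddCommGroup A]

/-- `A / pA`. -/
abbrev modp : Type _ := A ⧸ mulp p A

/-- The projection `A → A / pA`. -/
abbrev bmod : A →+ modp p A := QuotientAddGroup.mk' (mulp p A)

variable {A}

theorem bmod_surjective : Function.Surjective (bmod p A) := QuotientAddGroup.mk'_surjective _

theorem bmod_eq_zero_iff (x : A) : bmod p A x = 0 ↔ ∃ y, p • y = x := by
  rw [QuotientAddGroup.mk'_apply, QuotientAddGroup.eq_zero_iff]
  exact mem_mulp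

theorem le_comap_mulp (T : A →+ A) : mulp p A ≤ (mulp p A).comap T := by
  intro x hx
  obtain ⟨y, rfl⟩ := mem_mulp.1 hx
  exact mem_mulp.2 ⟨T y, (map_nsmul T p y).symm⟩

/-- The operator induced on `A / pA`. -/
noncomputable def opMod (T : A →+ A) : modp p A →+ modp p A :=
  QuotientAddGroup.map (mulp p A) (mulp p A) T (le_comap_mulp p T)

theorem bmod_op (T : A →+ A) (x : A) : bmod p A (T x) = opMod p T (bmod p A x) := rfl

end ModP

/-! ### Operators on a stable subgroup and on the quotient -/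

section SubQuot

variable {A : Type*} [AddCommGroup A]

/-- The restriction of an operator to a stable subgroup. -/
def opSub (H : AddSubgroup A) (T : A →+ A) (h : ∀ x ∈ H, T x ∈ H) : H →+ H :=
  (T.comp H.subtype).codRestrict H (fun x => h x.1 x.2)

theorem coe_opSub (H : AddSubgroup A) (T : A →+ A) (h : ∀ x ∈ H, T x ∈ H) (x : H) :
    ((opSub H T h x : H) : A) = T x.1 := rfl

/-- The operator induced on the quotient by a stable subgroup. -/
noncomputable def opQuot (H : AddSubgroup A) (T : A →+ A) (h : ∀ x ∈ H, T x ∈ H) :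
    A ⧸ H →+ A ⧸ H :=
  QuotientAddGroup.map H H T (fun x hx => h x hx)

theorem opQuot_mk (H : AddSubgroup A) (T : A →+ A) (h : ∀ x ∈ H, T x ∈ H) (x : A) :
    opQuot H T h (QuotientAddGroup.mk' H x) = QuotientAddGroup.mk' H (T x) := rfl

end SubQuot

/-! ### The count -/

section Count

variable {L U Z₀ N_L N_U N_T N_Z : Type*} [AddCommGroup L] [AddCommGroup U] [AddCommGroup Z₀]
  [AddCommGroup N_L] [AddCommGroup N_U] [AddCommGroup N_T] [AddCommGroup N_Z]

theorem torsion_stable (T : U →+ U) : ∀ x ∈ AddCommGroup.torsion U, T x ∈ AddCommGroup.torsion U := by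
  intro x hx
  rw [AddCommGroup.mem_torsion, isOfFinAddOrder_iff_nsmul_eq_zero] at hx ⊢
  obtain ⟨n, hn, hnx⟩ := hx
  exact ⟨n, hn, by rw [← map_nsmul, hnx, map_zero]⟩

theorem mem_torsion_of_nsmul_mem {x : U} {n : ℕ} (hn : n ≠ 0)
    (hx : n • x ∈ AddCommGroup.torsion U) : x ∈ AddCommGroup.torsion U := by
  rw [AddCommGroup.mem_torsion, isOfFinAddOrder_iff_nsmul_eq_zero] at hx ⊢
  obtain ⟨k, hk, hkx⟩ := hx
  exact ⟨k * n, Nat.mul_pos hk (Nat.pos_of_ne_zero hn), by rw [mul_smul, hkx]⟩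

theorem mem_torsion_of_nsmul_eq_zero {x : U} {n : ℕ} (hn : n ≠ 0) (hx : n • x = 0) :
    x ∈ AddCommGroup.torsion U := by
  rw [AddCommGroup.mem_torsion, isOfFinAddOrder_iff_nsmul_eq_zero]
  exact ⟨n, Nat.pos_of_ne_zero hn, hx⟩

/-- **The abstract unit count** `|S_U N_U| · |S_Z N_Z| = |S_T N_T| · |S_L N_L|`. -/
theorem card_range_unit_eq (p : ℕ) [hp : Fact p.Prime] [Finite N_L]
    (φ : L →+ U)
    (hTfin : Finite (AddCommGroup.torsion U))
    (hfin : (φ.range ⊔ AddCommGroup.torsion U).index ≠ 0)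
    (T_L D_L : L →+ L) (hT_L : ∀ x, T_L (T_L x) - T_L x = p • D_L x)
    (T_U D_U : U →+ U) (hT_U : ∀ x, T_U (T_U x) - T_U x = p • D_U x)
    (hφT : ∀ x, φ (T_L x) = T_U (φ x))
    -- `N_L ≅ L / p`
    (b_L : L →+ N_L) (hb_L : Function.Surjective b_L) (hk_L : ∀ x : L, b_L x = 0 ↔ ∃ y, p • y = x)
    (S_L : N_L →+ N_L) (h_L : ∀ x, b_L (T_L x) = S_L (b_L x))
    -- `N_U ≅ U / p`
    (b_U : U →+ N_U) (hb_U : Function.Surjective b_U) (hk_U : ∀ x : U, b_U x = 0 ↔ ∃ y, p • y = x)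
    (S_U : N_U →+ N_U) (h_U : ∀ x, b_U (T_U x) = S_U (b_U x))
    -- `N_T ≅ U[p]`
    (ι : N_T →+ U) (hι : Function.Injective ι) (hιr : ∀ x : U, p • x = 0 ↔ ∃ n, ι n = x)
    (S_T : N_T →+ N_T) (h_T : ∀ n, ι (S_T n) = T_U (ι n))
    -- `Z₀ ≅ φ⁻¹(torsion)`, `N_Z ≅ Z₀ / p`
    (j : Z₀ →+ L) (hj : Function.Injective j)
    (hjr : ∀ y : L, φ y ∈ AddCommGroup.torsion U ↔ ∃ z, j z = y)
    (T_Z : Z₀ →+ Z₀) (hjT : ∀ z, j (T_Z z) = T_L (j z))
    (b_Z : Z₀ →+ N_Z) (hb_Z : Function.Surjective b_Z)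
    (hk_Z : ∀ z : Z₀, b_Z z = 0 ↔ ∃ y, p • y = z)
    (S_Z : N_Z →+ N_Z) (h_Z : ∀ z, b_Z (T_Z z) = S_Z (b_Z z)) :
    Nat.card S_U.range * Nat.card S_Z.range = Nat.card S_T.range * Nat.card S_L.range := by
  have hp0 : p ≠ 0 := hp.out.ne_zero
  -- notation
  set Tor : AddSubgroup U := AddCommGroup.torsion U with hTor
  set Z : AddSubgroup L := Tor.comap φ with hZ
  -- stability
  have hTU : ∀ x ∈ Tor, T_U x ∈ Tor := torsion_stable T_U
  have hDU : ∀ x ∈ Tor, D_U x ∈ Tor := torsion_stable D_U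
  have hTL : ∀ x ∈ Z, T_L x ∈ Z := by
    intro x hx
    show φ (T_L x) ∈ Tor
    rw [hφT]
    exact hTU _ hx
  have hφD : ∀ x, φ (D_L x) - D_U (φ x) ∈ Tor := by
    intro x
    apply mem_torsion_of_nsmul_eq_zero hp0
    have h1 := hT_U (φ x)
    rw [← hφT, ← hφT, ← map_sub, hT_L, map_nsmul] at h1
    rw [smul_sub, h1, sub_self]
  have hDL : ∀ x ∈ Z, D_L x ∈ Z := by
    intro x hx
    show φ (D_L x) ∈ Tor
    have h1 := Tor.add_mem (hφD x) (hDU _ hx)
    rwa [sub_add_cancel] at h1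
  -- the quotients are `p`-torsion-free
  have htfU : ∀ x : U ⧸ Tor, p • x = 0 → x = 0 := by
    intro x hx
    obtain ⟨u, rfl⟩ := QuotientAddGroup.mk'_surjective Tor x
    rw [← map_nsmul, QuotientAddGroup.mk'_apply, QuotientAddGroup.eq_zero_iff] at hx
    rw [QuotientAddGroup.mk'_apply, QuotientAddGroup.eq_zero_iff]
    exact mem_torsion_of_nsmul_mem hp0 hx
  have htfL : ∀ x : L ⧸ Z, p • x = 0 → x = 0 := by
    intro x hx
    obtain ⟨y, rfl⟩ := QuotientAddGroup.mk'_surjective Z x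
    rw [← map_nsmul, QuotientAddGroup.mk'_apply, QuotientAddGroup.eq_zero_iff] at hx
    rw [QuotientAddGroup.mk'_apply, QuotientAddGroup.eq_zero_iff]
    have h1 : φ (p • y) ∈ Tor := hx
    rw [map_nsmul] at h1
    exact mem_torsion_of_nsmul_mem hp0 h1
  -- operators
  let T₁ : Tor →+ Tor := opSub Tor T_U hTU
  let D₁ : Tor →+ Tor := opSub Tor D_U hDU
  let T₃ : U ⧸ Tor →+ U ⧸ Tor := opQuot Tor T_U hTU
  let D₃ : U ⧸ Tor →+ U ⧸ Tor := opQuot Tor D_U hDU
  let TQ : L ⧸ Z →+ L ⧸ Z := opQuot Z T_L hTL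
  let DQ : L ⧸ Z →+ L ⧸ Z := opQuot Z D_L hDL
  have hT₁ : ∀ x, T₁ (T₁ x) - T₁ x = p • D₁ x := by
    intro x
    apply Subtype.ext
    exact hT_U x.1
  have hT₃ : ∀ x, T₃ (T₃ x) - T₃ x = p • D₃ x := by
    intro x
    obtain ⟨u, rfl⟩ := QuotientAddGroup.mk'_surjective Tor x
    show QuotientAddGroup.mk' Tor (T_U (T_U u)) - QuotientAddGroup.mk' Tor (T_U u) =
      p • QuotientAddGroup.mk' Tor (D_U u)
    rw [← map_sub, ← map_nsmul, hT_U]
  have hTQ : ∀ x, TQ (TQ x) - TQ x = p • DQ x := by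
    intro x
    obtain ⟨y, rfl⟩ := QuotientAddGroup.mk'_surjective Z x
    show QuotientAddGroup.mk' Z (T_L (T_L y)) - QuotientAddGroup.mk' Z (T_L y) =
      p • QuotientAddGroup.mk' Z (D_L y)
    rw [← map_sub, ← map_nsmul, hT_L]
  -- (1) `0 → Tor → U → U/Tor → 0`
  have h1 : Nat.card S_U.range =
      Nat.card (opMod p T₁).range * Nat.card (opMod p T₃).range := by
    refine card_range_mod_of_exact p Tor.subtype (QuotientAddGroup.mk' Tor)
      Subtype.val_injective (QuotientAddGroup.mk'_surjective Tor) ?_ htfU T₁ T_U D_U T₃ hT_U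
      (fun x => rfl) (fun x => rfl)
      (bmod p Tor) (bmod_surjective p) (bmod_eq_zero_iff p)
      b_U hb_U hk_U
      (bmod p (U ⧸ Tor)) (bmod_surjective p) (bmod_eq_zero_iff p)
      (opMod p T₁) S_U (opMod p T₃) (fun x => rfl) h_U (fun x => rfl)
    intro y
    rw [QuotientAddGroup.mk'_apply, QuotientAddGroup.eq_zero_iff]
    constructor
    · intro hy
      exact ⟨⟨y, hy⟩, rfl⟩
    · rintro ⟨x, rfl⟩
      exact x.2
  -- (2) (PA') for the finite group `Tor`
  have h2 : Nat.card S_T.range = Nat.card (opMod p T₁).range := by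
    have hιmem : ∀ n, ι n ∈ Tor := fun n =>
      mem_torsion_of_nsmul_eq_zero hp0 ((hιr (ι n)).2 ⟨n, rfl⟩)
    let ι' : N_T →+ Tor := ι.codRestrict Tor hιmem
    refine card_range_eq_of_torsion_quot p T₁ D₁ hT₁ ι' ?_ ?_
      (bmod p Tor) (bmod_surjective p) (bmod_eq_zero_iff p) S_T (opMod p T₁) ?_ (fun x => rfl)
    · intro a b hab
      exact hι (congrArg Subtype.val hab)
    · intro x
      constructor
      · intro hx
        have hx' : p • x.1 = 0 := by
          have := congrArg Subtype.val hx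
          simpa using this
        obtain ⟨n, hn⟩ := (hιr x.1).1 hx'
        exact ⟨n, Subtype.ext hn⟩
      · rintro ⟨n, rfl⟩
        apply Subtype.ext
        have h := (hιr (ι n)).2 ⟨n, rfl⟩
        rw [AddSubgroup.coe_nsmul]
        exact h
    · intro n
      apply Subtype.ext
      exact h_T n
  -- (3) (LAT) for `L/Z ↪ U/Tor`
  let fq : L ⧸ Z →+ U ⧸ Tor := QuotientAddGroup.map Z Tor φ (le_refl _)
  have hfq : ∀ y : L, fq (QuotientAddGroup.mk' Z y) = QuotientAddGroup.mk' Tor (φ y) :=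
    fun y => rfl
  have hfqinj : Function.Injective fq := by
    rw [injective_iff_map_eq_zero]
    intro x hx
    obtain ⟨y, rfl⟩ := QuotientAddGroup.mk'_surjective Z x
    rw [hfq, QuotientAddGroup.mk'_apply, QuotientAddGroup.eq_zero_iff] at hx
    rw [QuotientAddGroup.mk'_apply, QuotientAddGroup.eq_zero_iff]
    exact hx
  have hfqfin : fq.range.index ≠ 0 := by
    have e1 : fq.range = φ.range.map (QuotientAddGroup.mk' Tor) := by
      ext x
      constructor
      · rintro ⟨w, rfl⟩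
        obtain ⟨y, rfl⟩ := QuotientAddGroup.mk'_surjective Z w
        exact ⟨φ y, ⟨y, rfl⟩, rfl⟩
      · rintro ⟨_, ⟨y, rfl⟩, rfl⟩
        exact ⟨QuotientAddGroup.mk' Z y, rfl⟩
    rw [e1, AddSubgroup.index_map, QuotientAddGroup.ker_mk',
      AddMonoidHom.range_eq_top.2 (QuotientAddGroup.mk'_surjective Tor), AddSubgroup.index_top,
      mul_one]
    exact hfin
  -- finiteness of `(L/Z)/p`
  have : Finite (modp p (L ⧸ Z)) := by
    have hker : ∀ x, b_L x = 0 →
        ((bmod p (L ⧸ Z)).comp (QuotientAddGroup.mk' Z)) x = 0 := by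
      intro x hx
      obtain ⟨y, rfl⟩ := (hk_L x).1 hx
      exact (bmod_eq_zero_iff p _).2 ⟨QuotientAddGroup.mk' Z y, (map_nsmul _ p y).symm⟩
    let d : N_L →+ modp p (L ⧸ Z) :=
      descHom b_L hb_L ((bmod p (L ⧸ Z)).comp (QuotientAddGroup.mk' Z)) hker
    have hd : Function.Surjective d := by
      intro w
      obtain ⟨x, rfl⟩ := bmod_surjective p w
      obtain ⟨y, rfl⟩ := QuotientAddGroup.mk'_surjective Z x
      exact ⟨b_L y, descHom_apply b_L hb_L _ hker y⟩
    exact Finite.of_surjective d hd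
  have h3 : Nat.card (opMod p TQ).range = Nat.card (opMod p T₃).range := by
    refine card_range_eq_of_finite_index p fq hfqinj hfqfin htfU TQ DQ hTQ T₃ D₃ hT₃ ?_
      (bmod p (L ⧸ Z)) (bmod_surjective p) (bmod_eq_zero_iff p)
      (bmod p (U ⧸ Tor)) (bmod_surjective p) (bmod_eq_zero_iff p)
      (opMod p TQ) (opMod p T₃) (fun x => rfl) (fun x => rfl)
    intro x
    obtain ⟨y, rfl⟩ := QuotientAddGroup.mk'_surjective Z x
    show QuotientAddGroup.mk' Tor (φ (T_L y)) = QuotientAddGroup.mk' Tor (T_U (φ y))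
    rw [hφT]
  -- (4) `0 → Z₀ → L → L/Z → 0`
  have h4 : Nat.card S_L.range = Nat.card S_Z.range * Nat.card (opMod p TQ).range := by
    refine card_range_mod_of_exact p j (QuotientAddGroup.mk' Z) hj
      (QuotientAddGroup.mk'_surjective Z) ?_ htfL T_Z T_L D_L TQ hT_L hjT (fun x => rfl)
      b_Z hb_Z hk_Z b_L hb_L hk_L
      (bmod p (L ⧸ Z)) (bmod_surjective p) (bmod_eq_zero_iff p)
      S_Z S_L (opMod p TQ) h_Z h_L (fun x => rfl)
    intro y
    rw [QuotientAddGroup.mk'_apply, QuotientAddGroup.eq_zero_iff]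
    exact hjr y
  rw [h1, h2, h4, h3]
  ring

end Count

end Fermat.Agent.S56.EC.UnitRankCore
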