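/-
S56, brick EC.2 (helper287), second file: the torsion side of the unit lattice map
`unitMap h : ℤ[∞_L ⊔ TL] → U_TL` of `S56/EC/UnitLattice.lean`.

* the torsion subgroup `torsU TL` of `U_TL = Additive (TL.unit L)` is the image of the roots of
  unity (`mem_torsU_iff`), is finite (`finite_torsU`), `Γ`-stable (`smul_mem_torsU`) and saturated
  (`mem_torsU_of_nsmul_mem`);
* the preimage of the torsion under `unitMap h` (the kernel of `ℤ[∞_L ⊔ TL] → U_TL / torsion`) is
  cyclic with trivial `Γ`-action (`exists_comap_torsU`), and it is saturated;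
* `range (unitMap h) ⊔ torsU` has finite index.

So, `Γ`-equivariantly:   `0 → ℤ·x₁ → ℤ[∞_L ⊔ TL] → U_TL / tors → (finite) → 0`.
-/
import Mathlib
import Fermat.Agent.S56.EC.UnitLattice

set_option autoImplicit false

namespace Fermat.Agent.S56.EC.UnitTorsion

open NumberField IsDedekindDomain WithZero
  Fermat.Agent.CFT.Global.FreePerm
  Fermat.Agent.CFT.Global.UnitsHerbrand Fermat.Agent.CFT.Global.GalPrime
  Fermat.Agent.CFT.Global.TUnitsHerbrand Fermat.Agent.S56.EC.UnitLattice

attribute [local instance] Finsupp.comapDistribMulAction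

set_option linter.unusedSectionVars false
set_option linter.style.haveILetI false

/-! ### A general lemma: subgroups of a permutation lattice on which the degree is injective -/

/-- A `G`-stable subgroup of `ℤ[P]` on which the degree is injective is cyclic, generated by a
`G`-invariant vector. -/
theorem exists_zmultiples_of_deg_injective {G : Type*} [Group G] {P : Type*} [MulAction G P]
    (H : AddSubgroup (P →₀ ℤ)) (hstab : ∀ (τ : G) (y : P →₀ ℤ), y ∈ H → τ • y ∈ H)
    (hinj0 : ∀ y : P →₀ ℤ, y ∈ H → deg P y = 0 → y = 0) :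
    ∃ x₀ : P →₀ ℤ, H = AddSubgroup.zmultiples x₀ ∧ ∀ τ : G, τ • x₀ = x₀ := by
  obtain ⟨n, hn⟩ := Int.subgroup_cyclic (H.map (deg P))
  have hnmem : n ∈ H.map (deg P) := by
    rw [hn]
    exact AddSubgroup.subset_closure (Set.mem_singleton n)
  obtain ⟨x₀, hx₀, hdeg⟩ := hnmem
  have hinj : ∀ y z : P →₀ ℤ, y ∈ H → z ∈ H → deg P y = deg P z → y = z := by
    intro y z hy hz hyz
    have h2 : deg P (y - z) = 0 := by rw [map_sub, hyz, sub_self]
    exact sub_eq_zero.1 (hinj0 _ (H.sub_mem hy hz) h2)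
  refine ⟨x₀, ?_, ?_⟩
  · apply le_antisymm
    · intro y hy
      have h1 : deg P y ∈ H.map (deg P) := ⟨y, hy, rfl⟩
      rw [hn, AddSubgroup.mem_closure_singleton] at h1
      obtain ⟨k, hk⟩ := h1
      have h2 : y = k • x₀ := by
        apply hinj y (k • x₀) hy (H.zsmul_mem hx₀ k)
        rw [map_zsmul, hdeg, hk]
      rw [h2]
      exact AddSubgroup.zsmul_mem_zmultiples x₀ k
    · rw [AddSubgroup.zmultiples_le]
      exact hx₀
  · intro τ
    exact hinj (τ • x₀) x₀ (hstab τ x₀ hx₀) hx₀ (deg_smul τ x₀)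

variable {K L : Type*} [Field K] [Field L] [NumberField L] [Algebra K L]
variable {TL : Set (HeightOneSpectrum (𝓞 L))}

/-! ### The torsion subgroup of the `T`-units -/

/-- The torsion subgroup of `U_TL`. -/
noncomputable def torsU (TL : Set (HeightOneSpectrum (𝓞 L))) : AddSubgroup (Additive (TL.unit L)) :=
  AddCommGroup.torsion (Additive (TL.unit L))

theorem mem_torsU_iff_nsmul (x : Additive (TL.unit L)) :
    x ∈ torsU TL ↔ ∃ n : ℕ, 0 < n ∧ n • x = 0 := by
  unfold torsU
  rw [AddCommGroup.mem_torsion, isOfFinAddOrder_iff_nsmul_eq_zero]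

/-- Saturation: `U_TL / torsion` is torsion-free. -/
theorem mem_torsU_of_nsmul_mem (x : Additive (TL.unit L)) {n : ℕ} (hn : n ≠ 0)
    (hx : n • x ∈ torsU TL) : x ∈ torsU TL := by
  rw [mem_torsU_iff_nsmul] at hx ⊢
  obtain ⟨k, hk, hkx⟩ := hx
  exact ⟨k * n, Nat.mul_pos hk (Nat.pos_of_ne_zero hn), by rw [mul_smul, hkx]⟩

/-- The `p`-torsion of `U_TL` lies in the torsion subgroup. -/
theorem mem_torsU_of_nsmul_eq_zero (x : Additive (TL.unit L)) {n : ℕ} (hn : n ≠ 0)
    (hx : n • x = 0) : x ∈ torsU TL :=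
  (mem_torsU_iff_nsmul x).2 ⟨n, Nat.pos_of_ne_zero hn, hx⟩

/-- The torsion of `U_TL` is the image of the roots of unity of `L`. -/
theorem mem_torsU_iff [Finite TL] (x : Additive (TL.unit L)) :
    x ∈ torsU TL ↔ ∃ u : (𝓞 L)ˣ, u ∈ NumberField.Units.torsion L ∧
      jmap TL (Additive.ofMul u) = x := by
  constructor
  · intro hx
    obtain ⟨n, hn, hnx⟩ := (mem_torsU_iff_nsmul x).1 hx
    have h1 : dmap TL x = 0 := by
      have h2 : n • dmap TL x = 0 := by rw [← map_nsmul, hnx, map_zero]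
      rcases smul_eq_zero.1 h2 with h3 | h3
      · exact absurd h3 (Nat.pos_iff_ne_zero.1 hn)
      · exact h3
    obtain ⟨u, hu⟩ := exists_jmap_eq x h1
    refine ⟨u.toMul, ?_, hu⟩
    have h4 : n • u = 0 := jmap_injective (TL := TL) (by rw [map_nsmul, hu, hnx, map_zero])
    rw [NumberField.Units.torsion, CommGroup.mem_torsion, isOfFinOrder_iff_pow_eq_one]
    exact ⟨n, hn, congrArg Additive.toMul h4⟩
  · rintro ⟨u, hu, rfl⟩
    rw [NumberField.Units.torsion, CommGroup.mem_torsion, isOfFinOrder_iff_pow_eq_one] at hu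
    obtain ⟨n, hn, hnu⟩ := hu
    refine (mem_torsU_iff_nsmul _).2 ⟨n, hn, ?_⟩
    rw [← map_nsmul]
    have : n • Additive.ofMul u = 0 := congrArg Additive.ofMul hnu
    rw [this, map_zero]

/-- The torsion of `U_TL` is finite. -/
theorem finite_torsU [Finite TL] : Finite (torsU TL) := by
  have hfin : ((NumberField.Units.torsion L : Subgroup (𝓞 L)ˣ) : Set (𝓞 L)ˣ).Finite :=
    Set.finite_coe_iff.1 (inferInstanceAs (Finite (NumberField.Units.torsion L)))
  have hsub : ((torsU TL : AddSubgroup (Additive (TL.unit L))) : Set (Additive (TL.unit L))) ⊆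
      (fun u : (𝓞 L)ˣ => jmap TL (Additive.ofMul u)) ''
        ((NumberField.Units.torsion L : Subgroup (𝓞 L)ˣ) : Set (𝓞 L)ˣ) := by
    intro x hx
    obtain ⟨u, hu, rfl⟩ := (mem_torsU_iff x).1 hx
    exact ⟨u, hu, rfl⟩
  exact Set.finite_coe_iff.2 ((hfin.image _).subset hsub)

/-- The torsion of `U_TL` is `Γ`-stable. -/
theorem smul_mem_torsU (h : GalStable K L TL) (τ : L ≃ₐ[K] L) (x : Additive (TL.unit L))
    (hx : x ∈ torsU TL) :
    letI := tAct h
    τ • x ∈ torsU TL := by
  letI := tAct h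
  obtain ⟨n, hn, hnx⟩ := (mem_torsU_iff_nsmul x).1 hx
  refine (mem_torsU_iff_nsmul _).2 ⟨n, hn, ?_⟩
  rw [← smul_comm τ n x, hnx, smul_zero]

/-! ### The saturated kernel -/

section Sat

variable [FiniteDimensional K L]

/-- The preimage of the torsion under the unit lattice map: the kernel of
`ℤ[∞_L ⊔ TL] → U_TL / torsion`. -/
noncomputable def satKer (h : GalStable K L TL) : AddSubgroup ((InfinitePlace L ⊕ TL) →₀ ℤ) :=
  (torsU TL).comap (unitMap h)

theorem mem_satKer (h : GalStable K L TL) (y : (InfinitePlace L ⊕ TL) →₀ ℤ) :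
    y ∈ satKer h ↔ unitMap h y ∈ torsU TL := Iff.rfl

theorem ker_le_satKer (h : GalStable K L TL) : (unitMap h).ker ≤ satKer h := by
  intro y hy
  rw [mem_satKer, AddMonoidHom.mem_ker.1 hy]
  exact (torsU TL).zero_mem

/-- `satKer` is saturated. -/
theorem mem_satKer_of_nsmul_mem (h : GalStable K L TL) (y : (InfinitePlace L ⊕ TL) →₀ ℤ) {n : ℕ}
    (hn : n ≠ 0) (hy : n • y ∈ satKer h) : y ∈ satKer h := by
  rw [mem_satKer] at hy ⊢
  rw [map_nsmul] at hy
  exact mem_torsU_of_nsmul_mem _ hn hy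

theorem smul_mem_satKer (h : GalStable K L TL) (τ : L ≃ₐ[K] L)
    (y : (InfinitePlace L ⊕ TL) →₀ ℤ) (hy : y ∈ satKer h) :
    letI := plAct h
    τ • y ∈ satKer h := by
  letI := plAct h
  letI := tAct h
  rw [mem_satKer] at hy ⊢
  rw [unitMap_smul]
  exact smul_mem_torsU h τ _ hy

/-- On `satKer` the degree is injective. -/
theorem eq_zero_of_mem_satKer [Fintype TL] (h : GalStable K L TL)
    (y : (InfinitePlace L ⊕ TL) →₀ ℤ) (hy : y ∈ satKer h)
    (hdeg : deg (InfinitePlace L ⊕ TL) y = 0) : y = 0 := by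
  obtain ⟨n, hn, hny⟩ := (mem_torsU_iff_nsmul _).1 ((mem_satKer h y).1 hy)
  have h1 : phi h (mm K L) (n • y) = 0 := by
    rw [map_nsmul]
    exact hny
  have h2 : deg (InfinitePlace L ⊕ TL) (n • y) = 0 := by rw [map_nsmul, hdeg, smul_zero]
  have h3 := eq_zero_of_phi_eq_zero h (mm K L) mm_spec (n • y) h1 h2
  rcases smul_eq_zero.1 h3 with h4 | h4
  · exact absurd h4 (Nat.pos_iff_ne_zero.1 hn)
  · exact h4

/-- **The saturated kernel** of `ℤ[∞_L ⊔ TL] → U_TL / torsion` is cyclic with trivial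
`Γ`-action. -/
theorem exists_satKer [Fintype TL] (h : GalStable K L TL) :
    letI := plAct h
    ∃ x₁ : (InfinitePlace L ⊕ TL) →₀ ℤ, satKer h = AddSubgroup.zmultiples x₁ ∧
      ∀ τ : L ≃ₐ[K] L, τ • x₁ = x₁ := by
  letI := plAct h
  exact exists_zmultiples_of_deg_injective (satKer h) (smul_mem_satKer h)
    (eq_zero_of_mem_satKer h)

/-- **Finite cokernel** modulo torsion. -/
theorem finiteIndex_range_sup_torsU [Fintype TL] (h : GalStable K L TL) :
    ((unitMap h).range ⊔ torsU TL).FiniteIndex := by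
  haveI := finiteIndex_range_unitMap h
  exact AddSubgroup.finiteIndex_of_le (le_sup_left : (unitMap h).range ≤ _)

end Sat

end Fermat.Agent.S56.EC.UnitTorsion
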