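/-
S56, brick EC.2 (helper287), exit file: **"enough units" in e-rank form**.

`L` a number field, `K` a field with `[Algebra K L] [FiniteDimensional K L]`, `Γ := L ≃ₐ[K] L`,
`TL` a finite `Γ`-stable set of primes of `L`, `U := Additive (TL.unit L)` the `TL`-units.
For `F_p`-representations `ρ_U ≅ U / p`, `ρ_T ≅ U[p]` (`= μ_p(L)`), `ρ_L ≅ F_p[∞_L ⊔ TL]`
(incarnations through equivariant additive maps) and EVERY idempotent matrix `e` over `F_p[Γ]`:

    `rk_e (U / p) + rk_e (F_p) = rk_e (U[p]) + rk_e (F_p[∞_L ⊔ TL])`,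

`rk_e ρ := finrank (range (opE ρ e))`, `(opE ρ e v) i = ∑ j, ρ.asAlgebraHom (e i j) (v j)`.

Proof: the `Γ`-equivariant sequence `0 → ℤ·x₁ → ℤ[∞_L ⊔ TL] → U / tors → finite → 0` of
`UnitLattice` / `UnitTorsion`, an integral lift `E` of `e`, and the abstract count
`UnitRankCore.card_range_unit_eq` (on helper185's `ProjRank`).
-/
import Mathlib
import Fermat.Agent.S56.EC.UnitTorsion
import Fermat.Agent.S56.EC.UnitRankCore
import Fermat.Agent.S56.EC.UnitBridge
import Fermat.Agent.S56.EC.SteinbergInd.Defs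

set_option autoImplicit false

namespace Fermat.Agent.S56.EC.UnitRank

open NumberField IsDedekindDomain
  Fermat.Agent.CFT.Global.FreePerm
  Fermat.Agent.CFT.Global.UnitsHerbrand Fermat.Agent.CFT.Global.GalPrime
  Fermat.Agent.CFT.Global.TUnitsHerbrand Fermat.Agent.S56.EC.UnitLattice
  Fermat.Agent.S56.EC.UnitTorsion Fermat.Agent.S56.EC.UnitRankCore
  Fermat.Agent.S56.EC.UnitBridge

attribute [local instance] Finsupp.comapDistribMulAction

set_option linter.unusedSectionVars false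
set_option linter.style.haveILetI false

/-! ### Generic lemmas on finite powers -/

section Pi

variable {A B : Type*} [AddCommGroup A] [AddCommGroup B] {n : ℕ}

theorem mem_torsion_pi (v : Fin n → A) :
    v ∈ AddCommGroup.torsion (Fin n → A) ↔ ∀ i, v i ∈ AddCommGroup.torsion A := by
  simp only [AddCommGroup.mem_torsion, isOfFinAddOrder_iff_nsmul_eq_zero]
  constructor
  · rintro ⟨m, hm, h⟩ i
    exact ⟨m, hm, congrFun h i⟩
  · intro h
    choose m hm hmv using h
    refine ⟨∏ i, m i, Finset.prod_pos (fun i _ => hm i), ?_⟩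
    funext i
    obtain ⟨c, hc⟩ := Finset.dvd_prod_of_mem m (Finset.mem_univ i)
    rw [Pi.smul_apply, hc, mul_comm, mul_smul, hmv, smul_zero]
    rfl

theorem finite_torsion_pi (h : Finite (AddCommGroup.torsion A)) :
    Finite (AddCommGroup.torsion (Fin n → A)) := by
  let f : AddCommGroup.torsion (Fin n → A) → (Fin n → AddCommGroup.torsion A) :=
    fun v i => ⟨v.1 i, (mem_torsion_pi v.1).1 v.2 i⟩
  have hf : Function.Injective f := by
    intro v w hvw
    apply Subtype.ext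
    funext i
    exact congrArg Subtype.val (congrFun hvw i)
  exact Finite.of_injective f hf

theorem index_pi_ne_zero (H : AddSubgroup A) (hH : H.index ≠ 0) :
    (AddSubgroup.pi Set.univ (fun _ : Fin n => H)).index ≠ 0 := by
  haveI : H.FiniteIndex := ⟨hH⟩
  let q : (Fin n → A) →+ (Fin n → A ⧸ H) := (QuotientAddGroup.mk' H).compLeft (Fin n)
  have hker : q.ker = AddSubgroup.pi Set.univ (fun _ : Fin n => H) := by
    ext v
    rw [AddMonoidHom.mem_ker, AddSubgroup.mem_pi]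
    constructor
    · intro hv i _
      have := congrFun hv i
      exact (QuotientAddGroup.eq_zero_iff _).1 this
    · intro hv
      funext i
      exact (QuotientAddGroup.eq_zero_iff _).2 (hv i (Set.mem_univ i))
  rw [← hker, AddSubgroup.index_ker]
  exact Nat.card_pos.ne'

theorem index_range_sup_torsion_pi (f : A →+ B)
    (h : (f.range ⊔ AddCommGroup.torsion B).index ≠ 0) :
    ((f.compLeft (Fin n)).range ⊔ AddCommGroup.torsion (Fin n → B)).index ≠ 0 := by
  have hle : AddSubgroup.pi Set.univ (fun _ : Fin n => f.range ⊔ AddCommGroup.torsion B) ≤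
      (f.compLeft (Fin n)).range ⊔ AddCommGroup.torsion (Fin n → B) := by
    intro v hv
    rw [AddSubgroup.mem_pi] at hv
    have h2 : ∀ i, ∃ a : A, ∃ t ∈ AddCommGroup.torsion B, f a + t = v i := by
      intro i
      obtain ⟨y, ⟨a, rfl⟩, t, ht, hyt⟩ := AddSubgroup.mem_sup.1 (hv i (Set.mem_univ i))
      exact ⟨a, t, ht, hyt⟩
    choose a t ht hat using h2
    rw [AddSubgroup.mem_sup]
    refine ⟨fun i => f (a i), ⟨a, rfl⟩, t, (mem_torsion_pi t).2 ht, ?_⟩
    funext i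
    exact hat i
  intro h0
  have hdvd := AddSubgroup.index_dvd_of_le hle
  rw [h0] at hdvd
  exact index_pi_ne_zero _ h (Nat.eq_zero_of_zero_dvd hdvd)

theorem compLeft_eq_zero_iff (p : ℕ) (b : A →+ B) (hk : ∀ x : A, b x = 0 ↔ ∃ y, p • y = x)
    (v : Fin n → A) : (b.compLeft (Fin n)) v = 0 ↔ ∃ y, p • y = v := by
  constructor
  · intro hv
    have h2 : ∀ i, ∃ y, p • y = v i := fun i => (hk (v i)).1 (congrFun hv i)
    choose y hy using h2
    exact ⟨y, funext hy⟩
  · rintro ⟨y, rfl⟩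
    funext i
    exact (hk _).2 ⟨y i, rfl⟩

theorem nsmul_eq_zero_iff_compLeft (p : ℕ) (ι : B →+ A) (hιr : ∀ x : A, p • x = 0 ↔ ∃ w, ι w = x)
    (v : Fin n → A) : p • v = 0 ↔ ∃ w, (ι.compLeft (Fin n)) w = v := by
  constructor
  · intro hv
    have h2 : ∀ i, ∃ w, ι w = v i := fun i => (hιr (v i)).1 (congrFun hv i)
    choose w hw using h2
    exact ⟨w, funext hw⟩
  · rintro ⟨w, rfl⟩
    funext i
    exact (hιr _).2 ⟨w i, rfl⟩

end Pi

/-! ### The integral representation of a distributive action -/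

section IntRep

variable {Γ : Type*} [Group Γ]

/-- The integral representation attached to an action by additive automorphisms. -/
noncomputable def intRep (A : Type*) [AddCommGroup A] [DistribMulAction Γ A] :
    Representation ℤ Γ A where
  toFun g := (DistribSMul.toAddMonoidHom A g).toIntLinearMap
  map_one' := by
    ext a
    simp
  map_mul' g g' := by
    ext a
    simp [mul_smul]

theorem intRep_apply (A : Type*) [AddCommGroup A] [DistribMulAction Γ A] (g : Γ) (a : A) :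
    intRep A g a = g • a := rfl

end IntRep

variable {K L : Type*} [Field K] [Field L] [NumberField L] [Algebra K L] [FiniteDimensional K L]
variable {TL : Set (HeightOneSpectrum (𝓞 L))}

/-! ### The saturated kernel is not zero -/

theorem exists_psi_eq_zero (m : ℕ) :
    ∃ y : InfinitePlace L →₀ ℤ, y ≠ 0 ∧ psi K L m y = 0 := by
  classical
  by_contra hcon
  have hinj : Function.Injective (psi K L m).toIntLinearMap := by
    rw [injective_iff_map_eq_zero]
    intro y hy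
    by_contra h0
    exact hcon ⟨y, h0, hy⟩
  have h1 := LinearMap.finrank_le_finrank_of_injective hinj
  rw [Module.finrank_finsupp_self, NumberField.Units.finrank_eq, NumberField.Units.rank] at h1
  have : 0 < Fintype.card (InfinitePlace L) := Fintype.card_pos
  omega

theorem exists_satKer_ne_zero [Fintype TL] (h : GalStable K L TL) :
    letI := plAct h
    ∃ x₁ : (InfinitePlace L ⊕ TL) →₀ ℤ, x₁ ≠ 0 ∧ satKer h = AddSubgroup.zmultiples x₁ ∧
      ∀ τ : L ≃ₐ[K] L, τ • x₁ = x₁ := by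
  letI := plAct h
  obtain ⟨x₁, hx₁, hfix⟩ := exists_satKer h
  refine ⟨x₁, ?_, hx₁, hfix⟩
  rintro rfl
  obtain ⟨y, hy0, hy⟩ := exists_psi_eq_zero (K := K) (L := L) (mm K L)
  have hmem : Finsupp.mapDomain Sum.inl y ∈ satKer h := by
    apply ker_le_satKer h
    rw [AddMonoidHom.mem_ker]
    show phi h (mm K L) (Finsupp.mapDomain Sum.inl y) = 0
    rw [phi_mapDomain_inl, hy, map_zero]
  rw [hx₁, AddSubgroup.zmultiples_zero_eq_bot, AddSubgroup.mem_bot] at hmem
  apply hy0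
  apply Finsupp.mapDomain_injective Sum.inl_injective
  rw [hmem, Finsupp.mapDomain_zero]

/-! ### The permutation of `∞_L ⊔ TL` -/

/-- The permutation of `∞_L ⊔ TL` induced by `τ` (explicit form of `plAct h`). -/
noncomputable def plMap (h : GalStable K L TL) (τ : L ≃ₐ[K] L) :
    InfinitePlace L ⊕ TL → InfinitePlace L ⊕ TL :=
  Sum.map (fun w => τ • w) (fun v => ⟨galPrime τ v.1, h τ v.1 v.2⟩)

theorem smul_eq_mapDomain (h : GalStable K L TL) (τ : L ≃ₐ[K] L)
    (y : (InfinitePlace L ⊕ TL) →₀ ℤ) :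
    letI := plAct h
    τ • y = Finsupp.mapDomain (plMap h τ) y := by
  letI := plAct h
  rw [Finsupp.comapSMul_def]
  congr 1

/-! ### Finiteness of `F_p[∞_L ⊔ TL]` -/

theorem finite_of_surjective_finsupp {P V : Type*} [Finite P] [AddCommGroup V] (p : ℕ)
    [Fact p.Prime] (b : (P →₀ ℤ) →+ V) (hb : Function.Surjective b)
    (hk : ∀ y : P →₀ ℤ, b y = 0 ↔ ∃ z, p • z = y) : Finite V := by
  classical
  haveI := Fintype.ofFinite P
  have hp : p.Prime := Fact.out
  haveI : NeZero p := ⟨hp.ne_zero⟩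
  let d : (P → ZMod p) → V := fun f =>
    b (Finsupp.equivFunOnFinite.symm (fun x => ((f x).val : ℤ)))
  have hd : Function.Surjective d := by
    intro w
    obtain ⟨y, rfl⟩ := hb w
    refine ⟨fun x => ((y x : ℤ) : ZMod p), ?_⟩
    show b (Finsupp.equivFunOnFinite.symm (fun x => ((((y x : ℤ) : ZMod p)).val : ℤ))) = b y
    rw [← sub_eq_zero, ← map_sub, hk]
    have hdvd : ∀ x, (p : ℤ) ∣ ((((y x : ℤ) : ZMod p)).val : ℤ) - y x := by
      intro x
      rw [← ZMod.intCast_zmod_eq_zero_iff_dvd]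
      simp
    refine ⟨Finsupp.equivFunOnFinite.symm
      (fun x => (((((y x : ℤ) : ZMod p)).val : ℤ) - y x) / (p : ℤ)), ?_⟩
    ext x
    rw [Finsupp.smul_apply, Finsupp.coe_equivFunOnFinite_symm, Finsupp.sub_apply,
      Finsupp.coe_equivFunOnFinite_symm, nsmul_eq_mul]
    exact Int.mul_ediv_cancel' (hdvd x)
  exact Finite.of_surjective d hd

/-! ### The count -/

section Main

variable [Fintype TL] (h : GalStable K L TL) (p : ℕ) [Fact p.Prime]
  {V_U V_T V_L : Type*} [AddCommGroup V_U] [Module (ZMod p) V_U] [AddCommGroup V_T]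
  [Module (ZMod p) V_T] [AddCommGroup V_L] [Module (ZMod p) V_L]
  (ρ_U : Representation (ZMod p) (L ≃ₐ[K] L) V_U) (ρ_T : Representation (ZMod p) (L ≃ₐ[K] L) V_T)
  (ρ_L : Representation (ZMod p) (L ≃ₐ[K] L) V_L)

/-- **Enough units, cardinal form**: for every idempotent `e`,
`|e (U/p)ⁿ| · |e F_pⁿ| = |e (U[p])ⁿ| · |e F_p[∞_L ⊔ TL]ⁿ|`. -/
theorem card_units
    (b_U : Additive (TL.unit L) →+ V_U) (hb_U : Function.Surjective b_U)
    (hk_U : ∀ x : Additive (TL.unit L), b_U x = 0 ↔ ∃ y, p • y = x)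
    (he_U : ∀ (τ : L ≃ₐ[K] L) (x : Additive (TL.unit L)),
      b_U (Additive.ofMul (galTU h τ x.toMul)) = ρ_U τ (b_U x))
    (ι : V_T →+ Additive (TL.unit L)) (hι : Function.Injective ι)
    (hιr : ∀ x : Additive (TL.unit L), p • x = 0 ↔ ∃ v, ι v = x)
    (he_T : ∀ (τ : L ≃ₐ[K] L) (v : V_T), ι (ρ_T τ v) = Additive.ofMul (galTU h τ (ι v).toMul))
    (b_L : ((InfinitePlace L ⊕ TL) →₀ ℤ) →+ V_L) (hb_L : Function.Surjective b_L)
    (hk_L : ∀ y : (InfinitePlace L ⊕ TL) →₀ ℤ, b_L y = 0 ↔ ∃ z, p • z = y)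
    (he_L : ∀ (τ : L ≃ₐ[K] L) (y : (InfinitePlace L ⊕ TL) →₀ ℤ),
      b_L (Finsupp.mapDomain (plMap h τ) y) = ρ_L τ (b_L y))
    {n : ℕ} (e : Matrix (Fin n) (Fin n) (MonoidAlgebra (ZMod p) (L ≃ₐ[K] L))) (he : e * e = e) :
    Nat.card (opE ρ_U e).toAddMonoidHom.range *
        Nat.card (opE (Representation.trivial (ZMod p) (L ≃ₐ[K] L) (ZMod p)) e).toAddMonoidHom.range =
      Nat.card (opE ρ_T e).toAddMonoidHom.range * Nat.card (opE ρ_L e).toAddMonoidHom.range := by
  classical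
  letI := tAct h
  letI := plAct h
  have hp : p.Prime := Fact.out
  -- integral lift of `e`
  obtain ⟨E, hE⟩ := exists_lift p e
  obtain ⟨d, hd⟩ := exists_nsmul_of_idem p E (by rw [hE]; exact he)
  -- the generator of the saturated kernel
  obtain ⟨x₁, hx₁0, hsat, hfix⟩ := exists_satKer_ne_zero h
  -- integral representations
  let ρLZ : Representation ℤ (L ≃ₐ[K] L) ((InfinitePlace L ⊕ TL) →₀ ℤ) := intRep _
  let ρUZ : Representation ℤ (L ≃ₐ[K] L) (Additive (TL.unit L)) := intRep _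
  let ρZ : Representation ℤ (L ≃ₐ[K] L) ℤ := Representation.trivial ℤ (L ≃ₐ[K] L) ℤ
  -- finiteness
  haveI : Finite V_L := finite_of_surjective_finsupp p b_L hb_L hk_L
  -- operators
  have hop : ∀ {A : Type _} [AddCommGroup A] (ρ : Representation ℤ (L ≃ₐ[K] L) A)
      (v : Fin n → A),
      (opE ρ E).toAddMonoidHom ((opE ρ E).toAddMonoidHom v) - (opE ρ E).toAddMonoidHom v =
        p • (opE ρ d).toAddMonoidHom v := by
    intro A _ ρ v
    show opE ρ E (opE ρ E v) - opE ρ E v = p • opE ρ d v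
    rw [← opE_mul, ← opE_sub, hd, opE_nsmul]
  -- equivariance statements in `intRep` form
  have hφeq : ∀ (g : L ≃ₐ[K] L) (y : (InfinitePlace L ⊕ TL) →₀ ℤ),
      unitMap h (ρLZ g y) = ρUZ g (unitMap h y) := fun g y => unitMap_smul h g y
  have hbUeq : ∀ (g : L ≃ₐ[K] L) (x : Additive (TL.unit L)), b_U (ρUZ g x) = ρ_U g (b_U x) :=
    fun g x => he_U g x
  have hιeq : ∀ (g : L ≃ₐ[K] L) (v : V_T), ι (ρ_T g v) = ρUZ g (ι v) := fun g v => he_T g v
  have hbLeq : ∀ (g : L ≃ₐ[K] L) (y : (InfinitePlace L ⊕ TL) →₀ ℤ),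
      b_L (ρLZ g y) = ρ_L g (b_L y) := by
    intro g y
    have h1 : ρLZ g y = Finsupp.mapDomain (plMap h g) y := smul_eq_mapDomain h g y
    rw [h1]
    exact he_L g y
  -- the map `ℤ → ℤ[∞ ⊔ TL]`, `c ↦ c • x₁`
  let j₀ : ℤ →+ ((InfinitePlace L ⊕ TL) →₀ ℤ) := zmultiplesHom _ x₁
  have hj₀ : ∀ c : ℤ, j₀ c = c • x₁ := fun c => rfl
  have hj₀eq : ∀ (g : L ≃ₐ[K] L) (c : ℤ), j₀ (ρZ g c) = ρLZ g (j₀ c) := by
    intro g c
    show j₀ c = g • j₀ c
    rw [hj₀, smul_comm g c x₁, hfix]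
  have hj₀inj : Function.Injective j₀ := by
    rw [injective_iff_map_eq_zero]
    intro c hc
    rw [hj₀] at hc
    rcases smul_eq_zero.1 hc with h1 | h1
    · exact h1
    · exact absurd h1 hx₁0
  -- the reduction `ℤ → ZMod p`
  let b₀ : ℤ →+ ZMod p := Int.castAddHom (ZMod p)
  have hb₀eq : ∀ (g : L ≃ₐ[K] L) (c : ℤ),
      b₀ (ρZ g c) = Representation.trivial (ZMod p) (L ≃ₐ[K] L) (ZMod p) g (b₀ c) :=
    fun g c => rfl
  have hb₀k : ∀ c : ℤ, b₀ c = 0 ↔ ∃ y : ℤ, p • y = c := by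
    intro c
    show ((c : ℤ) : ZMod p) = 0 ↔ _
    rw [ZMod.intCast_zmod_eq_zero_iff_dvd]
    constructor
    · rintro ⟨y, rfl⟩
      exact ⟨y, by rw [nsmul_eq_mul]⟩
    · rintro ⟨y, rfl⟩
      exact ⟨y, by rw [nsmul_eq_mul]⟩
  -- apply the abstract count
  have key := card_range_unit_eq (L := Fin n → ((InfinitePlace L ⊕ TL) →₀ ℤ))
    (U := Fin n → Additive (TL.unit L)) (Z₀ := Fin n → ℤ) (N_L := Fin n → V_L)
    (N_U := Fin n → V_U) (N_T := Fin n → V_T) (N_Z := Fin n → ZMod p) p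
    ((unitMap h).compLeft (Fin n))
    (finite_torsion_pi (finite_torsU (TL := TL)))
    (index_range_sup_torsion_pi (unitMap h) (finiteIndex_range_sup_torsU h).index_ne_zero)
    (opE ρLZ E).toAddMonoidHom (opE ρLZ d).toAddMonoidHom (hop ρLZ)
    (opE ρUZ E).toAddMonoidHom (opE ρUZ d).toAddMonoidHom (hop ρUZ)
    (fun v => opE_natural ρLZ ρUZ (unitMap h) hφeq E v)
    (b_L.compLeft (Fin n)) (hb_L.comp_left) (compLeft_eq_zero_iff p b_L hk_L)
    (opE ρ_L e).toAddMonoidHom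
    (fun v => by
      have := opE_red p ρLZ ρ_L b_L hbLeq E v
      rw [hE] at this
      exact this)
    (b_U.compLeft (Fin n)) (hb_U.comp_left) (compLeft_eq_zero_iff p b_U hk_U)
    (opE ρ_U e).toAddMonoidHom
    (fun v => by
      have := opE_red p ρUZ ρ_U b_U hbUeq E v
      rw [hE] at this
      exact this)
    (ι.compLeft (Fin n)) (hι.comp_left) (nsmul_eq_zero_iff_compLeft p ι hιr)
    (opE ρ_T e).toAddMonoidHom
    (fun v => by
      have := opE_red' p ρUZ ρ_T ι hιeq E v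
      rw [hE] at this
      exact this)
    (j₀.compLeft (Fin n)) (hj₀inj.comp_left)
    (fun y => by
      rw [mem_torsion_pi]
      constructor
      · intro hy
        have h2 : ∀ i, ∃ c : ℤ, j₀ c = y i := by
          intro i
          have h3 : y i ∈ satKer h := hy i
          rw [hsat, AddSubgroup.mem_zmultiples_iff] at h3
          exact h3
        choose c hc using h2
        exact ⟨c, funext hc⟩
      · rintro ⟨c, rfl⟩ i
        have h3 : j₀ (c i) ∈ satKer h := by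
          rw [hsat, AddSubgroup.mem_zmultiples_iff]
          exact ⟨c i, rfl⟩
        exact h3)
    (opE ρZ E).toAddMonoidHom
    (fun z => opE_natural ρZ ρLZ j₀ hj₀eq E z)
    (b₀.compLeft (Fin n)) (Function.Surjective.comp_left (ZMod.intCast_surjective))
    (compLeft_eq_zero_iff p b₀ hb₀k)
    (opE (Representation.trivial (ZMod p) (L ≃ₐ[K] L) (ZMod p)) e).toAddMonoidHom
    (fun z => by
      have := opE_red p ρZ (Representation.trivial (ZMod p) (L ≃ₐ[K] L) (ZMod p)) b₀ hb₀eq E z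
      rw [hE] at this
      exact this)
  exact key

/-- `U[p]` is finite. -/
theorem finite_VT (ι : V_T →+ Additive (TL.unit L)) (hι : Function.Injective ι)
    (hιr : ∀ x : Additive (TL.unit L), p • x = 0 ↔ ∃ v, ι v = x) : Finite V_T := by
  have hp : p.Prime := Fact.out
  haveI := finite_torsU (TL := TL)
  let f : V_T → torsU TL := fun v =>
    ⟨ι v, mem_torsU_of_nsmul_eq_zero _ hp.ne_zero ((hιr _).2 ⟨v, rfl⟩)⟩
  exact Finite.of_injective f (fun a b hab => hι (congrArg Subtype.val hab))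

theorem card_range_opE_one {V : Type*} [AddCommGroup V] [Module (ZMod p) V]
    (ρ : Representation (ZMod p) (L ≃ₐ[K] L) V) (n : ℕ) :
    Nat.card (opE ρ (1 : Matrix (Fin n) (Fin n) (MonoidAlgebra (ZMod p) (L ≃ₐ[K] L)))).toAddMonoidHom.range =
      Nat.card (Fin n → V) := by
  have h1 : (opE ρ (1 : Matrix (Fin n) (Fin n)
      (MonoidAlgebra (ZMod p) (L ≃ₐ[K] L)))).toAddMonoidHom.range = ⊤ :=
    AddMonoidHom.range_eq_top.2 (fun v => ⟨v, opE_one ρ v⟩)
  rw [h1, AddSubgroup.card_top]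

/-- `U / p` is finite. -/
theorem finite_VU
    (b_U : Additive (TL.unit L) →+ V_U) (hb_U : Function.Surjective b_U)
    (hk_U : ∀ x : Additive (TL.unit L), b_U x = 0 ↔ ∃ y, p • y = x)
    (he_U : ∀ (τ : L ≃ₐ[K] L) (x : Additive (TL.unit L)),
      b_U (Additive.ofMul (galTU h τ x.toMul)) = ρ_U τ (b_U x))
    (ι : V_T →+ Additive (TL.unit L)) (hι : Function.Injective ι)
    (hιr : ∀ x : Additive (TL.unit L), p • x = 0 ↔ ∃ v, ι v = x)
    (he_T : ∀ (τ : L ≃ₐ[K] L) (v : V_T), ι (ρ_T τ v) = Additive.ofMul (galTU h τ (ι v).toMul))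
    (b_L : ((InfinitePlace L ⊕ TL) →₀ ℤ) →+ V_L) (hb_L : Function.Surjective b_L)
    (hk_L : ∀ y : (InfinitePlace L ⊕ TL) →₀ ℤ, b_L y = 0 ↔ ∃ z, p • z = y)
    (he_L : ∀ (τ : L ≃ₐ[K] L) (y : (InfinitePlace L ⊕ TL) →₀ ℤ),
      b_L (Finsupp.mapDomain (plMap h τ) y) = ρ_L τ (b_L y)) : Finite V_U := by
  haveI : Finite V_L := finite_of_surjective_finsupp p b_L hb_L hk_L
  haveI : Finite V_T := finite_VT p ι hι hιr
  have key := card_units h p ρ_U ρ_T ρ_L b_U hb_U hk_U he_U ι hι hιr he_T b_L hb_L hk_L he_L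
    (1 : Matrix (Fin 1) (Fin 1) (MonoidAlgebra (ZMod p) (L ≃ₐ[K] L))) (one_mul 1)
  rw [card_range_opE_one, card_range_opE_one, card_range_opE_one, card_range_opE_one] at key
  have h1 : Nat.card (Fin 1 → V_U) ≠ 0 := by
    intro h0
    rw [h0, zero_mul] at key
    have h2 : Nat.card (Fin 1 → V_T) * Nat.card (Fin 1 → V_L) ≠ 0 :=
      Nat.mul_ne_zero Nat.card_pos.ne' Nat.card_pos.ne'
    exact h2 key.symm
  haveI : Finite (Fin 1 → V_U) := Nat.finite_of_card_ne_zero h1
  exact Finite.of_equiv _ (Equiv.funUnique (Fin 1) V_U)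

/-- **Enough units, rank form (EU)**: for every idempotent matrix `e` over `F_p[Γ]`,
`rk_e (U/p) + rk_e (F_p) = rk_e (U[p]) + rk_e (F_p[∞_L ⊔ TL])`. -/
theorem finrank_units
    (b_U : Additive (TL.unit L) →+ V_U) (hb_U : Function.Surjective b_U)
    (hk_U : ∀ x : Additive (TL.unit L), b_U x = 0 ↔ ∃ y, p • y = x)
    (he_U : ∀ (τ : L ≃ₐ[K] L) (x : Additive (TL.unit L)),
      b_U (Additive.ofMul (galTU h τ x.toMul)) = ρ_U τ (b_U x))
    (ι : V_T →+ Additive (TL.unit L)) (hι : Function.Injective ι)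
    (hιr : ∀ x : Additive (TL.unit L), p • x = 0 ↔ ∃ v, ι v = x)
    (he_T : ∀ (τ : L ≃ₐ[K] L) (v : V_T), ι (ρ_T τ v) = Additive.ofMul (galTU h τ (ι v).toMul))
    (b_L : ((InfinitePlace L ⊕ TL) →₀ ℤ) →+ V_L) (hb_L : Function.Surjective b_L)
    (hk_L : ∀ y : (InfinitePlace L ⊕ TL) →₀ ℤ, b_L y = 0 ↔ ∃ z, p • z = y)
    (he_L : ∀ (τ : L ≃ₐ[K] L) (y : (InfinitePlace L ⊕ TL) →₀ ℤ),
      b_L (Finsupp.mapDomain (plMap h τ) y) = ρ_L τ (b_L y))
    {n : ℕ} (e : Matrix (Fin n) (Fin n) (MonoidAlgebra (ZMod p) (L ≃ₐ[K] L))) (he : e * e = e) :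
    Module.finrank (ZMod p) (LinearMap.range (opE ρ_U e)) +
        Module.finrank (ZMod p) (LinearMap.range
          (opE (Representation.trivial (ZMod p) (L ≃ₐ[K] L) (ZMod p)) e)) =
      Module.finrank (ZMod p) (LinearMap.range (opE ρ_T e)) +
        Module.finrank (ZMod p) (LinearMap.range (opE ρ_L e)) := by
  have hp : p.Prime := Fact.out
  haveI : NeZero p := ⟨hp.ne_zero⟩
  haveI : Finite V_L := finite_of_surjective_finsupp p b_L hb_L hk_L
  haveI : Finite V_T := finite_VT p ι hι hιr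
  haveI : Finite V_U :=
    finite_VU h p ρ_U ρ_T ρ_L b_U hb_U hk_U he_U ι hι hιr he_T b_L hb_L hk_L he_L
  have key := card_units h p ρ_U ρ_T ρ_L b_U hb_U hk_U he_U ι hι hιr he_T b_L hb_L hk_L he_L e he
  rw [card_range_eq_pow p, card_range_eq_pow p, card_range_eq_pow p, card_range_eq_pow p,
    ← pow_add, ← pow_add] at key
  exact Nat.pow_right_injective hp.two_le key

end Main

/-! ### The same exit in the spelling of `SteinbergInd.opOf` (universe `0`) -/

section OpOf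

theorem opOf_eq_opE {p : ℕ} {Γ V : Type} [Group Γ] [AddCommGroup V] [Module (ZMod p) V]
    (τ : Representation (ZMod p) Γ V) {n : ℕ}
    (e : Matrix (Fin n) (Fin n) (MonoidAlgebra (ZMod p) Γ)) :
    SteinbergInd.opOf τ e = opE τ e := rfl

variable {K : Type*} {L : Type} [Field K] [Field L] [NumberField L] [Algebra K L]
  [FiniteDimensional K L] {TL : Set (HeightOneSpectrum (𝓞 L))} [Fintype TL]
  (h : GalStable K L TL) (p : ℕ) [Fact p.Prime]
  {V_U V_T V_L : Type} [AddCommGroup V_U] [Module (ZMod p) V_U] [AddCommGroup V_T]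
  [Module (ZMod p) V_T] [AddCommGroup V_L] [Module (ZMod p) V_L]
  (ρ_U : Representation (ZMod p) (L ≃ₐ[K] L) V_U) (ρ_T : Representation (ZMod p) (L ≃ₐ[K] L) V_T)
  (ρ_L : Representation (ZMod p) (L ≃ₐ[K] L) V_L)

/-- **Enough units (EU), `SteinbergInd.opOf` spelling**: for every idempotent matrix `e` over
`F_p[Γ]`, `rk_e (U/p) + rk_e (F_p) = rk_e (U[p]) + rk_e (F_p[∞_L ⊔ TL])`. -/
theorem eRank_units
    (b_U : Additive (TL.unit L) →+ V_U) (hb_U : Function.Surjective b_U)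
    (hk_U : ∀ x : Additive (TL.unit L), b_U x = 0 ↔ ∃ y, p • y = x)
    (he_U : ∀ (τ : L ≃ₐ[K] L) (x : Additive (TL.unit L)),
      b_U (Additive.ofMul (galTU h τ x.toMul)) = ρ_U τ (b_U x))
    (ι : V_T →+ Additive (TL.unit L)) (hι : Function.Injective ι)
    (hιr : ∀ x : Additive (TL.unit L), p • x = 0 ↔ ∃ v, ι v = x)
    (he_T : ∀ (τ : L ≃ₐ[K] L) (v : V_T), ι (ρ_T τ v) = Additive.ofMul (galTU h τ (ι v).toMul))
    (b_L : ((InfinitePlace L ⊕ TL) →₀ ℤ) →+ V_L) (hb_L : Function.Surjective b_L)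
    (hk_L : ∀ y : (InfinitePlace L ⊕ TL) →₀ ℤ, b_L y = 0 ↔ ∃ z, p • z = y)
    (he_L : ∀ (τ : L ≃ₐ[K] L) (y : (InfinitePlace L ⊕ TL) →₀ ℤ),
      b_L (Finsupp.mapDomain (plMap h τ) y) = ρ_L τ (b_L y))
    {n : ℕ} (e : Matrix (Fin n) (Fin n) (MonoidAlgebra (ZMod p) (L ≃ₐ[K] L))) (he : e * e = e) :
    Module.finrank (ZMod p) (LinearMap.range (SteinbergInd.opOf ρ_U e)) +
        Module.finrank (ZMod p) (LinearMap.range
          (SteinbergInd.opOf (Representation.trivial (ZMod p) (L ≃ₐ[K] L) (ZMod p)) e)) =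
      Module.finrank (ZMod p) (LinearMap.range (SteinbergInd.opOf ρ_T e)) +
        Module.finrank (ZMod p) (LinearMap.range (SteinbergInd.opOf ρ_L e)) :=
  finrank_units h p ρ_U ρ_T ρ_L b_U hb_U hk_U he_U ι hι hιr he_T b_L hb_L hk_L he_L e he

end OpOf

end Fermat.Agent.S56.EC.UnitRank
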